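/-
P-S56, block (B), leaf (E6a): the group `Δ_S(K, n)` of elements of `Kˣ` whose valuations away
from `S` are divisible by `n`, and its comparison with the `S`-units.

Formalism: the frozen `Lib/CFT/Global/{SUnits, SUnitsClass}` (`ordAt`, `SUnit K S`,
`IsClassGenerating`, `unitsMap σ`, `primeMap σ`, `IsStable σ S`).

* `finite_setOf_ordAt_ne_zero`   : (D0) finiteness of the support of the divisor of `x`;
* `exists_div_pow_mem_sUnit`     : (D1) under class-generating, an element whose valuations off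
  `S` are divisible by `n` is an `S`-unit times an `n`-th power;
* `deltaPre S n`                 : (D2) the subgroup `{x | ∀ v ∉ S, n ∣ ord_v x}` of `Kˣ`;
  `deltaPre_eq_sup` : under class-generating it is `SUnit K S ⊔ (Kˣ)ⁿ`;
* `pow_mem_sUnit_iff`            : (D3) `aⁿ` is an `S`-unit iff `a` is;
* `Delta S n`, `toDelta`, `toDelta_ker`, `toDelta_surjective`, `deltaEquiv` :
  `O_{K,S}ˣ / n ≃* Δ_S(K, n)` under class-generating;
* `deltaPreMap`, `DeltaMap`, `toDelta_sUnitMap` : (D5) equivariance under automorphisms of `K`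
  stabilising `S`.
-/
import Fermat.Agent.Lib.CFT.Global.SUnitsClass
import Mathlib.RingTheory.DedekindDomain.FiniteAdeleRing

set_option autoImplicit false

namespace Fermat.Agent.S56x.Euler.DeltaS

open NumberField IsDedekindDomain Fermat.Agent.Lib.CFT.Global.SUnits

variable {K : Type*} [Field K] [NumberField K]

/-- (D0) A nonzero element has nonzero valuation at only finitely many primes. -/
theorem finite_setOf_ordAt_ne_zero (x : Kˣ) :
    {v : HeightOneSpectrum (𝓞 K) | ordAt v x ≠ 0}.Finite := by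
  have h1 := HeightOneSpectrum.Support.finite (𝓞 K) (x : K)
  have h2 := HeightOneSpectrum.Support.finite (𝓞 K) ((x⁻¹ : Kˣ) : K)
  refine (h1.union h2).subset ?_
  intro v hv
  rw [Set.mem_ofPred_eq] at hv
  by_contra hnot
  simp only [Set.mem_union, HeightOneSpectrum.Support, Set.mem_ofPred_eq, not_or, not_lt] at hnot
  apply hv
  have h3 := (valuation_le_one_iff_ordAt v x).mp hnot.1
  have h4 := (valuation_le_one_iff_ordAt v x⁻¹).mp hnot.2
  rw [ordAt_inv] at h4
  omega

/-- (D1) If `S` is class-generating and the valuations of `x` away from `S` are all divisible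
by `n`, then `x` is an `S`-unit times an `n`-th power. -/
theorem exists_div_pow_mem_sUnit {S : Finset (HeightOneSpectrum (𝓞 K))}
    (hS : IsClassGenerating S) (n : ℕ) (x : Kˣ)
    (hx : ∀ v, v ∉ S → (n : ℤ) ∣ ordAt v x) :
    ∃ a : Kˣ, x / a ^ n ∈ SUnit K S := by
  classical
  let f : HeightOneSpectrum (𝓞 K) →₀ ℤ :=
    Finsupp.ofSupportFinite (fun v => ordAt v x / n) (by
      refine (finite_setOf_ordAt_ne_zero x).subset ?_
      intro v hv
      simp only [Function.mem_support, ne_eq] at hv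
      intro h0
      apply hv
      rw [h0]
      simp)
  obtain ⟨a, ha⟩ := hS f
  refine ⟨a, mem_sUnit_iff.mpr fun v hv => ?_⟩
  have hf : f v = ordAt v x / n := rfl
  rw [div_eq_mul_inv, ordAt_mul, ordAt_inv, ordAt_pow, ha v hv, hf,
    Int.mul_ediv_cancel' (hx v hv)]
  ring

/-- (D2) The subgroup of `Kˣ` of elements whose valuations away from `S` are divisible by `n`
(the preimage of `Δ_S(K, n)` in `Kˣ`). -/
def deltaPre (S : Finset (HeightOneSpectrum (𝓞 K))) (n : ℕ) : Subgroup Kˣ where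
  carrier := {x | ∀ v, v ∉ S → (n : ℤ) ∣ ordAt v x}
  one_mem' := fun v _ => by simp
  mul_mem' := fun hx hy v hv => by
    rw [ordAt_mul]
    exact dvd_add (hx v hv) (hy v hv)
  inv_mem' := fun hx v hv => by
    rw [ordAt_inv]
    exact (dvd_neg).mpr (hx v hv)

theorem mem_deltaPre_iff {S : Finset (HeightOneSpectrum (𝓞 K))} {n : ℕ} {x : Kˣ} :
    x ∈ deltaPre S n ↔ ∀ v, v ∉ S → (n : ℤ) ∣ ordAt v x := Iff.rfl

theorem sUnit_le_deltaPre (S : Finset (HeightOneSpectrum (𝓞 K))) (n : ℕ) :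
    SUnit K S ≤ deltaPre S n := by
  intro x hx v hv
  rw [mem_sUnit_iff.mp hx v hv]
  exact dvd_zero _

theorem pow_mem_deltaPre (S : Finset (HeightOneSpectrum (𝓞 K))) (n : ℕ) (a : Kˣ) :
    a ^ n ∈ deltaPre S n := by
  intro v _
  rw [ordAt_pow]
  exact dvd_mul_right _ _

theorem range_pow_le_deltaPre (S : Finset (HeightOneSpectrum (𝓞 K))) (n : ℕ) :
    (powMonoidHom n : Kˣ →* Kˣ).range ≤ deltaPre S n := by
  rintro _ ⟨a, rfl⟩
  exact pow_mem_deltaPre S n a

theorem deltaPre_mono {S S' : Finset (HeightOneSpectrum (𝓞 K))} (h : S ⊆ S') (n : ℕ) :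
    deltaPre S n ≤ deltaPre S' n :=
  fun _ hx v hv => hx v (fun hv' => hv (h hv'))

/-- Under class-generating, `Δ`'s preimage is generated by the `S`-units and the `n`-th powers. -/
theorem deltaPre_eq_sup {S : Finset (HeightOneSpectrum (𝓞 K))} (hS : IsClassGenerating S)
    (n : ℕ) : deltaPre S n = SUnit K S ⊔ (powMonoidHom n : Kˣ →* Kˣ).range := by
  apply le_antisymm
  · intro x hx
    obtain ⟨a, ha⟩ := exists_div_pow_mem_sUnit hS n x hx
    have : x = x / a ^ n * a ^ n := by rw [div_mul_cancel]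
    rw [this]
    exact Subgroup.mul_mem_sup ha ⟨a, rfl⟩
  · exact sup_le (sUnit_le_deltaPre S n) (range_pow_le_deltaPre S n)

/-- (D3) `aⁿ` is an `S`-unit iff `a` is (`n ≠ 0`). -/
theorem pow_mem_sUnit_iff {S : Finset (HeightOneSpectrum (𝓞 K))} {n : ℕ} (hn : n ≠ 0) (a : Kˣ) :
    a ^ n ∈ SUnit K S ↔ a ∈ SUnit K S := by
  rw [mem_sUnit_iff, mem_sUnit_iff]
  refine forall_congr' fun v => forall_congr' fun _ => ?_
  rw [ordAt_pow]
  constructor
  · intro h
    rcases mul_eq_zero.mp h with h | h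
    · exact absurd (by exact_mod_cast h) hn
    · exact h
  · intro h
    rw [h, mul_zero]

/-- The `S`-units which are `n`-th powers in `Kˣ` are the `n`-th powers of `S`-units. -/
theorem sUnit_inf_range_pow {S : Finset (HeightOneSpectrum (𝓞 K))} {n : ℕ} (hn : n ≠ 0)
    (u : SUnit K S) :
    (u : Kˣ) ∈ (powMonoidHom n : Kˣ →* Kˣ).range ↔
      u ∈ (powMonoidHom n : SUnit K S →* SUnit K S).range := by
  constructor
  · rintro ⟨a, ha⟩
    have ha' : a ^ n = (u : Kˣ) := ha
    have hmem : a ∈ SUnit K S := (pow_mem_sUnit_iff hn a).mp (ha' ▸ u.2)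
    exact ⟨⟨a, hmem⟩, Subtype.ext ha'⟩
  · rintro ⟨a, rfl⟩
    exact ⟨(a : Kˣ), rfl⟩

/-! ### The quotient `Δ_S(K, n)` and the comparison with `O_{K,S}ˣ / n` -/

/-- `Δ_S(K, n) = {x ∈ Kˣ | ∀ v ∉ S, n ∣ ord_v x} / (Kˣ)ⁿ`. -/
abbrev Delta (S : Finset (HeightOneSpectrum (𝓞 K))) (n : ℕ) : Type _ :=
  deltaPre S n ⧸ ((powMonoidHom n : Kˣ →* Kˣ).range.subgroupOf (deltaPre S n))

/-- The natural map `O_{K,S}ˣ → Δ_S(K, n)`. -/
noncomputable def toDelta (S : Finset (HeightOneSpectrum (𝓞 K))) (n : ℕ) :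
    SUnit K S →* Delta S n :=
  (QuotientGroup.mk' _).comp (Subgroup.inclusion (sUnit_le_deltaPre S n))

theorem toDelta_eq_one_iff {S : Finset (HeightOneSpectrum (𝓞 K))} {n : ℕ} (u : SUnit K S) :
    toDelta S n u = 1 ↔ (u : Kˣ) ∈ (powMonoidHom n : Kˣ →* Kˣ).range := by
  rw [toDelta, MonoidHom.comp_apply, QuotientGroup.mk'_apply, QuotientGroup.eq_one_iff,
    Subgroup.mem_subgroupOf]
  rfl

/-- The kernel of `O_{K,S}ˣ → Δ_S(K, n)` consists of the `n`-th powers of `S`-units. -/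
theorem toDelta_ker {S : Finset (HeightOneSpectrum (𝓞 K))} {n : ℕ} (hn : n ≠ 0) :
    (toDelta S n).ker = (powMonoidHom n : SUnit K S →* SUnit K S).range := by
  ext u
  rw [MonoidHom.mem_ker, toDelta_eq_one_iff, sUnit_inf_range_pow hn]

/-- Under class-generating, `O_{K,S}ˣ → Δ_S(K, n)` is surjective. -/
theorem toDelta_surjective {S : Finset (HeightOneSpectrum (𝓞 K))} (hS : IsClassGenerating S)
    (n : ℕ) : Function.Surjective (toDelta S n) := by
  intro y
  obtain ⟨⟨x, hx⟩, rfl⟩ := QuotientGroup.mk_surjective y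
  obtain ⟨a, ha⟩ := exists_div_pow_mem_sUnit hS n x hx
  refine ⟨⟨x / a ^ n, ha⟩, ?_⟩
  rw [toDelta, MonoidHom.comp_apply, QuotientGroup.mk'_apply, QuotientGroup.eq,
    Subgroup.mem_subgroupOf]
  refine ⟨a, ?_⟩
  simp only [powMonoidHom_apply, Subgroup.coe_mul, Subgroup.coe_inv, Subgroup.coe_inclusion]
  rw [div_eq_mul_inv, mul_inv, inv_inv, mul_comm x⁻¹, mul_assoc, inv_mul_cancel, mul_one]

/-- **`O_{K,S}ˣ / n ≃* Δ_S(K, n)`** when `S` is class-generating. -/
noncomputable def deltaEquiv {S : Finset (HeightOneSpectrum (𝓞 K))} (hS : IsClassGenerating S)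
    {n : ℕ} (hn : n ≠ 0) :
    SUnit K S ⧸ (powMonoidHom n : SUnit K S →* SUnit K S).range ≃* Delta S n :=
  (QuotientGroup.quotientMulEquivOfEq (toDelta_ker hn).symm).trans
    (QuotientGroup.quotientKerEquivOfSurjective (toDelta S n) (toDelta_surjective hS n))

@[simp] theorem deltaEquiv_mk {S : Finset (HeightOneSpectrum (𝓞 K))} (hS : IsClassGenerating S)
    {n : ℕ} (hn : n ≠ 0) (u : SUnit K S) :
    deltaEquiv hS hn (QuotientGroup.mk u) = toDelta S n u := rfl

/-! ### Equivariance -/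

theorem unitsMap_mem_deltaPre_iff {σ : K ≃+* K} {S : Finset (HeightOneSpectrum (𝓞 K))}
    (hS : IsStable σ S) (n : ℕ) (x : Kˣ) : unitsMap σ x ∈ deltaPre S n ↔ x ∈ deltaPre S n := by
  rw [mem_deltaPre_iff, mem_deltaPre_iff]
  constructor
  · intro h v hv
    rw [← ordAt_primeMap_unitsMap σ v x]
    exact h _ (fun h' => hv ((hS v).mp h'))
  · intro h v hv
    have := ordAt_primeMap_unitsMap σ ((primeMap σ).symm v) x
    rw [Equiv.apply_symm_apply] at this
    rw [this]
    apply h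
    intro h'
    apply hv
    have := (hS ((primeMap σ).symm v)).mpr h'
    rwa [Equiv.apply_symm_apply] at this

omit [NumberField K] in
theorem unitsMap_mem_range_pow_iff (σ : K ≃+* K) (n : ℕ) (x : Kˣ) :
    unitsMap σ x ∈ (powMonoidHom n : Kˣ →* Kˣ).range ↔
      x ∈ (powMonoidHom n : Kˣ →* Kˣ).range := by
  constructor
  · rintro ⟨a, ha⟩
    refine ⟨(unitsMap σ).symm a, ?_⟩
    apply (unitsMap σ).injective
    rw [powMonoidHom_apply, map_pow, MulEquiv.apply_symm_apply]
    exact ha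
  · rintro ⟨a, rfl⟩
    exact ⟨unitsMap σ a, by rw [powMonoidHom_apply, powMonoidHom_apply, map_pow]⟩

/-- The automorphism of `deltaPre S n` induced by an automorphism `σ` of `K` stabilising `S`. -/
noncomputable def deltaPreMap (σ : K ≃+* K) (S : Finset (HeightOneSpectrum (𝓞 K)))
    (hS : IsStable σ S) (n : ℕ) : deltaPre S n ≃* deltaPre S n where
  toFun x := ⟨unitsMap σ x, (unitsMap_mem_deltaPre_iff hS n _).mpr x.2⟩
  invFun x := ⟨unitsMap σ.symm x, (unitsMap_mem_deltaPre_iff hS.symm n _).mpr x.2⟩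
  left_inv x := by ext; simp
  right_inv x := by ext; simp
  map_mul' x y := by ext; simp

@[simp] theorem deltaPreMap_val (σ : K ≃+* K) (S : Finset (HeightOneSpectrum (𝓞 K)))
    (hS : IsStable σ S) (n : ℕ) (x : deltaPre S n) :
    ((deltaPreMap σ S hS n x : deltaPre S n) : Kˣ) = unitsMap σ (x : Kˣ) := rfl

/-- The automorphism of `Δ_S(K, n)` induced by an automorphism `σ` of `K` stabilising `S`. -/
noncomputable def DeltaMap (σ : K ≃+* K) (S : Finset (HeightOneSpectrum (𝓞 K)))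
    (hS : IsStable σ S) (n : ℕ) : Delta S n ≃* Delta S n :=
  QuotientGroup.congr _ _ (deltaPreMap σ S hS n) (by
    ext x
    rw [Subgroup.mem_map]
    constructor
    · rintro ⟨y, hy, rfl⟩
      rw [Subgroup.mem_subgroupOf] at hy ⊢
      exact (unitsMap_mem_range_pow_iff σ n _).mpr hy
    · intro hx
      rw [Subgroup.mem_subgroupOf] at hx
      refine ⟨(deltaPreMap σ S hS n).symm x, ?_, by simp⟩
      rw [Subgroup.mem_subgroupOf]
      exact (unitsMap_mem_range_pow_iff σ.symm n _).mpr hx)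

@[simp] theorem DeltaMap_mk (σ : K ≃+* K) (S : Finset (HeightOneSpectrum (𝓞 K)))
    (hS : IsStable σ S) (n : ℕ) (x : deltaPre S n) :
    DeltaMap σ S hS n (QuotientGroup.mk x) = QuotientGroup.mk (deltaPreMap σ S hS n x) := rfl

/-- (D5) `O_{K,S}ˣ → Δ_S(K, n)` commutes with the automorphisms of `K` stabilising `S`. -/
theorem toDelta_sUnitMap (σ : K ≃+* K) (S : Finset (HeightOneSpectrum (𝓞 K)))
    (hS : IsStable σ S) (n : ℕ) (u : SUnit K S) :
    toDelta S n (sUnitMap σ S hS u) = DeltaMap σ S hS n (toDelta S n u) := rfl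

end Fermat.Agent.S56x.Euler.DeltaS
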