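import Fermat.Agent.S56x.Euler.LatticeModP

/-!
# P-S56 (EC) line: a representation as a plain `G`-module / `ℤ[G]`-module

`repAction ρ` is the distributive action `g • n = ρ g n` attached to a representation `ρ`;
together with `LatticeModP.zgModule` it makes the space of `ρ` a `ℤ[G]`-module.  Also the plain
description of `ℤ[G]`-linear maps out of it.
-/

set_option autoImplicit false

namespace Fermat.Agent.S56x.Euler.RepAction

open Fermat.Agent.S56x.Euler.LatticeModP MonoidAlgebra

universe u v w

variable {k : Type*} [CommSemiring k] {G : Type u} [Group G] {N : Type w} [AddCommGroup N]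
  [Module k N]

/-- The distributive action `g • n = ρ g n` of a representation.  A definition, not an
instance. -/
@[reducible] def repAction (ρ : Representation k G N) : DistribMulAction G N where
  smul g n := ρ g n
  one_smul n := by
    show ρ 1 n = n
    rw [map_one]; rfl
  mul_smul g h n := by
    show ρ (g * h) n = ρ g (ρ h n)
    rw [map_mul]; rfl
  smul_zero g := map_zero (ρ g)
  smul_add g := map_add (ρ g)

theorem repAction_smul (ρ : Representation k G N) (g : G) (n : N) :
    letI := repAction ρ
    g • n = ρ g n := rfl

attribute [local instance] zgModule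

/-- `ℤ[G]`-linear maps out of a plain `G`-module are the additive maps `φ` with
`φ (g • n) = single g 1 • φ n`. -/
noncomputable def linEquivSubtype {A : Type w} [AddCommGroup A] [DistribMulAction G A]
    (B : Type v) [AddCommGroup B] [Module (MonoidAlgebra ℤ G) B] :
    (A →ₗ[MonoidAlgebra ℤ G] B) ≃
      {φ : A →+ B // ∀ (g : G) (a : A), φ (g • a) = (single g (1 : ℤ) : MonoidAlgebra ℤ G) • φ a} where
  toFun f := ⟨f.toAddMonoidHom, fun g a => by
    show f (g • a) = (single g (1 : ℤ) : MonoidAlgebra ℤ G) • f a
    rw [← single_one_smul, map_smul]⟩
  invFun φ := MonoidAlgebra.equivariantOfLinearOfComm φ.1.toIntLinearMap (fun g a => by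
    rw [single_one_smul]
    exact φ.2 g a)
  left_inv f := by
    ext a
    rfl
  right_inv φ := by
    apply Subtype.ext
    ext a
    rfl

end Fermat.Agent.S56x.Euler.RepAction
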