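import Fermat.Agent.S56x.Euler.SUnitModP
import Fermat.Agent.S56x.Euler.DeltaS
import Fermat.Agent.S56x.Euler.RepAction

/-!
# P-S56 block (B), (EC) line, adapter of (A5c): `O_{K,S}^× / p` versus `Δ_S(K, p)`

`K` a number field, `G` a group acting on `K`, `S` a finite `G`-stable set of primes of `K`,
`R = ℤ[G]`, `U = Additive (SUnit K S)` with the action `SUnitModP.unitAction`.

* `modPDeltaHom`  : the injective additive map `U/p = ModP R p U → Additive (Δ_S(K, p))`
  induced by `DeltaS.toDelta` (no class hypothesis);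
* `modPDeltaEquiv` : it is an isomorphism when `S` is class-generating;
* `modPDelta*_mk`, `modPDelta*_smul` : values on classes, and equivariance
  (`single g 1 • x ↦ DeltaMap g`);
* `homModPEquiv`, `card_hom_modP_eq` : the consumer form
  `Hom_R(N, U/p) ≃ {φ : N →+ Additive Δ // φ (g • n) = DeltaMap g (φ n)}`;
* `homModPEmb` : without the class hypothesis, the same map as an injection.
-/

set_option autoImplicit false
set_option linter.style.haveILetI false

namespace Fermat.Agent.S56x.Euler.DeltaModP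

open NumberField IsDedekindDomain Function
open Fermat.Agent.Lib.CFT.Global.SUnits
open Fermat.Agent.S56x.Euler.LatticeModP Fermat.Agent.S56x.Euler.SUnitModP
open Fermat.Agent.S56x.Euler.RepAction Fermat.Agent.S56x.Euler.DeltaS

universe u w

variable {K : Type} [Field K] [NumberField K] (S : Finset (HeightOneSpectrum (𝓞 K)))
variable {G : Type u} [Group G] [MulSemiringAction G K] (hS : IsStableUnder G S)
variable (p : ℕ)

attribute [local instance] zgModule

/-! ### The additive form of `toDelta` -/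

/-- `DeltaS.toDelta`, additively. -/
noncomputable def toDeltaAdd : Additive (SUnit K S) →+ Additive (Delta S p) :=
  MonoidHom.toAdditive (toDelta S p)

theorem toDeltaAdd_apply (a : Additive (SUnit K S)) :
    toDeltaAdd S p a = Additive.ofMul (toDelta S p a.toMul) := rfl

theorem toDeltaAdd_ofMul (u : SUnit K S) :
    toDeltaAdd S p (Additive.ofMul u) = Additive.ofMul (toDelta S p u) := rfl

variable {S p} in
theorem toDeltaAdd_eq_zero_iff (hp0 : p ≠ 0) (a : Additive (SUnit K S)) :
    toDeltaAdd S p a = 0 ↔ ∃ b : Additive (SUnit K S), p • b = a := by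
  rw [toDeltaAdd_apply, ofMul_eq_zero, ← MonoidHom.mem_ker, toDelta_ker hp0, MonoidHom.mem_range]
  constructor
  · rintro ⟨b, hb⟩
    refine ⟨Additive.ofMul b, ?_⟩
    rw [← ofMul_pow]
    exact congrArg Additive.ofMul hb
  · rintro ⟨b, rfl⟩
    exact ⟨b.toMul, rfl⟩

theorem toDeltaAdd_surjective (hcl : IsClassGenerating S) : Surjective (toDeltaAdd S p) :=
  fun y => by
    obtain ⟨u, hu⟩ := toDelta_surjective hcl p y.toMul
    exact ⟨Additive.ofMul u, congrArg Additive.ofMul hu⟩

/-- Equivariance of `toDeltaAdd` for the action `unitAction` on the source. -/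
theorem toDeltaAdd_smul (g : G) (a : Additive (SUnit K S)) :
    letI := unitAction S hS
    toDeltaAdd S p (g • a) = Additive.ofMul
      (DeltaMap (MulSemiringAction.toRingEquiv G K g) S (hS g) p (toDeltaAdd S p a).toMul) :=
  rfl

/-! ### The map `U/p → Δ` -/

theorem toDeltaAdd_imP :
    letI := unitAction S hS
    (ImP (MonoidAlgebra ℤ G) p (Additive (SUnit K S))).toAddSubgroup ≤ (toDeltaAdd S p).ker := by
  letI := unitAction S hS
  rintro _ ⟨y, rfl⟩
  rw [AddMonoidHom.mem_ker, mulP_apply, map_nsmul]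
  obtain ⟨x, hx⟩ : ∃ x : Delta S p, toDeltaAdd S p y = Additive.ofMul x := ⟨_, rfl⟩
  rw [hx, ← ofMul_pow, ofMul_eq_zero]
  obtain ⟨x, rfl⟩ := QuotientGroup.mk_surjective x
  rw [← QuotientGroup.mk_pow, QuotientGroup.eq_one_iff, Subgroup.mem_subgroupOf]
  exact ⟨(x : Kˣ), rfl⟩

/-- **(D4)** The map `O_{K,S}^× / p → Δ_S(K, p)` on the `ℤ[G]`-module quotient `ModP`. -/
noncomputable def modPDeltaHom :
    letI := unitAction S hS
    ModP (MonoidAlgebra ℤ G) p (Additive (SUnit K S)) →+ Additive (Delta S p) :=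
  letI := unitAction S hS
  { toFun := fun x => Quotient.liftOn' x (toDeltaAdd S p) (fun a b h => by
      have h1 : a - b ∈ ImP (MonoidAlgebra ℤ G) p (Additive (SUnit K S)) :=
        (Submodule.quotientRel_def _).mp h
      have h2 : toDeltaAdd S p (a - b) = 0 := toDeltaAdd_imP S hS p h1
      rw [map_sub] at h2
      exact sub_eq_zero.mp h2)
    map_zero' := map_zero (toDeltaAdd S p)
    map_add' := fun x y => by
      obtain ⟨a, rfl⟩ := Submodule.Quotient.mk_surjective _ x
      obtain ⟨b, rfl⟩ := Submodule.Quotient.mk_surjective _ y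
      exact map_add (toDeltaAdd S p) a b }

/-- **(D2)** for `modPDeltaHom`. -/
theorem modPDeltaHom_mk' (a : Additive (SUnit K S)) :
    letI := unitAction S hS
    modPDeltaHom S hS p (Submodule.Quotient.mk a) = toDeltaAdd S p a := rfl

theorem modPDeltaHom_mk (u : SUnit K S) :
    letI := unitAction S hS
    modPDeltaHom S hS p (Submodule.Quotient.mk (Additive.ofMul u)) =
      Additive.ofMul (toDelta S p u) := rfl

variable {p} in
theorem modPDeltaHom_injective (hp0 : p ≠ 0) : Injective (modPDeltaHom S hS p) := by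
  letI := unitAction S hS
  rw [injective_iff_map_eq_zero]
  intro x hx
  obtain ⟨a, rfl⟩ := Submodule.Quotient.mk_surjective _ x
  rw [modPDeltaHom_mk', toDeltaAdd_eq_zero_iff hp0] at hx
  obtain ⟨b, rfl⟩ := hx
  rw [Submodule.Quotient.mk_eq_zero]
  exact ⟨b, rfl⟩

theorem modPDeltaHom_surjective (hcl : IsClassGenerating S) :
    Surjective (modPDeltaHom S hS p) := by
  letI := unitAction S hS
  intro y
  obtain ⟨a, rfl⟩ := toDeltaAdd_surjective S p hcl y
  exact ⟨Submodule.Quotient.mk a, rfl⟩

/-- **(D3)** for `modPDeltaHom`: equivariance. -/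
theorem modPDeltaHom_smul (g : G)
    (x : letI := unitAction S hS; ModP (MonoidAlgebra ℤ G) p (Additive (SUnit K S))) :
    letI := unitAction S hS
    modPDeltaHom S hS p ((MonoidAlgebra.single g (1 : ℤ) : MonoidAlgebra ℤ G) • x) =
      Additive.ofMul (DeltaMap (MulSemiringAction.toRingEquiv G K g) S (hS g) p
        (modPDeltaHom S hS p x).toMul) := by
  letI := unitAction S hS
  obtain ⟨a, rfl⟩ := Submodule.Quotient.mk_surjective _ x
  rw [← Submodule.Quotient.mk_smul, modPDeltaHom_mk', modPDeltaHom_mk', single_one_smul]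
  exact toDeltaAdd_smul S hS p g a

/-- **(D1)** `O_{K,S}^× / p ≃+ Δ_S(K, p)` when `S` is class-generating. -/
noncomputable def modPDeltaEquiv {p : ℕ} (hp0 : p ≠ 0) (hcl : IsClassGenerating S) :
    letI := unitAction S hS
    ModP (MonoidAlgebra ℤ G) p (Additive (SUnit K S)) ≃+ Additive (Delta S p) :=
  letI := unitAction S hS
  AddEquiv.ofBijective (modPDeltaHom S hS p)
    ⟨modPDeltaHom_injective S hS hp0, modPDeltaHom_surjective S hS p hcl⟩

theorem modPDeltaEquiv_apply {p : ℕ} (hp0 : p ≠ 0) (hcl : IsClassGenerating S)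
    (x : letI := unitAction S hS; ModP (MonoidAlgebra ℤ G) p (Additive (SUnit K S))) :
    modPDeltaEquiv S hS hp0 hcl x = modPDeltaHom S hS p x := rfl

/-- **(D2)** -/
theorem modPDeltaEquiv_mk {p : ℕ} (hp0 : p ≠ 0) (hcl : IsClassGenerating S) (u : SUnit K S) :
    letI := unitAction S hS
    modPDeltaEquiv S hS hp0 hcl (Submodule.Quotient.mk (Additive.ofMul u)) =
      Additive.ofMul (toDelta S p u) := rfl

/-- **(D3)** -/
theorem modPDeltaEquiv_smul {p : ℕ} (hp0 : p ≠ 0) (hcl : IsClassGenerating S) (g : G)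
    (x : letI := unitAction S hS; ModP (MonoidAlgebra ℤ G) p (Additive (SUnit K S))) :
    letI := unitAction S hS
    modPDeltaEquiv S hS hp0 hcl ((MonoidAlgebra.single g (1 : ℤ) : MonoidAlgebra ℤ G) • x) =
      Additive.ofMul (DeltaMap (MulSemiringAction.toRingEquiv G K g) S (hS g) p
        (modPDeltaEquiv S hS hp0 hcl x).toMul) :=
  modPDeltaHom_smul S hS p g x

/-! ### Consumer form -/

section Consumer

variable (N : Type w) [AddCommGroup N] [DistribMulAction G N]

/-- The `G`-equivariant additive maps `N → Additive (Δ_S(K, p))`, for the action of `g` on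
`Δ` by `DeltaMap (toRingEquiv g)`. -/
abbrev DeltaHoms : Type w :=
  {φ : N →+ Additive (Delta S p) // ∀ (g : G) (n : N), φ (g • n) =
    Additive.ofMul (DeltaMap (MulSemiringAction.toRingEquiv G K g) S (hS g) p (φ n).toMul)}

/-- **(D5), injective form** (no class hypothesis): `Hom_{ℤ[G]}(N, U/p) → DeltaHoms`. -/
noncomputable def homModPEmb :
    letI := unitAction S hS
    (N →ₗ[MonoidAlgebra ℤ G] ModP (MonoidAlgebra ℤ G) p (Additive (SUnit K S))) →
      DeltaHoms S hS p N :=
  letI := unitAction S hS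
  fun f => ⟨(modPDeltaHom S hS p).comp f.toAddMonoidHom, fun g n => by
    show modPDeltaHom S hS p (f (g • n)) = _
    rw [← single_one_smul, map_smul]
    exact modPDeltaHom_smul S hS p g (f n)⟩

theorem homModPEmb_apply
    (f : letI := unitAction S hS;
      N →ₗ[MonoidAlgebra ℤ G] ModP (MonoidAlgebra ℤ G) p (Additive (SUnit K S))) (n : N) :
    (homModPEmb S hS p N f).1 n = modPDeltaHom S hS p (f n) := rfl

variable {p} in
theorem homModPEmb_injective (hp0 : p ≠ 0) : Injective (homModPEmb S hS p N) := by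
  letI := unitAction S hS
  intro f f' h
  ext n
  apply modPDeltaHom_injective S hS hp0
  have := congrArg (fun φ : DeltaHoms S hS p N => φ.1 n) h
  exact this

/-- **(D5)** `Hom_{ℤ[G]}(N, U/p) ≃ DeltaHoms` when `S` is class-generating. -/
noncomputable def homModPEquiv {p : ℕ} (hp0 : p ≠ 0) (hcl : IsClassGenerating S) :
    letI := unitAction S hS
    (N →ₗ[MonoidAlgebra ℤ G] ModP (MonoidAlgebra ℤ G) p (Additive (SUnit K S))) ≃
      DeltaHoms S hS p N :=
  letI := unitAction S hS
  Equiv.ofBijective (homModPEmb S hS p N) ⟨homModPEmb_injective S hS N hp0, fun φ => by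
    let e := modPDeltaEquiv S hS hp0 hcl
    refine ⟨(linEquivSubtype (G := G) (A := N)
      (ModP (MonoidAlgebra ℤ G) p (Additive (SUnit K S)))).symm
        ⟨e.symm.toAddMonoidHom.comp φ.1, fun g n => ?_⟩, ?_⟩
    · show e.symm (φ.1 (g • n)) = (MonoidAlgebra.single g (1 : ℤ) : MonoidAlgebra ℤ G) •
        e.symm (φ.1 n)
      apply e.injective
      rw [AddEquiv.apply_symm_apply, modPDeltaEquiv_smul S hS hp0 hcl g,
        AddEquiv.apply_symm_apply]
      exact φ.2 g n
    · apply Subtype.ext
      ext n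
      show e (e.symm (φ.1 n)) = φ.1 n
      rw [AddEquiv.apply_symm_apply]⟩

theorem homModPEquiv_apply {p : ℕ} (hp0 : p ≠ 0) (hcl : IsClassGenerating S)
    (f : letI := unitAction S hS;
      N →ₗ[MonoidAlgebra ℤ G] ModP (MonoidAlgebra ℤ G) p (Additive (SUnit K S))) (n : N) :
    (homModPEquiv S hS N hp0 hcl f).1 n = modPDeltaHom S hS p (f n) := rfl

/-- The cardinality corollary of (D5). -/
theorem card_hom_modP_eq {p : ℕ} (hp0 : p ≠ 0) (hcl : IsClassGenerating S) :
    letI := unitAction S hS
    Nat.card (N →ₗ[MonoidAlgebra ℤ G] ModP (MonoidAlgebra ℤ G) p (Additive (SUnit K S))) =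
      Nat.card (DeltaHoms S hS p N) :=
  Nat.card_congr (homModPEquiv S hS N hp0 hcl)

/-- `SUnitModP.card_hom_sUnit` with `Hom_{ℤ[G]}(N, U/p)` replaced by the equivariant maps
`N → Δ_S(K, p)` (`S` class-generating, `p ∤ |G|`). -/
theorem card_deltaHoms_sUnit [Fintype G] {p : ℕ} [hp : Fact p.Prime]
    (hcl : IsClassGenerating S) (hG : ¬ p ∣ Fintype.card G) [Finite N]
    (hNp : ∀ n : N, p • n = 0) :
    letI := unitAction S hS
    letI := trivAction G
    letI := idxMulAction S hS
    letI := Fermat.Agent.Lib.CFT.Coh.PermLattice.permAction G (Idx K S) ℤ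
    Nat.card (DeltaHoms S hS p N) *
        Nat.card (N →ₗ[MonoidAlgebra ℤ G] ModP (MonoidAlgebra ℤ G) p ℤ) =
      Nat.card (N →ₗ[MonoidAlgebra ℤ G] TorP (MonoidAlgebra ℤ G) p (Additive (SUnit K S))) *
        Nat.card (N →ₗ[MonoidAlgebra ℤ G] ModP (MonoidAlgebra ℤ G) p (Idx K S → ℤ)) := by
  rw [← card_hom_modP_eq S hS N hp.out.ne_zero hcl]
  exact card_hom_sUnit S hS p hG N hNp

end Consumer

end Fermat.Agent.S56x.Euler.DeltaModP
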