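import Fermat.Agent.S56x.Euler.TateGlobalForm
import Fermat.Agent.Lib.CFT.Duality.CoindDual
import Fermat.Agent.Lib.CFT.Profinite.Shapiro

/-!
# P-S56 block (B), (EC) line: the setting of the cyclic step `hind` and its assembly

(helper11.)  SETTING (note `S56-IFACE-EC-Hind`): `K` a finite Galois extension of `ℚ` inside
`Qbar`, `V = K.fixingSubgroup`, `G₀ = Gal(K/ℚ) = (K ≃ₐ[ℚ] K)`, `π : Γℚ → G₀` the restriction,
`C ≤ G₀`, `W = π⁻¹(C)`, `M` a representation of `G₀` over `𝔽_p`, `M₀ = Inf M` its inflation to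
`Γℚ`, `N = M₀|_W` and

`I = indMod K C M = Coind_W^Γ (M₀|_W) = DevissageRep.P W M₀`.

`tateEulerC_indMod_of_inputs` assembles Tate's formula `GW.TateEulerC S I` from the inputs
(A2)–(A5) of the note (each produced by its owner), using (A1) = `tateEulerC_iff_global`.
-/

set_option autoImplicit false

open CategoryTheory groupCohomology Module

namespace Fermat.Agent.S56x.Euler.Hind

open Fermat.Agent.Lib.CFT.Profinite Fermat.Agent.Lib.CFT.Profinite.LevelFamily ExtCitation
open Fermat.Agent.Lib.CFT.Profinite.Bridge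
open Fermat.Agent.Lib.CFT.Duality Fermat.Agent.Lib.CFT.Duality.PoitouTate
open Fermat.Agent.S56x.GW Fermat.Agent.S56x.Euler

local notation "Qbar" => AlgebraicClosure ℚ
local notation "Γℚ" => (AlgebraicClosure ℚ ≃ₐ[ℚ] AlgebraicClosure ℚ)

variable {p : ℕ} [Fact p.Prime]

section Setting

variable (K : IntermediateField ℚ Qbar) [Normal ℚ K]

/-- The restriction `π : Gal(Qbar/ℚ) → Gal(K/ℚ)`. -/
noncomputable def proj : Γℚ →* (K ≃ₐ[ℚ] K) := AlgEquiv.restrictNormalHom K

theorem proj_apply_coe (σ : Γℚ) (x : K) : ((proj K σ x : K) : Qbar) = σ x :=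
  AlgEquiv.restrictNormal_commutes σ K x

/-- The kernel of `π` is the fixing subgroup of `K`. -/
theorem proj_eq_one_iff (σ : Γℚ) : proj K σ = 1 ↔ σ ∈ K.fixingSubgroup := by
  rw [IntermediateField.mem_fixingSubgroup_iff]
  constructor
  · intro h x hx
    have := proj_apply_coe K σ ⟨x, hx⟩
    rw [h] at this
    exact this.symm
  · intro h
    ext x
    rw [proj_apply_coe]
    exact h x x.2

/-- `W = π⁻¹(C)`. -/
noncomputable def preW (C : Subgroup (K ≃ₐ[ℚ] K)) : Subgroup Γℚ := C.comap (proj K)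

theorem mem_preW_iff (C : Subgroup (K ≃ₐ[ℚ] K)) (σ : Γℚ) : σ ∈ preW K C ↔ proj K σ ∈ C := Iff.rfl

theorem fixingSubgroup_le_preW (C : Subgroup (K ≃ₐ[ℚ] K)) : K.fixingSubgroup ≤ preW K C := by
  intro σ hσ
  rw [mem_preW_iff, (proj_eq_one_iff K σ).2 hσ]
  exact C.one_mem

/-- The inflation `M₀ = Inf M` of a representation of `Gal(K/ℚ)` to `Γℚ`. -/
noncomputable abbrev infl (M : Rep (ZMod p) (K ≃ₐ[ℚ] K)) : Rep (ZMod p) Γℚ := Rep.res (proj K) M

theorem infl_ρ_of_mem (M : Rep (ZMod p) (K ≃ₐ[ℚ] K)) {σ : Γℚ} (hσ : σ ∈ K.fixingSubgroup) :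
    (infl K M).ρ σ = 1 := by
  show M.ρ (proj K σ) = 1
  rw [(proj_eq_one_iff K σ).2 hσ, map_one]

/-- `N = M₀|_W`. -/
noncomputable abbrev resW (C : Subgroup (K ≃ₐ[ℚ] K)) (M : Rep (ZMod p) (K ≃ₐ[ℚ] K)) :
    Rep (ZMod p) (preW K C) := Rep.res (preW K C).subtype (infl K M)

/-- `I = Coind_W^Γ (M₀|_W)`. -/
noncomputable abbrev indMod (C : Subgroup (K ≃ₐ[ℚ] K)) (M : Rep (ZMod p) (K ≃ₐ[ℚ] K)) :
    Rep (ZMod p) Γℚ := DevissageRep.P (preW K C) (infl K M)

variable (S : Finset Nat.Primes)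

/-- `W` is open. -/
theorem isOpenSubgroup_preW (hKS : K.fixingSubgroup ∈ (levelsS S).levels)
    (C : Subgroup (K ≃ₐ[ℚ] K)) : LES.IsOpenSubgroup (levelsS S) (preW K C) :=
  ⟨_, hKS, fixingSubgroup_le_preW K C⟩

/-- The inflation is discrete. -/
theorem isDiscrete_infl (hKS : K.fixingSubgroup ∈ (levelsS S).levels)
    (M : Rep (ZMod p) (K ≃ₐ[ℚ] K)) : (levelsS S).IsDiscrete (infl K M) := fun m =>
  ⟨_, hKS, fun s hs => by rw [infl_ρ_of_mem K M hs]; rfl⟩

/-- `I` is discrete. -/
theorem isDiscrete_indMod (hKS : K.fixingSubgroup ∈ (levelsS S).levels)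
    (C : Subgroup (K ≃ₐ[ℚ] K)) (M : Rep (ZMod p) (K ≃ₐ[ℚ] K)) :
    (levelsS S).IsDiscrete (indMod K C M) :=
  have : (preW K C).FiniteIndex := (isOpenSubgroup_preW K S hKS C).finiteIndex
  DevissageRep.isDiscrete_P _ _ (levelsS S) (isOpenSubgroup_preW K S hKS C)
    (isDiscrete_infl K S hKS M)

end Setting

section Assembly

variable (K : IntermediateField ℚ Qbar) [Normal ℚ K] {S : Finset Nat.Primes}

/-- **Assembly of `hind`** from the inputs (A2)–(A5) of the note `S56-IFACE-EC-Hind`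
(`u` = `dim Hom_W(N, O_{K,S}^×/p)`). -/
theorem tateEulerC_indMod_of_inputs (I : GlobalInput p S) (hpS : pPrime p ∈ S)
    (hKS : K.fixingSubgroup ∈ (levelsS S).levels)
    (C : Subgroup (K ≃ₐ[ℚ] K)) (M : Rep (ZMod p) (K ≃ₐ[ℚ] K)) [Finite (indMod K C M)]
    (u : ℕ)
    -- (A2): Shapiro + `CoindDual.dualIso`
    (hA2₁ : finrank (ZMod p)
        ((levelsS S).levelCohomology ((indMod K C M).dualTwist (cycloChar p)) 1) =
      finrank (ZMod p) ((LES.restrict (levelsS S) (preW K C)).levelCohomology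
        ((resW K C M).dualTwist ((cycloChar p).comp (preW K C).subtype)) 1))
    (hA2₀' : finrank (ZMod p)
        ((levelsS S).levelCohomology ((indMod K C M).dualTwist (cycloChar p)) 0) =
      finrank (ZMod p) ((LES.restrict (levelsS S) (preW K C)).levelCohomology
        ((resW K C M).dualTwist ((cycloChar p).comp (preW K C).subtype)) 0))
    (hA2₀ : finrank (ZMod p) ((levelsS S).levelCohomology (indMod K C M) 0) =
      finrank (ZMod p) ((LES.restrict (levelsS S) (preW K C)).levelCohomology (resW K C M) 0))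
    -- (A3): `p'`-descent + Kummer theory
    (hA3 : finrank (ZMod p) ((LES.restrict (levelsS S) (preW K C)).levelCohomology
        ((resW K C M).dualTwist ((cycloChar p).comp (preW K C).subtype)) 1) = u)
    -- (A4): no locally trivial classes
    (hA4 : (arithDatum S).shaLevel (indMod K C M) 1 = ⊥)
    -- (A5): equivariant Dirichlet mod `p`, Galois form
    (hA5 : u + finrank (ZMod p)
        ((LES.restrict (levelsS S) (preW K C)).levelCohomology (resW K C M) 0) =
      finrank (ZMod p) ((arithDatum S).locH (indMod K C M) 0)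
        + finrank (ZMod p) ((LES.restrict (levelsS S) (preW K C)).levelCohomology
            ((resW K C M).dualTwist ((cycloChar p).comp (preW K C).subtype)) 0)
        + finrank (ZMod p) (fixc (indMod K C M))) :
    TateEulerC S (indMod K C M) := by
  rw [tateEulerC_iff_global I hpS (indMod K C M) (isDiscrete_indMod K S hKS C M)]
  have h4 : finrank (ZMod p) ((arithDatum S).shaLevel (indMod K C M) 1) = 0 := by
    rw [hA4]; exact finrank_bot _ _
  have g1 : finrank (ZMod p)
      ((arithDatum S).𝒰.levelCohomology ((indMod K C M).dualTwist (cycloChar p)) 1) = u :=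
    hA2₁.trans hA3
  have g2 : finrank (ZMod p)
      ((arithDatum S).𝒰.levelCohomology ((indMod K C M).dualTwist (cycloChar p)) 0) = _ := hA2₀'
  have g3 : finrank (ZMod p) ((arithDatum S).𝒰.levelCohomology (indMod K C M) 0) = _ := hA2₀
  rw [h4, g1, g2, g3]
  omega

end Assembly

end Fermat.Agent.S56x.Euler.Hind
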