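/-
P-S56, block (B), (EC) line, leaves (A2) + (A5b) of helper11's note 'S56-IFACE-EC-Hind v1'
(helper34): Shapiro's lemma for the twisted dual of an induced module, numerically.

For an open subgroup `W` of `G` (with respect to a level family `𝒰`), a finite discrete
`k[G]`-module `M` and a character `χ` trivial on some level, with `P W M = Coind_W^G (M|_W)`:

* `finrank_dualTwist_P`   : `dim Hⁱ(G, (P W M)') = dim Hⁱ(W, (M|_W)')` for all `i`
  (`' = dualTwist χ`, resp. `dualTwist (χ|_W)`);
* `finrank_P`             : `dim Hⁱ(G, P W M) = dim Hⁱ(W, M|_W)`;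
* `invariants_dualTwist`  : `H⁰` of a twisted dual `N'` is the space of `χ`-equivariant linear
  forms `{φ : N → k | φ (w n) = χ(w) φ n}` (`twistedForms`).
-/
import Fermat.Agent.Lib.CFT.Duality.CoindDual
import Fermat.Agent.Lib.CFT.Duality.LocalTateArith
import Fermat.Agent.Lib.CFT.Profinite.Shapiro
import Fermat.Agent.Lib.CFT.Profinite.LevelLowDegree

set_option autoImplicit false
set_option linter.unusedSectionVars false

universe u

open CategoryTheory Module

namespace Fermat.Agent.S56x.Euler.ShapiroDual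

open Fermat.Agent.Lib.CFT.Profinite Fermat.Agent.Lib.CFT.Profinite.LevelFamily
open Fermat.Agent.Lib.CFT.Profinite.LES
open Fermat.Agent.Lib.CFT.Duality Fermat.Agent.Lib.CFT.Duality.DevissageRep
open Fermat.Agent.Lib.CFT.Duality.LocalTate

variable {k G : Type u} [Field k] [Group G]

/-! ### Generalities -/

/-- Isomorphic modules have level cohomology of the same dimension. -/
theorem finrank_levelCohomology_of_iso (𝒰 : LevelFamily G) {A B : Rep.{u} k G} (e : A ≅ B)
    (n : ℕ) :
    finrank k (𝒰.levelCohomology A n) = finrank k (𝒰.levelCohomology B n) :=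
  (LinearEquiv.ofBijective _ (bijective_levelCohomologyMap_of_iso 𝒰 e n)).finrank_eq

/-- The restriction of a discrete module to a subgroup is discrete. -/
theorem isDiscrete_res_restrict (𝒰 : LevelFamily G) (W : Subgroup G) {M : Rep.{u} k G}
    (hM : 𝒰.IsDiscrete M) : (restrict 𝒰 W).IsDiscrete (Rep.res W.subtype M) := by
  intro m
  obtain ⟨U, hU, h⟩ := hM m
  exact ⟨U.comap W.subtype, comap_mem_comap_levels W.subtype hU, fun s hs => h s.1 hs⟩

/-! ### Shapiro for `P W M` and its twisted dual -/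

section Shapiro

variable {𝒰 : LevelFamily G} {W : Subgroup G} (χ : G →* kˣ) (M : Rep.{u} k G)

/-- `dim Hⁿ(G, Coind_W (M|_W)) = dim Hⁿ(W, M|_W)`. -/
theorem finrank_P (hW : IsOpenSubgroup 𝒰 W) (hM : 𝒰.IsDiscrete M) (n : ℕ) :
    finrank k (𝒰.levelCohomology (P W M) n) =
      finrank k ((restrict 𝒰 W).levelCohomology (Rep.res W.subtype M) n) :=
  (shapiroIso hW (isDiscrete_res_restrict 𝒰 W hM) n).toLinearEquiv.finrank_eq

/-- **`dim Hⁿ(G, (Coind_W (M|_W))') = dim Hⁿ(W, (M|_W)')`.** -/
theorem finrank_dualTwist_P [Finite k] [Finite M] (hW : IsOpenSubgroup 𝒰 W) (hM : 𝒰.IsDiscrete M)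
    (hχ : ∃ U ∈ 𝒰.levels, ∀ s ∈ U, χ s = 1) (n : ℕ) :
    finrank k (𝒰.levelCohomology ((P W M).dualTwist χ) n) =
      finrank k ((restrict 𝒰 W).levelCohomology
        ((Rep.res W.subtype M).dualTwist (χ.comp W.subtype)) n) := by
  have := hW.finiteIndex
  have hM' : 𝒰.IsDiscrete (M.dualTwist χ) := DualTwist.isDiscrete_dualTwist χ 𝒰 M hM hχ
  rw [← finrank_levelCohomology_of_iso 𝒰 (CoindDual.dualIso W M χ) n,
    finrank_P (M.dualTwist χ) hW hM' n]
  exact finrank_levelCohomology_of_iso (restrict 𝒰 W) (resDualTwistIso χ W.subtype M) n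

end Shapiro

/-! ### `H⁰` of a twisted dual -/

section Forms

variable {H : Type u} [Group H] (ψ : H →* kˣ) (N : Rep.{u} k H)

/-- The `ψ`-equivariant linear forms on `N`: `φ (w n) = ψ(w) φ n`. -/
def twistedForms : Submodule k (Module.Dual k N) where
  carrier := {φ | ∀ (w : H) (n : N), φ (N.ρ w n) = (ψ w : k) * φ n}
  add_mem' := by
    intro a b ha hb w n
    rw [LinearMap.add_apply, LinearMap.add_apply, ha w n, hb w n, mul_add]
  zero_mem' := by
    intro w n
    rw [LinearMap.zero_apply, LinearMap.zero_apply, mul_zero]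
  smul_mem' := by
    intro c a ha w n
    rw [LinearMap.smul_apply, LinearMap.smul_apply, ha w n, smul_eq_mul, smul_eq_mul,
      mul_left_comm]

theorem mem_twistedForms (φ : Module.Dual k N) :
    φ ∈ twistedForms ψ N ↔ ∀ (w : H) (n : N), φ (N.ρ w n) = (ψ w : k) * φ n := Iff.rfl

/-- The invariants of the twisted dual are the `ψ`-equivariant linear forms. -/
theorem invariants_dualTwist :
    (N.dualTwist ψ).ρ.invariants = twistedForms ψ N := by
  ext φ
  rw [Representation.mem_invariants, mem_twistedForms]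
  constructor
  · intro h w n
    have h1 := LinearMap.congr_fun (h w) (N.ρ w n)
    rw [Rep.dualTwist_ρ_apply, LinearMap.smul_apply, LinearMap.comp_apply] at h1
    have h2 : N.ρ w⁻¹ (N.ρ w n) = n := by
      rw [← Module.End.mul_apply, ← map_mul, inv_mul_cancel, map_one, Module.End.one_apply]
    rw [h2, smul_eq_mul] at h1
    exact h1.symm
  · intro h w
    refine LinearMap.ext fun n => ?_
    rw [Rep.dualTwist_ρ_apply, LinearMap.smul_apply, LinearMap.comp_apply, smul_eq_mul]
    have h1 := h w (N.ρ w⁻¹ n)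
    have h2 : N.ρ w (N.ρ w⁻¹ n) = n := by
      rw [← Module.End.mul_apply, ← map_mul, mul_inv_cancel, map_one, Module.End.one_apply]
    rw [h2] at h1
    exact h1.symm

/-- `H⁰(H, N') ≃ {φ : N → k | φ (w n) = ψ(w) φ n}`. -/
noncomputable def H0DualTwistEquiv (𝒱 : LevelFamily H) :
    𝒱.levelCohomology (N.dualTwist ψ) 0 ≃ₗ[k] twistedForms ψ N :=
  (𝒱.H0Equiv (N.dualTwist ψ)).trans (LinearEquiv.ofEq _ _ (invariants_dualTwist ψ N))

theorem finrank_H0_dualTwist (𝒱 : LevelFamily H) :
    finrank k (𝒱.levelCohomology (N.dualTwist ψ) 0) = finrank k (twistedForms ψ N) :=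
  (H0DualTwistEquiv ψ N 𝒱).finrank_eq

end Forms

end Fermat.Agent.S56x.Euler.ShapiroDual
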