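/-
P-S56, block (B), (EC) line (helper34): the inputs (A2) `hA2₁`, `hA2₀'`, `hA2₀` of
`Hind.tateEulerC_indMod_of_inputs` (`Euler/HindSetting.lean`), discharged from
`Euler/ShapiroDual.lean`.
-/
import Fermat.Agent.S56x.Euler.HindSetting
import Fermat.Agent.S56x.Euler.ShapiroDual

set_option autoImplicit false

open CategoryTheory groupCohomology Module

namespace Fermat.Agent.S56x.Euler.Hind

open Fermat.Agent.Lib.CFT.Profinite Fermat.Agent.Lib.CFT.Profinite.LevelFamily ExtCitation
open Fermat.Agent.Lib.CFT.Profinite.Bridge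
open Fermat.Agent.Lib.CFT.Duality Fermat.Agent.Lib.CFT.Duality.PoitouTate
open Fermat.Agent.S56x.GW Fermat.Agent.S56x.Euler

local notation "Qbar" => AlgebraicClosure ℚ
local notation "Γℚ" => (AlgebraicClosure ℚ ≃ₐ[ℚ] AlgebraicClosure ℚ)

variable {p : ℕ} [Fact p.Prime] (K : IntermediateField ℚ Qbar) [Normal ℚ K]
  {S : Finset Nat.Primes}

/-- (A2), degree `n` of the dual: `hA2₁` (`n = 1`) and `hA2₀'` (`n = 0`). -/
theorem hA2_dual (hpS : pPrime p ∈ S) (hKS : K.fixingSubgroup ∈ (levelsS S).levels)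
    (C : Subgroup (K ≃ₐ[ℚ] K)) (M : Rep (ZMod p) (K ≃ₐ[ℚ] K)) [Finite M] (n : ℕ) :
    finrank (ZMod p)
        ((levelsS S).levelCohomology ((indMod K C M).dualTwist (cycloChar p)) n) =
      finrank (ZMod p) ((LES.restrict (levelsS S) (preW K C)).levelCohomology
        ((resW K C M).dualTwist ((cycloChar p).comp (preW K C).subtype)) n) := by
  have : Finite (infl K M) := ‹Finite M›
  exact ShapiroDual.finrank_dualTwist_P (cycloChar p) (infl K M) (isOpenSubgroup_preW K S hKS C)
    (isDiscrete_infl K S hKS M) (exists_level_cycloChar_eq_one hpS) n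

/-- (A2), `hA2₀`. -/
theorem hA2_zero (hKS : K.fixingSubgroup ∈ (levelsS S).levels)
    (C : Subgroup (K ≃ₐ[ℚ] K)) (M : Rep (ZMod p) (K ≃ₐ[ℚ] K)) (n : ℕ) :
    finrank (ZMod p) ((levelsS S).levelCohomology (indMod K C M) n) =
      finrank (ZMod p) ((LES.restrict (levelsS S) (preW K C)).levelCohomology (resW K C M) n) :=
  ShapiroDual.finrank_P (infl K M) (isOpenSubgroup_preW K S hKS C) (isDiscrete_infl K S hKS M) n

end Fermat.Agent.S56x.Euler.Hind
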