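import Fermat.Agent.S56x.Euler.HindSetting

/-!
# P-S56 block (B), (EC) line: the assembly of the cyclic step `hind`, generic form

(helper11.)  The same assembly as `Hind.tateEulerC_indMod_of_inputs` (`Euler/HindSetting.lean`), for
a GENERIC open subgroup `W ≤ Γℚ` and a finite discrete module `M₀` over `Γℚ`:
`I = Coind_W^Γ (M₀|_W) = DevissageRep.P W M₀`, `N = M₀|_W`.  No quotient group appears, so the
statement serves both presentations `G₀ = Γℚ ⧸ V` and `G₀ = Gal(K/ℚ)` of the finite level.
-/

set_option autoImplicit false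

open CategoryTheory groupCohomology Module

namespace Fermat.Agent.S56x.Euler.Hind

open Fermat.Agent.Lib.CFT.Profinite Fermat.Agent.Lib.CFT.Profinite.LevelFamily ExtCitation
open Fermat.Agent.Lib.CFT.Profinite.Bridge
open Fermat.Agent.Lib.CFT.Duality Fermat.Agent.Lib.CFT.Duality.PoitouTate
open Fermat.Agent.S56x.GW Fermat.Agent.S56x.Euler

local notation "Qbar" => AlgebraicClosure ℚ
local notation "Γℚ" => (AlgebraicClosure ℚ ≃ₐ[ℚ] AlgebraicClosure ℚ)

variable {p : ℕ} [Fact p.Prime] {S : Finset Nat.Primes}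

/-- `Coind_W^Γ (M₀|_W)` is finite discrete if `M₀` is and `W` is open. -/
theorem isDiscrete_P_of_open (W : Subgroup Γℚ) (hW : LES.IsOpenSubgroup (levelsS S) W)
    (M₀ : Rep (ZMod p) Γℚ) (hM₀ : (levelsS S).IsDiscrete M₀) :
    (levelsS S).IsDiscrete (DevissageRep.P W M₀) :=
  have : W.FiniteIndex := hW.finiteIndex
  DevissageRep.isDiscrete_P _ _ (levelsS S) hW hM₀

theorem finite_P_of_open (W : Subgroup Γℚ) (hW : LES.IsOpenSubgroup (levelsS S) W)
    (M₀ : Rep (ZMod p) Γℚ) [Finite M₀] : Finite (DevissageRep.P W M₀) :=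
  have : W.FiniteIndex := hW.finiteIndex
  inferInstance

/-- **Assembly of `hind`, generic form**: Tate's formula for `I = Coind_W^Γ (M₀|_W)` from the
inputs (A2)–(A5) of the note `S56-IFACE-EC-Hind` (`u = dim Hom_W(N, O_{K,S}^×/p)`). -/
theorem tateEulerC_P_of_inputs (I : GlobalInput p S) (hpS : pPrime p ∈ S)
    (W : Subgroup Γℚ) (hW : LES.IsOpenSubgroup (levelsS S) W)
    (M₀ : Rep (ZMod p) Γℚ) [Finite M₀] (hM₀ : (levelsS S).IsDiscrete M₀)
    (u : ℕ)
    -- (A2): Shapiro + `CoindDual.dualIso`
    (hA2₁ : finrank (ZMod p)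
        ((levelsS S).levelCohomology ((DevissageRep.P W M₀).dualTwist (cycloChar p)) 1) =
      finrank (ZMod p) ((LES.restrict (levelsS S) W).levelCohomology
        ((Rep.res W.subtype M₀).dualTwist ((cycloChar p).comp W.subtype)) 1))
    (hA2₀' : finrank (ZMod p)
        ((levelsS S).levelCohomology ((DevissageRep.P W M₀).dualTwist (cycloChar p)) 0) =
      finrank (ZMod p) ((LES.restrict (levelsS S) W).levelCohomology
        ((Rep.res W.subtype M₀).dualTwist ((cycloChar p).comp W.subtype)) 0))
    (hA2₀ : finrank (ZMod p) ((levelsS S).levelCohomology (DevissageRep.P W M₀) 0) =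
      finrank (ZMod p) ((LES.restrict (levelsS S) W).levelCohomology (Rep.res W.subtype M₀) 0))
    -- (A3): `p'`-descent + Kummer theory
    (hA3 : finrank (ZMod p) ((LES.restrict (levelsS S) W).levelCohomology
        ((Rep.res W.subtype M₀).dualTwist ((cycloChar p).comp W.subtype)) 1) = u)
    -- (A4): no locally trivial classes
    (hA4 : (arithDatum S).shaLevel (DevissageRep.P W M₀) 1 = ⊥)
    -- (A5): equivariant Dirichlet mod `p`, Galois form
    (hA5 : u + finrank (ZMod p)
        ((LES.restrict (levelsS S) W).levelCohomology (Rep.res W.subtype M₀) 0) =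
      finrank (ZMod p) ((arithDatum S).locH (DevissageRep.P W M₀) 0)
        + finrank (ZMod p) ((LES.restrict (levelsS S) W).levelCohomology
            ((Rep.res W.subtype M₀).dualTwist ((cycloChar p).comp W.subtype)) 0)
        + finrank (ZMod p) (fixc (DevissageRep.P W M₀))) :
    TateEulerC S (DevissageRep.P W M₀) := by
  have hfin : Finite (DevissageRep.P W M₀) := finite_P_of_open W hW M₀
  rw [tateEulerC_iff_global I hpS (DevissageRep.P W M₀) (isDiscrete_P_of_open W hW M₀ hM₀)]
  have h4 : finrank (ZMod p) ((arithDatum S).shaLevel (DevissageRep.P W M₀) 1) = 0 := by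
    rw [hA4]; exact finrank_bot _ _
  have g1 : finrank (ZMod p)
      ((arithDatum S).𝒰.levelCohomology ((DevissageRep.P W M₀).dualTwist (cycloChar p)) 1) = u :=
    hA2₁.trans hA3
  have g2 : finrank (ZMod p)
      ((arithDatum S).𝒰.levelCohomology ((DevissageRep.P W M₀).dualTwist (cycloChar p)) 0) = _ :=
    hA2₀'
  have g3 : finrank (ZMod p) ((arithDatum S).𝒰.levelCohomology (DevissageRep.P W M₀) 0) = _ :=
    hA2₀
  rw [h4, g1, g2, g3]
  omega

end Fermat.Agent.S56x.Euler.Hind
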