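/-
P-S56 (Taylor–Wiles primes), block (B), (EC) line, leaf (A5e) of the `hind` contracts (note 1434,
helper11): invariants of the dual (helper65).  Mathlib only.

For a finite group `H` whose order is invertible in the field `k` and a representation
`ρ : Representation k H V`:

* `finrank_invariants_dual` : `finrank (V^∨)^H = finrank V^H` (the averaging operator of the dual
  is the transpose of the averaging operator);
* `trivHom ρ` `= Hom_H(V, k)` (trivial action on `k`) `= ρ.dual.invariants`,
  `finrank_trivHom`;
* for a finite `H`-set `X`: `eqFun X ρ` `= {f : X → V | f (h • x) = ρ h (f x)}`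
  `= (funRep X ρ).invariants`, and `finrank_eqFun_dual` :
  `finrank eqFun(X, V^∨) = finrank eqFun(X, V)` (no orbit decomposition: `(X → V)^∨ ≅ X → V^∨`
  equivariantly);
* `permHom X ρ` `= Hom_H(V, k[X])` (`k[X] = X → k`, `(h f)(x) = f (h⁻¹ x)`),
  `permHomEquiv : permHom X ρ ≃ₗ eqFun X ρ.dual`, `finrank_permHom : finrank Hom_H(V, k[X]) =
  finrank eqFun(X, V)`;
* cardinality forms over a finite field.
-/
import Mathlib

set_option autoImplicit false
set_option linter.style.haveILetI false
set_option linter.unusedSectionVars false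

open Module

namespace Fermat.Agent.S56x.Euler.InvDual

variable {k : Type*} [Field k] {H : Type*} [Group H] {V : Type*} [AddCommGroup V] [Module k V]

/-! ### The averaging operator -/

section Avg

variable [Fintype H] (ρ : Representation k H V)

/-- the averaging operator `|H|⁻¹ Σ_h ρ h` -/
noncomputable def avg : V →ₗ[k] V := (Fintype.card H : k)⁻¹ • ∑ g : H, ρ g

theorem avg_apply (v : V) : avg ρ v = (Fintype.card H : k)⁻¹ • ∑ g : H, ρ g v := by
  simp [avg, LinearMap.sum_apply]

theorem avg_mem_invariants (v : V) : avg ρ v ∈ ρ.invariants := by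
  intro h
  rw [avg_apply, map_smul, map_sum]
  congr 1
  refine Fintype.sum_equiv (Equiv.mulLeft h) _ _ (fun g => ?_)
  rw [Equiv.coe_mulLeft, map_mul]
  rfl

theorem avg_of_mem_invariants (hH : (Fintype.card H : k) ≠ 0) {v : V} (hv : v ∈ ρ.invariants) :
    avg ρ v = v := by
  rw [avg_apply]
  have h1 : ∑ g : H, ρ g v = (Fintype.card H : k) • v := by
    rw [Finset.sum_congr rfl (fun g _ => hv g), Finset.sum_const, Finset.card_univ,
      Nat.cast_smul_eq_nsmul]
  rw [h1, smul_smul, inv_mul_cancel₀ hH, one_smul]

theorem range_avg (hH : (Fintype.card H : k) ≠ 0) : LinearMap.range (avg ρ) = ρ.invariants := by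
  apply le_antisymm
  · rintro _ ⟨v, rfl⟩
    exact avg_mem_invariants ρ v
  · intro v hv
    exact ⟨v, avg_of_mem_invariants ρ hH hv⟩

/-- the averaging operator of the dual is the transpose of the averaging operator -/
theorem avg_dual : avg ρ.dual = (avg ρ).dualMap := by
  ext φ v
  rw [avg_apply, LinearMap.dualMap_apply, avg_apply]
  simp only [LinearMap.smul_apply, LinearMap.sum_apply, map_smul, map_sum,
    Representation.dual_apply, Module.Dual.transpose_apply, LinearMap.comp_apply]
  congr 1
  exact Fintype.sum_equiv (Equiv.inv H) _ _ (fun g => rfl)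

end Avg

/-! ### (A5e) -/

/-- **(A5e)** For a finite group `H` whose order is invertible in `k`, the invariants of the dual
of a representation have the dimension of the invariants. -/
theorem finrank_invariants_dual [Finite H] (hH : (Nat.card H : k) ≠ 0)
    (ρ : Representation k H V) :
    finrank k ρ.dual.invariants = finrank k ρ.invariants := by
  haveI := Fintype.ofFinite H
  rw [Nat.card_eq_fintype_card] at hH
  rw [← range_avg ρ.dual hH, ← range_avg ρ hH, avg_dual,
    LinearMap.finrank_range_dualMap_eq_finrank_range]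

/-- `Hom_H(V, k)` for the trivial action on `k`: the `H`-invariant linear forms. -/
def trivHom (ρ : Representation k H V) : Submodule k (Module.Dual k V) where
  carrier := {φ | ∀ (h : H) (v : V), φ (ρ h v) = φ v}
  add_mem' := fun {a b} ha hb h v => by
    rw [LinearMap.add_apply, LinearMap.add_apply, ha h v, hb h v]
  zero_mem' := fun _ _ => rfl
  smul_mem' := fun c a ha h v => by rw [LinearMap.smul_apply, LinearMap.smul_apply, ha h v]

theorem mem_trivHom {ρ : Representation k H V} {φ : Module.Dual k V} :
    φ ∈ trivHom ρ ↔ ∀ (h : H) (v : V), φ (ρ h v) = φ v := Iff.rfl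

theorem trivHom_eq_invariants (ρ : Representation k H V) : trivHom ρ = ρ.dual.invariants := by
  ext φ
  constructor
  · intro hφ h
    ext v
    exact hφ h⁻¹ v
  · intro hφ h v
    have h1 := LinearMap.congr_fun (hφ h⁻¹) v
    rw [Representation.dual_apply, Module.Dual.transpose_apply, LinearMap.comp_apply,
      inv_inv] at h1
    exact h1

/-- `dim Hom_H(V, k) = dim V^H`. -/
theorem finrank_trivHom [Finite H] (hH : (Nat.card H : k) ≠ 0) (ρ : Representation k H V) :
    finrank k (trivHom ρ) = finrank k ρ.invariants := by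
  rw [trivHom_eq_invariants, finrank_invariants_dual hH]

/-! ### Equivariant functions on an `H`-set -/

section HSet

variable (X : Type*) [MulAction H X]

/-- the representation of `H` on the functions `X → V`: `(h f)(x) = ρ h (f (h⁻¹ x))` -/
def funRep (ρ : Representation k H V) : Representation k H (X → V) where
  toFun h :=
    { toFun := fun f x => ρ h (f (h⁻¹ • x))
      map_add' := fun f g => by ext x; simp
      map_smul' := fun c f => by ext x; simp }
  map_one' := by ext f x; simp
  map_mul' g h := by
    ext f x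
    simp [mul_smul]

@[simp] theorem funRep_apply (ρ : Representation k H V) (h : H) (f : X → V) (x : X) :
    funRep X ρ h f x = ρ h (f (h⁻¹ • x)) := rfl

/-- the `H`-equivariant functions `X → V` -/
def eqFun (ρ : Representation k H V) : Submodule k (X → V) where
  carrier := {f | ∀ (h : H) (x : X), f (h • x) = ρ h (f x)}
  add_mem' := fun {a b} ha hb h x => by
    rw [Pi.add_apply, Pi.add_apply, ha h x, hb h x, map_add]
  zero_mem' := fun h x => by rw [Pi.zero_apply, Pi.zero_apply, map_zero]
  smul_mem' := fun c a ha h x => by rw [Pi.smul_apply, Pi.smul_apply, ha h x, map_smul]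

theorem mem_eqFun {ρ : Representation k H V} {f : X → V} :
    f ∈ eqFun X ρ ↔ ∀ (h : H) (x : X), f (h • x) = ρ h (f x) := Iff.rfl

theorem eqFun_eq_invariants (ρ : Representation k H V) :
    eqFun X ρ = (funRep X ρ).invariants := by
  ext f
  constructor
  · intro hf h
    ext x
    rw [funRep_apply, ← hf h (h⁻¹ • x), smul_inv_smul]
  · intro hf h x
    have h1 := congrFun (hf h) (h • x)
    rw [funRep_apply, inv_smul_smul] at h1
    exact h1.symm

variable [Fintype X] [DecidableEq X]

/-- `(X → V^∨) ≃ (X → V)^∨` for a finite set `X` -/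
noncomputable def dualPi : (X → Module.Dual k V) ≃ₗ[k] Module.Dual k (X → V) :=
  LinearMap.lsum k (fun _ : X => V) k

theorem dualPi_apply (φ : X → Module.Dual k V) (f : X → V) :
    dualPi X φ f = ∑ x : X, φ x (f x) := by
  simp [dualPi, LinearMap.lsum_apply, LinearMap.sum_apply]

/-- `dualPi` is equivariant. -/
theorem dualPi_funRep (ρ : Representation k H V) (h : H) (φ : X → Module.Dual k V) :
    dualPi X (funRep X ρ.dual h φ) = (funRep X ρ).dual h (dualPi X φ) := by
  refine LinearMap.ext fun f => ?_
  rw [dualPi_apply, Representation.dual_apply, Module.Dual.transpose_apply,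
    LinearMap.comp_apply, dualPi_apply]
  simp only [funRep_apply, Representation.dual_apply, Module.Dual.transpose_apply,
    LinearMap.comp_apply, inv_inv]
  exact Fintype.sum_equiv (MulAction.toPerm h⁻¹) _ _ (fun x => by
    simp only [MulAction.toPerm_apply, smul_inv_smul])

theorem map_dualPi_invariants (ρ : Representation k H V) :
    (funRep X ρ.dual).invariants.map (dualPi (k := k) (V := V) X).toLinearMap =
      (funRep X ρ).dual.invariants := by
  ext ψ
  constructor
  · rintro ⟨φ, hφ, rfl⟩ h
    show (funRep X ρ).dual h (dualPi X φ) = dualPi X φ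
    rw [← dualPi_funRep, hφ h]
  · intro hψ
    refine ⟨(dualPi X).symm ψ, fun h => ?_, (dualPi X).apply_symm_apply ψ⟩
    apply (dualPi (k := k) (V := V) X).injective
    rw [dualPi_funRep, LinearEquiv.apply_symm_apply]
    exact hψ h

/-- **`dim eqFun(X, V^∨) = dim eqFun(X, V)`** for a finite `H`-set `X`, `|H|` invertible. -/
theorem finrank_eqFun_dual [Finite H] (hH : (Nat.card H : k) ≠ 0) (ρ : Representation k H V) :
    finrank k (eqFun X ρ.dual) = finrank k (eqFun X ρ) := by
  rw [eqFun_eq_invariants, eqFun_eq_invariants, ← finrank_invariants_dual hH (funRep X ρ),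
    ← map_dualPi_invariants]
  exact (LinearEquiv.finrank_map_eq (dualPi (k := k) (V := V) X) _).symm

/-- `Hom_H(V, k[X])`, `k[X] = X → k` with `(h f)(x) = f (h⁻¹ x)`. -/
def permHom (ρ : Representation k H V) : Submodule k (V →ₗ[k] (X → k)) where
  carrier := {F | ∀ (h : H) (v : V) (x : X), F (ρ h v) x = F v (h⁻¹ • x)}
  add_mem' := fun {a b} ha hb h v x => by
    rw [LinearMap.add_apply, LinearMap.add_apply, Pi.add_apply, Pi.add_apply, ha h v x, hb h v x]
  zero_mem' := fun _ _ _ => rfl
  smul_mem' := fun c a ha h v x => by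
    rw [LinearMap.smul_apply, LinearMap.smul_apply, Pi.smul_apply, Pi.smul_apply, ha h v x]

omit [Fintype X] [DecidableEq X] in
theorem mem_permHom {ρ : Representation k H V} {F : V →ₗ[k] (X → k)} :
    F ∈ permHom X ρ ↔ ∀ (h : H) (v : V) (x : X), F (ρ h v) x = F v (h⁻¹ • x) := Iff.rfl

/-- `(V →ₗ (X → k)) ≃ (X → V^∨)` -/
def swapEquiv : (V →ₗ[k] (X → k)) ≃ₗ[k] (X → Module.Dual k V) where
  toFun F x := (LinearMap.proj x).comp F
  invFun f := LinearMap.pi f
  map_add' F G := by ext x v; rfl
  map_smul' c F := by ext x v; rfl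
  left_inv F := by ext v x; rfl
  right_inv f := by ext x v; rfl

omit [Fintype X] [DecidableEq X] in
@[simp] theorem swapEquiv_apply (F : V →ₗ[k] (X → k)) (x : X) (v : V) :
    swapEquiv (k := k) X F x v = F v x := rfl

omit [Fintype X] [DecidableEq X] in
theorem map_swapEquiv_permHom (ρ : Representation k H V) :
    (permHom X ρ).map (swapEquiv (k := k) (V := V) X).toLinearMap = eqFun X ρ.dual := by
  ext f
  constructor
  · rintro ⟨F, hF, rfl⟩ h x
    ext v
    show F v (h • x) = F (ρ h⁻¹ v) x
    rw [hF h⁻¹ v x, inv_inv]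
  · intro hf
    refine ⟨(swapEquiv X).symm f, fun h v x => ?_, (swapEquiv X).apply_symm_apply f⟩
    show f x (ρ h v) = f (h⁻¹ • x) v
    have h1 := LinearMap.congr_fun (hf h⁻¹ x) v
    rw [Representation.dual_apply, Module.Dual.transpose_apply, LinearMap.comp_apply,
      inv_inv] at h1
    exact h1.symm

omit [Fintype X] [DecidableEq X] in
/-- `Hom_H(V, k[X]) ≃ eqFun(X, V^∨)` -/
noncomputable def permHomEquiv (ρ : Representation k H V) :
    permHom X ρ ≃ₗ[k] eqFun X ρ.dual :=
  ((swapEquiv (k := k) (V := V) X).submoduleMap (permHom X ρ)).trans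
    (LinearEquiv.ofEq _ _ (map_swapEquiv_permHom X ρ))

/-- **`dim Hom_H(V, k[X]) = dim eqFun(X, V)`** for a finite `H`-set `X`, `|H|` invertible. -/
theorem finrank_permHom [Finite H] (hH : (Nat.card H : k) ≠ 0) (ρ : Representation k H V) :
    finrank k (permHom X ρ) = finrank k (eqFun X ρ) := by
  rw [← finrank_eqFun_dual X hH ρ]
  exact (permHomEquiv X ρ).finrank_eq

end HSet

/-! ### Cardinality forms over a finite field -/

section Card

variable [Finite k] [Module.Finite k V]

theorem natCard_eq_of_finrank_eq {W W' : Type*} [AddCommGroup W] [Module k W]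
    [AddCommGroup W'] [Module k W'] [Module.Finite k W] [Module.Finite k W']
    (h : finrank k W = finrank k W') : Nat.card W = Nat.card W' := by
  rw [Module.natCard_eq_pow_finrank (K := k) (V := W),
    Module.natCard_eq_pow_finrank (K := k) (V := W'), h]

theorem natCard_invariants_dual [Finite H] (hH : (Nat.card H : k) ≠ 0)
    (ρ : Representation k H V) : Nat.card ρ.dual.invariants = Nat.card ρ.invariants :=
  natCard_eq_of_finrank_eq (finrank_invariants_dual hH ρ)

theorem natCard_trivHom [Finite H] (hH : (Nat.card H : k) ≠ 0) (ρ : Representation k H V) :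
    Nat.card (trivHom ρ) = Nat.card ρ.invariants :=
  natCard_eq_of_finrank_eq (finrank_trivHom hH ρ)

theorem natCard_eqFun_dual (X : Type*) [MulAction H X] [Fintype X] [DecidableEq X] [Finite H]
    (hH : (Nat.card H : k) ≠ 0) (ρ : Representation k H V) :
    Nat.card (eqFun X ρ.dual) = Nat.card (eqFun X ρ) :=
  natCard_eq_of_finrank_eq (finrank_eqFun_dual X hH ρ)

theorem natCard_permHom (X : Type*) [MulAction H X] [Fintype X] [DecidableEq X] [Finite H]
    (hH : (Nat.card H : k) ≠ 0) (ρ : Representation k H V) :
    Nat.card (permHom X ρ) = Nat.card (eqFun X ρ) :=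
  natCard_eq_of_finrank_eq (finrank_permHom X hH ρ)

end Card

end Fermat.Agent.S56x.Euler.InvDual
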