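import Fermat.Agent.S56x.Euler.SUnitModP
import Fermat.Agent.S56x.Euler.InvDual
import Fermat.Agent.S56x.Euler.RepAction

/-!
# P-S56 block (B), (EC) line, leaf (A5d): bridge `LatticeModP` ↔ `InvDual` and the consumer form
of the equivariant Dirichlet `S`-unit theorem modulo `p`

helper75's `SUnitModP.card_hom_sUnit` is stated with `ℤ[G]`-linear maps into `ModP R p ℤ` and
`ModP R p (Idx K S → ℤ)`.  Here these two terms are translated into the representation-theoretic
quantities of helper11's assembly (note `S56-IFACE-EC-Hind v1`, piece (A5)): for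
`ρ : Representation (ZMod p) G N` on a finite dimensional `N`, `|G|` prime to `p`,
`R = ℤ[G]`, `N` an `R`-module through `RepAction.repAction ρ` and `LatticeModP.zgModule`:

* `trivBridge : Hom_R(N, ℤ/p) ≃ InvDual.trivHom ρ`,  `permBridge : Hom_R(N, ℤ[X]/p) ≃
  InvDual.permHom X ρ`  ((T1), (T2) of helper75's msg 14412);
* `natCard_hom_modP_int_eq : #Hom_R(N, ℤ/p) = #N^G`, `natCard_hom_modP_perm_eq :
  #Hom_R(N, ℤ[X]/p) = #{f : X → N | f (g x) = ρ g (f x)}`; and the same as `p ^ finrank`
  (`natCard_hom_modP_int`, `natCard_hom_modP_perm`);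
* `card_hom_sUnit_rep : #Hom_R(N, U/p) · p ^ dim N^G = #Hom_R(N, U[p]) · p ^ dim eqFun(Idx K S, N)`
  with `U = Additive (SUnit K S)`;
* `finrank_hom_sUnit_rep(_of_coprime)`: the same as an identity between `finrank`s, for ANY
  `ZMod p`-vector spaces `V₁`, `V₂` in bijection with `Hom_R(N, U/p)`, `Hom_R(N, U[p])`;
  `exists_exponents_hom_sUnit_rep`: the same with `#Hom = p ^ a`, `p ^ b`;
* `finite_hom_modP_sUnit`, `finite_hom_torP_sUnit`, `moduleFinite_sUnit`: finiteness.
-/

set_option autoImplicit false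
set_option linter.style.haveILetI false

namespace Fermat.Agent.S56x.Euler.InvDualBridge

open Function Module
open Fermat.Agent.Lib.CFT.Coh.PermLattice Fermat.Agent.Lib.CFT.Global.SUnits
open Fermat.Agent.S56x.Euler.LatticeModP Fermat.Agent.S56x.Euler.SUnitModP
  Fermat.Agent.S56x.Euler.InvDual Fermat.Agent.S56x.Euler.RepAction

universe u v w

/-! ### Generic bridge lemmas (universe polymorphic versions of `LatticeModP`'s bridge) -/

section Generic

variable {G : Type u} [Group G]

attribute [local instance] zgModule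

/-- An equivariant additive map is `ℤ[G]`-linear (source and target in different universes). -/
noncomputable def linOfEq {A : Type v} {B : Type w} [AddCommGroup A] [DistribMulAction G A]
    [AddCommGroup B] [DistribMulAction G B] (f : A →+ B)
    (hf : ∀ (g : G) (a : A), f (g • a) = g • f a) : A →ₗ[MonoidAlgebra ℤ G] B :=
  MonoidAlgebra.equivariantOfLinearOfComm f.toIntLinearMap (fun g a => by
    rw [single_one_smul, single_one_smul]
    exact hf g a)

@[simp] theorem linOfEq_apply {A : Type v} {B : Type w} [AddCommGroup A] [DistribMulAction G A]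
    [AddCommGroup B] [DistribMulAction G B] (f : A →+ B)
    (hf : ∀ (g : G) (a : A), f (g • a) = g • f a) (a : A) : linOfEq f hf a = f a := rfl

theorem map_group_smul {A : Type v} {B : Type w} [AddCommGroup A] [DistribMulAction G A]
    [AddCommGroup B] [DistribMulAction G B] (f : A →ₗ[MonoidAlgebra ℤ G] B) (g : G) (a : A) :
    f (g • a) = g • f a := by
  rw [← single_one_smul, map_smul, single_one_smul]

/-- `A/p ≃ B` for an equivariant surjection `A → B` with kernel `pA`. -/
noncomputable def modPEquiv {A B : Type v} [AddCommGroup A] [DistribMulAction G A]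
    [AddCommGroup B] [DistribMulAction G B] (p : ℕ) (f : A →+ B)
    (hf : ∀ (g : G) (a : A), f (g • a) = g • f a) (hsurj : Surjective f)
    (hker : ∀ a : A, f a = 0 ↔ ∃ y : A, p • y = a) :
    ModP (MonoidAlgebra ℤ G) p A ≃ₗ[MonoidAlgebra ℤ G] B :=
  (Submodule.quotEquivOfEq (ImP (MonoidAlgebra ℤ G) p A)
      (LinearMap.ker (linearOfEquivariant f hf)) (by
        ext a
        rw [mem_imP, LinearMap.mem_ker, linearOfEquivariant_apply, hker])).trans
    ((linearOfEquivariant f hf).quotKerEquivOfSurjective hsurj)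

/-- Post-composition with a linear equivalence, as a bijection of `Hom` sets (no commutativity
of the ring needed). -/
def homCongr {R : Type*} [Ring R] {N : Type*} [AddCommGroup N] [Module R N]
    {Y Y' : Type*} [AddCommGroup Y] [Module R Y] [AddCommGroup Y'] [Module R Y']
    (e : Y ≃ₗ[R] Y') : (N →ₗ[R] Y) ≃ (N →ₗ[R] Y') where
  toFun φ := e.toLinearMap.comp φ
  invFun ψ := e.symm.toLinearMap.comp ψ
  left_inv φ := by ext n; simp
  right_inv ψ := by ext n; simp

end Generic

/-! ### Reduction modulo `p` of `ℤ` and of permutation lattices -/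

section ModP

variable (G : Type u) [Group G] (p : ℕ) [hp : Fact p.Prime]

attribute [local instance] zgModule

/-- The trivial action of `G` on `ZMod p`.  A definition, not an instance. -/
@[reducible] def trivActionZMod : DistribMulAction G (ZMod p) where
  smul := fun _ k => k
  one_smul := fun _ => rfl
  mul_smul := fun _ _ _ => rfl
  smul_zero := fun _ => rfl
  smul_add := fun _ _ _ => rfl

/-- `ℤ/p ≃ ZMod p` as `ℤ[G]`-modules (trivial actions). -/
noncomputable def modPIntEquiv :
    letI := trivAction G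
    letI := trivActionZMod G p
    ModP (MonoidAlgebra ℤ G) p ℤ ≃ₗ[MonoidAlgebra ℤ G] ZMod p :=
  letI := trivAction G
  letI := trivActionZMod G p
  modPEquiv p (Int.castAddHom (ZMod p)) (fun _ _ => rfl) ZMod.intCast_surjective (fun a => by
    rw [Int.coe_castAddHom, ZMod.intCast_zmod_eq_zero_iff_dvd]
    constructor
    · rintro ⟨y, rfl⟩
      exact ⟨y, by rw [nsmul_eq_mul]⟩
    · rintro ⟨y, rfl⟩
      exact ⟨y, by rw [nsmul_eq_mul]⟩)

/-- Reduction modulo `p` of integer valued functions. -/
def redFun (X : Type v) : (X → ℤ) →+ (X → ZMod p) :=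
  AddMonoidHom.mk' (fun c x => ((c x : ℤ) : ZMod p)) (fun a b => by
    funext x
    simp only [Pi.add_apply, Int.cast_add])

@[simp] theorem redFun_apply (X : Type v) (c : X → ℤ) (x : X) :
    redFun p X c x = ((c x : ℤ) : ZMod p) := rfl

/-- `ℤ[X]/p ≃ F_p[X]` as `ℤ[G]`-modules (permutation actions). -/
noncomputable def modPPermEquiv (X : Type v) [MulAction G X] :
    letI := permAction G X ℤ
    letI := permAction G X (ZMod p)
    ModP (MonoidAlgebra ℤ G) p (X → ℤ) ≃ₗ[MonoidAlgebra ℤ G] (X → ZMod p) :=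
  letI := permAction G X ℤ
  letI := permAction G X (ZMod p)
  modPEquiv p (redFun p X) (fun _ _ => rfl)
    (fun c => ⟨fun x => (ZMod.intCast_surjective (c x)).choose, by
      funext x
      exact (ZMod.intCast_surjective (c x)).choose_spec⟩)
    (fun a => by
      constructor
      · intro h
        have h1 : ∀ x, (p : ℤ) ∣ a x := fun x =>
          (ZMod.intCast_zmod_eq_zero_iff_dvd (a x) p).mp (congrFun h x)
        refine ⟨fun x => (h1 x).choose, ?_⟩
        funext x
        rw [Pi.smul_apply, nsmul_eq_mul]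
        exact ((h1 x).choose_spec).symm
      · rintro ⟨y, rfl⟩
        funext x
        rw [redFun_apply, Pi.smul_apply, nsmul_eq_mul, Pi.zero_apply,
          ZMod.intCast_zmod_eq_zero_iff_dvd]
        exact ⟨y x, rfl⟩)

end ModP

/-! ### `Hom` sets out of a representation -/

section RepHom

variable {G : Type u} [Group G] (p : ℕ) [hp : Fact p.Prime]
variable {N : Type w} [AddCommGroup N] [Module (ZMod p) N]

attribute [local instance] zgModule

/-- `Hom_{ℤ[G]}(N, F_p) ≃ Hom_G(N, F_p)` (invariant linear forms). -/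
noncomputable def homTrivEquiv (ρ : Representation (ZMod p) G N) :
    letI := repAction ρ
    letI := trivActionZMod G p
    (N →ₗ[MonoidAlgebra ℤ G] ZMod p) ≃ trivHom ρ :=
  letI := repAction ρ
  letI := trivActionZMod G p
  { toFun := fun φ => ⟨AddMonoidHom.toZModLinearMap p φ.toAddMonoidHom, fun h v => by
      show φ (h • v) = φ v
      rw [map_group_smul]; rfl⟩
    invFun := fun F => linOfEq (F.1 : N →ₗ[ZMod p] ZMod p).toAddMonoidHom (fun g a => F.2 g a)
    left_inv := fun φ => by
      ext n
      rfl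
    right_inv := fun F => by
      apply Subtype.ext
      ext n
      rfl }

/-- `Hom_{ℤ[G]}(N, F_p[X]) ≃ Hom_G(N, F_p[X])` (`permHom` of `InvDual`). -/
noncomputable def homPermEquiv (X : Type v) [MulAction G X] (ρ : Representation (ZMod p) G N) :
    letI := repAction ρ
    letI := permAction G X (ZMod p)
    (N →ₗ[MonoidAlgebra ℤ G] (X → ZMod p)) ≃ permHom X ρ :=
  letI := repAction ρ
  letI := permAction G X (ZMod p)
  { toFun := fun φ => ⟨AddMonoidHom.toZModLinearMap p φ.toAddMonoidHom, fun h v x => by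
      show φ (h • v) x = φ v (h⁻¹ • x)
      rw [map_group_smul]; rfl⟩
    invFun := fun F => linOfEq (F.1 : N →ₗ[ZMod p] (X → ZMod p)).toAddMonoidHom (fun g a => by
      funext x
      exact F.2 g a x)
    left_inv := fun φ => by
      ext n
      rfl
    right_inv := fun F => by
      apply Subtype.ext
      ext n
      rfl }

/-- **(T1)** `Hom_{ℤ[G]}(N, ℤ/p) ≃ Hom_G(N, F_p)` (`InvDual.trivHom`). -/
noncomputable def trivBridge (ρ : Representation (ZMod p) G N) :
    letI := repAction ρ
    letI := trivAction G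
    (N →ₗ[MonoidAlgebra ℤ G] ModP (MonoidAlgebra ℤ G) p ℤ) ≃ trivHom ρ :=
  letI := repAction ρ
  letI := trivAction G
  letI := trivActionZMod G p
  (homCongr (modPIntEquiv G p)).trans (homTrivEquiv p ρ)

/-- **(T2)** `Hom_{ℤ[G]}(N, ℤ[X]/p) ≃ Hom_G(N, F_p[X])` (`InvDual.permHom`). -/
noncomputable def permBridge (X : Type v) [MulAction G X] (ρ : Representation (ZMod p) G N) :
    letI := repAction ρ
    letI := permAction G X ℤ
    (N →ₗ[MonoidAlgebra ℤ G] ModP (MonoidAlgebra ℤ G) p (X → ℤ)) ≃ permHom X ρ :=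
  letI := repAction ρ
  letI := permAction G X ℤ
  letI := permAction G X (ZMod p)
  (homCongr (modPPermEquiv G p X)).trans (homPermEquiv p X ρ)

end RepHom

/-! ### The two counts -/

section Card

variable {G : Type u} [Group G] (p : ℕ) [hp : Fact p.Prime]
variable {N : Type w} [AddCommGroup N] [Module (ZMod p) N] [Module.Finite (ZMod p) N]

attribute [local instance] zgModule

/-- **(1)** `#Hom_{ℤ[G]}(N, ℤ/p) = #N^G` if `|G|` is invertible modulo `p`. -/
theorem natCard_hom_modP_int_eq [Finite G] (hG : ((Nat.card G : ℕ) : ZMod p) ≠ 0)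
    (ρ : Representation (ZMod p) G N) :
    letI := repAction ρ
    letI := trivAction G
    Nat.card (N →ₗ[MonoidAlgebra ℤ G] ModP (MonoidAlgebra ℤ G) p ℤ) = Nat.card ρ.invariants := by
  letI := repAction ρ
  letI := trivAction G
  rw [Nat.card_congr (trivBridge p ρ), natCard_trivHom hG ρ]

/-- **(2)** `#Hom_{ℤ[G]}(N, ℤ[X]/p) = #{f : X → N | f (g x) = ρ g (f x)}` for a finite `G`-set
`X`, if `|G|` is invertible modulo `p`. -/
theorem natCard_hom_modP_perm_eq [Finite G] (hG : ((Nat.card G : ℕ) : ZMod p) ≠ 0)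
    (X : Type v) [MulAction G X] [Finite X] (ρ : Representation (ZMod p) G N) :
    letI := repAction ρ
    letI := permAction G X ℤ
    Nat.card (N →ₗ[MonoidAlgebra ℤ G] ModP (MonoidAlgebra ℤ G) p (X → ℤ)) =
      Nat.card (eqFun X ρ) := by
  letI := repAction ρ
  letI := permAction G X ℤ
  haveI := Fintype.ofFinite X
  classical
  rw [Nat.card_congr (permBridge p X ρ), natCard_permHom X hG ρ]

omit [Group G] in
theorem natCard_group_ne_zero [Fintype G] (hG : ¬ p ∣ Fintype.card G) :
    ((Nat.card G : ℕ) : ZMod p) ≠ 0 := by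
  rw [Nat.card_eq_fintype_card, Ne, ZMod.natCast_eq_zero_iff]
  exact hG

theorem natCard_eq_pow_finrank_zmod (W : Type*) [AddCommGroup W] [Module (ZMod p) W]
    [Module.Finite (ZMod p) W] : Nat.card W = p ^ finrank (ZMod p) W := by
  rw [Module.natCard_eq_pow_finrank (K := ZMod p) (V := W), Nat.card_zmod]

/-- **(1)** `#Hom_{ℤ[G]}(N, ℤ/p) = p ^ dim N^G`. -/
theorem natCard_hom_modP_int [Fintype G] (hG : ¬ p ∣ Fintype.card G)
    (ρ : Representation (ZMod p) G N) :
    letI := repAction ρ
    letI := trivAction G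
    Nat.card (N →ₗ[MonoidAlgebra ℤ G] ModP (MonoidAlgebra ℤ G) p ℤ) =
      p ^ finrank (ZMod p) ρ.invariants := by
  letI := repAction ρ
  letI := trivAction G
  rw [natCard_hom_modP_int_eq p (natCard_group_ne_zero p hG) ρ, natCard_eq_pow_finrank_zmod p]

/-- **(2)** `#Hom_{ℤ[G]}(N, ℤ[X]/p) = p ^ dim {f : X → N | f (g x) = ρ g (f x)}` for a finite
`G`-set `X`. -/
theorem natCard_hom_modP_perm [Fintype G] (hG : ¬ p ∣ Fintype.card G) (X : Type v)
    [MulAction G X] [Finite X] (ρ : Representation (ZMod p) G N) :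
    letI := repAction ρ
    letI := permAction G X ℤ
    Nat.card (N →ₗ[MonoidAlgebra ℤ G] ModP (MonoidAlgebra ℤ G) p (X → ℤ)) =
      p ^ finrank (ZMod p) (eqFun X ρ) := by
  letI := repAction ρ
  letI := permAction G X ℤ
  rw [natCard_hom_modP_perm_eq p (natCard_group_ne_zero p hG) X ρ,
    natCard_eq_pow_finrank_zmod p]

end Card

/-! ### The consumer form of (A5d) -/

section Main

open NumberField IsDedekindDomain

variable {K : Type} [Field K] [NumberField K] (S : Finset (HeightOneSpectrum (𝓞 K)))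
variable {G : Type u} [Group G] [MulSemiringAction G K] (hS : IsStableUnder G S)
variable [Fintype G] (p : ℕ) [hp : Fact p.Prime]
variable {N : Type w} [AddCommGroup N] [Module (ZMod p) N] [Module.Finite (ZMod p) N]

attribute [local instance] zgModule

/-- **(A5d), representation form.**  `K` a number field, `G` a finite group acting on `K` with
`p ∤ |G|`, `S` a `G`-stable finite set of primes, `U = O_{K,S}^×`, `ρ` a finite dimensional
representation of `G` over `F_p` on `N`:
`#Hom_G(N, U/p) · p ^ dim N^G = #Hom_G(N, U[p]) · p ^ dim {G-equivariant f : S_∞ ⊔ S → N}`. -/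
theorem card_hom_sUnit_rep (hG : ¬ p ∣ Fintype.card G) (ρ : Representation (ZMod p) G N) :
    letI := repAction ρ
    letI := unitAction S hS
    letI := idxMulAction S hS
    Nat.card (N →ₗ[MonoidAlgebra ℤ G] ModP (MonoidAlgebra ℤ G) p (Additive (SUnit K S))) *
        p ^ finrank (ZMod p) ρ.invariants =
      Nat.card (N →ₗ[MonoidAlgebra ℤ G] TorP (MonoidAlgebra ℤ G) p (Additive (SUnit K S))) *
        p ^ finrank (ZMod p) (eqFun (Idx K S) ρ) := by
  letI := repAction ρ
  letI := unitAction S hS
  letI := idxMulAction S hS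
  haveI : Finite N := Module.finite_of_finite (ZMod p)
  have h := card_hom_sUnit S hS p hG N (fun n => ZModModule.char_nsmul_eq_zero p n)
  rw [natCard_hom_modP_int p hG ρ, natCard_hom_modP_perm p hG (Idx K S) ρ] at h
  exact h

/-- The group of `S`-units is finitely generated (extracted from `SUnitModP.card_hom_sUnit`). -/
theorem moduleFinite_sUnit : Module.Finite ℤ (Additive (SUnit K S)) := by
  have : Module.Finite ℤ (SUnitLattice.unitLat S) :=
    ZLattice.module_finite ℝ (SUnitLattice.unitLat S)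
  have : Finite (SUnitLattice.toLat S).ker := SUnitLattice.finite_ker_toLat S
  have h : Module.Finite ℤ (Additive (SUnit K S) × ℤ) :=
    moduleFinite_of_finite_ker (SUnitLattice.toLat S) (SUnitLattice.toLat_surjective S)
  exact Module.Finite.of_surjective (LinearMap.fst ℤ (Additive (SUnit K S)) ℤ)
    LinearMap.fst_surjective

omit [Fintype G] [Module.Finite (ZMod p) N] in
theorem finite_hom {R : Type*} [Ring R] [Module R N] [Finite N] (Y : Type*) [AddCommGroup Y]
    [Module R Y] [Finite Y] : Finite (N →ₗ[R] Y) :=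
  Finite.of_injective (fun f : N →ₗ[R] Y => (f : N → Y)) DFunLike.coe_injective

omit [Fintype G] in
/-- `Hom_G(N, U/p)` is finite. -/
theorem finite_hom_modP_sUnit (ρ : Representation (ZMod p) G N) :
    letI := repAction ρ
    letI := unitAction S hS
    Finite (N →ₗ[MonoidAlgebra ℤ G] ModP (MonoidAlgebra ℤ G) p (Additive (SUnit K S))) := by
  letI := repAction ρ
  letI := unitAction S hS
  haveI : Finite N := Module.finite_of_finite (ZMod p)
  haveI := moduleFinite_sUnit S
  haveI : Finite (ModP (MonoidAlgebra ℤ G) p (Additive (SUnit K S))) :=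
    finite_modP_of_fg hp.out.ne_zero
  exact finite_hom _

omit [Fintype G] in
/-- `Hom_G(N, U[p])` is finite. -/
theorem finite_hom_torP_sUnit (ρ : Representation (ZMod p) G N) :
    letI := repAction ρ
    letI := unitAction S hS
    Finite (N →ₗ[MonoidAlgebra ℤ G] TorP (MonoidAlgebra ℤ G) p (Additive (SUnit K S))) := by
  letI := repAction ρ
  letI := unitAction S hS
  haveI : Finite N := Module.finite_of_finite (ZMod p)
  haveI := moduleFinite_sUnit S
  haveI : Finite (TorP (MonoidAlgebra ℤ G) p (Additive (SUnit K S))) :=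
    finite_torP_of_fg hp.out.ne_zero
  exact finite_hom _

/-- **(A5d), `finrank` form**: for any `F_p`-vector spaces `V₁`, `V₂` in bijection with
`Hom_G(N, U/p)` and `Hom_G(N, U[p])` (no finiteness hypothesis on `V₁`, `V₂` needed):
`dim V₁ + dim N^G = dim V₂ + dim {G-equivariant f : S_∞ ⊔ S → N}`. -/
theorem finrank_hom_sUnit_rep (hG : ¬ p ∣ Fintype.card G) (ρ : Representation (ZMod p) G N)
    {V₁ V₂ : Type*} [AddCommGroup V₁] [Module (ZMod p) V₁] [AddCommGroup V₂]
    [Module (ZMod p) V₂] :
    letI := repAction ρ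
    letI := unitAction S hS
    letI := idxMulAction S hS
    (V₁ ≃ (N →ₗ[MonoidAlgebra ℤ G] ModP (MonoidAlgebra ℤ G) p (Additive (SUnit K S)))) →
    (V₂ ≃ (N →ₗ[MonoidAlgebra ℤ G] TorP (MonoidAlgebra ℤ G) p (Additive (SUnit K S)))) →
    finrank (ZMod p) V₁ + finrank (ZMod p) ρ.invariants =
      finrank (ZMod p) V₂ + finrank (ZMod p) (eqFun (Idx K S) ρ) := by
  letI := repAction ρ
  letI := unitAction S hS
  letI := idxMulAction S hS
  intro e₁ e₂
  haveI := finite_hom_modP_sUnit S hS p ρ
  haveI := finite_hom_torP_sUnit S hS p ρ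
  haveI : Finite V₁ := Finite.of_equiv _ e₁.symm
  haveI : Finite V₂ := Finite.of_equiv _ e₂.symm
  haveI : Module.Finite (ZMod p) V₁ := Module.Finite.of_finite
  haveI : Module.Finite (ZMod p) V₂ := Module.Finite.of_finite
  have h := card_hom_sUnit_rep S hS p hG ρ
  rw [← Nat.card_congr e₁, ← Nat.card_congr e₂, natCard_eq_pow_finrank_zmod p V₁,
    natCard_eq_pow_finrank_zmod p V₂, ← pow_add, ← pow_add] at h
  exact Nat.pow_right_injective hp.out.two_le h

/-- **(A5d), exponent form**: `#Hom_G(N, U/p) = p^a`, `#Hom_G(N, U[p]) = p^b` with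
`a + dim N^G = b + dim {G-equivariant f : S_∞ ⊔ S → N}`. -/
theorem exists_exponents_hom_sUnit_rep (hG : ¬ p ∣ Fintype.card G)
    (ρ : Representation (ZMod p) G N) :
    letI := repAction ρ
    letI := unitAction S hS
    letI := idxMulAction S hS
    ∃ a b : ℕ,
      Nat.card (N →ₗ[MonoidAlgebra ℤ G] ModP (MonoidAlgebra ℤ G) p (Additive (SUnit K S))) =
        p ^ a ∧
      Nat.card (N →ₗ[MonoidAlgebra ℤ G] TorP (MonoidAlgebra ℤ G) p (Additive (SUnit K S))) =
        p ^ b ∧
      a + finrank (ZMod p) ρ.invariants = b + finrank (ZMod p) (eqFun (Idx K S) ρ) := by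
  letI := repAction ρ
  letI := unitAction S hS
  letI := idxMulAction S hS
  have k₁ : ∀ f : N →ₗ[MonoidAlgebra ℤ G]
      ModP (MonoidAlgebra ℤ G) p (Additive (SUnit K S)), p • f = 0 := fun f => by
    ext n
    rw [LinearMap.smul_apply, smul_modP_eq_zero, LinearMap.zero_apply]
  have k₂ : ∀ f : N →ₗ[MonoidAlgebra ℤ G]
      TorP (MonoidAlgebra ℤ G) p (Additive (SUnit K S)), p • f = 0 := fun f => by
    ext n
    rw [LinearMap.smul_apply, smul_torP_eq_zero, LinearMap.zero_apply]
  letI m₁ := AddCommGroup.zmodModule (n := p)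
    (G := N →ₗ[MonoidAlgebra ℤ G] ModP (MonoidAlgebra ℤ G) p (Additive (SUnit K S))) k₁
  letI m₂ := AddCommGroup.zmodModule (n := p)
    (G := N →ₗ[MonoidAlgebra ℤ G] TorP (MonoidAlgebra ℤ G) p (Additive (SUnit K S))) k₂
  haveI := finite_hom_modP_sUnit S hS p ρ
  haveI := finite_hom_torP_sUnit S hS p ρ
  haveI : Module.Finite (ZMod p)
      (N →ₗ[MonoidAlgebra ℤ G] ModP (MonoidAlgebra ℤ G) p (Additive (SUnit K S))) :=
    Module.Finite.of_finite
  haveI : Module.Finite (ZMod p)
      (N →ₗ[MonoidAlgebra ℤ G] TorP (MonoidAlgebra ℤ G) p (Additive (SUnit K S))) :=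
    Module.Finite.of_finite
  exact ⟨_, _, natCard_eq_pow_finrank_zmod p _, natCard_eq_pow_finrank_zmod p _,
    finrank_hom_sUnit_rep S hS p hG ρ (Equiv.refl _) (Equiv.refl _)⟩

omit [Fintype G] in
/-- `finrank_hom_sUnit_rep` with the hypothesis on `G` in the form `(Nat.card G).Coprime p`,
`G` merely `Finite`. -/
theorem finrank_hom_sUnit_rep_of_coprime [Finite G] (hG : (Nat.card G).Coprime p)
    (ρ : Representation (ZMod p) G N)
    {V₁ V₂ : Type*} [AddCommGroup V₁] [Module (ZMod p) V₁] [AddCommGroup V₂]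
    [Module (ZMod p) V₂] :
    letI := repAction ρ
    letI := unitAction S hS
    letI := idxMulAction S hS
    (V₁ ≃ (N →ₗ[MonoidAlgebra ℤ G] ModP (MonoidAlgebra ℤ G) p (Additive (SUnit K S)))) →
    (V₂ ≃ (N →ₗ[MonoidAlgebra ℤ G] TorP (MonoidAlgebra ℤ G) p (Additive (SUnit K S)))) →
    finrank (ZMod p) V₁ + finrank (ZMod p) ρ.invariants =
      finrank (ZMod p) V₂ + finrank (ZMod p) (eqFun (Idx K S) ρ) := by
  haveI := Fintype.ofFinite G
  have hG' : ¬ p ∣ Fintype.card G := by
    rw [← Nat.card_eq_fintype_card]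
    exact (Nat.Prime.coprime_iff_not_dvd hp.out).mp hG.symm
  exact finrank_hom_sUnit_rep S hS p hG' ρ

end Main

end Fermat.Agent.S56x.Euler.InvDualBridge
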