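import Fermat.Agent.S56x.Euler.SUnitModP
import Fermat.Agent.S56x.Euler.RepAction
import Fermat.Prelude.Def_ExtCitation_KummerBridge

/-!
# P-S56 (EC) line, the `μ_p`-term of (A5)

`K` a number field containing a primitive `p`-th root of unity `ζ`, `G` a group acting on `K`,
`S` a `G`-stable finite set of primes, `U = O_{K,S}^×` (additively), `R = ℤ[G]`.  Then the
`p`-torsion `U[p] = LatticeModP.TorP R p U` is `ZMod p`, with `g` acting through the character
`c g` determined by `g • ζ = ζ ^ (c g).val` (`torPEquiv`, `torPEquiv_smul`).  Consequently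

`Hom_R(N, U[p]) ≃ {φ : N →+ ZMod p // φ (g • n) = c g * φ n}`   (`homTorPEquiv`).

In the Galois setting (`K` an intermediate field of `Qbar/ℚ`, finite and normal, containing
`μ_p`, `G = C ≤ Gal(K/ℚ)`) the character is the mod `p` cyclotomic character `cycloChar p` of
the Prelude evaluated on any lift to `Γℚ` (`homTorPEquivGal`).
-/

set_option autoImplicit false
set_option linter.style.haveILetI false

namespace Fermat.Agent.S56x.Euler.MuPTerm

open NumberField IsDedekindDomain Function MonoidAlgebra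
open Fermat.Agent.Lib.CFT.Global.SUnits
open Fermat.Agent.S56x.Euler.LatticeModP Fermat.Agent.S56x.Euler.SUnitModP
  Fermat.Agent.S56x.Euler.RepAction

universe u w

section Generic

variable {K : Type} [Field K] [NumberField K] (S : Finset (HeightOneSpectrum (𝓞 K)))
variable {G : Type u} [Group G] [MulSemiringAction G K] (hS : IsStableUnder G S)
variable (p : ℕ) [hp : Fact p.Prime]

/-- A unit of finite order is an `S`-unit. -/
theorem mem_sUnit_of_pow_eq_one {n : ℕ} (hn : n ≠ 0) (x : Kˣ) (hx : x ^ n = 1) :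
    x ∈ SUnit K S := by
  rw [mem_sUnit_iff]
  intro v _
  have h := ordAt_pow v x n
  rw [hx, ordAt_one] at h
  have hn' : (n : ℤ) ≠ 0 := by exact_mod_cast hn
  rcases mul_eq_zero.mp h.symm with h0 | h0
  · exact absurd h0 hn'
  · exact h0

variable {p}

/-- A `p`-th root of unity of `K`, as an `S`-unit. -/
noncomputable def rootSUnit (ζ : K) (hζ : ζ ^ p = 1) : SUnit K S :=
  ⟨(IsUnit.of_pow_eq_one hζ hp.out.ne_zero).unit, mem_sUnit_of_pow_eq_one S hp.out.ne_zero _ (by
    apply Units.ext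
    rw [Units.val_pow_eq_pow_val, IsUnit.unit_spec, hζ, Units.val_one])⟩

@[simp] theorem rootSUnit_val (ζ : K) (hζ : ζ ^ p = 1) :
    (((rootSUnit S ζ hζ : SUnit K S) : Kˣ) : K) = ζ := rfl

theorem rootSUnit_pow (ζ : K) (hζ : ζ ^ p = 1) : rootSUnit S ζ hζ ^ p = 1 := by
  apply Subtype.ext
  apply Units.ext
  show (((rootSUnit S ζ hζ ^ p : SUnit K S) : Kˣ) : K) = 1
  rw [Subgroup.coe_pow, Units.val_pow_eq_pow_val, rootSUnit_val, hζ]

attribute [local instance] zgModule

/-- The generator of `U[p]` attached to `ζ`. -/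
noncomputable def torGen (ζ : K) (hζ : ζ ^ p = 1) :
    letI := unitAction S hS
    TorP (MonoidAlgebra ℤ G) p (Additive (SUnit K S)) :=
  letI := unitAction S hS
  ⟨Additive.ofMul (rootSUnit S ζ hζ), by
    rw [mem_torP]
    show Additive.ofMul (rootSUnit S ζ hζ ^ p) = 0
    rw [rootSUnit_pow]; rfl⟩

theorem torGen_val (ζ : K) (hζ : ζ ^ p = 1) :
    letI := unitAction S hS
    ((torGen S hS ζ hζ : TorP (MonoidAlgebra ℤ G) p (Additive (SUnit K S))) :
      Additive (SUnit K S)) = Additive.ofMul (rootSUnit S ζ hζ) := rfl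

/-- The map `ZMod p → U[p]`, `a ↦ a • ζ` (i.e. `ζ ^ a`). -/
noncomputable def ofZMod (ζ : K) (hζ : ζ ^ p = 1) :
    letI := unitAction S hS
    ZMod p →+ TorP (MonoidAlgebra ℤ G) p (Additive (SUnit K S)) :=
  letI := unitAction S hS
  ZMod.lift p ⟨zmultiplesHom _ (torGen S hS ζ hζ), by
    rw [zmultiplesHom_apply, natCast_zsmul]
    exact smul_torP_eq_zero _⟩

theorem ofZMod_intCast (ζ : K) (hζ : ζ ^ p = 1) (m : ℤ) :
    letI := unitAction S hS
    ofZMod S hS ζ hζ (m : ZMod p) = m • torGen S hS ζ hζ := by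
  letI := unitAction S hS
  rw [ofZMod, ZMod.lift_coe]
  rfl

theorem zsmul_torGen_val (ζ : K) (hζ : ζ ^ p = 1) (m : ℤ) :
    letI := unitAction S hS
    ((m • torGen S hS ζ hζ : TorP (MonoidAlgebra ℤ G) p (Additive (SUnit K S))) :
      Additive (SUnit K S)) = Additive.ofMul (rootSUnit S ζ hζ ^ m) := by
  letI := unitAction S hS
  rw [Submodule.coe_smul_of_tower, torGen_val]
  rfl

theorem ofZMod_injective (ζ : K) (hζ : IsPrimitiveRoot ζ p) :
    letI := unitAction S hS
    Injective (ofZMod S hS ζ hζ.pow_eq_one) := by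
  letI := unitAction S hS
  rw [ofZMod, ZMod.lift_injective]
  intro m hm
  rw [zmultiplesHom_apply] at hm
  have h1 := congrArg Subtype.val hm
  rw [zsmul_torGen_val] at h1
  have h2 : rootSUnit S ζ hζ.pow_eq_one ^ m = 1 := h1
  have h3 : ζ ^ m = 1 := by
    have := congrArg (fun u : SUnit K S => ((u : Kˣ) : K)) h2
    simpa using this
  rw [hζ.zpow_eq_one_iff_dvd] at h3
  exact (ZMod.intCast_zmod_eq_zero_iff_dvd m p).mpr h3

theorem ofZMod_surjective (ζ : K) (hζ : IsPrimitiveRoot ζ p) :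
    letI := unitAction S hS
    Surjective (ofZMod S hS ζ hζ.pow_eq_one) := by
  letI := unitAction S hS
  intro b
  have hb : p • (b : Additive (SUnit K S)) = 0 := mem_torP.mp b.2
  have hb' : ((((b : Additive (SUnit K S)).toMul : SUnit K S) : Kˣ) : K) ^ p = 1 := by
    have h1 : ((b : Additive (SUnit K S)).toMul) ^ p = 1 := hb
    have := congrArg (fun u : SUnit K S => ((u : Kˣ) : K)) h1
    simpa using this
  haveI : NeZero p := ⟨hp.out.ne_zero⟩
  obtain ⟨i, _, hi⟩ := hζ.eq_pow_of_pow_eq_one hb'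
  refine ⟨((i : ℤ) : ZMod p), ?_⟩
  rw [ofZMod_intCast]
  apply Subtype.ext
  rw [zsmul_torGen_val]
  show Additive.ofMul (rootSUnit S ζ hζ.pow_eq_one ^ (i : ℤ)) = (b : Additive (SUnit K S))
  have : rootSUnit S ζ hζ.pow_eq_one ^ (i : ℤ) = (b : Additive (SUnit K S)).toMul := by
    apply Subtype.ext
    apply Units.ext
    rw [zpow_natCast]
    show (((rootSUnit S ζ hζ.pow_eq_one ^ i : SUnit K S) : Kˣ) : K) = _
    rw [Subgroup.coe_pow, Units.val_pow_eq_pow_val, rootSUnit_val, hi]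
  rw [this]
  rfl

/-- **`U[p] ≃ ZMod p`** for `U = O_{K,S}^×`, attached to a primitive `p`-th root of unity. -/
noncomputable def torPEquiv (ζ : K) (hζ : IsPrimitiveRoot ζ p) :
    letI := unitAction S hS
    TorP (MonoidAlgebra ℤ G) p (Additive (SUnit K S)) ≃+ ZMod p :=
  letI := unitAction S hS
  (AddEquiv.ofBijective (ofZMod S hS ζ hζ.pow_eq_one)
    ⟨ofZMod_injective S hS ζ hζ, ofZMod_surjective S hS ζ hζ⟩).symm

theorem torPEquiv_symm_apply (ζ : K) (hζ : IsPrimitiveRoot ζ p) (a : ZMod p) :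
    letI := unitAction S hS
    (torPEquiv S hS ζ hζ).symm a = ofZMod S hS ζ hζ.pow_eq_one a := rfl

/-- The Galois action on `U[p] = ZMod p` is through the character `c`. -/
theorem smul_ofZMod (ζ : K) (hζ : IsPrimitiveRoot ζ p) (g : G) (c : ZMod p)
    (hg : g • ζ = ζ ^ c.val) (a : ZMod p) :
    letI := unitAction S hS
    (single g (1 : ℤ) : MonoidAlgebra ℤ G) • ofZMod S hS ζ hζ.pow_eq_one a =
      ofZMod S hS ζ hζ.pow_eq_one (c * a) := by
  letI := unitAction S hS
  obtain ⟨m, rfl⟩ := ZMod.intCast_surjective a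
  haveI : NeZero p := ⟨hp.out.ne_zero⟩
  have hc : c = ((c.val : ℤ) : ZMod p) := by
    rw [Int.cast_natCast, ZMod.natCast_val, ZMod.cast_id', id]
  rw [hc, ← Int.cast_mul, ofZMod_intCast, ofZMod_intCast]
  apply Subtype.ext
  rw [Submodule.coe_smul, zsmul_torGen_val, zsmul_torGen_val, single_one_smul]
  show Additive.ofMul (sUnitMap (MulSemiringAction.toRingEquiv G K g) S (hS g)
    (rootSUnit S ζ hζ.pow_eq_one ^ m)) = _
  congr 1
  apply Subtype.ext
  apply Units.ext
  rw [map_zpow, zpow_mul, zpow_natCast]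
  show (((sUnitMap (MulSemiringAction.toRingEquiv G K g) S (hS g)
    (rootSUnit S ζ hζ.pow_eq_one) ^ m : SUnit K S) : Kˣ) : K) =
    ((((rootSUnit S ζ hζ.pow_eq_one ^ c.val) ^ m : SUnit K S) : Kˣ) : K)
  rw [Subgroup.coe_zpow, Subgroup.coe_zpow, Units.val_zpow_eq_zpow_val, Units.val_zpow_eq_zpow_val,
    sUnitMap_val, Subgroup.coe_pow, Units.val_pow_eq_pow_val, rootSUnit_val]
  congr 1

theorem torPEquiv_smul (ζ : K) (hζ : IsPrimitiveRoot ζ p) (g : G) (c : ZMod p)
    (hg : g • ζ = ζ ^ c.val) :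
    letI := unitAction S hS
    ∀ b : TorP (MonoidAlgebra ℤ G) p (Additive (SUnit K S)),
      torPEquiv S hS ζ hζ ((single g (1 : ℤ) : MonoidAlgebra ℤ G) • b) =
        c * torPEquiv S hS ζ hζ b := by
  letI := unitAction S hS
  intro b
  obtain ⟨a, rfl⟩ := (torPEquiv S hS ζ hζ).symm.surjective b
  rw [AddEquiv.apply_symm_apply, torPEquiv_symm_apply S hS ζ hζ, smul_ofZMod S hS ζ hζ g c hg,
    ← torPEquiv_symm_apply S hS ζ hζ, AddEquiv.apply_symm_apply]

/-- Transport of a subtype of additive maps along an additive equivalence of the target. -/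
def subtypePostEquiv {A B B' : Type*} [AddCommGroup A] [AddCommGroup B] [AddCommGroup B']
    (e : B ≃+ B') (P : (A →+ B) → Prop) (Q : (A →+ B') → Prop)
    (h : ∀ φ : A →+ B, P φ ↔ Q (e.toAddMonoidHom.comp φ)) : {φ // P φ} ≃ {ψ // Q ψ} where
  toFun φ := ⟨e.toAddMonoidHom.comp φ.1, (h _).1 φ.2⟩
  invFun ψ := ⟨e.symm.toAddMonoidHom.comp ψ.1, (h _).2 (by
    have : e.toAddMonoidHom.comp (e.symm.toAddMonoidHom.comp ψ.1) = ψ.1 := by
      ext a
      exact e.apply_symm_apply _
    rw [this]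
    exact ψ.2)⟩
  left_inv φ := by
    apply Subtype.ext
    ext a
    exact e.symm_apply_apply _
  right_inv ψ := by
    apply Subtype.ext
    ext a
    exact e.apply_symm_apply _

/-- **The `μ_p`-term, generic form**: `ℤ[G]`-linear maps `N → U[p]` are the additive maps
`φ : N → ZMod p` with `φ (g • n) = c g * φ n`, where `g • ζ = ζ ^ (c g).val`. -/
noncomputable def homTorPEquiv (ζ : K) (hζ : IsPrimitiveRoot ζ p) (c : G → ZMod p)
    (hc : ∀ g : G, g • ζ = ζ ^ (c g).val) (N : Type w) [AddCommGroup N] [DistribMulAction G N] :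
    letI := unitAction S hS
    (N →ₗ[MonoidAlgebra ℤ G] TorP (MonoidAlgebra ℤ G) p (Additive (SUnit K S))) ≃
      {φ : N →+ ZMod p // ∀ (g : G) (n : N), φ (g • n) = c g * φ n} :=
  letI := unitAction S hS
  (linEquivSubtype (A := N) (TorP (MonoidAlgebra ℤ G) p (Additive (SUnit K S)))).trans
    (subtypePostEquiv (torPEquiv S hS ζ hζ) _ _ (fun φ => by
      refine forall_congr' fun g => forall_congr' fun n => ?_
      show _ ↔ torPEquiv S hS ζ hζ (φ (g • n)) = c g * torPEquiv S hS ζ hζ (φ n)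
      rw [← torPEquiv_smul S hS ζ hζ g (c g) (hc g)]
      exact (torPEquiv S hS ζ hζ).injective.eq_iff.symm))

theorem homTorPEquiv_apply (ζ : K) (hζ : IsPrimitiveRoot ζ p) (c : G → ZMod p)
    (hc : ∀ g : G, g • ζ = ζ ^ (c g).val) (N : Type w) [AddCommGroup N] [DistribMulAction G N] :
    letI := unitAction S hS
    ∀ (f : N →ₗ[MonoidAlgebra ℤ G] TorP (MonoidAlgebra ℤ G) p (Additive (SUnit K S))) (n : N),
      (homTorPEquiv S hS ζ hζ c hc N f : N →+ ZMod p) n = torPEquiv S hS ζ hζ (f n) := by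
  intro f n
  rfl

theorem card_homTorP (ζ : K) (hζ : IsPrimitiveRoot ζ p) (c : G → ZMod p)
    (hc : ∀ g : G, g • ζ = ζ ^ (c g).val) (N : Type w) [AddCommGroup N] [DistribMulAction G N] :
    letI := unitAction S hS
    Nat.card (N →ₗ[MonoidAlgebra ℤ G] TorP (MonoidAlgebra ℤ G) p (Additive (SUnit K S))) =
      Nat.card {φ : N →+ ZMod p // ∀ (g : G) (n : N), φ (g • n) = c g * φ n} :=
  Nat.card_congr (homTorPEquiv S hS ζ hζ c hc N)

end Generic

/-! ### The Galois setting -/

section Galois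

open ExtCitation

local notation "Qbar" => AlgebraicClosure ℚ
local notation "Γℚ" => (AlgebraicClosure ℚ ≃ₐ[ℚ] AlgebraicClosure ℚ)

local instance isAlgebraicQbar_mu : Algebra.IsAlgebraic ℚ (AlgebraicClosure ℚ) :=
  AlgebraicClosure.isAlgebraic ℚ
local instance isAlgClosureQbar_mu : IsAlgClosure ℚ (AlgebraicClosure ℚ) :=
  ⟨inferInstance, inferInstance⟩
local instance normalQbar_mu : Normal ℚ (AlgebraicClosure ℚ) :=
  IsAlgClosure.normal ℚ (AlgebraicClosure ℚ)
local instance isGaloisQbar_mu : IsGalois ℚ (AlgebraicClosure ℚ) := ⟨⟩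

variable (p : ℕ) [hp : Fact p.Prime]

/-- `σ ζ = ζ ^ χ(σ)` for a `p`-th root of unity `ζ ∈ Qbar` and `χ = cycloChar p`. -/
theorem apply_root_eq_pow (σ : Γℚ) (ζ : Qbar) (hζ : ζ ^ p = 1) :
    σ ζ = ζ ^ ((cycloChar p σ : (ZMod p)ˣ) : ZMod p).val := by
  haveI : NeZero p := ⟨hp.out.ne_zero⟩
  exact modularCyclotomicCharacter.spec Qbar (ExtCitation.card_rootsOfUnity_eq_self p)
    (σ : Qbar ≃+* Qbar)
    (t := ((rootsOfUnity.mkOfPowEq ζ hζ : rootsOfUnity p Qbar) : Qbarˣ))
    (rootsOfUnity.mkOfPowEq ζ hζ).2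

variable (K : IntermediateField ℚ Qbar)

/-- A level field whose absolute Galois group lies in `ker χ_p` contains `μ_p`. -/
theorem exists_primitiveRoot_of_le_ker (hle : K.fixingSubgroup ≤ (cycloChar p).ker) :
    ∃ ζ : K, IsPrimitiveRoot ζ p := by
  haveI : NeZero p := ⟨hp.out.ne_zero⟩
  haveI : NeZero (p : Qbar) := ⟨Nat.cast_ne_zero.mpr (NeZero.ne p)⟩
  obtain ⟨ζ, hζ⟩ : ∃ ζ : Qbar, IsPrimitiveRoot ζ p :=
    HasEnoughRootsOfUnity.exists_primitiveRoot Qbar p
  have hmem : ζ ∈ K := by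
    rw [← InfiniteGalois.fixedField_fixingSubgroup K, IntermediateField.mem_fixedField_iff]
    intro σ hσ
    have h := apply_root_eq_pow p σ ζ hζ.pow_eq_one
    have h1 : cycloChar p σ = 1 := MonoidHom.mem_ker.1 (hle hσ)
    haveI : Fact (1 < p) := ⟨hp.out.one_lt⟩
    rw [h1, Units.val_one, ZMod.val_one, pow_one] at h
    exact h
  exact ⟨⟨ζ, hmem⟩, IsPrimitiveRoot.of_map_of_injective (f := algebraMap K Qbar) hζ
    (algebraMap K Qbar).injective⟩

variable [Normal ℚ K]

/-- The restriction of `σ` to `K` raises the `p`-th roots of unity of `K` to the power `χ(σ)`. -/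
theorem restrict_root_eq_pow (σ : Γℚ) (ζ : K) (hζ : ζ ^ p = 1) :
    AlgEquiv.restrictNormalHom K σ ζ = ζ ^ ((cycloChar p σ : (ZMod p)ˣ) : ZMod p).val := by
  apply Subtype.ext
  have h1 : ((AlgEquiv.restrictNormalHom K σ ζ : K) : Qbar) = σ (ζ : Qbar) :=
    AlgEquiv.restrictNormal_commutes σ K ζ
  rw [h1, apply_root_eq_pow p σ (ζ : Qbar) (by
    have := congrArg (fun x : K => (x : Qbar)) hζ
    simpa using this)]
  simp

/-- Two lifts of the same automorphism of `K` have the same cyclotomic character, when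
`Gal(Qbar/K) ≤ ker χ_p`. -/
theorem cycloChar_eq_of_restrict_eq (hle : K.fixingSubgroup ≤ (cycloChar p).ker) (σ τ : Γℚ)
    (h : AlgEquiv.restrictNormalHom K σ = AlgEquiv.restrictNormalHom K τ) :
    cycloChar p σ = cycloChar p τ := by
  have h1 : σ⁻¹ * τ ∈ K.fixingSubgroup := by
    rw [IntermediateField.mem_fixingSubgroup_iff]
    intro x hx
    have hσ : ((AlgEquiv.restrictNormalHom K σ ⟨x, hx⟩ : K) : Qbar) = σ x :=
      AlgEquiv.restrictNormal_commutes σ K ⟨x, hx⟩
    have hτ : ((AlgEquiv.restrictNormalHom K τ ⟨x, hx⟩ : K) : Qbar) = τ x :=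
      AlgEquiv.restrictNormal_commutes τ K ⟨x, hx⟩
    rw [h, hτ] at hσ
    rw [AlgEquiv.mul_apply, hσ]
    show σ⁻¹ (σ x) = x
    rw [← AlgEquiv.mul_apply, inv_mul_cancel]
    rfl
  have h2 := MonoidHom.mem_ker.1 (hle h1)
  rw [map_mul, map_inv, inv_mul_eq_one] at h2
  exact h2

variable [NumberField K] {p}
variable (C : Subgroup (K ≃ₐ[ℚ] K)) (S : Finset (HeightOneSpectrum (𝓞 K)))
  (hS : IsStableUnder C S)

/-- A lift to `Γℚ` of an element of `Gal(K/ℚ)`. -/
noncomputable def liftGal (g : K ≃ₐ[ℚ] K) : Γℚ :=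
  Classical.choose (AlgEquiv.restrictNormalHom_surjective (F := ℚ) (K₁ := K) Qbar g)

omit [NumberField K] in
theorem restrict_liftGal (g : K ≃ₐ[ℚ] K) : AlgEquiv.restrictNormalHom K (liftGal K g) = g :=
  Classical.choose_spec (AlgEquiv.restrictNormalHom_surjective (F := ℚ) (K₁ := K) Qbar g)

attribute [local instance] zgModule

/-- **The `μ_p`-term, Galois form**: for `K/ℚ` finite normal inside `Qbar` with
`Gal(Qbar/K) ≤ ker χ_p`, `C ≤ Gal(K/ℚ)`, `U = O_{K,S}^×`:
`Hom_{ℤ[C]}(N, U[p]) ≃ {φ : N →+ ZMod p // φ (σ|_K • n) = χ_p(σ) φ n for all σ ∈ Γℚ with σ|_K ∈ C}`.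
The equivalence depends on the choice of a primitive `p`-th root of unity `ζ ∈ K`. -/
noncomputable def homTorPEquivGal (hle : K.fixingSubgroup ≤ (cycloChar p).ker) (ζ : K)
    (hζ : IsPrimitiveRoot ζ p) (N : Type w) [AddCommGroup N] [DistribMulAction C N] :
    letI := unitAction S hS
    (N →ₗ[MonoidAlgebra ℤ C] TorP (MonoidAlgebra ℤ C) p (Additive (SUnit K S))) ≃
      {φ : N →+ ZMod p // ∀ (σ : Γℚ) (hσ : AlgEquiv.restrictNormalHom K σ ∈ C) (n : N),
        φ ((⟨AlgEquiv.restrictNormalHom K σ, hσ⟩ : C) • n) =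
          ((cycloChar p σ : (ZMod p)ˣ) : ZMod p) * φ n} :=
  letI := unitAction S hS
  (homTorPEquiv S hS ζ hζ
    (fun g : C => ((cycloChar p (liftGal K g.1) : (ZMod p)ˣ) : ZMod p))
    (fun g => by
      have h := restrict_root_eq_pow p K (liftGal K g.1) ζ hζ.pow_eq_one
      rw [restrict_liftGal] at h
      exact h) N).trans
    (Equiv.subtypeEquivRight (fun φ => by
      constructor
      · intro h σ hσ n
        rw [h ⟨_, hσ⟩ n]
        congr 2
        exact cycloChar_eq_of_restrict_eq p K hle _ _ (restrict_liftGal K _)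
      · intro h g n
        have h1 := h (liftGal K g.1) (by rw [restrict_liftGal]; exact g.2) n
        have h2 : (⟨AlgEquiv.restrictNormalHom K (liftGal K g.1),
            by rw [restrict_liftGal]; exact g.2⟩ : C) = g :=
          Subtype.ext (restrict_liftGal K g.1)
        rw [h2] at h1
        exact h1))

theorem card_homTorP_gal (hle : K.fixingSubgroup ≤ (cycloChar p).ker)
    (N : Type w) [AddCommGroup N] [DistribMulAction C N] :
    letI := unitAction S hS
    Nat.card (N →ₗ[MonoidAlgebra ℤ C] TorP (MonoidAlgebra ℤ C) p (Additive (SUnit K S))) =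
      Nat.card {φ : N →+ ZMod p // ∀ (σ : Γℚ) (hσ : AlgEquiv.restrictNormalHom K σ ∈ C)
        (n : N), φ ((⟨AlgEquiv.restrictNormalHom K σ, hσ⟩ : C) • n) =
          ((cycloChar p σ : (ZMod p)ˣ) : ZMod p) * φ n} := by
  obtain ⟨ζ, hζ⟩ := exists_primitiveRoot_of_le_ker p K hle
  exact Nat.card_congr (homTorPEquivGal K C S hS hle ζ hζ N)

/-- Representation form of `card_homTorP_gal`: for `ρ : Representation (ZMod p) C N` the
right-hand side is the space of `ZMod p`-linear forms `φ` on `N` with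
`φ (ρ (σ|_K) n) = χ_p(σ) φ n`, i.e. the invariants of the dual of `N` twisted by `χ_p`. -/
theorem card_homTorP_rep (hle : K.fixingSubgroup ≤ (cycloChar p).ker)
    (N : Type w) [AddCommGroup N] [Module (ZMod p) N] (ρ : Representation (ZMod p) C N) :
    letI := unitAction S hS
    letI := repAction ρ
    Nat.card (N →ₗ[MonoidAlgebra ℤ C] TorP (MonoidAlgebra ℤ C) p (Additive (SUnit K S))) =
      Nat.card {φ : N →ₗ[ZMod p] ZMod p // ∀ (σ : Γℚ)
        (hσ : AlgEquiv.restrictNormalHom K σ ∈ C) (n : N),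
          φ (ρ (⟨AlgEquiv.restrictNormalHom K σ, hσ⟩ : C) n) =
            ((cycloChar p σ : (ZMod p)ˣ) : ZMod p) * φ n} := by
  letI := unitAction S hS
  letI := repAction ρ
  rw [card_homTorP_gal K C S hS hle N]
  exact Nat.card_congr (Equiv.subtypeEquiv (AddMonoidHom.toZModLinearMapEquiv p).toEquiv
    (fun φ => Iff.rfl))

end Galois

end Fermat.Agent.S56x.Euler.MuPTerm
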