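import Fermat.Agent.Lib.CFT.Duality.CoindDual

/-!
# P-S56, block (B), (EC) line: invariants of a coinduced module under a subgroup (generic `H⁰` lemma)

`G` a group, `W V D : Subgroup G` with `V ≤ W`, `M0 : Rep k G` on which `V` acts trivially, and
`P W M0 = Coind_W^G (M0|_W)` (`Lib/CFT/Duality/DevissageRep`: functions `f : G → M0` with
`f (w g) = w f(g)`, action `(γ f)(g) = f (g γ)`).  Then

  `(P W M0)^D  ≃ₗ[k]  { h : D \ G / V → M0 | ∀ w ∈ W, ∀ g, h [g w⁻¹] = w h [g] }`,

by **`h [g] = f (g⁻¹)`**, `f (g) = h [g⁻¹]`  (`invEquiv`).  No normality of `V` is needed for the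
statement (if `V` is normal in `W`, `[g] ↦ [g w⁻¹]` is a right action of `W` on `D \ G / V` and the
right-hand side is the module of `W`-equivariant maps).

* `invSub W D M0`, `mem_invSub_iff`, `invSub_range_eq_invariants` (`D = f.range`: the invariants
  of `Rep.res f (P W M0)`), `invSub_zpowers_iff` (`D = zpowers c`: `c x = x`);
* `eqvFun W V D M0`, `mem_eqvFun_iff`;
* `invEquiv`, `invEquiv_apply_mk`, `invEquiv_symm_apply`;
* `finrank_invSub_eq`, `card_invSub_eq`;
* `eqvFun_eq_top` : for `W = V` the condition is empty (`(P V M0)^D ≃ (D \ G / V → M0)`).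

Consumers (helper11's `Euler/Hind`): `P⁰(I)` (`D` = range of `primeLocalToGlobal q`) and
`fix_c(I)` (`D = zpowers complexConjugation`).
-/

set_option autoImplicit false

universe u

open Fermat.Agent.Lib.CFT.Duality.DevissageRep

namespace Fermat.Agent.S56x.Euler.CoindInvariants

variable {k G : Type u} [CommRing k] [Group G] (W V D : Subgroup G) (M0 : Rep.{u} k G)

/-- the `D`-invariants of `P W M0`. -/
def invSub : Submodule k (P W M0) where
  carrier := {x | ∀ d ∈ D, (P W M0).ρ d x = x}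
  add_mem' {x y} hx hy d hd := by rw [map_add, hx d hd, hy d hd]
  zero_mem' d _ := map_zero _
  smul_mem' c x hx d hd := by rw [map_smul, hx d hd]

theorem mem_invSub_iff {x : P W M0} : x ∈ invSub W D M0 ↔ ∀ d ∈ D, (P W M0).ρ d x = x := Iff.rfl

/-- in terms of values: right `D`-invariance of the underlying function. -/
theorem mem_invSub_iff_apply {x : P W M0} :
    x ∈ invSub W D M0 ↔ ∀ d ∈ D, ∀ g : G, x.1 (g * d) = x.1 g := by
  constructor
  · intro h d hd g
    have := congrArg (fun y : P W M0 => y.1 g) (h d hd)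
    exact this
  · intro h d hd
    apply Subtype.ext
    funext g
    exact h d hd g

/-- for `D` the range of a homomorphism `f : H →* G`, these are the invariants of the restricted
representation. -/
theorem invSub_range_eq_invariants {H : Type u} [Group H] (f : H →* G) :
    invSub W f.range M0 = (Rep.res f (P W M0)).ρ.invariants := by
  ext x
  constructor
  · intro hx h
    exact hx (f h) ⟨h, rfl⟩
  · rintro hx d ⟨h, rfl⟩
    exact hx h

/-- for `D` generated by one element `c`: the fixed points of `c`. -/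
theorem mem_invSub_zpowers_iff (c : G) {x : P W M0} :
    x ∈ invSub W (Subgroup.zpowers c) M0 ↔ (P W M0).ρ c x = x := by
  constructor
  · intro h
    exact h c (Subgroup.mem_zpowers c)
  · intro h d hd
    obtain ⟨n, rfl⟩ := Subgroup.mem_zpowers_iff.mp hd
    have hinv : (P W M0).ρ c⁻¹ x = x := by
      conv_lhs => rw [← h]
      rw [← Module.End.mul_apply, ← map_mul, inv_mul_cancel, map_one, Module.End.one_apply]
    have key : ∀ (a : G), (P W M0).ρ a x = x → ∀ m : ℕ, (P W M0).ρ (a ^ m) x = x := by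
      intro a ha m
      induction m with
      | zero => rw [pow_zero, map_one, Module.End.one_apply]
      | succ m ih => rw [pow_succ, map_mul, Module.End.mul_apply, ha, ih]
    rcases Int.eq_nat_or_neg n with ⟨m, rfl | rfl⟩
    · rw [zpow_natCast]; exact key c h m
    · rw [zpow_neg, zpow_natCast, ← inv_pow]; exact key c⁻¹ hinv m

/-- the functions on `D \ G / V` which are `W`-equivariant for `[g] ↦ [g w⁻¹]`. -/
def eqvFun : Submodule k (DoubleCoset.Quotient (D : Set G) (V : Set G) → M0) where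
  carrier := {h | ∀ w ∈ W, ∀ g : G,
    h (DoubleCoset.mk D V (g * w⁻¹)) = M0.ρ w (h (DoubleCoset.mk D V g))}
  add_mem' {h h'} hh hh' w hw g := by
    rw [Pi.add_apply, Pi.add_apply, hh w hw g, hh' w hw g, map_add]
  zero_mem' w _ g := by rw [Pi.zero_apply, Pi.zero_apply, map_zero]
  smul_mem' c h hh w hw g := by
    rw [Pi.smul_apply, Pi.smul_apply, hh w hw g, map_smul]

theorem mem_eqvFun_iff {h : DoubleCoset.Quotient (D : Set G) (V : Set G) → M0} :
    h ∈ eqvFun W V D M0 ↔ ∀ w ∈ W, ∀ g : G,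
      h (DoubleCoset.mk D V (g * w⁻¹)) = M0.ρ w (h (DoubleCoset.mk D V g)) := Iff.rfl

/-- for `W = V` (acting trivially) the condition is empty. -/
theorem eqvFun_eq_top (hV : ∀ v ∈ V, M0.ρ v = 1) : eqvFun V V D M0 = ⊤ := by
  rw [eq_top_iff]
  intro h _ w hw g
  have e : DoubleCoset.mk D V (g * w⁻¹) = DoubleCoset.mk D V g :=
    ((DoubleCoset.eq D V (g * w⁻¹) g).mpr ⟨1, D.one_mem, w, hw, by group⟩)
  rw [e, hV w hw, Module.End.one_apply]

variable {W V D M0}

/-- the function on `D \ G / V` attached to a `D`-invariant element: `[g] ↦ f (g⁻¹)`. -/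
def toFun (hVW : V ≤ W) (hV : ∀ v ∈ V, M0.ρ v = 1) (x : invSub W D M0) :
    DoubleCoset.Quotient (D : Set G) (V : Set G) → M0 :=
  Quotient.lift (fun g : G => x.1.1 g⁻¹) (by
    intro a b hab
    obtain ⟨d, hd, v, hv, rfl⟩ := DoubleCoset.rel_iff.mp hab
    show x.1.1 a⁻¹ = x.1.1 (d * a * v)⁻¹
    have e : (d * a * v)⁻¹ = v⁻¹ * (a⁻¹ * d⁻¹) := by group
    rw [e, P_prop W M0 x.1 v⁻¹ (hVW (V.inv_mem hv)), hV v⁻¹ (V.inv_mem hv),
      Module.End.one_apply]
    exact ((mem_invSub_iff_apply W D M0).mp x.2 d⁻¹ (D.inv_mem hd) a⁻¹).symm)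

theorem toFun_mk (hVW : V ≤ W) (hV : ∀ v ∈ V, M0.ρ v = 1) (x : invSub W D M0) (g : G) :
    toFun hVW hV x (DoubleCoset.mk D V g) = x.1.1 g⁻¹ := rfl

theorem toFun_mem (hVW : V ≤ W) (hV : ∀ v ∈ V, M0.ρ v = 1) (x : invSub W D M0) :
    toFun hVW hV x ∈ eqvFun W V D M0 := by
  intro w hw g
  rw [toFun_mk, toFun_mk]
  have e : (g * w⁻¹)⁻¹ = w * g⁻¹ := by group
  rw [e, P_prop W M0 x.1 w hw]

/-- the element of `P W M0` attached to a `W`-equivariant function: `g ↦ h [g⁻¹]`. -/
def ofFun (h : eqvFun W V D M0) : P W M0 :=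
  ⟨fun g => h.1 (DoubleCoset.mk D V g⁻¹), by
    intro w g
    show h.1 (DoubleCoset.mk D V (W.subtype w * g)⁻¹) =
      (Rep.res W.subtype M0).ρ w (h.1 (DoubleCoset.mk D V g⁻¹))
    have e : (W.subtype w * g)⁻¹ = g⁻¹ * (w : G)⁻¹ := by
      rw [mul_inv_rev]; rfl
    rw [e, h.2 (w : G) w.2 g⁻¹]
    rfl⟩

theorem ofFun_apply (h : eqvFun W V D M0) (g : G) :
    (ofFun h).1 g = h.1 (DoubleCoset.mk D V g⁻¹) := rfl

theorem ofFun_mem (h : eqvFun W V D M0) : ofFun h ∈ invSub W D M0 := by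
  rw [mem_invSub_iff_apply]
  intro d hd g
  rw [ofFun_apply, ofFun_apply]
  exact congrArg h.1 ((DoubleCoset.eq D V (g * d)⁻¹ g⁻¹).mpr ⟨d, hd, 1, V.one_mem, by group⟩)

/-- **the generic `H⁰` lemma**: `(Coind_W^G M0)^D ≃ { W-equivariant functions on D \ G / V }`. -/
def invEquiv (hVW : V ≤ W) (hV : ∀ v ∈ V, M0.ρ v = 1) :
    invSub W D M0 ≃ₗ[k] eqvFun W V D M0 where
  toFun x := ⟨toFun hVW hV x, toFun_mem hVW hV x⟩
  map_add' x y := by
    apply Subtype.ext
    funext q
    induction q using Quotient.inductionOn with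
    | h g => rfl
  map_smul' c x := by
    apply Subtype.ext
    funext q
    induction q using Quotient.inductionOn with
    | h g => rfl
  invFun h := ⟨ofFun h, ofFun_mem h⟩
  left_inv x := by
    apply Subtype.ext
    apply Subtype.ext
    funext g
    show toFun hVW hV x (DoubleCoset.mk D V g⁻¹) = x.1.1 g
    rw [toFun_mk, inv_inv]
  right_inv h := by
    apply Subtype.ext
    funext q
    induction q using Quotient.inductionOn with
    | h g =>
      show (ofFun h).1 g⁻¹ = h.1 (DoubleCoset.mk D V g)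
      rw [ofFun_apply, inv_inv]

theorem invEquiv_apply_mk (hVW : V ≤ W) (hV : ∀ v ∈ V, M0.ρ v = 1) (x : invSub W D M0) (g : G) :
    (invEquiv hVW hV x).1 (DoubleCoset.mk D V g) = x.1.1 g⁻¹ := rfl

theorem invEquiv_symm_apply (hVW : V ≤ W) (hV : ∀ v ∈ V, M0.ρ v = 1) (h : eqvFun W V D M0)
    (g : G) : ((invEquiv hVW hV).symm h).1.1 g = h.1 (DoubleCoset.mk D V g⁻¹) := rfl

theorem finrank_invSub_eq (hVW : V ≤ W) (hV : ∀ v ∈ V, M0.ρ v = 1) :
    Module.finrank k (invSub W D M0) = Module.finrank k (eqvFun W V D M0) :=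
  (invEquiv hVW hV).finrank_eq

theorem card_invSub_eq (hVW : V ≤ W) (hV : ∀ v ∈ V, M0.ρ v = 1) :
    Nat.card (invSub W D M0) = Nat.card (eqvFun W V D M0) :=
  Nat.card_congr (invEquiv hVW hV).toEquiv

/-- the case `W = V`: `(Coind_V^G M0)^D ≃ (D \ G / V → M0)`. -/
def invEquivTop (hV : ∀ v ∈ V, M0.ρ v = 1) :
    invSub V D M0 ≃ₗ[k] (DoubleCoset.Quotient (D : Set G) (V : Set G) → M0) :=
  (invEquiv le_rfl hV).trans
    ((LinearEquiv.ofEq _ _ (eqvFun_eq_top V D M0 hV)).trans Submodule.topEquiv)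

theorem invEquivTop_apply_mk (hV : ∀ v ∈ V, M0.ρ v = 1) (x : invSub V D M0) (g : G) :
    invEquivTop hV x (DoubleCoset.mk D V g) = x.1.1 g⁻¹ := rfl

end Fermat.Agent.S56x.Euler.CoindInvariants
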