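import Fermat.Agent.S56x.Euler.PlacesBridge
import Fermat.Agent.S56x.Euler.CoindInvariants
import Fermat.Agent.Lib.CFT.Duality.LocDatum
import Fermat.Agent.Lib.CFT.Profinite.LevelLowDegree
import Fermat.Agent.Lib.CFT.Global.FirstIneqPlaces

/-!
# P-S56, block (B), line (EC), input (A5a) (helper31): local `H⁰` of an induced module

`F` a finite Galois extension of `ℚ` inside `Qbar`, `V = F.fixingSubgroup ≤ W ≤ Γℚ`, `M0` a
representation of `Γℚ` on which `V` acts trivially, `I = DevissageRep.P W M0 = Coind_W^Γ (M0|_W)`.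
Then

`P⁰(I) × I^{c = 1}  ≃ₗ  { φ : Idx F S_F → M0 | ∀ w ∈ W, ∀ x, φ ((w|F) • x) = w φ(x) }`,

where `P⁰(I) = (arithDatum S).locH I 0`, `S_F = primesAbove F S`,
`Idx F S_F = InfinitePlace F ⊕ S_F` and `Γℚ` acts on `Idx F S_F` through its restriction to `F`
(`SUnits.idxMap`).  This is the combination of

* `LevelFamily.H0Equiv` (level `H⁰` = invariants),
* helper29's `CoindInvariants.invEquiv` (invariants of `Coind` under a subgroup `D` = equivariant
  functions on `D \ Γ / V`),
* `PlacesBridge` (double cosets `D_q \ Γ / V` = primes above `q`; `⟨c⟩ \ Γ / V` = infinite places).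
-/

set_option autoImplicit false
set_option linter.unusedSectionVars false

open scoped NumberField

namespace Fermat.Agent.S56x.Euler.ShapiroLocal

open NumberField IsDedekindDomain
open Fermat.Agent.Lib.CFT.Global Fermat.Agent.Lib.CFT.Global.SUnits
open Fermat.Agent.Lib.CFT.Duality.DevissageRep
open Fermat.Agent.S56x.Euler.CoindInvariants Fermat.Agent.S56x.Euler.PlacesBridge

/-! ### Generic lemmas on equivariant functions -/

section Generic

variable {k G : Type} [CommRing k] [Group G] (W : Subgroup G) (M0 : Rep k G)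

/-- The `W`-equivariant functions `X → M0`, for a family of operators `act g : X → X`. -/
def eqOn {X : Type} (act : G → X → X) : Submodule k (X → M0) where
  carrier := {φ | ∀ w ∈ W, ∀ x, φ (act w x) = M0.ρ w (φ x)}
  add_mem' {a b} ha hb w hw x := by
    rw [Pi.add_apply, Pi.add_apply, ha w hw x, hb w hw x, map_add]
  zero_mem' w _ x := by rw [Pi.zero_apply, Pi.zero_apply, map_zero]
  smul_mem' c a ha w hw x := by rw [Pi.smul_apply, Pi.smul_apply, ha w hw x, map_smul]

theorem mem_eqOn_iff {X : Type} {act : G → X → X} {φ : X → M0} :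
    φ ∈ eqOn W M0 act ↔ ∀ w ∈ W, ∀ x, φ (act w x) = M0.ρ w (φ x) := Iff.rfl

/-- Transport along an equivalence compatible with the operators. -/
def eqOnCongr {X Y : Type} (actX : G → X → X) (actY : G → Y → Y) (e : X ≃ Y)
    (he : ∀ γ x, e (actX γ x) = actY γ (e x)) : eqOn W M0 actX ≃ₗ[k] eqOn W M0 actY where
  toFun φ := ⟨fun y => φ.1 (e.symm y), fun w hw y => by
    have h1 : e.symm (actY w y) = actX w (e.symm y) := by
      rw [Equiv.symm_apply_eq, he, Equiv.apply_symm_apply]
    show φ.1 (e.symm (actY w y)) = M0.ρ w (φ.1 (e.symm y))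
    rw [h1]
    exact φ.2 w hw _⟩
  map_add' _ _ := rfl
  map_smul' _ _ := rfl
  invFun ψ := ⟨fun x => ψ.1 (e x), fun w hw x => by
    show ψ.1 (e (actX w x)) = M0.ρ w (ψ.1 (e x))
    rw [he]
    exact ψ.2 w hw _⟩
  left_inv φ := by
    apply Subtype.ext
    funext x
    show φ.1 (e.symm (e x)) = φ.1 x
    rw [Equiv.symm_apply_apply]
  right_inv ψ := by
    apply Subtype.ext
    funext y
    show ψ.1 (e (e.symm y)) = ψ.1 y
    rw [Equiv.apply_symm_apply]

/-- Equivariant functions on a disjoint union. -/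
def eqOnSum {A B : Type} (actA : G → A → A) (actB : G → B → B) :
    eqOn W M0 (fun γ => Sum.map (actA γ) (actB γ)) ≃ₗ[k]
      (eqOn W M0 actA × eqOn W M0 actB) where
  toFun φ := (⟨fun a => φ.1 (Sum.inl a), fun w hw a => φ.2 w hw (Sum.inl a)⟩,
    ⟨fun b => φ.1 (Sum.inr b), fun w hw b => φ.2 w hw (Sum.inr b)⟩)
  map_add' _ _ := rfl
  map_smul' _ _ := rfl
  invFun ψ := ⟨Sum.elim ψ.1.1 ψ.2.1, fun w hw x => by
    rcases x with a | b
    · exact ψ.1.2 w hw a
    · exact ψ.2.2 w hw b⟩
  left_inv φ := by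
    apply Subtype.ext
    funext x
    rcases x with a | b <;> rfl
  right_inv ψ := rfl

/-- Equivariant functions on a disjoint union indexed by `ι`. -/
def eqOnSigma {ι : Type} {B : ι → Type} (actB : ∀ i, G → B i → B i) :
    eqOn W M0 (fun γ (x : Σ i, B i) => (⟨x.1, actB x.1 γ x.2⟩ : Σ i, B i)) ≃ₗ[k]
      (∀ i, eqOn W M0 (actB i)) where
  toFun φ i := ⟨fun b => φ.1 ⟨i, b⟩, fun w hw b => φ.2 w hw ⟨i, b⟩⟩
  map_add' _ _ := rfl
  map_smul' _ _ := rfl
  invFun ψ := ⟨fun x => (ψ x.1).1 x.2, fun w hw x => (ψ x.1).2 w hw x.2⟩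
  left_inv φ := rfl
  right_inv ψ := rfl

variable (V D : Subgroup G)

/-- helper29's `eqvFun` on double cosets, transported to a `G`-set `X` identified with
`D \ G / V`. -/
def eqvFunEquivEqOn {X : Type} (act : G → X → X)
    (e : DoubleCoset.Quotient (D : Set G) (V : Set G) ≃ X)
    (he : ∀ g γ : G, e (DoubleCoset.mk D V (g * γ⁻¹)) = act γ (e (DoubleCoset.mk D V g))) :
    eqvFun W V D M0 ≃ₗ[k] eqOn W M0 act where
  toFun h := ⟨fun x => h.1 (e.symm x), fun w hw x => by
    obtain ⟨c, rfl⟩ := e.surjective x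
    induction c using Quotient.inductionOn with
    | h g =>
      show h.1 (e.symm (act w (e (DoubleCoset.mk D V g)))) =
        M0.ρ w (h.1 (e.symm (e (DoubleCoset.mk D V g))))
      rw [← he, Equiv.symm_apply_apply, Equiv.symm_apply_apply]
      exact h.2 w hw g⟩
  map_add' _ _ := rfl
  map_smul' _ _ := rfl
  invFun φ := ⟨fun c => φ.1 (e c), fun w hw g => by
    show φ.1 (e (DoubleCoset.mk D V (g * w⁻¹))) = M0.ρ w (φ.1 (e (DoubleCoset.mk D V g)))
    rw [he]
    exact φ.2 w hw _⟩
  left_inv h := by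
    apply Subtype.ext
    funext c
    show h.1 (e.symm (e c)) = h.1 c
    rw [Equiv.symm_apply_apply]
  right_inv φ := by
    apply Subtype.ext
    funext x
    show φ.1 (e (e.symm x)) = φ.1 x
    rw [Equiv.apply_symm_apply]

end Generic

/-! ### The places of a level field as double coset spaces -/

section Places

open Fermat.Agent.Lib.CFT.Profinite.Bridge Fermat.Agent.S56x.Euler.InfinitePlaceOrbit
open ExtCitation

local notation "Qbar" => AlgebraicClosure ℚ
local notation "Γℚ" => (AlgebraicClosure ℚ ≃ₐ[ℚ] AlgebraicClosure ℚ)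

variable (F : IntermediateField ℚ Qbar) [FiniteDimensional ℚ F] [IsGalois ℚ F]

/-- The ring automorphism of `F` induced by `γ ∈ Γℚ`. -/
noncomputable abbrev rF (γ : Γℚ) : F ≃+* F :=
  MulSemiringAction.toRingEquiv (F ≃ₐ[ℚ] F) F (resF F γ)

/-- The action of `Γℚ` on the infinite places of `F`. -/
noncomputable def actInf (γ : Γℚ) (w : InfinitePlace F) : InfinitePlace F := infMap (rF F γ) w

/-- The action of `Γℚ` on the primes of `F` above `q`. -/
noncomputable def actFin (q : Nat.Primes) (γ : Γℚ) (v : FirstIneq.PrimesOverQ F q) :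
    FirstIneq.PrimesOverQ F q :=
  ⟨primeMap (rF F γ) v.1,
    (FirstIneq.natCast_mem_primeMap_iff F (F ≃ₐ[ℚ] F) q (resF F γ) v.1).mpr v.2⟩

/-- The action of `Γℚ` on `Idx F S_F = InfinitePlace F ⊕ S_F`, `S_F = primesAbove F S`. -/
noncomputable def actIdx (S : Finset Nat.Primes) (γ : Γℚ)
    (x : Idx F (FirstIneq.primesAbove F S)) : Idx F (FirstIneq.primesAbove F S) :=
  idxMap (rF F γ) (FirstIneq.primesAbove F S)
    (FirstIneq.isStableUnder_primesAbove F (F ≃ₐ[ℚ] F) S (resF F γ)) x

theorem mem_fixingSubgroup_iff_resF (σ : Γℚ) : σ ∈ F.fixingSubgroup ↔ resF F σ = 1 := by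
  rw [IntermediateField.mem_fixingSubgroup_iff]
  constructor
  · intro h
    ext x
    rw [resF_coe]
    exact h x x.2
  · intro h x hx
    have := resF_coe F σ ⟨x, hx⟩
    rw [h] at this
    exact this.symm

theorem conj_mem_fixingSubgroup {v : Γℚ} (hv : v ∈ F.fixingSubgroup) (g : Γℚ) :
    g * v * g⁻¹ ∈ F.fixingSubgroup := by
  rw [mem_fixingSubgroup_iff_resF] at hv ⊢
  have hv' : AlgEquiv.restrictNormalHom F v = 1 := hv
  show AlgEquiv.restrictNormalHom F (g * v * g⁻¹) = 1
  rw [map_mul, map_mul, hv', mul_one, ← map_mul, mul_inv_cancel, map_one]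

theorem conj_mem_fixingSubgroup' {v : Γℚ} (hv : v ∈ F.fixingSubgroup) (g : Γℚ) :
    g⁻¹ * v * g ∈ F.fixingSubgroup := by
  have := conj_mem_fixingSubgroup F hv g⁻¹
  rwa [inv_inv] at this

/-- The primes of `F` above `q` are the double cosets `φ_q(G_q) \ Γℚ / V`. -/
noncomputable def finPlaceEquiv (q : Nat.Primes) :
    DoubleCoset.Quotient ((localGaloisToGlobal (pv q)).range : Set Γℚ)
      (F.fixingSubgroup : Set Γℚ) ≃ FirstIneq.PrimesOverQ F q :=
  Equiv.ofBijective (finPlaceQuot q F) (finPlaceQuot_bijective q F)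

theorem finPlaceEquiv_mk (q : Nat.Primes) (g : Γℚ) :
    finPlaceEquiv F q (DoubleCoset.mk _ _ g) = finPlaceOver q F g := rfl

theorem finPlaceEquiv_mul_inv (q : Nat.Primes) (g γ : Γℚ) :
    finPlaceEquiv F q (DoubleCoset.mk _ _ (g * γ⁻¹)) =
      actFin F q γ (finPlaceEquiv F q (DoubleCoset.mk _ _ g)) :=
  Subtype.ext (finPlace_mul_inv (pv q) F g γ)

theorem infPlace_eq_iff' (g g' : Γℚ) :
    infPlace F g = infPlace F g' ↔
      g' * g⁻¹ ∈ F.fixingSubgroup ∨ g' * g⁻¹ * complexConjugation ∈ F.fixingSubgroup := by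
  unfold infPlace
  rw [← restrict_smul_w0_eq_iff, map_mul, map_inv, mul_smul, eq_comm, inv_smul_eq_iff]
  exact eq_comm

/-- `infPlace` on double cosets `⟨c⟩ \ Γℚ / V`. -/
noncomputable def infPlaceQuot :
    DoubleCoset.Quotient ((Subgroup.zpowers complexConjugation : Subgroup Γℚ) : Set Γℚ)
      (F.fixingSubgroup : Set Γℚ) → InfinitePlace F :=
  Quotient.lift (s := DoubleCoset.setoid _ _) (infPlace F) (by
    intro g g' h
    obtain ⟨d, hd, v, hv, rfl⟩ := (DoubleCoset.rel_iff).mp h
    rw [infPlace_eq_iff]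
    have e : d * g * v * g⁻¹ = d * (g * v * g⁻¹) := by group
    rw [e]
    exact mul_mem (Subgroup.mem_sup_right hd)
      (Subgroup.mem_sup_left (conj_mem_fixingSubgroup F hv g)))

theorem infPlaceQuot_bijective : Function.Bijective (infPlaceQuot F) := by
  constructor
  · intro a b
    induction a using Quotient.inductionOn with
    | h g =>
      induction b using Quotient.inductionOn with
      | h g' =>
        intro h
        have h' : infPlace F g = infPlace F g' := h
        apply Quotient.sound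
        apply (DoubleCoset.rel_iff).mpr
        rcases (infPlace_eq_iff' F g g').mp h' with h1 | h1
        · refine ⟨1, one_mem _, g⁻¹ * (g' * g⁻¹) * g, conj_mem_fixingSubgroup' F h1 g, ?_⟩
          group
        · refine ⟨complexConjugation, Subgroup.mem_zpowers _,
            (complexConjugation * g)⁻¹ * (g' * g⁻¹ * complexConjugation) *
              (complexConjugation * g),
            conj_mem_fixingSubgroup' F h1 (complexConjugation * g), ?_⟩
          have hc : complexConjugation * complexConjugation = 1 := complexConjugation_mul_self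
          have e : complexConjugation * g * ((complexConjugation * g)⁻¹ *
              (g' * g⁻¹ * complexConjugation) * (complexConjugation * g)) =
              g' * g⁻¹ * (complexConjugation * complexConjugation) * g := by group
          rw [e, hc]
          group
  · intro w
    obtain ⟨g, hg⟩ := infPlace_surjective F w
    exact ⟨DoubleCoset.mk _ _ g, hg⟩

/-- The infinite places of `F` are the double cosets `⟨c⟩ \ Γℚ / V`. -/
noncomputable def infPlaceEquiv :
    DoubleCoset.Quotient ((Subgroup.zpowers complexConjugation : Subgroup Γℚ) : Set Γℚ)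
      (F.fixingSubgroup : Set Γℚ) ≃ InfinitePlace F :=
  Equiv.ofBijective (infPlaceQuot F) (infPlaceQuot_bijective F)

theorem infPlaceEquiv_mul_inv (g γ : Γℚ) :
    infPlaceEquiv F (DoubleCoset.mk _ _ (g * γ⁻¹)) =
      actInf F γ (infPlaceEquiv F (DoubleCoset.mk _ _ g)) := by
  show infPlace F (g * γ⁻¹) = infMap (rF F γ) (infPlace F g)
  rw [infPlace_mul_inv]
  ext x
  rfl

end Places

/-! ### The local `H⁰` of an induced module -/

section Main

open Fermat.Agent.Lib.CFT.Profinite Fermat.Agent.Lib.CFT.Profinite.LevelFamily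
open Fermat.Agent.Lib.CFT.Profinite.Bridge Fermat.Agent.Lib.CFT.Duality
open ExtCitation

local notation "Qbar" => AlgebraicClosure ℚ
local notation "Γℚ" => (AlgebraicClosure ℚ ≃ₐ[ℚ] AlgebraicClosure ℚ)

variable {k : Type} [CommRing k]
variable (F : IntermediateField ℚ Qbar) [FiniteDimensional ℚ F] [IsGalois ℚ F]
variable (S : Finset Nat.Primes) (W : Subgroup Γℚ) (hVW : F.fixingSubgroup ≤ W)
  (M0 : Rep k Γℚ) (hV : ∀ v ∈ F.fixingSubgroup, M0.ρ v = 1)

/-- The local `H⁰` at `q` of `Coind_W^Γ M0` is the module of `W`-equivariant functions on the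
primes of `F` above `q`. -/
noncomputable def locH0AtEquiv (q : Nat.Primes) :
    (primeLocalLevels q).levelCohomology (Rep.res (primeLocalToGlobal q) (P W M0)) 0 ≃ₗ[k]
      eqOn W M0 (actFin F q) :=
  ((primeLocalLevels q).H0Equiv (Rep.res (primeLocalToGlobal q) (P W M0))).trans
    ((LinearEquiv.ofEq _ _ (invSub_range_eq_invariants W M0 (primeLocalToGlobal q)).symm).trans
      ((invEquiv (D := (primeLocalToGlobal q).range) hVW hV).trans
        (eqvFunEquivEqOn W M0 F.fixingSubgroup (localGaloisToGlobal (pv q)).range (actFin F q)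
          (finPlaceEquiv F q) (finPlaceEquiv_mul_inv F q))))

/-- The product of the local `H⁰` of `Coind_W^Γ M0` over the primes of `S`. -/
noncomputable def locH0Equiv :
    (arithDatum S).locH (P W M0) 0 ≃ₗ[k] (∀ q : S, eqOn W M0 (actFin F q.1)) :=
  LinearEquiv.piCongrRight fun q : S => locH0AtEquiv F W hVW M0 hV q.1

theorem ker_sub_id_eq_invSub :
    LinearMap.ker ((P W M0).ρ complexConjugation - LinearMap.id) =
      invSub W (Subgroup.zpowers complexConjugation) M0 := by
  ext x
  rw [mem_invSub_zpowers_iff, LinearMap.mem_ker, LinearMap.sub_apply, LinearMap.id_apply,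
    sub_eq_zero]

/-- The fixed space of complex conjugation on `Coind_W^Γ M0` is the module of `W`-equivariant
functions on the infinite places of `F`. -/
noncomputable def fixcEquiv :
    LinearMap.ker ((P W M0).ρ complexConjugation - LinearMap.id) ≃ₗ[k] eqOn W M0 (actInf F) :=
  (LinearEquiv.ofEq _ _ (ker_sub_id_eq_invSub W M0)).trans
    ((invEquiv (D := Subgroup.zpowers complexConjugation) hVW hV).trans
      (eqvFunEquivEqOn W M0 F.fixingSubgroup (Subgroup.zpowers complexConjugation) (actInf F)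
        (infPlaceEquiv F) (infPlaceEquiv_mul_inv F)))

/-- The index set `Idx F S_F` as a disjoint union. -/
noncomputable def idxSigmaEquiv :
    (InfinitePlace F ⊕ (Σ q : S, FirstIneq.PrimesOverQ F q.1)) ≃
      Idx F (FirstIneq.primesAbove F S) :=
  Equiv.sumCongr (Equiv.refl _) (FirstIneq.sigmaPrimesEquiv F S)

theorem idxSigmaEquiv_act (γ : Γℚ) (x : InfinitePlace F ⊕ (Σ q : S, FirstIneq.PrimesOverQ F q.1)) :
    idxSigmaEquiv F S (Sum.map (actInf F γ)
      (fun y : (Σ q : S, FirstIneq.PrimesOverQ F q.1) =>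
        (⟨y.1, actFin F y.1.1 γ y.2⟩ : Σ q : S, FirstIneq.PrimesOverQ F q.1)) x) =
      actIdx F S γ (idxSigmaEquiv F S x) := by
  rcases x with w | ⟨q, v⟩
  · rfl
  · rfl

/-- **(A5a)**: `P⁰(I) × I^{c = 1}` is the module of `W`-equivariant functions on
`Idx F S_F = InfinitePlace F ⊕ S_F`, for `I = Coind_W^Γ M0`. -/
noncomputable def localH0Equiv :
    ((arithDatum S).locH (P W M0) 0 ×
      LinearMap.ker ((P W M0).ρ complexConjugation - LinearMap.id)) ≃ₗ[k]
      eqOn W M0 (actIdx F S) :=
  ((LinearEquiv.prodComm k _ _).trans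
    ((LinearEquiv.prodCongr (fixcEquiv F W hVW M0 hV)
      ((locH0Equiv F S W hVW M0 hV).trans
        (eqOnSigma W M0 (fun q : S => actFin F q.1)).symm)).trans
      (eqOnSum W M0 (actInf F)
        (fun γ (y : Σ q : S, FirstIneq.PrimesOverQ F q.1) =>
          (⟨y.1, actFin F y.1.1 γ y.2⟩ : Σ q : S, FirstIneq.PrimesOverQ F q.1))).symm)).trans
    (eqOnCongr W M0 _ (actIdx F S) (idxSigmaEquiv F S) (fun γ x => idxSigmaEquiv_act F S γ x))

end Main

section Finrank

open Fermat.Agent.Lib.CFT.Duality ExtCitation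

local notation "Qbar" => AlgebraicClosure ℚ
local notation "Γℚ" => (AlgebraicClosure ℚ ≃ₐ[ℚ] AlgebraicClosure ℚ)

variable {k : Type} [Field k]
variable (F : IntermediateField ℚ Qbar) [FiniteDimensional ℚ F] [IsGalois ℚ F]
variable (S : Finset Nat.Primes) (W : Subgroup Γℚ) (hVW : F.fixingSubgroup ≤ W)
  (M0 : Rep k Γℚ) (hV : ∀ v ∈ F.fixingSubgroup, M0.ρ v = 1)

include hVW hV in
/-- **(A5a)**, `finrank` form: `dim P⁰(I) + dim I^{c = 1} = dim {W-equivariant functions on
Idx F S_F}` for `I = Coind_W^Γ M0`, `M0` finite dimensional and trivial on `V = Gal(Qbar/F)`. -/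
theorem finrank_locH0_add_fixc [Module.Finite k M0] :
    Module.finrank k ((arithDatum S).locH (P W M0) 0) +
      Module.finrank k (LinearMap.ker ((P W M0).ρ complexConjugation - LinearMap.id)) =
      Module.finrank k (eqOn W M0 (actIdx F S)) := by
  have : Module.Finite k ((arithDatum S).locH (P W M0) 0) :=
    Module.Finite.equiv (locH0Equiv F S W hVW M0 hV).symm
  have : Module.Finite k (LinearMap.ker ((P W M0).ρ complexConjugation - LinearMap.id)) :=
    Module.Finite.equiv (fixcEquiv F W hVW M0 hV).symm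
  rw [← Module.finrank_prod]
  exact (localH0Equiv F S W hVW M0 hV).finrank_eq

end Finrank


/-! ### The form of helper11's setting: `W = π⁻¹(C)`, `M0 = Inf M` -/

section Setting

open Fermat.Agent.Lib.CFT.Duality ExtCitation

local notation "Qbar" => AlgebraicClosure ℚ
local notation "Γℚ" => (AlgebraicClosure ℚ ≃ₐ[ℚ] AlgebraicClosure ℚ)

variable {k : Type} [Field k]
variable (F : IntermediateField ℚ Qbar) [FiniteDimensional ℚ F] [IsGalois ℚ F]
variable (S : Finset Nat.Primes) (C : Subgroup (F ≃ₐ[ℚ] F)) (M : Rep k (F ≃ₐ[ℚ] F))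

/-- The `C`-equivariant functions `Idx F S_F → M`, `C ≤ Gal(F/ℚ)` acting on `Idx F S_F` through
`SUnits.idxMap`. -/
def eqC : Submodule k (Idx F (FirstIneq.primesAbove F S) → M) where
  carrier := {φ | ∀ c ∈ C, ∀ x, φ (idxMap (MulSemiringAction.toRingEquiv (F ≃ₐ[ℚ] F) F c)
    (FirstIneq.primesAbove F S) (FirstIneq.isStableUnder_primesAbove F (F ≃ₐ[ℚ] F) S c) x) =
      M.ρ c (φ x)}
  add_mem' {a b} ha hb c hc x := by
    rw [Pi.add_apply, Pi.add_apply, ha c hc x, hb c hc x, map_add]
  zero_mem' c _ x := by rw [Pi.zero_apply, Pi.zero_apply, map_zero]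
  smul_mem' r a ha c hc x := by rw [Pi.smul_apply, Pi.smul_apply, ha c hc x, map_smul]

theorem mem_eqC_iff {φ : Idx F (FirstIneq.primesAbove F S) → M} :
    φ ∈ eqC F S C M ↔ ∀ c ∈ C, ∀ x,
      φ (idxMap (MulSemiringAction.toRingEquiv (F ≃ₐ[ℚ] F) F c) (FirstIneq.primesAbove F S)
        (FirstIneq.isStableUnder_primesAbove F (F ≃ₐ[ℚ] F) S c) x) = M.ρ c (φ x) := Iff.rfl

/-- For `W = π⁻¹(C)` and `M0 = Inf M`, the `W`-equivariant functions are the `C`-equivariant
functions. -/
theorem eqOn_comap_eq :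
    eqOn (C.comap (AlgEquiv.restrictNormalHom F)) (Rep.res (AlgEquiv.restrictNormalHom F) M)
      (actIdx F S) = eqC F S C M := by
  have : Normal ℚ Qbar := Fermat.Agent.Lib.CFT.Profinite.Bridge.normal_qbar
  ext φ
  constructor
  · intro h c hc x
    obtain ⟨γ, rfl⟩ := AlgEquiv.restrictNormalHom_surjective (F := ℚ) (K₁ := F) Qbar c
    exact h γ hc x
  · intro h w hw x
    exact h (AlgEquiv.restrictNormalHom F w) hw x

/-- **(A5a)** in the setting of `Euler/HindSetting`: for `W = π⁻¹(C)`, `M0 = Inf M`,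
`I = Coind_W^Γ (M0|_W)`: `dim P⁰(I) + dim I^{c = 1} = dim {C-equivariant functions Idx F S_F → M}`. -/
theorem finrank_locH0_add_fixc_comap [Module.Finite k M] :
    Module.finrank k ((arithDatum S).locH
        (P (C.comap (AlgEquiv.restrictNormalHom F)) (Rep.res (AlgEquiv.restrictNormalHom F) M)) 0) +
      Module.finrank k (LinearMap.ker
        ((P (C.comap (AlgEquiv.restrictNormalHom F))
          (Rep.res (AlgEquiv.restrictNormalHom F) M)).ρ complexConjugation - LinearMap.id)) =
      Module.finrank k (eqC F S C M) := by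
  have hVW : F.fixingSubgroup ≤ C.comap (AlgEquiv.restrictNormalHom F) := by
    intro σ hσ
    show AlgEquiv.restrictNormalHom F σ ∈ C
    rw [show AlgEquiv.restrictNormalHom F σ = 1 from (mem_fixingSubgroup_iff_resF F σ).mp hσ]
    exact C.one_mem
  have hV : ∀ v ∈ F.fixingSubgroup, (Rep.res (AlgEquiv.restrictNormalHom F) M).ρ v = 1 := by
    intro v hv
    show M.ρ (AlgEquiv.restrictNormalHom F v) = 1
    rw [show AlgEquiv.restrictNormalHom F v = 1 from (mem_fixingSubgroup_iff_resF F v).mp hv,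
      map_one]
  have hfin : Module.Finite k
      (Rep.res (AlgEquiv.restrictNormalHom F : Γℚ →* (F ≃ₐ[ℚ] F)) M) := by
    show Module.Finite k M
    infer_instance
  rw [finrank_locH0_add_fixc F S _ hVW _ hV, eqOn_comap_eq]

end Setting

end Fermat.Agent.S56x.Euler.ShapiroLocal
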