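import Fermat.Agent.S56x.Euler.ShapiroLocal
import Fermat.Agent.S56x.Euler.InvDual

/-!
# P-S56, (EC) line, input (A5a): consumer form (helper31)

The module `ShapiroLocal.eqC F S C M` of `C`-equivariant functions `Idx F S_F → M` is
`InvDual.eqFun (Idx F S_F) (M.ρ.comp C.subtype)` for the action of the subgroup `C ≤ Gal(F/ℚ)` on
`Idx F S_F` given by `SUnits.idxMulAction` (the shape consumed by
`InvDualBridge.finrank_hom_sUnit_rep`).
-/

set_option autoImplicit false
set_option linter.unusedSectionVars false

open scoped NumberField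

namespace Fermat.Agent.S56x.Euler.ShapiroLocal

open NumberField IsDedekindDomain
open Fermat.Agent.Lib.CFT.Global Fermat.Agent.Lib.CFT.Global.SUnits
open Fermat.Agent.Lib.CFT.Duality ExtCitation
open Fermat.Agent.Lib.CFT.Duality.DevissageRep

local notation "Qbar" => AlgebraicClosure ℚ

variable {k : Type} [Field k]
variable (F : IntermediateField ℚ Qbar) [FiniteDimensional ℚ F] [IsGalois ℚ F]
variable (S : Finset Nat.Primes) (C : Subgroup (F ≃ₐ[ℚ] F)) (M : Rep k (F ≃ₐ[ℚ] F))

/-- `eqC` is `InvDual.eqFun` for the action of `C` on `Idx F S_F`. -/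
theorem eqC_eq_eqFun :
    letI := idxMulAction (G := C) (FirstIneq.primesAbove F S)
      (FirstIneq.isStableUnder_primesAbove F C S)
    eqC F S C M = InvDual.eqFun (Idx F (FirstIneq.primesAbove F S)) (M.ρ.comp C.subtype) := by
  letI := idxMulAction (G := C) (FirstIneq.primesAbove F S)
    (FirstIneq.isStableUnder_primesAbove F C S)
  ext φ
  constructor
  · intro h c x
    exact h c.1 c.2 x
  · intro h c hc x
    exact h ⟨c, hc⟩ x

/-- **(A5a)**, consumer form: `dim P⁰(I) + dim I^{c = 1} = dim eqFun (Idx F S_F) (ρ_M|_C)` for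
`I = Coind_W^Γ (Inf M)`, `W = π⁻¹(C)`. -/
theorem finrank_locH0_add_fixc_eqFun [Module.Finite k M] :
    letI := idxMulAction (G := C) (FirstIneq.primesAbove F S)
      (FirstIneq.isStableUnder_primesAbove F C S)
    Module.finrank k ((arithDatum S).locH
        (P (C.comap (AlgEquiv.restrictNormalHom F)) (Rep.res (AlgEquiv.restrictNormalHom F) M)) 0) +
      Module.finrank k (LinearMap.ker
        ((P (C.comap (AlgEquiv.restrictNormalHom F))
          (Rep.res (AlgEquiv.restrictNormalHom F) M)).ρ complexConjugation - LinearMap.id)) =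
      Module.finrank k
        (InvDual.eqFun (Idx F (FirstIneq.primesAbove F S)) (M.ρ.comp C.subtype)) := by
  rw [finrank_locH0_add_fixc_comap F S C M, eqC_eq_eqFun]

end Fermat.Agent.S56x.Euler.ShapiroLocal
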