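import Fermat.Agent.S56x.Euler.HindSetting
import Fermat.Agent.S56x.Euler.ShapiroDual
import Fermat.Agent.S56x.Euler.ShapiroLocal
import Fermat.Agent.S56x.Euler.InvDualBridge
import Fermat.Agent.S56x.Euler.MuPTerm
import Fermat.Agent.S56x.Euler.ShapiroLocalEqFun
import Fermat.Agent.S56x.Euler.DeltaModP
import Fermat.Agent.S56x.Euler.HindA2
import Fermat.Agent.S56x.Euler.HindAssembly

/-!
# P-S56 block (B), (EC) line: the input (A5) of the cyclic step `hind`

(helper75.)  In the setting of `Euler/HindSetting.lean` (`K/ℚ` finite Galois inside `Qbar` with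
`Gal(Qbar/K) ≤ ker χ_p`, `C ≤ Gal(K/ℚ)` of order prime to `p`, `W = π⁻¹(C)`, `M` a finite
dimensional representation of `Gal(K/ℚ)` over `F_p`, `N = M|_W`, `I = Coind_W^Γ N`):

`dim H¹(W, N') + dim H⁰(W, N) = dim P⁰(I) + dim H⁰(W, N') + dim I^{c = 1}`     (`hA5_of_equiv`)

from a bijection `H¹(W, N') ≃ Hom_{ℤ[C]}(M, O_{K,S}^×/p)` (Kummer theory, (A3) + (A5c)), the
equivariant Dirichlet `S`-unit theorem modulo `p` (`InvDualBridge.finrank_hom_sUnit_rep`), the
`μ_p`-term (`MuPTerm.homTorPEquivGal`), `H⁰(W, N') = ` twisted forms (`ShapiroDual`) and the local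
term (A5a) (`ShapiroLocal`).  This is exactly the hypothesis `hA5` (with `u = dim H¹(W, N')`) of
`Hind.tateEulerC_indMod_of_inputs`.
-/

set_option autoImplicit false
set_option linter.style.haveILetI false
set_option linter.unusedSectionVars false

open CategoryTheory Module

namespace Fermat.Agent.S56x.Euler.HindA5

open NumberField IsDedekindDomain
open Fermat.Agent.Lib.CFT.Profinite Fermat.Agent.Lib.CFT.Profinite.LevelFamily ExtCitation
open Fermat.Agent.Lib.CFT.Profinite.Bridge
open Fermat.Agent.Lib.CFT.Duality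
open Fermat.Agent.Lib.CFT.Global Fermat.Agent.Lib.CFT.Global.SUnits
open Fermat.Agent.S56x.Euler Fermat.Agent.S56x.Euler.Hind
open Fermat.Agent.S56x.Euler.LatticeModP Fermat.Agent.S56x.Euler.SUnitModP
  Fermat.Agent.S56x.Euler.RepAction Fermat.Agent.S56x.Euler.PlacesBridge

local notation "Qbar" => AlgebraicClosure ℚ
local notation "Γℚ" => (AlgebraicClosure ℚ ≃ₐ[ℚ] AlgebraicClosure ℚ)

variable {p : ℕ} [hp : Fact p.Prime]
variable (K : IntermediateField ℚ Qbar) [FiniteDimensional ℚ K] [IsGalois ℚ K]
variable (S : Finset Nat.Primes) (C : Subgroup (K ≃ₐ[ℚ] K)) (M : Rep (ZMod p) (K ≃ₐ[ℚ] K))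

/-- The restriction of `M` to `C`, as a representation on the carrier of `M`. -/
noncomputable abbrev rhoC : Representation (ZMod p) C M := M.ρ.comp C.subtype

attribute [local instance] zgModule

/-- The twisted forms of `N = M|_W` are the `χ_p`-twisted linear forms of `MuPTerm`. -/
noncomputable def twistedFormsEquiv :
    ShapiroDual.twistedForms ((cycloChar p).comp (preW K C).subtype) (resW K C M) ≃
      {φ : M →+ ZMod p // ∀ (σ : Γℚ) (hσ : AlgEquiv.restrictNormalHom K σ ∈ C) (n : M),
        φ (rhoC K C M ⟨AlgEquiv.restrictNormalHom K σ, hσ⟩ n) =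
          ((cycloChar p σ : (ZMod p)ˣ) : ZMod p) * φ n} where
  toFun φ := ⟨(φ.1 : M →ₗ[ZMod p] ZMod p).toAddMonoidHom, fun σ hσ n => φ.2 ⟨σ, hσ⟩ n⟩
  invFun φ := ⟨AddMonoidHom.toZModLinearMap p φ.1, fun w n => φ.2 w.1 w.2 n⟩
  left_inv φ := by
    apply Subtype.ext
    rfl
  right_inv φ := by
    apply Subtype.ext
    rfl

/-- **(B3)** `H⁰(W, N') ≃ Hom_{ℤ[C]}(M, U[p])`, `U = O_{K,S}^×` (depends on the choice of a
primitive `p`-th root of unity of `K`). -/
noncomputable def h0DualEquiv (hle : K.fixingSubgroup ≤ (cycloChar p).ker) (ζ : K)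
    (hζ : IsPrimitiveRoot ζ p) :
    letI := unitAction (FirstIneq.primesAbove K S) (FirstIneq.isStableUnder_primesAbove K C S)
    letI := repAction (rhoC K C M)
    (LES.restrict (levelsS S) (preW K C)).levelCohomology
        ((resW K C M).dualTwist ((cycloChar p).comp (preW K C).subtype)) 0 ≃
      (M →ₗ[MonoidAlgebra ℤ C] TorP (MonoidAlgebra ℤ C) p
        (Additive (SUnit K (FirstIneq.primesAbove K S)))) :=
  letI := unitAction (FirstIneq.primesAbove K S) (FirstIneq.isStableUnder_primesAbove K C S)
  letI := repAction (rhoC K C M)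
  ((ShapiroDual.H0DualTwistEquiv ((cycloChar p).comp (preW K C).subtype) (resW K C M)
      (LES.restrict (levelsS S) (preW K C))).toEquiv.trans (twistedFormsEquiv K C M)).trans
    (MuPTerm.homTorPEquivGal K C (FirstIneq.primesAbove K S)
      (FirstIneq.isStableUnder_primesAbove K C S) hle ζ hζ M).symm

/-- `Hom_{ℤ[C]}(M, O_{K,S}^×/p)`, `S_K` the primes of `K` above `S`. -/
abbrev HomUnitsModP : Type :=
  letI := unitAction (FirstIneq.primesAbove K S) (FirstIneq.isStableUnder_primesAbove K C S)
  letI := repAction (rhoC K C M)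
  (M →ₗ[MonoidAlgebra ℤ C] ModP (MonoidAlgebra ℤ C) p
    (Additive (SUnit K (FirstIneq.primesAbove K S))))

/-- The `C`-equivariant functions `Idx K S_K → M` (`InvDual.eqFun` for the action
`SUnits.idxMulAction` of `C`). -/
noncomputable abbrev eqFunC : Submodule (ZMod p) (Idx K (FirstIneq.primesAbove K S) → M) :=
  letI := idxMulAction (FirstIneq.primesAbove K S) (FirstIneq.isStableUnder_primesAbove K C S)
  InvDual.eqFun (Idx K (FirstIneq.primesAbove K S)) (rhoC K C M)

/-- **(A5)** from a bijection `e₁ : H¹(W, N') ≃ Hom_{ℤ[C]}(M, O_{K,S}^×/p)` and the two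
dictionary inputs (B1) `dim H⁰(W, N) = dim M^C`, (B2) `dim {C-equivariant Idx K S_K → M} =
dim P⁰(I) + dim I^{c=1}`. -/
theorem hA5_of_equiv (hle : K.fixingSubgroup ≤ (cycloChar p).ker)
    (hcop : (Nat.card C).Coprime p) [Module.Finite (ZMod p) M]
    (e₁ : (LES.restrict (levelsS S) (preW K C)).levelCohomology
        ((resW K C M).dualTwist ((cycloChar p).comp (preW K C).subtype)) 1 ≃
      HomUnitsModP K S C M)
    (hB1 : finrank (ZMod p)
        ((LES.restrict (levelsS S) (preW K C)).levelCohomology (resW K C M) 0) =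
      finrank (ZMod p) (rhoC K C M).invariants)
    (hB2 : finrank (ZMod p) (eqFunC K S C M) =
        finrank (ZMod p) ((arithDatum S).locH (indMod K C M) 0) +
          finrank (ZMod p) (fixc (indMod K C M))) :
    finrank (ZMod p) ((LES.restrict (levelsS S) (preW K C)).levelCohomology
        ((resW K C M).dualTwist ((cycloChar p).comp (preW K C).subtype)) 1) +
      finrank (ZMod p)
        ((LES.restrict (levelsS S) (preW K C)).levelCohomology (resW K C M) 0) =
      finrank (ZMod p) ((arithDatum S).locH (indMod K C M) 0)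
        + finrank (ZMod p) ((LES.restrict (levelsS S) (preW K C)).levelCohomology
            ((resW K C M).dualTwist ((cycloChar p).comp (preW K C).subtype)) 0)
        + finrank (ZMod p) (fixc (indMod K C M)) := by
  letI := unitAction (FirstIneq.primesAbove K S) (FirstIneq.isStableUnder_primesAbove K C S)
  letI := repAction (rhoC K C M)
  letI := idxMulAction (FirstIneq.primesAbove K S) (FirstIneq.isStableUnder_primesAbove K C S)
  obtain ⟨ζ, hζ⟩ := MuPTerm.exists_primitiveRoot_of_le_ker p K hle
  have h := InvDualBridge.finrank_hom_sUnit_rep_of_coprime (FirstIneq.primesAbove K S)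
    (FirstIneq.isStableUnder_primesAbove K C S) p hcop (rhoC K C M) e₁
    (h0DualEquiv K S C M hle ζ hζ)
  rw [hB1]
  rw [hB2] at h
  omega

/-- `Hom_{ℤ[C]}(M, O_{K,S}^×/p)` is finite. -/
theorem finite_homUnitsModP [Module.Finite (ZMod p) M] : Finite (HomUnitsModP K S C M) :=
  InvDualBridge.finite_hom_modP_sUnit (FirstIneq.primesAbove K S)
    (FirstIneq.isStableUnder_primesAbove K C S) p (rhoC K C M)

/-- **(A5)** from the Kummer count `#H¹(W, N') = #Hom_{ℤ[C]}(M, O_{K,S}^×/p)` ((A3) + (A5c)). -/
theorem hA5_of_card (hle : K.fixingSubgroup ≤ (cycloChar p).ker)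
    (hcop : (Nat.card C).Coprime p) [Module.Finite (ZMod p) M]
    (hcard : Nat.card ((LES.restrict (levelsS S) (preW K C)).levelCohomology
        ((resW K C M).dualTwist ((cycloChar p).comp (preW K C).subtype)) 1) =
      Nat.card (HomUnitsModP K S C M))
    (hB1 : finrank (ZMod p)
        ((LES.restrict (levelsS S) (preW K C)).levelCohomology (resW K C M) 0) =
      finrank (ZMod p) (rhoC K C M).invariants)
    (hB2 : finrank (ZMod p) (eqFunC K S C M) =
        finrank (ZMod p) ((arithDatum S).locH (indMod K C M) 0) +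
          finrank (ZMod p) (fixc (indMod K C M))) :
    finrank (ZMod p) ((LES.restrict (levelsS S) (preW K C)).levelCohomology
        ((resW K C M).dualTwist ((cycloChar p).comp (preW K C).subtype)) 1) +
      finrank (ZMod p)
        ((LES.restrict (levelsS S) (preW K C)).levelCohomology (resW K C M) 0) =
      finrank (ZMod p) ((arithDatum S).locH (indMod K C M) 0)
        + finrank (ZMod p) ((LES.restrict (levelsS S) (preW K C)).levelCohomology
            ((resW K C M).dualTwist ((cycloChar p).comp (preW K C).subtype)) 0)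
        + finrank (ZMod p) (fixc (indMod K C M)) := by
  haveI := finite_homUnitsModP K S C M
  have hpos : Nat.card (HomUnitsModP K S C M) ≠ 0 := by
    haveI : Nonempty (HomUnitsModP K S C M) := ⟨0⟩
    exact Nat.card_pos.ne'
  haveI : Finite ((LES.restrict (levelsS S) (preW K C)).levelCohomology
      ((resW K C M).dualTwist ((cycloChar p).comp (preW K C).subtype)) 1) :=
    Nat.finite_of_card_ne_zero (hcard ▸ hpos)
  obtain ⟨e₁⟩ := (Finite.card_eq).mp hcard
  exact hA5_of_equiv K S C M hle hcop e₁ hB1 hB2

/-! ### The dictionary inputs (B1), (B2) -/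

/-- The invariants of `W = π⁻¹(C)` on `N = M|_W` are the invariants of `C` on `M`. -/
theorem invariants_resW_eq :
    (resW K C M).ρ.invariants = (rhoC K C M).invariants := by
  have : Normal ℚ Qbar := Fermat.Agent.Lib.CFT.Profinite.Bridge.normal_qbar
  ext m
  rw [Representation.mem_invariants, Representation.mem_invariants]
  constructor
  · intro h c
    obtain ⟨γ, hγ⟩ := AlgEquiv.restrictNormalHom_surjective (F := ℚ) (K₁ := K) Qbar c.1
    have hγC : γ ∈ preW K C := by
      show AlgEquiv.restrictNormalHom K γ ∈ C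
      rw [hγ]; exact c.2
    have := h ⟨γ, hγC⟩
    show M.ρ c.1 m = m
    rw [← hγ]
    exact this
  · intro h w
    exact h ⟨proj K w.1, w.2⟩

/-- **(B1)** `dim H⁰(W, N) = dim M^C`. -/
theorem finrank_H0_resW :
    finrank (ZMod p)
        ((LES.restrict (levelsS S) (preW K C)).levelCohomology (resW K C M) 0) =
      finrank (ZMod p) (rhoC K C M).invariants :=
  (((LES.restrict (levelsS S) (preW K C)).H0Equiv (resW K C M)).trans
    (LinearEquiv.ofEq _ _ (invariants_resW_eq K C M))).finrank_eq

/-- **(B2)** `dim {C-equivariant Idx K S_K → M} = dim P⁰(I) + dim I^{c=1}` (helper31's (A5a)). -/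
theorem finrank_eqFunC [Module.Finite (ZMod p) M] :
    finrank (ZMod p) (eqFunC K S C M) =
      finrank (ZMod p) ((arithDatum S).locH (indMod K C M) 0) +
        finrank (ZMod p) (fixc (indMod K C M)) :=
  (ShapiroLocal.finrank_locH0_add_fixc_eqFun K S C M).symm

/-! ### (A5) with only the Kummer count as input -/

/-- **(A5)** from the Kummer count alone. -/
theorem hA5_of_card' (hle : K.fixingSubgroup ≤ (cycloChar p).ker)
    (hcop : (Nat.card C).Coprime p) [Module.Finite (ZMod p) M]
    (hcard : Nat.card ((LES.restrict (levelsS S) (preW K C)).levelCohomology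
        ((resW K C M).dualTwist ((cycloChar p).comp (preW K C).subtype)) 1) =
      Nat.card (HomUnitsModP K S C M)) :
    finrank (ZMod p) ((LES.restrict (levelsS S) (preW K C)).levelCohomology
        ((resW K C M).dualTwist ((cycloChar p).comp (preW K C).subtype)) 1) +
      finrank (ZMod p)
        ((LES.restrict (levelsS S) (preW K C)).levelCohomology (resW K C M) 0) =
      finrank (ZMod p) ((arithDatum S).locH (indMod K C M) 0)
        + finrank (ZMod p) ((LES.restrict (levelsS S) (preW K C)).levelCohomology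
            ((resW K C M).dualTwist ((cycloChar p).comp (preW K C).subtype)) 0)
        + finrank (ZMod p) (fixc (indMod K C M)) :=
  hA5_of_card K S C M hle hcop hcard (finrank_H0_resW K S C M) (finrank_eqFunC K S C M)

/-- The `C`-equivariant additive maps `M → Δ_{S_K}(K, p)` (helper67's `DeltaModP.DeltaHoms` for
`G = C`, `N = M`). -/
abbrev DeltaHomsC : Type :=
  letI := repAction (rhoC K C M)
  DeltaModP.DeltaHoms (FirstIneq.primesAbove K S) (FirstIneq.isStableUnder_primesAbove K C S) p M

/-- **(A5)** from the Kummer count in `Δ`-form ((A3), helper84) when `S_K` is class-generating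
((A5c) = `DeltaModP.card_hom_modP_eq`). -/
theorem hA5_of_delta (hle : K.fixingSubgroup ≤ (cycloChar p).ker)
    (hcop : (Nat.card C).Coprime p) [Module.Finite (ZMod p) M]
    (hcl : IsClassGenerating (FirstIneq.primesAbove K S))
    (hkum : Nat.card ((LES.restrict (levelsS S) (preW K C)).levelCohomology
        ((resW K C M).dualTwist ((cycloChar p).comp (preW K C).subtype)) 1) =
      Nat.card (DeltaHomsC K S C M)) :
    finrank (ZMod p) ((LES.restrict (levelsS S) (preW K C)).levelCohomology
        ((resW K C M).dualTwist ((cycloChar p).comp (preW K C).subtype)) 1) +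
      finrank (ZMod p)
        ((LES.restrict (levelsS S) (preW K C)).levelCohomology (resW K C M) 0) =
      finrank (ZMod p) ((arithDatum S).locH (indMod K C M) 0)
        + finrank (ZMod p) ((LES.restrict (levelsS S) (preW K C)).levelCohomology
            ((resW K C M).dualTwist ((cycloChar p).comp (preW K C).subtype)) 0)
        + finrank (ZMod p) (fixc (indMod K C M)) := by
  letI := repAction (rhoC K C M)
  refine hA5_of_card' K S C M hle hcop (hkum.trans ?_)
  exact (DeltaModP.card_hom_modP_eq (FirstIneq.primesAbove K S)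
    (FirstIneq.isStableUnder_primesAbove K C S) M hp.out.ne_zero hcl).symm

/-! ### The cyclic step `hind`, with only (A3) (Kummer count) and (A4) (`Ш¹ = 0`) as inputs -/

open Fermat.Agent.S56x.GW Fermat.Agent.Lib.CFT.Duality.PoitouTate in
/-- **`hind`, `K`-form**: Tate's formula `TateEulerC S I` for `I = Coind_W^Γ (Inf M|_W)`,
`W = π⁻¹(C)`, `C ≤ Gal(K/ℚ)` of order prime to `p`, from the Kummer count (A3) in `Δ`-form, the
vanishing (A4) of `Ш¹(I)` and the class-generating hypothesis on `S_K`. -/
theorem tateEulerC_indMod_of_kummer (I : GlobalInput p S) (hpS : pPrime p ∈ S)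
    (hKS : K.fixingSubgroup ∈ (levelsS S).levels)
    (hle : K.fixingSubgroup ≤ (cycloChar p).ker)
    (hcop : (Nat.card C).Coprime p) [Finite M]
    (hcl : IsClassGenerating (FirstIneq.primesAbove K S))
    (hkum : Nat.card ((LES.restrict (levelsS S) (preW K C)).levelCohomology
        ((resW K C M).dualTwist ((cycloChar p).comp (preW K C).subtype)) 1) =
      Nat.card (DeltaHomsC K S C M))
    (hA4 : (arithDatum S).shaLevel (indMod K C M) 1 = ⊥) :
    TateEulerC S (indMod K C M) := by
  haveI : Module.Finite (ZMod p) M := Module.Finite.of_finite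
  haveI : Finite (infl K M) := ‹Finite M›
  haveI : Finite (indMod K C M) :=
    finite_P_of_open (preW K C) (isOpenSubgroup_preW K S hKS C) (infl K M)
  exact tateEulerC_indMod_of_inputs K I hpS hKS C M _
    (hA2_dual K hpS hKS C M 1) (hA2_dual K hpS hKS C M 0) (hA2_zero K hKS C M 0) rfl hA4
    (hA5_of_delta K S C M hle hcop hcl hkum)

end Fermat.Agent.S56x.Euler.HindA5
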