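/-
P-S56, block (B), (EC) line, leaves (R1), (R2) for (E6) KummerDelta (helper84):

* (R1) `mem_deltaS_of_pow_eq` : THE RAMIFICATION STEP.  If `β ^ p = b ∈ Fˣ` and `β` lies in an
  extension `L ⊇ F` which is unramified outside `S`, then `p ∣ ord_v b` for all primes `v` of `F`
  not above `S`, i.e. `b ∈ Δ_S(F)` (`KummerChars.deltaS F p S`).
* (R2) `resAut σ : ↥F ≃+* ↥F` for `σ : Γℚ` and `F / ℚ` normal; it stabilises the set of primes
  above `S` (`isStable_resAut`), `resAut_one`, `resAut_mul`.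
-/
import Fermat.Agent.Lib.CFT.Global.KummerChars
import Fermat.Agent.Lib.CFT.Global.FirstIneqUnits
import Fermat.Agent.S56x.Euler.DeltaS

set_option autoImplicit false

open NumberField IsDedekindDomain

namespace Fermat.Agent.S56x.Euler.KummerRam

open Fermat.Agent.Lib.CFT.Global.SUnits Fermat.Agent.Lib.CFT.Profinite.Bridge
  Fermat.Agent.Lib.CFT.Global

local notation "Qbar" => AlgebraicClosure ℚ
local notation "Γℚ" => (AlgebraicClosure ℚ ≃ₐ[ℚ] AlgebraicClosure ℚ)

section Places

variable (F : IntermediateField ℚ Qbar) [FiniteDimensional ℚ F]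

/-- Every prime of `𝓞 F` is cut out by a valuation subring of `Qbar`. -/
theorem exists_valuationSubring_primeBelow_eq (v : HeightOneSpectrum (𝓞 F)) :
    ∃ A : ValuationSubring Qbar, primeBelow A F = v.asIdeal := by
  classical
  set P : Ideal (𝓞 F) := v.asIdeal with hPdef
  have hPmax : P.IsMaximal := v.isMaximal
  have hP : P.IsPrime := v.isPrime
  let toL : 𝓞 F →+* Qbar := (algebraMap F Qbar).comp (algebraMap (𝓞 F) F)
  have htoL_inj : Function.Injective toL :=
    (algebraMap F Qbar).injective.comp RingOfIntegers.coe_injective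
  have htoL_mem : ∀ (A : ValuationSubring Qbar) (x : 𝓞 F), toL x ∈ A :=
    fun A x => KummerLevel.coe_integer_mem F A x
  let R : Subring Qbar := toL.range
  let I : Ideal R := P.map toL.rangeRestrict
  have hI : I ≠ ⊤ := by
    intro htop
    have h1 : (1 : R) ∈ I := by rw [htop]; trivial
    rw [Ideal.mem_map_iff_of_surjective _ toL.rangeRestrict_surjective] at h1
    obtain ⟨x, hxP, hx1⟩ := h1
    have h2 : toL x = 1 := congrArg Subtype.val hx1
    have h3 : x = 1 := htoL_inj (by rw [h2, map_one])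
    exact hP.ne_top ((Ideal.eq_top_iff_one P).mpr (h3 ▸ hxP))
  obtain ⟨A, -, hIA⟩ := Ideal.image_subset_nonunits_valuationSubring I hI
  refine ⟨A, ?_⟩
  ext x
  rw [mem_primeBelow_iff]
  change toL x ∈ A.nonunits ↔ x ∈ P
  constructor
  · intro hx
    by_contra hxP
    obtain ⟨y, i, hi, hyi⟩ := hPmax.exists_inv hxP
    have hi' : toL i ∈ A.nonunits :=
      hIA ⟨toL.rangeRestrict i, Ideal.mem_map_of_mem _ hi, rfl⟩
    have h1 : toL y * toL x + toL i = 1 := by
      rw [← map_mul, ← map_add, hyi, map_one]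
    apply Fermat.Agent.Lib.one_not_mem_nonunits A
    rw [← h1]
    refine A.nonunits.add_mem ?_ hi'
    rw [mul_comm]
    exact Fermat.Agent.Lib.mul_mem_nonunits_of_mem A hx (htoL_mem A y)
  · intro hx
    exact hIA ⟨toL.rangeRestrict x, Ideal.mem_map_of_mem _ hx, rfl⟩

end Places

section Ram

variable {F : IntermediateField ℚ Qbar} [FiniteDimensional ℚ F]

/-- `ord_v(q) = 1` when `q ∈ v` and `q ∉ v²`. -/
lemma ordAt_natCast_eq_one (v : HeightOneSpectrum (𝓞 F)) {q : ℕ}
    (hq0 : (((q : ℕ) : 𝓞 F) : F) ≠ 0)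
    (h1 : ((q : ℕ) : 𝓞 F) ∈ v.asIdeal) (h2 : ((q : ℕ) : 𝓞 F) ∉ v.asIdeal ^ 2) :
    ordAt v (Units.mk0 (((q : ℕ) : 𝓞 F) : F) hq0) = 1 := by
  rw [ordAt_mk0_eq_multiplicity]
  have h : multiplicity v.asIdeal (Ideal.span {((q : ℕ) : 𝓞 F)}) = 1 := by
    apply multiplicity_eq_of_dvd_of_not_dvd
    · rw [pow_one, Ideal.dvd_span_singleton]
      exact h1
    · rw [Ideal.dvd_span_singleton]
      exact h2
  rw [h]
  rfl

/-- **Dictionary** between the valuation of a valuation subring `A` of `Qbar` over an unramified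
rational prime `q` and `ordAt` at the prime of `𝓞 F` below `A`. -/
theorem valuation_eq_zpow (A : ValuationSubring Qbar) {q : ℕ} (hq : q.Prime)
    (hA : A.LiesOverPrime q)
    (hunr : ((q : ℕ) : 𝓞 F) ∉ (KummerLevel.placeBelow F A hq hA).asIdeal ^ 2) (y : Fˣ) :
    A.valuation ((y : F) : Qbar) =
      A.valuation ((q : ℕ) : Qbar) ^ (ordAt (KummerLevel.placeBelow F A hq hA) y) := by
  set v := KummerLevel.placeBelow F A hq hA with hv
  have hq0 : (((q : ℕ) : 𝓞 F) : F) ≠ 0 := by
    have : ((q : ℕ) : F) ≠ 0 := Nat.cast_ne_zero.mpr hq.ne_zero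
    simpa using this
  set π : Fˣ := Units.mk0 (((q : ℕ) : 𝓞 F) : F) hq0 with hπdef
  have hπ : ordAt v π = 1 :=
    ordAt_natCast_eq_one v hq0 (KummerLevel.natCast_mem_placeBelow F A hq hA) hunr
  set n : ℤ := ordAt v y with hn
  set z : Fˣ := y * (π ^ n)⁻¹ with hzdef
  have hz : ordAt v z = 0 := by
    rw [hzdef, ordAt_mul, ordAt_inv, KummerLevel.ordAt_zpow, hπ]
    ring
  have h1 := KummerLevel.valuation_eq_one_of_ordAt_eq_zero F A hq hA z hz
  have hy : y = z * π ^ n := by
    rw [hzdef, inv_mul_cancel_right]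
  have hπQ : (((π : Fˣ) : F) : Qbar) = ((q : ℕ) : Qbar) := by
    rw [hπdef, Units.val_mk0]
    simp
  have hyQ : ((y : F) : Qbar) = ((z : F) : Qbar) * ((q : ℕ) : Qbar) ^ n := by
    conv_lhs => rw [hy]
    rw [Units.val_mul, Units.val_zpow_eq_zpow_val]
    rw [← hπQ]
    push_cast
    rfl
  rw [hyQ, map_mul, h1, one_mul, map_zpow₀]

/-- **(R1) The ramification step.**  If `β ^ p = b ∈ Fˣ` with `β` in an extension `L ⊇ F` which
is unramified outside `S`, then `b ∈ Δ_S(F)`: `p ∣ ord_v b` for all primes `v` of `F` not above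
`S`. -/
theorem mem_deltaS_of_pow_eq {S : Finset Nat.Primes} {L : IntermediateField ℚ Qbar}
    (hFL : F ≤ L) (hL : L.IsUnramifiedOutside S) {p : ℕ} (hp0 : p ≠ 0) (b : Fˣ) (β : Qbar)
    (hβL : β ∈ L) (hβ : β ^ p = ((b : F) : Qbar)) :
    b ∈ KummerChars.deltaS F p S := by
  have : FiniteDimensional ℚ L := hL.1
  have hF : F.IsUnramifiedOutside S := hL.of_le hFL
  rw [KummerChars.mem_deltaS]
  intro v hvS
  -- the rational prime below `v`
  have hv0 : v.asIdeal ≠ ⊥ := v.ne_bot
  have : NeZero v.asIdeal := ⟨hv0⟩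
  have hlp : (Ideal.absNorm (v.asIdeal.under ℤ)).Prime := Nat.absNorm_under_prime v.asIdeal
  have hlP : ((Ideal.absNorm (v.asIdeal.under ℤ) : ℕ) : 𝓞 F) ∈ v.asIdeal :=
    Int.absNorm_under_mem v.asIdeal
  generalize Ideal.absNorm (v.asIdeal.under ℤ) = l at hlp hlP
  set q : Nat.Primes := ⟨l, hlp⟩ with hqdef
  have hqS : q ∉ S := fun hq => hvS q hq hlP
  -- a valuation subring of `Qbar` above `v`
  obtain ⟨A, hAv⟩ := exists_valuationSubring_primeBelow_eq F v
  have hA : A.LiesOverPrime l := by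
    have h1 : ((l : ℕ) : 𝓞 F) ∈ primeBelow A F := by rw [hAv]; exact hlP
    rw [mem_primeBelow_iff] at h1
    have h2 : algebraMap F Qbar (((l : ℕ) : 𝓞 F) : F) = ((l : ℕ) : Qbar) := by simp
    rw [h2] at h1
    exact h1
  have hvA : KummerLevel.placeBelow F A hlp hA = v := HeightOneSpectrum.ext hAv
  -- unramifiedness at `q` for `F` and `L`
  have hunrF : ((l : ℕ) : 𝓞 F) ∉ (KummerLevel.placeBelow F A hlp hA).asIdeal ^ 2 :=
    (isUnramifiedOutside_iff_not_mem_sq F S).mp hF q hqS _ inferInstance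
      (KummerLevel.natCast_mem_placeBelow F A hlp hA)
  have hunrL : ((l : ℕ) : 𝓞 L) ∉ (KummerLevel.placeBelow L A hlp hA).asIdeal ^ 2 :=
    (isUnramifiedOutside_iff_not_mem_sq L S).mp hL q hqS _ inferInstance
      (KummerLevel.natCast_mem_placeBelow L A hlp hA)
  -- `β` as a unit of `L`
  have hb0 : ((b : F) : Qbar) ≠ 0 := by
    have : (b : F) ≠ 0 := b.ne_zero
    exact_mod_cast this
  have hβ0 : β ≠ 0 := by
    rintro rfl
    rw [zero_pow hp0] at hβ
    exact hb0 hβ.symm
  set βL : L := ⟨β, hβL⟩ with hβLdef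
  have hβL0 : βL ≠ 0 := by
    intro h
    apply hβ0
    have := congrArg (fun z : L => (z : Qbar)) h
    simpa [hβLdef] using this
  set β' : Lˣ := Units.mk0 βL hβL0 with hβ'def
  -- compare valuations
  have h1 := valuation_eq_zpow (F := F) A hlp hA hunrF b
  have h2 := valuation_eq_zpow (F := L) A hlp hA hunrL β'
  have h3 : (((β' : Lˣ) : L) : Qbar) = β := rfl
  rw [h3] at h2
  have h4 : A.valuation ((b : F) : Qbar) = A.valuation β ^ p := by
    rw [← hβ, map_pow]
  rw [h1, h2, ← zpow_natCast, ← zpow_mul] at h4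
  -- `0 < |q|_A < 1`
  have hlt : A.valuation ((l : ℕ) : Qbar) < 1 := (A.mem_nonunits_iff).1 hA
  have hne0 : A.valuation ((l : ℕ) : Qbar) ≠ 0 := by
    rw [Valuation.ne_zero_iff]
    exact Nat.cast_ne_zero.mpr hlp.ne_zero
  have hinj := zpow_right_injective₀ (zero_lt_iff.mpr hne0) hlt.ne h4
  rw [hvA] at hinj
  rw [hinj]
  exact Dvd.intro_left _ rfl

end Ram

/-! ### (R2) The Galois action on `F`, its primes and `Δ_S` -/

section Stable

/-- The set of primes above a set of rational primes is stable under every automorphism. -/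
theorem isStable_primesAbove (K : Type) [Field K] [NumberField K] (σ : K ≃+* K)
    (S : Finset Nat.Primes) : SUnits.IsStable σ (FirstIneq.primesAbove K S) := by
  intro v
  rw [FirstIneq.mem_primesAbove, FirstIneq.mem_primesAbove]
  refine exists_congr fun q => and_congr_right fun _ => ?_
  rw [SUnits.mem_primeMap_iff, map_natCast]

end Stable

section Galois

variable (F : IntermediateField ℚ Qbar) [Normal ℚ F]

/-- The restriction of `σ : Γℚ` to the normal subfield `F`, as a ring automorphism of `↥F`. -/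
noncomputable def resAut (σ : Γℚ) : ↥F ≃+* ↥F := (AlgEquiv.restrictNormal σ F).toRingEquiv

@[simp] theorem coe_resAut (σ : Γℚ) (x : F) : ((resAut F σ x : F) : Qbar) = σ (x : Qbar) :=
  AlgEquiv.restrictNormal_commutes σ F x

theorem resAut_one_apply (x : F) : resAut F 1 x = x := by
  apply Subtype.ext
  rw [coe_resAut]
  rfl

theorem resAut_mul_apply (σ τ : Γℚ) (x : F) : resAut F (σ * τ) x = resAut F σ (resAut F τ x) := by
  apply Subtype.ext
  rw [coe_resAut, coe_resAut, coe_resAut]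
  rfl

theorem resAut_one : resAut F 1 = RingEquiv.refl F :=
  RingEquiv.ext (resAut_one_apply F)

theorem resAut_mul (σ τ : Γℚ) : resAut F (σ * τ) = (resAut F τ).trans (resAut F σ) :=
  RingEquiv.ext (resAut_mul_apply F σ τ)

theorem resAut_inv_apply (σ : Γℚ) (x : F) : resAut F σ⁻¹ x = (resAut F σ).symm x := by
  apply (resAut F σ).injective
  rw [RingEquiv.apply_symm_apply, ← resAut_mul_apply, mul_inv_cancel, resAut_one_apply]

theorem resAut_inv (σ : Γℚ) : resAut F σ⁻¹ = (resAut F σ).symm :=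
  RingEquiv.ext (resAut_inv_apply F σ)

/-- `σ ↦ resAut F σ` as a group homomorphism to `RingAut ↥F`. -/
noncomputable def resAutHom : Γℚ →* RingAut ↥F where
  toFun σ := resAut F σ
  map_one' := resAut_one F
  map_mul' σ τ := RingEquiv.ext (resAut_mul_apply F σ τ)

@[simp] theorem resAutHom_apply (σ : Γℚ) (x : F) : resAutHom F σ x = resAut F σ x := rfl

/-- Elements of the fixing subgroup of `F` restrict to the identity. -/
theorem resAut_of_mem_fixingSubgroup {σ : Γℚ} (hσ : σ ∈ F.fixingSubgroup) (x : F) :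
    resAut F σ x = x := by
  apply Subtype.ext
  rw [coe_resAut]
  exact (IntermediateField.mem_fixingSubgroup_iff F σ).mp hσ x x.2

variable [FiniteDimensional ℚ F]

/-- **(R2)** The primes of `F` above `S` are stable under the Galois action. -/
theorem isStable_resAut (σ : Γℚ) (S : Finset Nat.Primes) :
    SUnits.IsStable (resAut F σ) (FirstIneq.primesAbove ↥F S) :=
  isStable_primesAbove ↥F (resAut F σ) S

end Galois

/-! ### Bridge `KummerChars.deltaS` ↔ `DeltaS.deltaPre` -/

section BridgeDelta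

variable (F : IntermediateField ℚ Qbar) [FiniteDimensional ℚ F]

theorem notMem_primesAbove_iff (S : Finset Nat.Primes) (v : HeightOneSpectrum (𝓞 F)) :
    v ∉ FirstIneq.primesAbove ↥F S ↔ ∀ q ∈ S, ((q : ℕ) : 𝓞 F) ∉ v.asIdeal := by
  rw [FirstIneq.mem_primesAbove]
  constructor
  · intro h q hq hqv
    exact h ⟨q, hq, hqv⟩
  · rintro h ⟨q, hq, hqv⟩
    exact h q hq hqv

/-- The group `Δ_S` of the frozen `KummerChars` is the `deltaPre` of `DeltaS.lean` for the primes
above `S`. -/
theorem deltaS_eq_deltaPre (p : ℕ) (S : Finset Nat.Primes) :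
    KummerChars.deltaS F p S = DeltaS.deltaPre (FirstIneq.primesAbove ↥F S) p := by
  ext b
  rw [KummerChars.mem_deltaS, DeltaS.mem_deltaPre_iff]
  refine forall_congr' fun v => ?_
  rw [notMem_primesAbove_iff]

/-- (R1) in the `deltaPre` form. -/
theorem mem_deltaPre_of_pow_eq {S : Finset Nat.Primes} {L : IntermediateField ℚ Qbar}
    (hFL : F ≤ L) (hL : L.IsUnramifiedOutside S) {p : ℕ} (hp0 : p ≠ 0) (b : Fˣ) (β : Qbar)
    (hβL : β ∈ L) (hβ : β ^ p = ((b : F) : Qbar)) :
    b ∈ DeltaS.deltaPre (FirstIneq.primesAbove ↥F S) p := by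
  rw [← deltaS_eq_deltaPre]
  exact mem_deltaS_of_pow_eq hFL hL hp0 b β hβL hβ

end BridgeDelta

end Fermat.Agent.S56x.Euler.KummerRam
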