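import Fermat.Agent.S56x.Euler.KummerPairing
import Fermat.Agent.S56x.Euler.KummerRam
import Fermat.Agent.S56x.Euler.HindSetting
import Fermat.Agent.S56x.Euler.DeltaModP

/-!
# P-S56 block (B), (E6) = input (A3) of `hind`: `#H¹(W, N^∨(1)) = #Hom_C(M, Δ_S(K, p))`

In the setting of `Euler/HindSetting.lean` (`K` finite Galois, `C ≤ Gal(K/ℚ)`, `W = preW K C`,
`N = resW K C M`): when `K` is unramified outside `S ∋ p`, contains `μ_p`
(`K.fixingSubgroup ≤ ker χ_cyc`) and `p ∤ |C|`,

`H¹_{levelsS S}(W, N^∨(1)) ≃ DeltaModP.DeltaHoms S_K _ p M`  (`S_K = primesAbove K S`),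

the `C`-equivariant additive maps `M → Δ_S(K, p)`; no class group hypothesis.  With
`DeltaModP.card_hom_modP_eq` (under `IsClassGenerating S_K`) this is `#Hom_{ℤ[C]}(M, O_{K,S}^×/p)`.
-/

set_option autoImplicit false
set_option linter.unusedSectionVars false
set_option linter.style.haveILetI false

open NumberField IsDedekindDomain

namespace Fermat.Agent.S56x.Euler.KummerDelta

open Fermat.Agent.Lib.CFT.Global.KummerChars Fermat.Agent.Lib.CFT.Global.SUnits
  Fermat.Agent.Lib.CFT.Global.SVersion Fermat.Agent.Lib.CFT.Global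
  Fermat.Agent.Lib.CFT.Profinite Fermat.Agent.Lib.CFT.Profinite.Bridge
  Fermat.Agent.Lib.CFT.Profinite.LES
  Fermat.Agent.S56x.Euler.DeltaS Fermat.Agent.S56x.Euler.DeltaAction
  Fermat.Agent.S56x.Euler.DescentH1 Fermat.Agent.S56x.Euler.PairingHom
  Fermat.Agent.S56x.Euler.KummerPairing Fermat.Agent.S56x.Euler.RepAction
  Fermat.Agent.S56x.Euler.DeltaModP

local notation "Qbar" => AlgebraicClosure ℚ
local notation "Γℚ" => (AlgebraicClosure ℚ ≃ₐ[ℚ] AlgebraicClosure ℚ)

local instance isAlgebraicQbar_kd : Algebra.IsAlgebraic ℚ (AlgebraicClosure ℚ) :=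
  AlgebraicClosure.isAlgebraic ℚ
local instance isAlgClosureQbar_kd : IsAlgClosure ℚ (AlgebraicClosure ℚ) :=
  ⟨inferInstance, inferInstance⟩
local instance normalQbar_kd : Normal ℚ (AlgebraicClosure ℚ) :=
  IsAlgClosure.normal ℚ (AlgebraicClosure ℚ)
local instance isGaloisQbar_kd : IsGalois ℚ (AlgebraicClosure ℚ) := ⟨⟩

variable {p : ℕ} [hp : Fact p.Prime] (S : Finset Nat.Primes)
  (K : IntermediateField ℚ Qbar) [FiniteDimensional ℚ K] [Normal ℚ K]
  (C : Subgroup (K ≃ₐ[ℚ] K))

/-- The ramification input, from `KummerRam`. -/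
theorem ramInput : RamInput p S K := fun _ hKL hL b β hβL hβ =>
  KummerRam.mem_deltaS_of_pow_eq hKL hL hp.out.ne_zero b β hβL hβ

/-- `μ_p ⊆ K` when `Gal(Qbar/K)` is killed by the cyclotomic character. -/
theorem exists_isPrimitiveRoot (hKχ : K.fixingSubgroup ≤ (ExtCitation.cycloChar p).ker) :
    ∃ ζ : ↥K, IsPrimitiveRoot ζ p := by
  have : NeZero (p : Qbar) := ⟨by exact_mod_cast hp.out.ne_zero⟩
  obtain ⟨ζ, hζ⟩ := HasEnoughRootsOfUnity.exists_primitiveRoot Qbar p
  have hmem : ζ ∈ K := by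
    rw [← InfiniteGalois.fixedField_fixingSubgroup K, IntermediateField.mem_fixedField_iff]
    intro σ hσ
    have h1 : ExtCitation.cycloChar p σ = 1 := hKχ hσ
    have h2 := apply_eq_pow_cycloExp p σ hζ.pow_eq_one
    rw [h2, ← ExtCitation.val_cycloChar, h1, Units.val_one, ZMod.val_one, pow_one]
  refine ⟨⟨ζ, hmem⟩, ?_⟩
  have h3 : IsPrimitiveRoot (algebraMap ↥K Qbar ⟨ζ, hmem⟩) p := hζ
  exact IsPrimitiveRoot.of_map_of_injective h3 (algebraMap ↥K Qbar).injective

variable (hst : IsStableUnder ↥C (FirstIneq.primesAbove ↥K S))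
  (M : Rep.{0} (ZMod p) (K ≃ₐ[ℚ] K))

/-- `N = M|_W` in the notation of `KummerPairing`. -/
noncomputable abbrev resWK : Rep.{0} (ZMod p) ↥(Wgrp K C) :=
  Rep.res (Wgrp K C).subtype (Rep.res (AlgEquiv.restrictNormalHom (F := ℚ) (K₁ := Qbar) K) M)

theorem resWK_ρ (w : ↥(Wgrp K C)) (m : M) :
    (resWK K C M).ρ w m = M.ρ ((projC K C w : ↥C) : K ≃ₐ[ℚ] K) m := rfl

theorem resWK_trivial (v : ↥(Vsub K C)) : (resWK K C M).ρ (v : ↥(Wgrp K C)) = 1 := by
  apply LinearMap.ext
  intro m
  rw [resWK_ρ]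
  have h1 : ((projC K C (v : ↥(Wgrp K C)) : ↥C) : K ≃ₐ[ℚ] K) = 1 :=
    (restrictNormalHom_eq_one_iff K _).2 v.2
  rw [h1, map_one]

/-- `W`-equivariant maps `N → Δ` are the `C`-equivariant maps `M → Δ`. -/
noncomputable def eqHomsEquivDeltaHoms :
    letI := actW (p := p) S K C hst
    letI := repAction (M.ρ.comp C.subtype)
    EqHoms (resWK K C M) (D := DeltaK p S K) ≃
      DeltaHoms (FirstIneq.primesAbove ↥K S) hst p M :=
  letI := actW (p := p) S K C hst
  letI := repAction (M.ρ.comp C.subtype)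
  { toFun := fun φ => ⟨φ.1, fun c m => by
      obtain ⟨w, rfl⟩ := projC_surjective K C c
      exact φ.2 w m⟩
    invFun := fun φ => ⟨φ.1, fun w m => φ.2 (projC K C w) m⟩
    left_inv := fun _ => rfl
    right_inv := fun _ => rfl }

/-- **(A3), bijection form, `C`-equivariant target.** -/
noncomputable def h1EquivDeltaHoms [Finite M] (hK : K.IsUnramifiedOutside S)
    (hpS : (⟨p, hp.out⟩ : Nat.Primes) ∈ S)
    (hKχ : K.fixingSubgroup ≤ (ExtCitation.cycloChar p).ker) (hC : ¬ p ∣ Nat.card ↥C) :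
    letI := repAction (M.ρ.comp C.subtype)
    (restrict (levelsS S) (Wgrp K C)).levelCohomology
        ((resWK K C M).dualTwist ((ExtCitation.cycloChar p).comp (Wgrp K C).subtype)) 1 ≃
      DeltaHoms (FirstIneq.primesAbove ↥K S) hst p M :=
  letI : Finite (resWK K C M) := ‹Finite M›
  (h1EquivEqHoms S K C hst (exists_isPrimitiveRoot K hKχ).choose_spec (resWK K C M) hK hpS
    (ramInput S K) (resWK_trivial K C M) hC).trans (eqHomsEquivDeltaHoms S K C hst M)

/-! ### The export in the notation of `Euler/HindSetting.lean` -/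

/-- A finite extension whose fixing subgroup is a level of `levelsS S` is unramified outside
`S`. -/
theorem isUnramifiedOutside_of_mem_levels (hKS : K.fixingSubgroup ∈ (levelsS S).levels) :
    K.IsUnramifiedOutside S := by
  obtain ⟨F, hF, hKF⟩ := hKS
  have h1 : K = F := by
    rw [← InfiniteGalois.fixedField_fixingSubgroup K, hKF,
      InfiniteGalois.fixedField_fixingSubgroup]
  rw [h1]
  exact hF

/-- **(A3) = `hkum` of `HindA5.tateEulerC_indMod_of_kummer`**: the Kummer count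
`#H¹(W, N^∨(1)) = #Hom_C(M, Δ_{S_K}(K, p))`, no class group hypothesis. -/
theorem card_H1_resW_eq_card_deltaHoms [Finite M] (hpS : ExtCitation.pPrime p ∈ S)
    (hKS : K.fixingSubgroup ∈ (levelsS S).levels)
    (hle : K.fixingSubgroup ≤ (ExtCitation.cycloChar p).ker)
    (hcop : (Nat.card ↥C).Coprime p) :
    letI := repAction (M.ρ.comp C.subtype)
    Nat.card ((restrict (levelsS S) (Hind.preW K C)).levelCohomology
        ((Hind.resW K C M).dualTwist
          ((ExtCitation.cycloChar p).comp (Hind.preW K C).subtype)) 1) =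
      Nat.card (DeltaHoms (FirstIneq.primesAbove ↥K S)
        (FirstIneq.isStableUnder_primesAbove ↥K ↥C S) p M) := by
  have hC : ¬ p ∣ Nat.card ↥C := (Nat.Prime.coprime_iff_not_dvd hp.out).1 hcop.symm
  exact Nat.card_congr (h1EquivDeltaHoms S K C (FirstIneq.isStableUnder_primesAbove ↥K ↥C S) M
    (isUnramifiedOutside_of_mem_levels S K hKS) hpS hle hC)

end Fermat.Agent.S56x.Euler.KummerDelta
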