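import Mathlib
import Fermat.Agent.Lib.CFT.Profinite.BridgeRamification

/-!
# P-S56 block (B), E8 layer 2: relative Galois theory inside `Qbar`

`FK ≤ FL` finite subextensions of `Qbar / ℚ` with `FL.fixingSubgroup` normalised by
`FK.fixingSubgroup`.  For the algebra structure `Bridge.algebraOfLE hle : Algebra FK FL` of the
library:

* `isGalois_of_normal` : `FL / FK` is Galois;
* `finrank_eq_index` : `[FL : FK] = [Gal(Qbar/FK) : Gal(Qbar/FL)]`;
* `exists_lift` : every `FK`-automorphism of `FL` is the restriction of an element of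
  `FK.fixingSubgroup`.
-/

set_option autoImplicit false
set_option linter.style.haveILetI false

namespace Fermat.Agent.S56x.Euler.RelGalois

open Fermat.Agent.Lib.CFT.Profinite.Bridge

local notation "Qbar" => AlgebraicClosure ℚ
local notation "Γℚ" => (AlgebraicClosure ℚ ≃ₐ[ℚ] AlgebraicClosure ℚ)

local instance isAlgebraicQbar_rg : Algebra.IsAlgebraic ℚ (AlgebraicClosure ℚ) :=
  AlgebraicClosure.isAlgebraic ℚ
local instance isAlgClosureQbar_rg : IsAlgClosure ℚ (AlgebraicClosure ℚ) :=
  ⟨inferInstance, inferInstance⟩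
local instance normalQbar_rg : Normal ℚ (AlgebraicClosure ℚ) :=
  IsAlgClosure.normal ℚ (AlgebraicClosure ℚ)
local instance isGaloisQbar_rg : IsGalois ℚ (AlgebraicClosure ℚ) := ⟨⟩

variable {FK FL : IntermediateField ℚ Qbar} (hle : FK ≤ FL)

/-- `FL` as an intermediate field of `Qbar / FK`. -/
noncomputable abbrev relField : IntermediateField ↥FK Qbar := IntermediateField.extendScalars hle

theorem mem_relField (x : Qbar) : x ∈ relField hle ↔ x ∈ FL := Iff.rfl

/-- The identity, as an `FK`-algebra isomorphism between the two incarnations of `FL`. -/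
noncomputable def relEquiv :
    letI := algebraOfLE hle
    ↥(relField hle) ≃ₐ[↥FK] ↥FL :=
  letI := algebraOfLE hle
  { toFun := fun x => ⟨x.1, x.2⟩
    invFun := fun x => ⟨x.1, x.2⟩
    left_inv := fun _ => rfl
    right_inv := fun _ => rfl
    map_mul' := fun _ _ => rfl
    map_add' := fun _ _ => rfl
    commutes' := fun _ => rfl }

theorem scalarTower_bot :
    letI := algebraOfLE hle
    IsScalarTower ℚ ↥FK ↥FL := by
  letI := algebraOfLE hle
  exact IsScalarTower.of_algebraMap_eq (fun r => Subtype.ext rfl)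

theorem scalarTower_top :
    letI := algebraOfLE hle
    IsScalarTower ↥FK ↥FL Qbar := by
  letI := algebraOfLE hle
  exact IsScalarTower.of_algebraMap_eq (fun r => rfl)

/-- The fixing subgroup of `relField`, in terms of the fixing subgroups in `Γℚ`. -/
theorem mem_fixingSubgroup_relField (ψ : Qbar ≃ₐ[↥FK] Qbar) :
    ψ ∈ (relField hle).fixingSubgroup ↔ ψ.restrictScalars ℚ ∈ FL.fixingSubgroup := by
  rw [IntermediateField.mem_fixingSubgroup_iff, IntermediateField.mem_fixingSubgroup_iff]
  exact Iff.rfl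

theorem restrictScalars_mem_fixingSubgroup (ψ : Qbar ≃ₐ[↥FK] Qbar) :
    ψ.restrictScalars ℚ ∈ FK.fixingSubgroup := by
  rw [IntermediateField.mem_fixingSubgroup_iff]
  intro x hx
  exact ψ.commutes ⟨x, hx⟩

/-- The normality hypothesis. -/
def Normalises (FK FL : IntermediateField ℚ Qbar) : Prop :=
  ∀ σ ∈ FK.fixingSubgroup, ∀ s ∈ FL.fixingSubgroup, σ * s * σ⁻¹ ∈ FL.fixingSubgroup

theorem normal_fixingSubgroup_relField (hn : Normalises FK FL) :
    (relField hle).fixingSubgroup.Normal := by
  constructor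
  intro n hnmem g
  rw [mem_fixingSubgroup_relField] at hnmem
  have h := hn _ (restrictScalars_mem_fixingSubgroup g) _ hnmem
  rw [IntermediateField.mem_fixingSubgroup_iff] at h ⊢
  intro x hx
  have hx' : (g.restrictScalars ℚ) ((n.restrictScalars ℚ) ((g.restrictScalars ℚ).symm x)) = x :=
    h x hx
  show g (n (g.symm x)) = x
  exact hx'

theorem isGalois_relField (hn : Normalises FK FL) : IsGalois ↥FK ↥(relField hle) :=
  (InfiniteGalois.normal_iff_isGalois (relField hle)).mp (normal_fixingSubgroup_relField hle hn)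

/-- **`FL / FK` is Galois** when `Gal(Qbar/FL)` is normalised by `Gal(Qbar/FK)`. -/
theorem isGalois_of_normal (hn : Normalises FK FL) :
    letI := algebraOfLE hle
    IsGalois ↥FK ↥FL := by
  letI := algebraOfLE hle
  haveI := isGalois_relField hle hn
  exact IsGalois.of_algEquiv (relEquiv hle)

/-- The image of `Gal(Qbar/FL)` in `Gal(Qbar/FK)`. -/
theorem fixingSubgroup_relField_eq_map :
    (relField hle).fixingSubgroup =
      (FL.fixingSubgroup.subgroupOf FK.fixingSubgroup).map
        (FK.fixingSubgroupEquiv : FK.fixingSubgroup →* (Qbar ≃ₐ[↥FK] Qbar)) := by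
  ext ψ
  rw [mem_fixingSubgroup_relField]
  constructor
  · intro h
    refine ⟨⟨ψ.restrictScalars ℚ, restrictScalars_mem_fixingSubgroup ψ⟩, ?_, ?_⟩
    · exact h
    · exact AlgEquiv.ext fun _ => rfl
  · rintro ⟨σ, hσ, rfl⟩
    exact hσ

/-- **`[FL : FK] = [Gal(Qbar/FK) : Gal(Qbar/FL)]`.** -/
theorem finrank_eq_index :
    letI := algebraOfLE hle
    Module.finrank ↥FK ↥FL = (FL.fixingSubgroup.subgroupOf FK.fixingSubgroup).index := by
  letI := algebraOfLE hle
  rw [← (relEquiv hle).toLinearEquiv.finrank_eq,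
    IntermediateField.finrank_eq_fixingSubgroup_index, fixingSubgroup_relField_eq_map]
  exact Subgroup.index_map_equiv _ FK.fixingSubgroupEquiv

/-- A lift to `Gal(Qbar/FK)` of an automorphism of `FL / FK`. -/
theorem exists_lift [FiniteDimensional ℚ FL] :
    letI := algebraOfLE hle
    ∀ τ : ↥FL ≃ₐ[↥FK] ↥FL, ∃ σ ∈ FK.fixingSubgroup, ∀ x : FL, σ (x : Qbar) = ((τ x : FL) : Qbar) := by
  letI := algebraOfLE hle
  haveI := scalarTower_bot hle
  intro τ
  let σ : Γℚ := (τ.restrictScalars ℚ).liftNormal Qbar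
  have hσ : ∀ x : FL, σ (x : Qbar) = ((τ x : FL) : Qbar) := fun x =>
    AlgEquiv.liftNormal_commutes (τ.restrictScalars ℚ) Qbar x
  refine ⟨σ, ?_, hσ⟩
  rw [IntermediateField.mem_fixingSubgroup_iff]
  intro x hx
  have h1 := hσ (IntermediateField.inclusion hle ⟨x, hx⟩)
  have h2 : τ (IntermediateField.inclusion hle ⟨x, hx⟩) =
      IntermediateField.inclusion hle ⟨x, hx⟩ := τ.commutes ⟨x, hx⟩
  rw [h2] at h1
  exact h1

end Fermat.Agent.S56x.Euler.RelGalois
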