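import Fermat.Agent.Lib.CFT.Duality.LocDatum

/-!
# P-S56 block (B), (EC) line, input (A4): the hypothesis of `Sha¹ = 0` (helper71)

`NoSplitChar p S V` : every additive character `f : V → ZMod p` of the subgroup `V ≤ Gal(Qbar/ℚ)`
which is trivial on a level of `levelsS S` (i.e. cuts out an extension unramified outside `S`) and
kills `V ∩ g D_q g⁻¹` for all `q ∈ S` and all `g` (`D_q` the image of the local Galois group at
`q`; i.e. the extension is totally split above `S`) is zero.

This is the contract between `Euler/ShaTrivialGalois.lean` (which proves it from the triviality of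
the `S`-class group of the level field) and `Euler/ShaInduced.lean` (which deduces `Sha¹ = 0` for
induced modules).
-/

set_option autoImplicit false

namespace Fermat.Agent.S56x.Euler.ShaInduced

open Fermat.Agent.Lib.CFT.Profinite Fermat.Agent.Lib.CFT.Duality ExtCitation

local notation "Γℚ" => (AlgebraicClosure ℚ ≃ₐ[ℚ] AlgebraicClosure ℚ)

/-- `f` kills `V ∩ g D_q g⁻¹` for all `q ∈ S` and `g ∈ Γℚ`. -/
def KillsDecomp (S : Finset Nat.Primes) (V : Subgroup Γℚ) {A : Type*} [AddZeroClass A]
    (f : Additive V →+ A) : Prop :=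
  ∀ q ∈ S, ∀ (g : Γℚ) (h : primeLocalGaloisGroup q)
    (hv : g * primeLocalToGlobal q h * g⁻¹ ∈ V), f (Additive.ofMul ⟨_, hv⟩) = 0

/-- Every level character of `V` with values in `ZMod p` which is totally split above `S` is
zero. -/
def NoSplitChar (p : ℕ) (S : Finset Nat.Primes) (V : Subgroup Γℚ) : Prop :=
  ∀ f : Additive V →+ ZMod p,
    (∃ U ∈ (Bridge.levelsS S).levels, ∀ v : V, (v : Γℚ) ∈ U → f (Additive.ofMul v) = 0) →
      KillsDecomp S V f → f = 0

end Fermat.Agent.S56x.Euler.ShaInduced
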