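import Mathlib
import Fermat.Agent.Lib.CFT.Global.SVersion.ClassTorsion

/-!
# P-S56 (B), item E9 (helper63): killing the class group by enlarging `S`

For a number field `F` and a finite set `S` of rational primes there is a finite set `T ⊇ S` of
rational primes such that

* every divisor of `F` is principal away from the primes above `T`
  (`SUnits.IsClassGenerating (primesOver T)`), and
* `J_F = Fˣ · J_{F,T}` (`(principal F).range ⊔ sIdeleGroup T F = ⊤`),

i.e. the `T`-class group of `F` is trivial.  Everything is a corollary of the finiteness of the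
class group in the form `SUnits.exists_isClassGenerating` of `Lib/CFT`.
-/

set_option autoImplicit false

open scoped NumberField

noncomputable section

namespace Fermat.Agent.S56x.Euler.KillClassGroup

open Fermat.Agent.Lib.CFT.Global Fermat.Agent.Lib.CFT.Global.SVersion IsDedekindDomain NumberField

variable (F : Type) [Field F] [NumberField F]

/-- `T` kills the class group of `F`: every idele is a principal idele times a `T`-idele. -/
def KillsClassGroup (T : Finset Nat.Primes) : Prop :=
  (principal F).range ⊔ sIdeleGroup T F = ⊤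

variable {F}

theorem sIdeleGroup_mono {S T : Finset Nat.Primes} (h : S ⊆ T) :
    sIdeleGroup S F ≤ sIdeleGroup T F :=
  fun _ hb q hq => hb q (fun hqS => hq (h hqS))

theorem KillsClassGroup.mono {S T : Finset Nat.Primes} (h : S ⊆ T) (hS : KillsClassGroup F S) :
    KillsClassGroup F T := by
  unfold KillsClassGroup at hS ⊢
  rw [eq_top_iff, ← hS]
  exact sup_le_sup_left (sIdeleGroup_mono h) _

/-- Divisor form of `KillsClassGroup`: every divisor is principal away from the primes above `T`.
-/
theorem killsClassGroup_iff (T : Finset Nat.Primes) :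
    KillsClassGroup F T ↔ ∀ n : HeightOneSpectrum (𝓞 F) →₀ ℤ, ∃ x : Fˣ,
      ∀ v : HeightOneSpectrum (𝓞 F), IdeleIdeal.primeBelow F v ∉ T → SUnits.ordAt v x = n v := by
  constructor
  · intro h n
    obtain ⟨b, hb⟩ := IdeleIdeal.divisor_surjective F (Multiplicative.ofAdd n)
    have hbt : b ∈ (principal F).range ⊔ sIdeleGroup T F := by
      unfold KillsClassGroup at h
      rw [h]
      exact Subgroup.mem_top b
    obtain ⟨y, ⟨x, rfl⟩, c, hc, rfl⟩ := Subgroup.mem_sup.mp hbt
    refine ⟨x, fun v hv => ?_⟩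
    have hc' : c ∈ FirstIneq.sIdeles F (↑T : Set Nat.Primes) :=
      fun q hq => hc q (fun hqT => hq (Finset.mem_coe.mpr hqT))
    have h1 := (IdeleIdeal.mem_sIdeles_iff_ordIdele F _ c).mp hc' v
      (fun hvT => hv (Finset.mem_coe.mp hvT))
    have h2 : Multiplicative.toAdd (IdeleIdeal.divisor F (principal F x * c)) v = n v := by
      rw [hb]
      rfl
    rw [map_mul, toAdd_mul, Finsupp.add_apply, IdeleIdeal.divisor_principal,
      IdeleIdeal.divisor_apply, h1] at h2
    simpa using h2
  · intro h
    unfold KillsClassGroup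
    rw [eq_top_iff]
    intro b _
    obtain ⟨x, hx⟩ := h (Multiplicative.toAdd (IdeleIdeal.divisor F b))
    have hmem : b * (principal F x)⁻¹ ∈ sIdeleGroup T F := by
      have h1 : b * (principal F x)⁻¹ ∈ FirstIneq.sIdeles F (↑T : Set Nat.Primes) := by
        rw [IdeleIdeal.mem_sIdeles_iff_ordIdele]
        intro v hv
        have hv' : IdeleIdeal.primeBelow F v ∉ T := fun hvT => hv (Finset.mem_coe.mpr hvT)
        have h2 := hx v hv'
        rw [IdeleIdeal.divisor_apply] at h2
        rw [map_mul, map_inv, IdeleIdeal.ordIdele_principal, h2]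
        apply Multiplicative.toAdd.injective
        simp
      exact fun q hq => h1 q (fun hqT => hq (Finset.mem_coe.mp hqT))
    have : b = principal F x * (b * (principal F x)⁻¹) := by
      rw [mul_comm b, mul_inv_cancel_left]
    rw [this]
    exact Subgroup.mul_mem_sup ⟨x, rfl⟩ hmem

variable (F)

/-- **E9, idelic form.**  Every finite set of rational primes is contained in a finite set `T` of
rational primes with `J_F = Fˣ · J_{F,T}`. -/
theorem exists_killsClassGroup (S : Finset Nat.Primes) :
    ∃ T : Finset Nat.Primes, S ⊆ T ∧ KillsClassGroup F T := by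
  classical
  obtain ⟨S', -, hS'⟩ := SUnits.exists_isClassGenerating (K := F) ∅
  refine ⟨S ∪ S'.image (IdeleIdeal.primeBelow F), Finset.subset_union_left, ?_⟩
  rw [killsClassGroup_iff]
  intro n
  obtain ⟨x, hx⟩ := hS' n
  refine ⟨x, fun v hv => hx v (fun hvS' => hv ?_)⟩
  exact Finset.mem_union_right _ (Finset.mem_image_of_mem _ hvS')

/-- **E9, explicit idelic form.** -/
theorem exists_principal_sup_sIdeleGroup_eq_top (S : Finset Nat.Primes) :
    ∃ T : Finset Nat.Primes, S ⊆ T ∧ (principal F).range ⊔ sIdeleGroup T F = ⊤ :=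
  exists_killsClassGroup F S

/-- **E9, divisor form.** -/
theorem exists_forall_divisor_principal_away (S : Finset Nat.Primes) :
    ∃ T : Finset Nat.Primes, S ⊆ T ∧ ∀ n : HeightOneSpectrum (𝓞 F) →₀ ℤ, ∃ x : Fˣ,
      ∀ v : HeightOneSpectrum (𝓞 F), (∀ q ∈ T, ((q : ℕ) : 𝓞 F) ∉ v.asIdeal) →
        SUnits.ordAt v x = n v := by
  obtain ⟨T, hST, hT⟩ := exists_killsClassGroup F S
  refine ⟨T, hST, fun n => ?_⟩
  obtain ⟨x, hx⟩ := (killsClassGroup_iff T).mp hT n
  refine ⟨x, fun v hv => hx v (fun hvT => hv _ hvT ?_)⟩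
  exact IdeleIdeal.primeBelow_mem F v

/-- **E9, Mathlib-only statement.**  Every divisor is, away from the primes above `T`, the divisor
of an element of `Fˣ` (in terms of `HeightOneSpectrum.valuation`). -/
theorem exists_forall_valuation_eq (S : Finset Nat.Primes) :
    ∃ T : Finset Nat.Primes, S ⊆ T ∧ ∀ n : HeightOneSpectrum (𝓞 F) →₀ ℤ, ∃ x : Fˣ,
      ∀ v : HeightOneSpectrum (𝓞 F), (∀ q ∈ T, ((q : ℕ) : 𝓞 F) ∉ v.asIdeal) →
        v.valuation F (x : F) = WithZero.exp (-(n v)) := by
  obtain ⟨T, hST, hT⟩ := exists_forall_divisor_principal_away F S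
  refine ⟨T, hST, fun n => ?_⟩
  obtain ⟨x, hx⟩ := hT n
  exact ⟨x, fun v hv => by rw [SUnits.valuation_eq_exp_neg_ordAt, hx v hv]⟩

/-- **E9 for a single prime.**  Every prime `v₀` of `F` not above `T` has a "uniformiser" in `Fˣ`:
an element of valuation one at `v₀` which is a unit at all other primes not above `T`. -/
theorem exists_forall_uniformizer (S : Finset Nat.Primes) :
    ∃ T : Finset Nat.Primes, S ⊆ T ∧ ∀ v₀ : HeightOneSpectrum (𝓞 F),
      (∀ q ∈ T, ((q : ℕ) : 𝓞 F) ∉ v₀.asIdeal) → ∃ x : Fˣ, SUnits.ordAt v₀ x = 1 ∧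
        ∀ v : HeightOneSpectrum (𝓞 F), v ≠ v₀ → (∀ q ∈ T, ((q : ℕ) : 𝓞 F) ∉ v.asIdeal) →
          SUnits.ordAt v x = 0 := by
  classical
  obtain ⟨T, hST, hT⟩ := exists_forall_divisor_principal_away F S
  refine ⟨T, hST, fun v₀ h0 => ?_⟩
  obtain ⟨x, hx⟩ := hT (Finsupp.single v₀ 1)
  refine ⟨x, ?_, fun v hv hvT => ?_⟩
  · rw [hx v₀ h0, Finsupp.single_eq_same]
  · rw [hx v hvT, Finsupp.single_apply, if_neg (Ne.symm hv)]

/-- **E9, in the `hcl` shape of the `(EC)` line**: every finite set `S` of rational primes is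
contained in a finite set `T` of rational primes such that the primes of `F` above `T` are
class-generating. -/
theorem exists_isClassGenerating_primesAbove (S : Finset Nat.Primes) :
    ∃ T : Finset Nat.Primes, S ⊆ T ∧ SUnits.IsClassGenerating (FirstIneq.primesAbove F T) := by
  classical
  obtain ⟨S', -, hS'⟩ := SUnits.exists_isClassGenerating (K := F) ∅
  refine ⟨S ∪ S'.image (IdeleIdeal.primeBelow F), Finset.subset_union_left, hS'.mono ?_⟩
  intro v hv
  rw [FirstIneq.mem_primesAbove]
  exact ⟨IdeleIdeal.primeBelow F v, Finset.mem_union_right _ (Finset.mem_image_of_mem _ hv),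
    IdeleIdeal.primeBelow_mem F v⟩

/-- Monotonicity of `primesAbove`. -/
theorem primesAbove_mono {S T : Finset Nat.Primes} (h : S ⊆ T) :
    FirstIneq.primesAbove F S ⊆ FirstIneq.primesAbove F T := by
  intro v hv
  rw [FirstIneq.mem_primesAbove] at hv ⊢
  obtain ⟨q, hq, hqv⟩ := hv
  exact ⟨q, h hq, hqv⟩

/-- `IsClassGenerating (primesAbove F ·)` is monotone. -/
theorem isClassGenerating_primesAbove_mono {S T : Finset Nat.Primes} (h : S ⊆ T)
    (hS : SUnits.IsClassGenerating (FirstIneq.primesAbove F S)) :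
    SUnits.IsClassGenerating (FirstIneq.primesAbove F T) :=
  hS.mono (primesAbove_mono F h)

/-- `KillsClassGroup F T` is the same as `IsClassGenerating (primesAbove F T)`. -/
theorem killsClassGroup_iff_isClassGenerating (T : Finset Nat.Primes) :
    KillsClassGroup F T ↔ SUnits.IsClassGenerating (FirstIneq.primesAbove F T) := by
  rw [killsClassGroup_iff]
  constructor
  · intro h n
    obtain ⟨x, hx⟩ := h n
    refine ⟨x, fun v hv => hx v (fun hvT => hv ?_)⟩
    rw [FirstIneq.mem_primesAbove]
    exact ⟨_, hvT, IdeleIdeal.primeBelow_mem F v⟩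
  · intro h n
    obtain ⟨x, hx⟩ := h n
    refine ⟨x, fun v hv => hx v (fun hvT => hv ?_)⟩
    rw [FirstIneq.mem_primesAbove] at hvT
    obtain ⟨q, hq, hqv⟩ := hvT
    rwa [IdeleIdeal.primeBelow_eq F v q hqv]

end Fermat.Agent.S56x.Euler.KillClassGroup
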