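import Mathlib
import Fermat.Agent.Lib.CFT.Global.FirstIneqTheorem
import Fermat.Agent.Lib.CFT.Global.IdeleNormLocal
import Fermat.Agent.Lib.CFT.Global.ArchIndex
import Fermat.Agent.S56x.Euler.KillClassGroup

/-!
# P-S56, block (B), E8 (helper39): `Sha¹_S(K, 𝔽_p) = 0` — the field statement

`L / K` a Galois extension of number fields of prime degree, `S` a finite set of rational primes.
If `L / K` is unramified at all primes not above `S`, totally split at all primes above `S`
and at the archimedean places, then `N_{L/K} J_L ⊇ J_{K,S}` (the `S`-ideles of `K`).  Hence, by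
the first inequality (`Lib/CFT/Global/FirstIneqTheorem`), such an extension cannot exist as soon
as `J_K = Kˣ · J_{K,S} · J_K^p`, i.e. as soon as the `S`-class group of `K` has no quotient of
order `p` (in particular if the primes above `S` generate the class group of `K`,
`FirstIneq.Covers K S`).

* `exists_locRelNorm_eq_of_unramified` : local units are local norms at unramified primes;
* `exists_locRelNorm_eq_of_split` : everything is a local norm at totally split primes;
* `sIdeles_le_range_ideleNorm` : `J_{K,S} ≤ N_{L/K} J_L`;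
* `range_archRelNorm_eq_top_of_odd` : in odd degree every archimedean unit is a norm;
* `false_of_split_unramified`, `false_of_split_unramified_of_covers` : the field statement;
* `false_of_split_unramified_of_killsClassGroup`, `false_of_split_unramified_of_isClassGenerating` :
  the field statement with the class group hypothesis in the shapes of E9
  (`S56x/Euler/KillClassGroup`, helper63) and without archimedean hypothesis (odd degree).
-/

set_option autoImplicit false
set_option linter.unusedSectionVars false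
set_option linter.style.haveILetI false

open scoped TensorProduct NumberField

noncomputable section

namespace Fermat.Agent.S56x.Euler.ShaTrivial

open Fermat.Agent.Lib.CFT Fermat.Agent.Lib.CFT.Herbrand Fermat.Agent.Lib.CFT.Global
  Fermat.Agent.Lib.CFT.Global.EtaleAlg Fermat.Agent.Lib.CFT.Coh.RestrictedProd IsDedekindDomain

variable (K L : Type) [Field K] [NumberField K] [Field L] [NumberField L] [Algebra K L]
  [IsGalois K L]

/-- **Local units are local norms at unramified primes** (cyclic extension). -/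
theorem exists_locRelNorm_eq_of_unramified [IsCyclic (L ≃ₐ[K] L)] (q : Nat.Primes)
    (hunr : ∀ v : HeightOneSpectrum (𝓞 L), ((q : ℕ) : 𝓞 L) ∈ v.asIdeal →
      Ideal.inertia (L ≃ₐ[K] L) v.asIdeal = ⊥)
    {a : (LocAlg K q)ˣ} (ha : a ∈ locIntUnits K q) :
    ∃ y ∈ locIntUnits L q, locRelNorm K L q y = a := by
  obtain ⟨s, hs⟩ := IsCyclic.exists_generator (α := L ≃ₐ[K] L)
  haveI : FaithfulSMul (L ≃ₐ[K] L) L := IsGaloisGroup.faithful K
  have h := FirstIneqTheorem.unramHerbrandTrivial L (L ≃ₐ[K] L) s hs q hunr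
  obtain ⟨y, hy, hyN⟩ := h.1 (locUnitsMap (algebraMap K L) q a)
    (locUnitsMap_mem_locIntUnits _ q ha) (smul_locUnitsMap_algebraMap K L q s a)
  refine ⟨y, hy, ?_⟩
  apply locUnitsMap_injective (algebraMap K L) q
  rw [locUnitsMap_locRelNorm, ← hyN, normMul_apply]

/-- **Everything is a local norm at totally split primes.** -/
theorem exists_locRelNorm_eq_of_split (q : Nat.Primes)
    (hsplit : ∀ m : MaximalSpectrum (LocAlg L q), MulAction.stabilizer (L ≃ₐ[K] L) m = ⊥)
    (a : (LocAlg K q)ˣ) : ∃ y : (LocAlg L q)ˣ, locRelNorm K L q y = a := by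
  classical
  haveI : ∀ m : MaximalSpectrum (LocAlg L q),
      Fintype (MulAction.stabilizer (L ≃ₐ[K] L) m) := fun m => Fintype.ofFinite _
  refine exists_locRelNorm_eq K L q a
    (fun m => ⟨redUnits m (locUnitsMap (algebraMap K L) q a), ?_⟩)
  have hσ : ∀ σ : MulAction.stabilizer (L ≃ₐ[K] L) m, σ = 1 := fun σ =>
    Subtype.ext (Subgroup.mem_bot.1 ((hsplit m).le σ.2))
  rw [Fintype.prod_eq_single (1 : MulAction.stabilizer (L ≃ₐ[K] L) m)
    (fun σ h1 => absurd (hσ σ) h1)]
  exact (residueUnitsAction m).one_smul _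

/-- **`J_{K,S} ≤ N_{L/K} J_L`** for a cyclic extension unramified outside `S`, totally split above
`S` and at infinity. -/
theorem sIdeles_le_range_ideleNorm [IsCyclic (L ≃ₐ[K] L)] (S : Set Nat.Primes) (hS : S.Finite)
    (hunr : ∀ q : Nat.Primes, q ∉ S → ∀ v : HeightOneSpectrum (𝓞 L),
      ((q : ℕ) : 𝓞 L) ∈ v.asIdeal → Ideal.inertia (L ≃ₐ[K] L) v.asIdeal = ⊥)
    (hsplit : ∀ q : Nat.Primes, q ∈ S → ∀ m : MaximalSpectrum (LocAlg L q),
      MulAction.stabilizer (L ≃ₐ[K] L) m = ⊥)
    (harch : (archRelNorm K L).range = ⊤) :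
    FirstIneq.sIdeles K S ≤ (ideleNorm K L).range := by
  classical
  intro a ha
  have hex : ∀ q : Nat.Primes, ∃ y : (LocAlg L q)ˣ,
      locRelNorm K L q y = (a : IdeleProd K).1 q ∧ (q ∉ S → y ∈ locIntUnits L q) := by
    intro q
    by_cases hq : q ∈ S
    · obtain ⟨y, hy⟩ := exists_locRelNorm_eq_of_split K L q (hsplit q hq) ((a : IdeleProd K).1 q)
      exact ⟨y, hy, fun h => absurd hq h⟩
    · obtain ⟨y, hy1, hy2⟩ := exists_locRelNorm_eq_of_unramified K L q (hunr q hq) (ha q hq)
      exact ⟨y, hy2, fun _ => hy1⟩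
  choose y hyN hyS using hex
  obtain ⟨yinf, hyinf⟩ : (a : IdeleProd K).2 ∈ (archRelNorm K L).range := by
    rw [harch]; exact Subgroup.mem_top _
  have hmem : ((y, yinf) : IdeleProd L) ∈ ideleSubgroup L := by
    rw [mem_ideleSubgroup]
    refine hS.subset ?_
    intro q hq
    by_contra hqS
    exact hq (hyS q hqS)
  refine ⟨⟨(y, yinf), hmem⟩, ?_⟩
  apply Subtype.ext
  ext : 1
  · funext q
    rw [ideleNorm_fst]
    exact hyN q
  · rw [ideleNorm_snd]
    exact hyinf

/-- **The field statement (E8).**  A Galois extension `L / K` of number fields of prime degree `p`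
which is unramified outside `S`, totally split above `S` and at infinity cannot exist if
`J_K = Kˣ · J_{K,S} · J_K^p` (the `S`-class group of `K` has no quotient of order `p`). -/
theorem false_of_split_unramified (hp : (Module.finrank K L).Prime) (S : Set Nat.Primes)
    (hS : S.Finite)
    (hcov : ∀ a : Idele K, ∃ b : Idele K,
      a * (b ^ Module.finrank K L)⁻¹ ∈ (principal K).range ⊔ FirstIneq.sIdeles K S)
    (hunr : ∀ q : Nat.Primes, q ∉ S → ∀ v : HeightOneSpectrum (𝓞 L),
      ((q : ℕ) : 𝓞 L) ∈ v.asIdeal → Ideal.inertia (L ≃ₐ[K] L) v.asIdeal = ⊥)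
    (hsplit : ∀ q : Nat.Primes, q ∈ S → ∀ m : MaximalSpectrum (LocAlg L q),
      MulAction.stabilizer (L ≃ₐ[K] L) m = ⊥)
    (harch : (archRelNorm K L).range = ⊤) : False := by
  haveI : IsCyclic (L ≃ₐ[K] L) := by
    have hc : Nat.card (L ≃ₐ[K] L) = Module.finrank K L := IsGalois.card_aut_eq_finrank K L
    haveI : Fact (Module.finrank K L).Prime := ⟨hp⟩
    exact isCyclic_of_prime_card hc
  refine FirstIneqTheorem.first_ineq_prime K L hp ?_
  rw [eq_top_iff]
  intro a _
  obtain ⟨b, hb⟩ := hcov a
  have h1 : (principal K).range ⊔ FirstIneq.sIdeles K S ≤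
      (principal K).range ⊔ (ideleNorm K L).range :=
    sup_le_sup_left (sIdeles_le_range_ideleNorm K L S hS hunr hsplit harch) _
  have h2 : b ^ Module.finrank K L ∈ (ideleNorm K L).range :=
    ⟨ideleMap (algebraMap K L) b, ideleNorm_ideleMap K L b⟩
  have h3 : a = (a * (b ^ Module.finrank K L)⁻¹) * b ^ Module.finrank K L := by
    rw [inv_mul_cancel_right]
  rw [h3]
  exact Subgroup.mul_mem _ (h1 hb) (Subgroup.mem_sup_right h2)

/-- The field statement when the primes above `S` generate the class group of `K`. -/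
theorem false_of_split_unramified_of_covers (hp : (Module.finrank K L).Prime)
    (S : Set Nat.Primes) (hS : S.Finite) (hcov : FirstIneq.Covers K S)
    (hunr : ∀ q : Nat.Primes, q ∉ S → ∀ v : HeightOneSpectrum (𝓞 L),
      ((q : ℕ) : 𝓞 L) ∈ v.asIdeal → Ideal.inertia (L ≃ₐ[K] L) v.asIdeal = ⊥)
    (hsplit : ∀ q : Nat.Primes, q ∈ S → ∀ m : MaximalSpectrum (LocAlg L q),
      MulAction.stabilizer (L ≃ₐ[K] L) m = ⊥)
    (harch : (archRelNorm K L).range = ⊤) : False := by
  refine false_of_split_unramified K L hp S hS (fun a => ⟨1, ?_⟩) hunr hsplit harch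
  rw [one_pow, inv_one, mul_one]
  have h : (principal K).range ⊔ FirstIneq.sIdeles K S = ⊤ := hcov
  rw [h]
  exact Subgroup.mem_top _

/-- **In odd degree every archimedean unit is a norm.** -/
theorem range_archRelNorm_eq_top_of_odd (hodd : Odd (Module.finrank K L)) :
    (archRelNorm K L).range = ⊤ := by
  rw [eq_top_iff]
  intro x _
  obtain ⟨y, hy⟩ : x ∈ (powMonoidHom (Module.finrank K L) : (ArchAlg K)ˣ →* (ArchAlg K)ˣ).range := by
    rw [ArchIndex.range_pow_archUnits_eq_top K hodd]
    exact Subgroup.mem_top _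
  refine ⟨archUnitsMap (algebraMap K L) y, ?_⟩
  rw [← hy, powMonoidHom_apply]
  apply Units.ext
  rw [val_archRelNorm, val_archUnitsMap, archMap_eq_tmap, TensorExt.norm_tmap,
    Units.val_pow_eq_pow_val]

/-- **The field statement (E8), final form.**  `T` a finite set of rational primes killing the
class group of `K` (`J_K = Kˣ · J_{K,T}`, the conclusion of `KillClassGroup.exists_killsClassGroup`);
a Galois extension `L / K` of odd prime degree which is unramified outside `T` and totally split
above `T` does not exist. -/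
theorem false_of_split_unramified_of_killsClassGroup (hp : (Module.finrank K L).Prime)
    (hp2 : Module.finrank K L ≠ 2) (T : Finset Nat.Primes)
    (hcov : (principal K).range ⊔ SVersion.sIdeleGroup T K = ⊤)
    (hunr : ∀ q : Nat.Primes, q ∉ T → ∀ v : HeightOneSpectrum (𝓞 L),
      ((q : ℕ) : 𝓞 L) ∈ v.asIdeal → Ideal.inertia (L ≃ₐ[K] L) v.asIdeal = ⊥)
    (hsplit : ∀ q : Nat.Primes, q ∈ T → ∀ m : MaximalSpectrum (LocAlg L q),
      MulAction.stabilizer (L ≃ₐ[K] L) m = ⊥) : False := by
  have hodd : Odd (Module.finrank K L) := hp.odd_of_ne_two hp2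
  have hST : FirstIneq.sIdeles K (T : Set Nat.Primes) = SVersion.sIdeleGroup T K := by
    ext b
    rw [FirstIneq.mem_sIdeles, SVersion.mem_sIdeleGroup]
    simp only [Finset.mem_coe]
  refine false_of_split_unramified_of_covers K L hp (T : Set Nat.Primes) T.finite_toSet ?_
    (fun q hq => hunr q (by simpa using hq)) (fun q hq => hsplit q (by simpa using hq))
    (range_archRelNorm_eq_top_of_odd K L hodd)
  unfold FirstIneq.Covers
  rw [hST]
  exact hcov

/-- **The field statement (E8)** with the class-generating hypothesis `hcl` of the `(EC)` line. -/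
theorem false_of_split_unramified_of_isClassGenerating (hp : (Module.finrank K L).Prime)
    (hp2 : Module.finrank K L ≠ 2) (T : Finset Nat.Primes)
    (hcl : SUnits.IsClassGenerating (FirstIneq.primesAbove K T))
    (hunr : ∀ q : Nat.Primes, q ∉ T → ∀ v : HeightOneSpectrum (𝓞 L),
      ((q : ℕ) : 𝓞 L) ∈ v.asIdeal → Ideal.inertia (L ≃ₐ[K] L) v.asIdeal = ⊥)
    (hsplit : ∀ q : Nat.Primes, q ∈ T → ∀ m : MaximalSpectrum (LocAlg L q),
      MulAction.stabilizer (L ≃ₐ[K] L) m = ⊥) : False :=
  false_of_split_unramified_of_killsClassGroup K L hp hp2 T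
    ((KillClassGroup.killsClassGroup_iff_isClassGenerating K T).2 hcl) hunr hsplit

end Fermat.Agent.S56x.Euler.ShaTrivial
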