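/-
helper63.  P-S56 block (B), E8 LAYER 2 (split half): **trivial decomposition groups from the
Galois side**.

`L / K` a Galois extension of number fields (abstract types), `ι : L →ₐ[ℚ] Qbar` an embedding,
`q` a rational prime.  If every conjugate `g⁻¹ φ(h) g` of an element of the local Galois group
(`φ = primeLocalToGlobal q`) which fixes `ι K` pointwise also fixes `ι L` pointwise, then all
decomposition groups `stabilizer (L ≃ₐ[K] L) m`, `m : MaximalSpectrum (ℚ_q ⊗ L)`, are trivial: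
`L / K` is totally split above `q`.  This is exactly the hypothesis `hsplit` of the idelic field
statement of E8 (`ShaTrivial.false_of_split_unramified`).

Proof: `m = ker ψ` for some `ψ : ℚ_q ⊗ L → Ω_q`, `ψ (1 ⊗ x) = padicEmbedding (g (ι x))`
(`Lib/CFT/Profinite/{BridgeOrbitsGeneric,BridgePlaces}`); if `σ • m = m` then `ψ ∘ (1 ⊗ σ⁻¹)` and
`ψ` have the same kernel, hence differ by a local automorphism `h`; this says that
`g⁻¹ φ(h) g` induces `σ⁻¹` on `ι L`; it fixes `ι K`, so by hypothesis it fixes `ι L`, so `σ = 1`.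
-/
import Mathlib
import Fermat.Prelude.Def_ExtEndgame_ProductionDatum
import Fermat.Agent.Lib.CFT.Profinite.BridgePlaces
import Fermat.Agent.Lib.CFT.Global.Ideles
import Fermat.Agent.Lib.CFT.Global.EtaleAlg

set_option autoImplicit false
set_option linter.unusedSectionVars false
set_option linter.style.haveILetI false

open scoped TensorProduct Pointwise

namespace Fermat.Agent.S56x.Euler.ShaTrivialSplit

open Fermat.Agent.Lib.CFT.Global Fermat.Agent.Lib.CFT.Global.EtaleAlg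
  Fermat.Agent.Lib.CFT.Profinite.Bridge ExtCitation

local notation "Qbar" => AlgebraicClosure ℚ
local notation "Γℚ" => (AlgebraicClosure ℚ ≃ₐ[ℚ] AlgebraicClosure ℚ)

/-! ### Homomorphisms `ℚ_n ⊗ L → Ω_n` for an abstract number field `L` embedded in `Qbar` -/

section General

variable (n : ℕ) [Fact n.Prime]

local instance instTowerQqPadic_sts : IsScalarTower ℚ ℚ_[n] (PadicAlgCl n) :=
  IsScalarTower.of_algebraMap_eq' (Subsingleton.elim _ _)

variable {L : Type} [Field L] [NumberField L] (ι : L →ₐ[ℚ] Qbar)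

/-- Every `ℚ_n`-algebra homomorphism `ψ : ℚ_n ⊗ L → Ω_n` is, on `L`, of the form
`x ↦ padicEmbedding (g (ι x))` for some `g ∈ Γℚ`. -/
theorem exists_forall_one_tmul_eq (ψ : ℚ_[n] ⊗[ℚ] L →ₐ[ℚ_[n]] PadicAlgCl n) :
    ∃ g : Γℚ, ∀ x : L, ψ ((1 : ℚ_[n]) ⊗ₜ[ℚ] x) = padicEmbedding n (g (ι x)) := by
  let e : L ≃ₐ[ℚ] ι.fieldRange := ι.equivFieldRange
  have hfin : FiniteDimensional ℚ ι.fieldRange := e.toLinearEquiv.finiteDimensional
  let τ : L →ₐ[ℚ] PadicAlgCl n :=
    (ψ.restrictScalars ℚ).comp (Algebra.TensorProduct.includeRight : L →ₐ[ℚ] ℚ_[n] ⊗[ℚ] L)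
  obtain ⟨g, hg⟩ := exists_embAt_eq n ι.fieldRange (τ.comp (e.symm : ι.fieldRange →ₐ[ℚ] L))
  refine ⟨g, fun x => ?_⟩
  have h1 := congr($hg (e x))
  rw [embAt_apply] at h1
  have h2 : ((e x : ι.fieldRange) : Qbar) = ι x := AlgHom.equivFieldRange_apply_coe ι x
  rw [h2] at h1
  rw [h1]
  show ψ _ = τ (e.symm (e x))
  rw [AlgEquiv.symm_apply_apply]
  rfl

end General

/-! ### The main statement -/

section Main

variable (K L : Type) [Field K] [NumberField K] [Field L] [NumberField L] [Algebra K L]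
  (ι : L →ₐ[ℚ] Qbar) (q : Nat.Primes)

/-- **Totally split above `q` from the Galois side.**  If every conjugate of an element of the
local Galois group at `q` fixing `ι K` pointwise fixes `ι L` pointwise, then every decomposition
group of `L / K` above `q` is trivial. -/
theorem stabilizer_eq_bot_of_local
    (hloc : ∀ (g : Γℚ) (h : primeLocalGaloisGroup q),
      (∀ x : K, (g⁻¹ * primeLocalToGlobal q h * g) (ι (algebraMap K L x)) =
        ι (algebraMap K L x)) →
      ∀ y : L, (g⁻¹ * primeLocalToGlobal q h * g) (ι y) = ι y)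
    (m : MaximalSpectrum (LocAlg L q)) :
    MulAction.stabilizer (L ≃ₐ[K] L) m = ⊥ := by
  have hFact : Fact (pv q).Prime := primesFact q
  have htower : IsScalarTower ℚ ℚ_[pv q] (PadicAlgCl (pv q)) :=
    IsScalarTower.of_algebraMap_eq' (Subsingleton.elim _ _)
  rw [eq_bot_iff]
  intro σ hσ
  rw [Subgroup.mem_bot]
  -- the maximal ideal as a kernel
  obtain ⟨ψ, hψ⟩ := exists_algHom_kerMax_eq (K := ℚ_[pv q]) (E := LocAlg L q)
    (Ω := PadicAlgCl (pv q)) m
  obtain ⟨g, hg⟩ := exists_forall_one_tmul_eq (pv q) ι ψ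
  -- the twisted homomorphism
  let ψ' : LocAlg L q →ₐ[ℚ_[pv q]] PadicAlgCl (pv q) :=
    ψ.comp (locMap (MulSemiringAction.toRingHom (L ≃ₐ[K] L) L σ⁻¹) q)
  have hσm : σ • m.asIdeal = m.asIdeal := (EtaleAlg.mem_stabilizer_iff σ m).mp hσ
  have hker : RingHom.ker ψ = RingHom.ker ψ' := by
    have hm : m.asIdeal = RingHom.ker ψ := by rw [← hψ]; rfl
    ext e
    rw [RingHom.mem_ker, RingHom.mem_ker]
    show ψ e = 0 ↔ ψ (σ⁻¹ • e) = 0
    rw [← RingHom.mem_ker, ← RingHom.mem_ker, ← hm]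
    conv_lhs => rw [← hσm]
    rw [Ideal.mem_pointwise_smul_iff_inv_smul_mem]
  obtain ⟨h, hh⟩ := exists_algEquiv_comp_eq_of_ker_eq ψ ψ' hker
  -- `g⁻¹ φ(h) g` induces `σ⁻¹` on `ι L`
  have hkey : ∀ x : L, (g⁻¹ * localGaloisToGlobal (pv q) h * g) (ι x) = ι (σ⁻¹ x) := by
    intro x
    have h1 := hh ((1 : ℚ_[pv q]) ⊗ₜ[ℚ] x)
    have h2 : ψ' ((1 : ℚ_[pv q]) ⊗ₜ[ℚ] x) = ψ ((1 : ℚ_[pv q]) ⊗ₜ[ℚ] (σ⁻¹ x)) := by
      show ψ (locMap (MulSemiringAction.toRingHom (L ≃ₐ[K] L) L σ⁻¹) q _) = _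
      rw [locMap_tmul]
      rfl
    rw [h2, hg, hg, ← padicEmbedding_localGaloisToGlobal] at h1
    have h3 := (padicEmbedding (pv q)).toRingHom.injective h1
    rw [AlgEquiv.mul_apply, AlgEquiv.mul_apply, ← h3]
    exact AlgEquiv.symm_apply_apply g _
  have hfixK : ∀ x : K, (g⁻¹ * primeLocalToGlobal q h * g) (ι (algebraMap K L x)) =
      ι (algebraMap K L x) := by
    intro x
    have := hkey (algebraMap K L x)
    rw [AlgEquiv.commutes] at this
    exact this
  have hfixL := hloc g h hfixK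
  have hσinv : σ⁻¹ = 1 := by
    ext y
    have h1 := hkey y
    have h2 := hfixL y
    have h3 : ι (σ⁻¹ y) = ι y := h1.symm.trans h2
    exact ι.toRingHom.injective h3
  exact inv_eq_one.mp hσinv

/-- Subgroup form: `V`, `H` the subgroups of `Γℚ` fixing `ι K`, `ι L`; if `V` meets every
conjugate of the image of the local Galois group at `q` inside `H`, then `L / K` is totally split
above `q`. -/
theorem stabilizer_eq_bot_of_inf_conj_le (V H : Subgroup Γℚ)
    (hV : ∀ σ : Γℚ, (∀ x : K, σ (ι (algebraMap K L x)) = ι (algebraMap K L x)) → σ ∈ V)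
    (hH : ∀ σ : Γℚ, σ ∈ H → ∀ y : L, σ (ι y) = ι y)
    (hkill : ∀ (g : Γℚ) (h : primeLocalGaloisGroup q),
      g⁻¹ * primeLocalToGlobal q h * g ∈ V → g⁻¹ * primeLocalToGlobal q h * g ∈ H)
    (m : MaximalSpectrum (LocAlg L q)) :
    MulAction.stabilizer (L ≃ₐ[K] L) m = ⊥ :=
  stabilizer_eq_bot_of_local K L ι q
    (fun g h hfix => hH _ (hkill g h (hV _ hfix))) m

/-- The other conjugation convention. -/
theorem stabilizer_eq_bot_of_inf_conj_le' (V H : Subgroup Γℚ)
    (hV : ∀ σ : Γℚ, (∀ x : K, σ (ι (algebraMap K L x)) = ι (algebraMap K L x)) → σ ∈ V)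
    (hH : ∀ σ : Γℚ, σ ∈ H → ∀ y : L, σ (ι y) = ι y)
    (hkill : ∀ (g : Γℚ) (h : primeLocalGaloisGroup q),
      g * primeLocalToGlobal q h * g⁻¹ ∈ V → g * primeLocalToGlobal q h * g⁻¹ ∈ H)
    (m : MaximalSpectrum (LocAlg L q)) :
    MulAction.stabilizer (L ≃ₐ[K] L) m = ⊥ :=
  stabilizer_eq_bot_of_inf_conj_le K L ι q V H hV hH
    (fun g h hmem => by
      have := hkill g⁻¹ h (by rwa [inv_inv])
      rwa [inv_inv] at this) m

/-- Intermediate-field form (`K = ↥FK`, `L = ↥FL`, `FK ≤ FL ≤ Qbar`, algebra structure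
`(IntermediateField.inclusion hle).toRingHom.toAlgebra`, i.e. the library's reducible
`Profinite.Bridge.algebraOfLE hle`). -/
theorem stabilizer_eq_bot_of_fixingSubgroup {FK FL : IntermediateField ℚ Qbar} (hle : FK ≤ FL)
    [NumberField ↥FK] [NumberField ↥FL] (q : Nat.Primes)
    (hkill : ∀ (g : Γℚ) (h : primeLocalGaloisGroup q),
      g⁻¹ * primeLocalToGlobal q h * g ∈ FK.fixingSubgroup →
        g⁻¹ * primeLocalToGlobal q h * g ∈ FL.fixingSubgroup) :
    letI : Algebra ↥FK ↥FL := (IntermediateField.inclusion hle).toRingHom.toAlgebra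
    ∀ m : MaximalSpectrum (LocAlg ↥FL q), MulAction.stabilizer (↥FL ≃ₐ[↥FK] ↥FL) m = ⊥ := by
  letI : Algebra ↥FK ↥FL := (IntermediateField.inclusion hle).toRingHom.toAlgebra
  intro m
  refine stabilizer_eq_bot_of_local ↥FK ↥FL FL.val q (fun g h hfix y => ?_) m
  have hmem : g⁻¹ * primeLocalToGlobal q h * g ∈ FK.fixingSubgroup := by
    rw [IntermediateField.mem_fixingSubgroup_iff]
    intro x hx
    exact hfix ⟨x, hx⟩
  exact (IntermediateField.mem_fixingSubgroup_iff FL _).mp (hkill g h hmem) y y.2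

/-- Intermediate-field form, other conjugation convention `g φ(h) g⁻¹`. -/
theorem stabilizer_eq_bot_of_fixingSubgroup' {FK FL : IntermediateField ℚ Qbar} (hle : FK ≤ FL)
    [NumberField ↥FK] [NumberField ↥FL] (q : Nat.Primes)
    (hkill : ∀ (g : Γℚ) (h : primeLocalGaloisGroup q),
      g * primeLocalToGlobal q h * g⁻¹ ∈ FK.fixingSubgroup →
        g * primeLocalToGlobal q h * g⁻¹ ∈ FL.fixingSubgroup) :
    letI : Algebra ↥FK ↥FL := (IntermediateField.inclusion hle).toRingHom.toAlgebra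
    ∀ m : MaximalSpectrum (LocAlg ↥FL q), MulAction.stabilizer (↥FL ≃ₐ[↥FK] ↥FL) m = ⊥ :=
  stabilizer_eq_bot_of_fixingSubgroup hle q (fun g h hmem => by
    have := hkill g⁻¹ h (by rwa [inv_inv])
    rwa [inv_inv] at this)

end Main

end Fermat.Agent.S56x.Euler.ShaTrivialSplit
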