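import Mathlib
import Fermat.Agent.S56x.Euler.ShaTrivial
import Fermat.Agent.S56x.Euler.ShaTrivialSplit
import Fermat.Agent.S56x.Euler.ShaInducedDefs
import Fermat.Agent.S56x.Euler.RelGalois
import Fermat.Agent.Lib.CFT.Profinite.BridgeLevels
import Fermat.Agent.Lib.CFT.Profinite.BridgeRamification

/-!
# P-S56 block (B), E8 layer 2: `NoSplitChar` from the triviality of the `S`-class group

`FK` a finite extension of `ℚ` inside `Qbar`, unramified outside `S`, `V = FK.fixingSubgroup`.
If the primes of `FK` above `S` generate the class group of `FK`, then every additive character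
`f : V → ZMod p` (`p` an odd prime) which is trivial on a level of `levelsS S` and kills all
`V ∩ g D_q g⁻¹` (`q ∈ S`) is zero (`ShaInduced.NoSplitChar p S V`).

Proof: otherwise `H = ker f` is an open subgroup of index `p` of `V`, normal in `V`; its fixed field
`FL` is a cyclic extension of degree `p` of `FK`, unramified outside `S` and totally split above
`S`; this contradicts the first inequality (`ShaTrivial.false_of_split_unramified_of_isClassGenerating`).
-/

set_option autoImplicit false
set_option linter.style.haveILetI false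
set_option linter.unusedSectionVars false

open scoped NumberField

noncomputable section

namespace Fermat.Agent.S56x.Euler.ShaTrivialGalois

open Fermat.Agent.Lib.CFT.Profinite.Bridge Fermat.Agent.Lib.CFT.Global ExtCitation
  IsDedekindDomain

local notation "Qbar" => AlgebraicClosure ℚ
local notation "Γℚ" => (AlgebraicClosure ℚ ≃ₐ[ℚ] AlgebraicClosure ℚ)

local instance isAlgebraicQbar_stg : Algebra.IsAlgebraic ℚ (AlgebraicClosure ℚ) :=
  AlgebraicClosure.isAlgebraic ℚ
local instance isAlgClosureQbar_stg : IsAlgClosure ℚ (AlgebraicClosure ℚ) :=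
  ⟨inferInstance, inferInstance⟩
local instance normalQbar_stg : Normal ℚ (AlgebraicClosure ℚ) :=
  IsAlgClosure.normal ℚ (AlgebraicClosure ℚ)
local instance isGaloisQbar_stg : IsGalois ℚ (AlgebraicClosure ℚ) := ⟨⟩

/-! ### The kernel of a character of a subgroup, as a subgroup of the ambient group -/

section Kernel

variable {Γ : Type*} [Group Γ] {V : Subgroup Γ} {A : Type*} [AddCommGroup A]
  (f : Additive V →+ A)

/-- The kernel of `f : V → A`, as a subgroup of the ambient group. -/
def kerSub : Subgroup Γ where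
  carrier := {σ | ∃ h : σ ∈ V, f (Additive.ofMul ⟨σ, h⟩) = 0}
  one_mem' := ⟨V.one_mem, map_zero f⟩
  mul_mem' := by
    rintro a b ⟨ha, ha0⟩ ⟨hb, hb0⟩
    refine ⟨V.mul_mem ha hb, ?_⟩
    have h : (Additive.ofMul (⟨a * b, V.mul_mem ha hb⟩ : V)) =
        Additive.ofMul (⟨a, ha⟩ : V) + Additive.ofMul (⟨b, hb⟩ : V) := rfl
    rw [h, map_add, ha0, hb0, add_zero]
  inv_mem' := by
    rintro a ⟨ha, ha0⟩
    refine ⟨V.inv_mem ha, ?_⟩
    have h : (Additive.ofMul (⟨a⁻¹, V.inv_mem ha⟩ : V)) = -Additive.ofMul (⟨a, ha⟩ : V) := rfl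
    rw [h, map_neg, ha0, neg_zero]

theorem mem_kerSub {σ : Γ} :
    σ ∈ kerSub f ↔ ∃ h : σ ∈ V, f (Additive.ofMul ⟨σ, h⟩) = 0 := Iff.rfl

theorem kerSub_le : kerSub f ≤ V := fun _ h => h.1

theorem mem_kerSub_of_mem {σ : Γ} (h : σ ∈ V) :
    σ ∈ kerSub f ↔ f (Additive.ofMul ⟨σ, h⟩) = 0 :=
  ⟨fun h' => h'.2, fun h' => ⟨h, h'⟩⟩

/-- `ker f` is normalised by `V`. -/
theorem conj_mem_kerSub {σ s : Γ} (hσ : σ ∈ V) (hs : s ∈ kerSub f) :
    σ * s * σ⁻¹ ∈ kerSub f := by
  obtain ⟨hsV, hs0⟩ := hs
  refine ⟨V.mul_mem (V.mul_mem hσ hsV) (V.inv_mem hσ), ?_⟩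
  have h : (Additive.ofMul (⟨σ * s * σ⁻¹, V.mul_mem (V.mul_mem hσ hsV) (V.inv_mem hσ)⟩ : V)) =
      Additive.ofMul (⟨σ, hσ⟩ : V) + Additive.ofMul (⟨s, hsV⟩ : V) +
        -Additive.ofMul (⟨σ, hσ⟩ : V) := rfl
  rw [h, map_add, map_add, map_neg, hs0, add_zero, add_neg_cancel]

/-- The multiplicative version of `f`. -/
def mulChar : V →* Multiplicative A := AddMonoidHom.toMultiplicative f

theorem mulChar_apply (v : V) : mulChar f v = Multiplicative.ofAdd (f (Additive.ofMul v)) := rfl

theorem subgroupOf_kerSub : (kerSub f).subgroupOf V = (mulChar f).ker := by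
  ext v
  rw [Subgroup.mem_subgroupOf, MonoidHom.mem_ker, mulChar_apply, mem_kerSub_of_mem f v.2]
  exact Iff.rfl

end Kernel

/-- A nonzero character with values in `ZMod p` (`p` prime) has kernel of index `p`. -/
theorem index_kerSub_of_ne_zero {Γ : Type*} [Group Γ] {V : Subgroup Γ} {p : ℕ} [Fact p.Prime]
    (f : Additive V →+ ZMod p) (hf : f ≠ 0) : ((kerSub f).subgroupOf V).index = p := by
  rw [subgroupOf_kerSub, Subgroup.index_ker]
  have hne : (mulChar f).range ≠ ⊥ := by
    intro h
    apply hf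
    refine AddMonoidHom.ext fun v => ?_
    have h1 : mulChar f v.toMul ∈ (mulChar f).range := ⟨_, rfl⟩
    rw [h, Subgroup.mem_bot] at h1
    exact Multiplicative.ofAdd.injective h1
  have hcard : Nat.card (Multiplicative (ZMod p)) = p := by
    rw [Nat.card_eq_fintype_card, Fintype.card_multiplicative, ZMod.card]
  have hdvd : Nat.card (mulChar f).range ∣ p := by
    have := Subgroup.card_subgroup_dvd_card (mulChar f).range
    rwa [hcard] at this
  rcases (Nat.dvd_prime (Fact.out : p.Prime)).mp hdvd with h1 | h1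
  · exact absurd (Subgroup.card_eq_one.mp h1) hne
  · exact h1

/-! ### Open subgroups are fixing subgroups of their fixed fields -/

section Open

variable {S : Finset Nat.Primes}

/-- A subgroup of `Γℚ` containing the fixing subgroup of a finite extension `F` is the fixing
subgroup of its fixed field. -/
theorem eq_fixingSubgroup_fixedField {W : Subgroup Γℚ} {F : IntermediateField ℚ Qbar}
    [FiniteDimensional ℚ F] (hle : F.fixingSubgroup ≤ W) :
    W = (IntermediateField.fixedField W).fixingSubgroup := by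
  have hcl : IsClosed (W : Set Γℚ) :=
    W.isClosed_of_isOpen (Subgroup.isOpen_mono hle F.fixingSubgroup_isOpen)
  exact (InfiniteGalois.fixingSubgroup_fixedField ⟨W, hcl⟩).symm

theorem fixedField_le_of_fixingSubgroup_le {W : Subgroup Γℚ} {F : IntermediateField ℚ Qbar}
    (hle : F.fixingSubgroup ≤ W) : IntermediateField.fixedField W ≤ F := by
  have h := IntermediateField.fixedField_antitone hle
  rwa [InfiniteGalois.fixedField_fixingSubgroup] at h

theorem le_fixedField_of_le_fixingSubgroup {W : Subgroup Γℚ} {F : IntermediateField ℚ Qbar}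
    (hle : W ≤ F.fixingSubgroup) : F ≤ IntermediateField.fixedField W := by
  have h := IntermediateField.fixedField_antitone hle
  rwa [InfiniteGalois.fixedField_fixingSubgroup] at h

end Open

/-! ### Trivial inertia from ramification index one -/

/-- A prime with ramification index one has trivial inertia group. -/
theorem inertia_eq_bot_of_ramificationIdx_eq_one {K L : Type} [Field K] [NumberField K] [Field L]
    [NumberField L] [Algebra K L] {G : Type} [Group G] [Finite G] [MulSemiringAction G L]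
    [IsGaloisGroup G K L] (P : Ideal (𝓞 L)) [P.IsPrime] (hP : P ≠ ⊥)
    (h : P.ramificationIdx (𝓞 K) = 1) : Ideal.inertia G P = ⊥ := by
  have : IsGaloisGroup G (𝓞 K) (𝓞 L) := IsGaloisGroup.of_isFractionRing G (𝓞 K) (𝓞 L) K L
  set p := P.under (𝓞 K) with hp
  have hp0 : p ≠ ⊥ := Ideal.under_ne_bot (𝓞 K) hP
  have : p.IsMaximal := Ideal.IsPrime.isMaximal inferInstance hp0
  have h1 : Nat.card (P.inertia G) = p.ramificationIdxIn (𝓞 L) :=
    Ideal.card_inertia_eq_ramificationIdxIn p P
  rw [Ideal.ramificationIdxIn_eq_ramificationIdx p P G, h] at h1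
  exact Subgroup.card_eq_one.mp h1

/-! ### The main theorem -/

section Main

variable (p : ℕ) (S : Finset Nat.Primes)

/-- **Field form.**  `FK ≤ FL` finite over `ℚ`, `FL` unramified outside `S`, `Gal(Qbar/FL)` normal
of odd prime index `p` in `Gal(Qbar/FK)`, every conjugate of a decomposition group at `q ∈ S`
meets `Gal(Qbar/FK)` inside `Gal(Qbar/FL)`, and the primes of `FK` above `S` generate its class
group: contradiction. -/
theorem false_of_fields {FK FL : IntermediateField ℚ Qbar} (hle : FK ≤ FL)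
    (hFK : FiniteDimensional ℚ FK) (hFL : FL.IsUnramifiedOutside S)
    (hp : p.Prime) (hp2 : p ≠ 2)
    (hn : RelGalois.Normalises FK FL)
    (hidx : (FL.fixingSubgroup.subgroupOf FK.fixingSubgroup).index = p)
    (hkill : ∀ q ∈ S, ∀ (g : Γℚ) (h : primeLocalGaloisGroup q),
      g * primeLocalToGlobal q h * g⁻¹ ∈ FK.fixingSubgroup →
        g * primeLocalToGlobal q h * g⁻¹ ∈ FL.fixingSubgroup)
    (hcl : haveI := hFK
      SUnits.IsClassGenerating (FirstIneq.primesAbove ↥FK S)) : False := by
  haveI := hFK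
  haveI := hFL.1
  letI := algebraOfLE hle
  haveI : IsGalois ↥FK ↥FL := RelGalois.isGalois_of_normal hle hn
  have hfr : Module.finrank ↥FK ↥FL = p := (RelGalois.finrank_eq_index hle).trans hidx
  refine ShaTrivial.false_of_split_unramified_of_isClassGenerating ↥FK ↥FL
    (by rw [hfr]; exact hp) (by rw [hfr]; exact hp2) S hcl ?_ ?_
  · intro q hq v hv
    exact inertia_eq_bot_of_ramificationIdx_eq_one (K := ↥FK) v.asIdeal v.ne_bot
      (ramificationIdx_eq_one_of_le hle hFL hq v.asIdeal hv)
  · intro q hq m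
    exact ShaTrivialSplit.stabilizer_eq_bot_of_fixingSubgroup' hle q (hkill q hq) m

/-- **`NoSplitChar` from the triviality of the `S`-class group** of the level field. -/
theorem noSplitChar_of_isClassGenerating (hp : p.Prime) (hp2 : p ≠ 2)
    (FK : IntermediateField ℚ Qbar) (hFK : FK.IsUnramifiedOutside S)
    (hcl : haveI := hFK.1
      SUnits.IsClassGenerating (FirstIneq.primesAbove ↥FK S)) :
    ShaInduced.NoSplitChar p S FK.fixingSubgroup := by
  haveI : Fact p.Prime := ⟨hp⟩
  intro f hlev hkd
  by_contra hf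
  obtain ⟨U, ⟨FU, hFU, rfl⟩, hU⟩ := hlev
  haveI := hFK.1
  haveI := hFU.1
  -- the kernel of `f`
  set H : Subgroup Γℚ := kerSub f with hH
  have hHV : H ≤ FK.fixingSubgroup := kerSub_le f
  have hsup : (FK ⊔ FU).fixingSubgroup ≤ H := by
    intro σ hσ
    rw [IntermediateField.fixingSubgroup_sup] at hσ
    exact ⟨hσ.1, hU ⟨σ, hσ.1⟩ hσ.2⟩
  haveI : FiniteDimensional ℚ ↥(FK ⊔ FU) := IntermediateField.finiteDimensional_sup FK FU
  set FL : IntermediateField ℚ Qbar := IntermediateField.fixedField H with hFLdef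
  have hHFL : H = FL.fixingSubgroup := eq_fixingSubgroup_fixedField hsup
  have hFLle : FL ≤ FK ⊔ FU := fixedField_le_of_fixingSubgroup_le hsup
  have hFLunr : FL.IsUnramifiedOutside S :=
    IntermediateField.IsUnramifiedOutside.of_le hFLle (hFK.sup hFU)
  have hle : FK ≤ FL := le_fixedField_of_le_fixingSubgroup hHV
  refine false_of_fields p S hle hFK.1 hFLunr hp hp2 ?_ ?_ ?_ hcl
  · intro σ hσ s hs
    rw [← hHFL] at hs ⊢
    exact conj_mem_kerSub f hσ hs
  · rw [← hHFL]
    exact index_kerSub_of_ne_zero f hf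
  · intro q hq g h hmem
    rw [← hHFL]
    exact ⟨hmem, hkd q hq g h hmem⟩

end Main

end Fermat.Agent.S56x.Euler.ShaTrivialGalois
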