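import Fermat.Agent.S56x.Euler.EC
import Fermat.Agent.S56x.Euler.HindA5
import Fermat.Agent.S56x.Euler.KummerDelta
import Fermat.Agent.S56x.Euler.ShaTrivialGalois
import Fermat.Agent.S56x.GW.GlobalInputArith

/-!
# P-S56, block (B), (EC) line: the two inputs of `Euler/EC.lean` discharged — UNCONDITIONAL `(EC)`

(helper87.)  The final plug of the `(EC)` line:

* `levelTateAll : EC.LevelTateAll p` from `HindA5.hA5_of_delta` (helper75, (A5)) and
  `KummerDelta.card_H1_resW_eq_card_deltaHoms` (helper84, (A3));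
* `noSplitAll (hp2 : p ≠ 2) : EC.NoSplitAll p` from
  `ShaTrivialGalois.noSplitChar_of_isClassGenerating` (helper60, (E8));
* `exists_superset_phiC_eq_zero`, `exists_enlarge_phiC_eq_zero` : the exports of `Euler/EC.lean`
  (helper11) without hypotheses;
* `exists_tateEulerC` : for every finite discrete `M` unramified outside `S ∋ p` (`p` odd) there is
  `T ⊇ S` with `TateEulerC T M` — the hypothesis `hEC` of `GW/MainAssembly.gwRest_of` VERBATIM.
-/

set_option autoImplicit false

open CategoryTheory Module ExtCitation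

namespace Fermat.Agent.S56x.Euler.ECFinal

open Fermat.Agent.Lib.CFT.Profinite Fermat.Agent.Lib.CFT.Profinite.LevelFamily
open Fermat.Agent.Lib.CFT.Profinite.Bridge
open Fermat.Agent.Lib.CFT.Global Fermat.Agent.Lib.CFT.Duality
open Fermat.Agent.S56x.GW Fermat.Agent.S56x.Euler Fermat.Agent.S56x.Euler.Hind

local notation "Qbar" => AlgebraicClosure ℚ
local notation "Γℚ" => (AlgebraicClosure ℚ ≃ₐ[ℚ] AlgebraicClosure ℚ)

variable {p : ℕ} [Fact p.Prime]

/-- **Input (I) of `Euler/EC.lean`**: Tate's formula at all cyclic levels, from (A3) + (A5). -/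
theorem levelTateAll : EC.LevelTateAll p := by
  intro S hpS K _ _ _ hKS hKχ hcl D _ hDp X
  have : IsGalois ℚ K := ⟨⟩
  have hKS' : K.fixingSubgroup ∈ (levelsS S).levels := ⟨K, hKS, rfl⟩
  have : Module.Finite (ZMod p) (Rep.of X.ρ) := X.fin
  have : Finite (Rep.of X.ρ) := Module.finite_of_finite (ZMod p)
  exact HindA5.hA5_of_delta K S D (Rep.of X.ρ) hKχ hDp hcl
    (KummerDelta.card_H1_resW_eq_card_deltaHoms S K D (Rep.of X.ρ) hpS hKS' hKχ hDp)

/-- **Input (II) of `Euler/EC.lean`**: no nonzero level character of `Gal(Qbar/K)` is totally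
split above `S` when the primes above `S` generate the class group (`p` odd). -/
theorem noSplitAll (hp2 : p ≠ 2) : EC.NoSplitAll p := by
  intro S _ K _ _ _ hKS hcl
  exact ShaTrivialGalois.noSplitChar_of_isClassGenerating p S (Fact.out : p.Prime) hp2 K hKS hcl

/-- **(EC) after enlarging `S`, unconditional** (`phiC` form, superset). -/
theorem exists_superset_phiC_eq_zero (hp2 : p ≠ 2) (S : Finset Nat.Primes)
    (hpS : pPrime p ∈ S) (M : Rep.{0} (ZMod p) Γℚ) [Finite M] (hM : (levelsS S).IsDiscrete M) :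
    ∃ T : Finset Nat.Primes, S ⊆ T ∧ phiC T M = 0 :=
  EC.exists_superset_phiC_eq_zero hp2 levelTateAll (noSplitAll hp2)
    (fun T hpT => arithGlobalInput hp2 T hpT) S hpS M hM

/-- **(EC) after enlarging `S`, unconditional**, in the shape of the `(EC)` contract
(`Euler/Contract.lean`): `T` disjoint from `S`. -/
theorem exists_enlarge_phiC_eq_zero (hp2 : p ≠ 2) (S : Finset Nat.Primes)
    (hpS : pPrime p ∈ S) (M : Rep.{0} (ZMod p) Γℚ) [Finite M] (hM : (levelsS S).IsDiscrete M) :
    ∃ T : Finset Nat.Primes, Disjoint S T ∧ phiC (S ∪ T) M = 0 :=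
  EC.exists_enlarge_phiC_eq_zero hp2 levelTateAll (noSplitAll hp2)
    (fun T hpT => arithGlobalInput hp2 T hpT) S hpS M hM

/-- **Tate's global Euler characteristic formula after enlarging `S`, unconditional**:
the hypothesis `hEC` of `GW/MainAssembly.gwRest_of` / `gwPackageOfInputs` VERBATIM. -/
theorem exists_tateEulerC (hp2 : p ≠ 2) (S : Finset Nat.Primes) (hpS : pPrime p ∈ S)
    (M : Rep.{0} (ZMod p) Γℚ) [Finite M] (hM : (levelsS S).IsDiscrete M) :
    ∃ T : Finset Nat.Primes, S ⊆ T ∧ TateEulerC T M := by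
  obtain ⟨T, hST, h⟩ := exists_superset_phiC_eq_zero hp2 S hpS M hM
  exact ⟨T, hST, (tateEulerC_iff_phiC_eq_zero (hST hpS) M).2 h⟩

end Fermat.Agent.S56x.Euler.ECFinal
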