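import Fermat.Agent.Lib.CFT.Duality.LocalTateArith

/-!
# P-S56 block (B): additivity of the Euler characteristic of level cohomology

For a level family `𝒰` on a group `G` and a representation `M` over a field `k` we put
`hDim 𝒰 M i = dim_k Hⁱ_𝒰(G, M)` and `eulerChar 𝒰 M = h⁰ - h¹ + h²`.

* `finrank_alternating_nine` : the alternating sum of the dimensions in a nine term exact sequence
  of finite dimensional vector spaces vanishes;
* `eulerChar_additive` : for a short exact sequence `0 → X₁ → X₂ → X₃ → 0` with discrete middle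
  term, finite dimensional `Hⁱ` (`i ≤ 2`) and `H³(X₁) = 0`: `χ(X₂) = χ(X₁) + χ(X₃)`;
* `eulerChar_of_iso`, `eulerChar_zero`.
-/

set_option autoImplicit false
set_option linter.unusedSectionVars false
set_option linter.style.haveILetI false

universe u

open CategoryTheory CategoryTheory.Limits

namespace Fermat.Agent.S56x.Euler

open Fermat.Agent.Lib.CFT.Profinite Fermat.Agent.Lib.CFT.Profinite.LevelFamily
open Fermat.Agent.Lib.CFT.Duality.LocalTate Module

/-! ### Linear algebra -/

section LinAlg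

variable {k : Type*} [Field k]

/-- rank-nullity at an exact spot: `dim B = rk f + rk g` for `A -f→ B -g→ C` exact. -/
theorem finrank_eq_of_exact {A B C : Type*} [AddCommGroup A] [AddCommGroup B] [AddCommGroup C]
    [Module k A] [Module k B] [Module k C] [FiniteDimensional k B]
    (f : A →ₗ[k] B) (g : B →ₗ[k] C) (h : Function.Exact f g) :
    finrank k B = finrank k (LinearMap.range f) + finrank k (LinearMap.range g) := by
  have h1 := LinearMap.finrank_range_add_finrank_ker g
  have h2 : LinearMap.ker g = LinearMap.range f := (LinearMap.exact_iff.mp h)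
  rw [h2] at h1
  omega

theorem finrank_range_of_injective {A B : Type*} [AddCommGroup A] [AddCommGroup B]
    [Module k A] [Module k B] (f : A →ₗ[k] B) (hf : Function.Injective f) :
    finrank k (LinearMap.range f) = finrank k A :=
  LinearMap.finrank_range_of_inj hf

theorem finrank_range_of_surjective {A B : Type*} [AddCommGroup A] [AddCommGroup B]
    [Module k A] [Module k B] (f : A →ₗ[k] B) (hf : Function.Surjective f) :
    finrank k (LinearMap.range f) = finrank k B := by
  rw [LinearMap.range_eq_top.mpr hf, finrank_top]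

/-- **The alternating sum of dimensions in a nine term exact sequence vanishes.** -/
theorem finrank_alternating_nine
    {A0 B0 C0 A1 B1 C1 A2 B2 C2 : Type*}
    [AddCommGroup A0] [AddCommGroup B0] [AddCommGroup C0]
    [AddCommGroup A1] [AddCommGroup B1] [AddCommGroup C1]
    [AddCommGroup A2] [AddCommGroup B2] [AddCommGroup C2]
    [Module k A0] [Module k B0] [Module k C0] [Module k A1] [Module k B1] [Module k C1]
    [Module k A2] [Module k B2] [Module k C2]
    [FiniteDimensional k A0] [FiniteDimensional k B0] [FiniteDimensional k C0]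
    [FiniteDimensional k A1] [FiniteDimensional k B1] [FiniteDimensional k C1]
    [FiniteDimensional k A2] [FiniteDimensional k B2] [FiniteDimensional k C2]
    (a0 : A0 →ₗ[k] B0) (b0 : B0 →ₗ[k] C0) (d0 : C0 →ₗ[k] A1)
    (a1 : A1 →ₗ[k] B1) (b1 : B1 →ₗ[k] C1) (d1 : C1 →ₗ[k] A2)
    (a2 : A2 →ₗ[k] B2) (b2 : B2 →ₗ[k] C2)
    (hinj : Function.Injective a0)
    (e1 : Function.Exact a0 b0) (e2 : Function.Exact b0 d0) (e3 : Function.Exact d0 a1)
    (e4 : Function.Exact a1 b1) (e5 : Function.Exact b1 d1) (e6 : Function.Exact d1 a2)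
    (e7 : Function.Exact a2 b2) (hsurj : Function.Surjective b2) :
    ((finrank k B0 : ℤ) - finrank k B1 + finrank k B2) =
      ((finrank k A0 : ℤ) - finrank k A1 + finrank k A2) +
        ((finrank k C0 : ℤ) - finrank k C1 + finrank k C2) := by
  have hA0 := finrank_range_of_injective a0 hinj
  have hB0 := finrank_eq_of_exact a0 b0 e1
  have hC0 := finrank_eq_of_exact b0 d0 e2
  have hA1 := finrank_eq_of_exact d0 a1 e3
  have hB1 := finrank_eq_of_exact a1 b1 e4
  have hC1 := finrank_eq_of_exact b1 d1 e5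
  have hA2 := finrank_eq_of_exact d1 a2 e6
  have hB2 := finrank_eq_of_exact a2 b2 e7
  have hC2 := finrank_range_of_surjective b2 hsurj
  omega

end LinAlg

/-! ### The Euler characteristic -/

variable {k G : Type u} [Field k] [Group G] (𝒰 : LevelFamily G)

/-- `hⁱ(M) = dim_k Hⁱ_𝒰(G, M)` -/
noncomputable def hDim (M : Rep.{u} k G) (i : ℕ) : ℕ := finrank k (𝒰.levelCohomology M i)

/-- the Euler characteristic `h⁰ - h¹ + h²` -/
noncomputable def eulerChar (M : Rep.{u} k G) : ℤ :=
  (hDim 𝒰 M 0 : ℤ) - hDim 𝒰 M 1 + hDim 𝒰 M 2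

/-- finiteness in degrees `≤ 2` -/
def FinLow (M : Rep.{u} k G) : Prop :=
  ∀ i, i ≤ 2 → Module.Finite k (𝒰.levelCohomology M i)

/-- level cohomology of isomorphic representations -/
noncomputable def levelCohomologyEquivOfIso {A B : Rep.{u} k G} (e : A ≅ B) (n : ℕ) :
    𝒰.levelCohomology A n ≃ₗ[k] 𝒰.levelCohomology B n :=
  LinearEquiv.ofBijective (𝒰.levelCohomologyMap e.hom n).hom
    (bijective_levelCohomologyMap_of_iso 𝒰 e n)

theorem hDim_of_iso {A B : Rep.{u} k G} (e : A ≅ B) (n : ℕ) : hDim 𝒰 A n = hDim 𝒰 B n :=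
  (levelCohomologyEquivOfIso 𝒰 e n).finrank_eq

theorem eulerChar_of_iso {A B : Rep.{u} k G} (e : A ≅ B) : eulerChar 𝒰 A = eulerChar 𝒰 B := by
  rw [eulerChar, eulerChar, hDim_of_iso 𝒰 e 0, hDim_of_iso 𝒰 e 1, hDim_of_iso 𝒰 e 2]

theorem finLow_of_iso {A B : Rep.{u} k G} (e : A ≅ B) (h : FinLow 𝒰 A) : FinLow 𝒰 B :=
  fun i hi =>
    haveI := h i hi
    Module.Finite.equiv (levelCohomologyEquivOfIso 𝒰 e i)

/-- **Additivity of the Euler characteristic.** -/
theorem eulerChar_additive {X : ShortComplex (Rep.{u} k G)} (hX : X.ShortExact)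
    (hd : 𝒰.IsDiscrete X.X₂) (h1 : FinLow 𝒰 X.X₁) (h2 : FinLow 𝒰 X.X₂) (h3 : FinLow 𝒰 X.X₃)
    (hvan : Subsingleton (𝒰.levelCohomology X.X₁ 3)) :
    eulerChar 𝒰 X.X₂ = eulerChar 𝒰 X.X₁ + eulerChar 𝒰 X.X₃ := by
  haveI := h1 0 (by omega); haveI := h1 1 (by omega); haveI := h1 2 (by omega)
  haveI := h2 0 (by omega); haveI := h2 1 (by omega); haveI := h2 2 (by omega)
  haveI := h3 0 (by omega); haveI := h3 1 (by omega); haveI := h3 2 (by omega)
  have hsurj : Function.Surjective (𝒰.levelCohomologyMap X.g 2).hom := by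
    intro z
    have hex := exact_g_δ 𝒰 hX hd (rfl : 2 + 1 = 3)
    have hz : (𝒰.δ hX hd 2 3 rfl).hom z = 0 := Subsingleton.elim _ _
    exact (hex z).mp hz
  exact finrank_alternating_nine
    (𝒰.levelCohomologyMap X.f 0).hom (𝒰.levelCohomologyMap X.g 0).hom (𝒰.δ hX hd 0 1 rfl).hom
    (𝒰.levelCohomologyMap X.f 1).hom (𝒰.levelCohomologyMap X.g 1).hom (𝒰.δ hX hd 1 2 rfl).hom
    (𝒰.levelCohomologyMap X.f 2).hom (𝒰.levelCohomologyMap X.g 2).hom
    (levelCohomologyMap_zero_injective 𝒰 hX)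
    (exact_f_g 𝒰 hX hd 0) (exact_g_δ 𝒰 hX hd rfl) (exact_δ_f 𝒰 hX hd rfl)
    (exact_f_g 𝒰 hX hd 1) (exact_g_δ 𝒰 hX hd rfl) (exact_δ_f 𝒰 hX hd rfl)
    (exact_f_g 𝒰 hX hd 2) hsurj

end Fermat.Agent.S56x.Euler
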