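/-
helper49 (P-S56, block (B) Greenberg-Wiles, leaf (E1) of board S56_B_OWNERS): ADDITIVITY of the
compactly supported Euler characteristic defect

  `phiC D c M = dim H²_c(M) - dim H¹_c(M) - dim H³_c(M) - dim M^{c = 1}`

on short exact sequences of coefficient modules, and its invariance under isomorphisms.  (EC), the
numerical identity behind the Greenberg-Wiles formula, is `phiC (arithDatum S) complexConj M = 0`.

* general localisation datum `D : LocDatum G`, `k` a field:
  `hcDim`, `FinHc`, `chiC = h¹_c - h²_c + h³_c`, `chiC_additive`, `hcDim_of_iso`, `finHc_of_iso`;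
  `subsingleton_Hc_zero` (`H⁰_c = 0` as soon as there is a local group);
* the fixed space of an involution `c : G`: `fixedSub`, `fixDim`, `fixDim_additive` (char `≠ 2`),
  `fixDim_of_iso`;
* `phiC`, `phiC_additive`, `phiC_of_iso`;
* the arithmetic datum: `finHc_arith` (finiteness of `Hⁱ_c`, `i ≤ 3`, from `GlobalInput`),
  `phiC_additive_arith`, `phiC_zero_arith`.
-/
import Fermat.Agent.S56x.Euler.Additive
import Fermat.Agent.Lib.CFT.Duality.PoitouTate

set_option autoImplicit false
set_option linter.unusedSectionVars false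
set_option linter.style.haveILetI false

open CategoryTheory Module

namespace Fermat.Agent.S56x.Euler.AdditiveCone

open Fermat.Agent.Lib.CFT.Profinite Fermat.Agent.Lib.CFT.Profinite.LevelFamily
open Fermat.Agent.Lib.CFT.Duality Fermat.Agent.S56x.Euler

local notation "Γℚ" => (AlgebraicClosure ℚ ≃ₐ[ℚ] AlgebraicClosure ℚ)

/-! ### Linear algebra: fixed spaces of involutions are exact in characteristic `≠ 2` -/

section LinAlg

variable {k : Type*} [Field k] {A B C : Type*} [AddCommGroup A] [AddCommGroup B] [AddCommGroup C]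
  [Module k A] [Module k B] [Module k C]

/-- **Exactness of the fixed spaces.**  For an exact sequence `0 → A → B → C → 0` of vector spaces
with compatible endomorphisms `a`, `b`, `c`, where `b` is an involution and `2 ≠ 0`:
`dim B^b = dim A^a + dim C^c`. -/
theorem finrank_eqLocus_add [FiniteDimensional k B] (a : A →ₗ[k] A) (b : B →ₗ[k] B)
    (c : C →ₗ[k] C) (f : A →ₗ[k] B) (g : B →ₗ[k] C) (hf : Function.Injective f)
    (hg : Function.Surjective g) (hfg : Function.Exact f g) (hab : ∀ x, f (a x) = b (f x))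
    (hbc : ∀ y, g (b y) = c (g y)) (hbb : ∀ y, b (b y) = y) (h2 : (2 : k) ≠ 0) :
    finrank k (LinearMap.eqLocus b LinearMap.id) =
      finrank k (LinearMap.eqLocus a LinearMap.id) +
        finrank k (LinearMap.eqLocus c LinearMap.id) := by
  have hfm : ∀ x ∈ LinearMap.eqLocus a LinearMap.id, f x ∈ LinearMap.eqLocus b LinearMap.id := by
    intro x hx
    rw [LinearMap.mem_eqLocus, LinearMap.id_apply] at hx ⊢
    rw [← hab, hx]
  have hgm : ∀ y ∈ LinearMap.eqLocus b LinearMap.id, g y ∈ LinearMap.eqLocus c LinearMap.id := by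
    intro y hy
    rw [LinearMap.mem_eqLocus, LinearMap.id_apply] at hy ⊢
    rw [← hbc, hy]
  have hinj : Function.Injective (f.restrict hfm) := by
    intro x x' h
    apply Subtype.ext
    apply hf
    exact congr_arg Subtype.val h
  have hsurj : Function.Surjective (g.restrict hgm) := by
    rintro ⟨z, hz⟩
    rw [LinearMap.mem_eqLocus, LinearMap.id_apply] at hz
    obtain ⟨y, rfl⟩ := hg z
    refine ⟨⟨(2 : k)⁻¹ • (y + b y), ?_⟩, Subtype.ext ?_⟩
    · rw [LinearMap.mem_eqLocus, LinearMap.id_apply, map_smul, map_add, hbb, add_comm]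
    · change g ((2 : k)⁻¹ • (y + b y)) = g y
      rw [map_smul, map_add, hbc, hz, ← two_smul k (g y), smul_smul, inv_mul_cancel₀ h2, one_smul]
  have hex : Function.Exact (f.restrict hfm) (g.restrict hgm) := by
    rintro ⟨y, hy⟩
    constructor
    · intro h
      have h0 : g y = 0 := congr_arg Subtype.val h
      obtain ⟨x, rfl⟩ := (hfg y).1 h0
      rw [LinearMap.mem_eqLocus, LinearMap.id_apply] at hy
      refine ⟨⟨x, ?_⟩, Subtype.ext rfl⟩
      rw [LinearMap.mem_eqLocus, LinearMap.id_apply]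
      apply hf
      rw [hab, hy]
    · rintro ⟨x, hx⟩
      apply Subtype.ext
      have hx' : f x.1 = y := congr_arg Subtype.val hx
      change g y = 0
      rw [← hx']
      exact (hfg (f x.1)).2 ⟨x.1, rfl⟩
  rw [finrank_eq_of_exact _ _ hex, finrank_range_of_injective _ hinj,
    finrank_range_of_surjective _ hsurj]

end LinAlg

/-! ### Compactly supported Euler characteristic of a localisation datum -/

section Datum

variable {k : Type} [Field k] {G : Type} [Group G] (D : LocDatum G)

/-- `hⁱ_c(M) = dim_k Hⁱ_c(M)` -/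
noncomputable def hcDim (M : Rep k G) (i : ℕ) : ℕ := finrank k (D.Hc M i)

/-- finiteness of `Hⁱ_c(M)` in degrees `≤ 3` -/
def FinHc (M : Rep k G) : Prop := ∀ i, i ≤ 3 → Module.Finite k (D.Hc M i)

/-- the compactly supported Euler characteristic `h¹_c - h²_c + h³_c` (recall `H⁰_c = 0`) -/
noncomputable def chiC (M : Rep k G) : ℤ :=
  (hcDim D M 1 : ℤ) - hcDim D M 2 + hcDim D M 3

/-- compactly supported cohomology of isomorphic representations -/
noncomputable def HcEquivOfIso {M N : Rep k G} (e : M ≅ N) (n : ℕ) : D.Hc M n ≃ₗ[k] D.Hc N n :=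
  LinearEquiv.ofLinearMap (D.HcMap e.hom n) (D.HcMap e.inv n)
    (by rw [← LocDatum.HcMap_comp, e.inv_hom_id, LocDatum.HcMap_id])
    (by rw [← LocDatum.HcMap_comp, e.hom_inv_id, LocDatum.HcMap_id])

theorem hcDim_of_iso {M N : Rep k G} (e : M ≅ N) (n : ℕ) : hcDim D M n = hcDim D N n :=
  (HcEquivOfIso D e n).finrank_eq

theorem chiC_of_iso {M N : Rep k G} (e : M ≅ N) : chiC D M = chiC D N := by
  rw [chiC, chiC, hcDim_of_iso D e 1, hcDim_of_iso D e 2, hcDim_of_iso D e 3]

theorem finHc_of_iso {M N : Rep k G} (e : M ≅ N) (h : FinHc D M) : FinHc D N := fun i hi =>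
  haveI := h i hi
  Module.Finite.equiv (HcEquivOfIso D e i)

/-- the localisation map on `H⁰` is the inclusion of the invariants -/
theorem H0Equiv_locMapHAt (M : Rep k G) (i : D.ι) (x : D.𝒰.levelCohomology M 0) :
    ((D.𝒱 i).H0Equiv (D.resRep M i) (D.locMapHAt M 0 i x)).1 = (D.𝒰.H0Equiv M x).1 := by
  obtain ⟨f, rfl⟩ := D.𝒰.classMk_surjective M 0 x
  have e : D.locMapHAt M 0 i (D.𝒰.classMk M 0 f) =
      (D.𝒱 i).classMk (D.resRep M i) 0
        (levelCocyclesMap (D.φ i) (D.compat i) (𝟙 (D.resRep M i)) 0 f) :=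
    levelCohomologyMapOfHom_classMk (D.φ i) (D.compat i) (𝟙 (D.resRep M i)) 0 f
  rw [e, H0Equiv_classMk, H0Equiv_classMk, levelCocyclesMap_coe]
  exact congr_arg f.1 (Subsingleton.elim (⇑(D.φ i) ∘ default) default)

/-- the localisation map on `H⁰` is injective -/
theorem locMapHAt_zero_injective (M : Rep k G) (i : D.ι) :
    Function.Injective (D.locMapHAt M 0 i) := by
  rw [injective_iff_map_eq_zero]
  intro x hx
  apply (D.𝒰.H0Equiv M).injective
  rw [map_zero]
  apply Subtype.ext
  rw [← H0Equiv_locMapHAt D M i x, hx, map_zero]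
  rfl

/-- `H⁰_c(M) = 0` as soon as there is at least one local group. -/
theorem subsingleton_Hc_zero [Nonempty D.ι] (M : Rep k G) : Subsingleton (D.Hc M 0) := by
  obtain ⟨i⟩ := ‹Nonempty D.ι›
  refine ⟨fun x y => ?_⟩
  apply D.HcToGlobal_zero_injective M
  apply locMapHAt_zero_injective D M i
  have hx := congr_fun (D.locMapH_HcToGlobal M 0 x) i
  have hy := congr_fun (D.locMapH_HcToGlobal M 0 y) i
  rw [LocDatum.locMapH_apply] at hx hy
  rw [hx, hy]

variable {X : ShortComplex (Rep k G)} (hX : X.ShortExact) (hd : D.𝒰.IsDiscrete X.X₂)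

include hX hd in
/-- **Additivity of the compactly supported Euler characteristic**: for a short exact sequence
with discrete middle term, finite dimensional `Hⁱ_c` (`i ≤ 3`), `H⁰_c(X₃) = 0` and
`H³_c(X₂) → H³_c(X₃)` onto. -/
theorem chiC_additive (h1 : FinHc D X.X₁) (h2 : FinHc D X.X₂) (h3 : FinHc D X.X₃)
    (h0 : Subsingleton (D.Hc X.X₃ 0)) (hsurj : Function.Surjective (D.HcMap X.g 3)) :
    chiC D X.X₂ = chiC D X.X₁ + chiC D X.X₃ := by
  haveI := h1 1 (by omega); haveI := h1 2 (by omega); haveI := h1 3 (by omega)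
  haveI := h2 1 (by omega); haveI := h2 2 (by omega); haveI := h2 3 (by omega)
  haveI := h3 1 (by omega); haveI := h3 2 (by omega); haveI := h3 3 (by omega)
  have hinj : Function.Injective (D.HcMap X.f 1) := by
    rw [injective_iff_map_eq_zero]
    intro x hx
    obtain ⟨z, rfl⟩ := (D.Hc_exact₁ hX hd (rfl : 0 + 1 = 1) x).1 hx
    rw [Subsingleton.elim z 0, map_zero]
  exact finrank_alternating_nine
    (D.HcMap X.f 1) (D.HcMap X.g 1) (D.Hcδ hX hd 1 2 rfl)
    (D.HcMap X.f 2) (D.HcMap X.g 2) (D.Hcδ hX hd 2 3 rfl)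
    (D.HcMap X.f 3) (D.HcMap X.g 3)
    hinj
    (D.Hc_exact₂ hX hd 1) (D.Hc_exact₃ hX hd rfl) (D.Hc_exact₁ hX hd rfl)
    (D.Hc_exact₂ hX hd 2) (D.Hc_exact₃ hX hd rfl) (D.Hc_exact₁ hX hd rfl)
    (D.Hc_exact₂ hX hd 3) hsurj

end Datum

/-! ### The fixed space of an involution -/

section Fixed

variable {k : Type} [Field k] {G : Type} [Group G] (c : G)

/-- the fixed space `M^{c = 1}` -/
def fixedSub (M : Rep k G) : Submodule k M := LinearMap.eqLocus (M.ρ c) LinearMap.id

variable {c} in
theorem mem_fixedSub {M : Rep k G} {m : M} : m ∈ fixedSub c M ↔ M.ρ c m = m := by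
  rw [fixedSub, LinearMap.mem_eqLocus, LinearMap.id_apply]

/-- `dim_k M^{c = 1}` -/
noncomputable def fixDim (M : Rep k G) : ℕ := finrank k (fixedSub c M)

theorem fixDim_of_iso {M N : Rep k G} (e : M ≅ N) : fixDim c M = fixDim c N := by
  have hmem : ∀ {A B : Rep k G} (f : A ⟶ B), ∀ x ∈ fixedSub c A,
      f.hom.toLinearMap x ∈ fixedSub c B := by
    intro A B f x hx
    rw [mem_fixedSub] at hx ⊢
    rw [Representation.IntertwiningMap.toLinearMap_apply, ← Rep.hom_comm_apply, hx]
  refine LinearEquiv.finrank_eq (LinearEquiv.ofLinearMap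
    (e.hom.hom.toLinearMap.restrict (hmem e.hom)) (e.inv.hom.toLinearMap.restrict (hmem e.inv))
    ?_ ?_)
  · ext ⟨x, hx⟩
    exact congr($(e.inv_hom_id).hom x)
  · ext ⟨x, hx⟩
    exact congr($(e.hom_inv_id).hom x)

/-- **Exactness of `M ↦ M^{c = 1}`** for an involution `c` in characteristic `≠ 2`. -/
theorem fixDim_additive {X : ShortComplex (Rep k G)} (hX : X.ShortExact)
    [FiniteDimensional k X.X₂] (hc : c * c = 1) (h2 : (2 : k) ≠ 0) :
    fixDim c X.X₂ = fixDim c X.X₁ + fixDim c X.X₃ := by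
  have hinj : Function.Injective X.f.hom := (Rep.mono_iff_injective X.f).1 hX.2
  have hsurj : Function.Surjective X.g.hom := (Rep.epi_iff_surjective X.g).1 hX.3
  have hrk : LinearMap.range X.f.hom.toLinearMap = LinearMap.ker X.g.hom.toLinearMap :=
    (hX.exact.map (forget₂ (Rep k G) (ModuleCat k))).moduleCat_range_eq_ker
  refine finrank_eqLocus_add (X.X₁.ρ c) (X.X₂.ρ c) (X.X₃.ρ c) X.f.hom.toLinearMap
    X.g.hom.toLinearMap hinj hsurj (LinearMap.exact_iff.2 hrk.symm)
    (fun x => Rep.hom_comm_apply X.f c x) (fun y => Rep.hom_comm_apply X.g c y) (fun y => ?_) h2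
  rw [← Module.End.mul_apply, ← map_mul, hc, map_one, Module.End.one_apply]

end Fixed

/-! ### The defect `phiC` -/

section Phi

variable {k : Type} [Field k] {G : Type} [Group G] (D : LocDatum G) (c : G)

/-- the defect of the compactly supported Euler characteristic formula:
`dim H²_c - dim H¹_c - dim H³_c - dim M^{c = 1}` -/
noncomputable def phiC (M : Rep k G) : ℤ :=
  (hcDim D M 2 : ℤ) - hcDim D M 1 - hcDim D M 3 - fixDim c M

theorem phiC_eq (M : Rep k G) : phiC D c M = - chiC D M - fixDim c M := by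
  rw [phiC, chiC]
  ring

theorem phiC_of_iso {M N : Rep k G} (e : M ≅ N) : phiC D c M = phiC D c N := by
  rw [phiC_eq, phiC_eq, chiC_of_iso D e, fixDim_of_iso c e]

/-- **Additivity of `phiC`.** -/
theorem phiC_additive {X : ShortComplex (Rep k G)} (hX : X.ShortExact)
    (hd : D.𝒰.IsDiscrete X.X₂) [FiniteDimensional k X.X₂] (hc : c * c = 1) (h2 : (2 : k) ≠ 0)
    (h1 : FinHc D X.X₁) (h2' : FinHc D X.X₂) (h3 : FinHc D X.X₃)
    (h0 : Subsingleton (D.Hc X.X₃ 0)) (hsurj : Function.Surjective (D.HcMap X.g 3)) :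
    phiC D c X.X₂ = phiC D c X.X₁ + phiC D c X.X₃ := by
  rw [phiC_eq, phiC_eq, phiC_eq, chiC_additive D hX hd h1 h2' h3 h0 hsurj,
    fixDim_additive c hX hc h2]
  push_cast
  ring

end Phi

/-! ### The arithmetic datum -/

section Arith

open Fermat.Agent.Lib.CFT.Duality.PoitouTate Fermat.Agent.Lib.CFT.Duality.GlobalDuality
  ExtCitation

variable {p : ℕ} [Fact p.Prime] {S : Finset Nat.Primes}

/-- finiteness of `H⁰` of a finite module -/
theorem finite_levelCohomology_zero {G : Type} [Group G] (𝒰 : LevelFamily G)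
    (M : Rep (ZMod p) G) [Finite M] : Module.Finite (ZMod p) (𝒰.levelCohomology M 0) := by
  haveI : Module.Finite (ZMod p) M := Module.Finite.of_finite
  exact Module.Finite.equiv (𝒰.H0Equiv M).symm

/-- **Finiteness of compactly supported cohomology** of a finite discrete module, in degrees
`≤ 3`, from the input of the duality layer. -/
theorem finHc_arith (I : GlobalInput p S) (hpS : pPrime p ∈ S) (M : Rep (ZMod p) Γℚ) [Finite M]
    (hM : (arithDatum S).𝒰.IsDiscrete M) : FinHc (arithDatum S) M := by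
  have : NeZero p := ⟨(Fact.out : p.Prime).ne_zero⟩
  haveI : Nonempty (arithDatum S).ι := ⟨⟨pPrime p, hpS⟩⟩
  haveI : Module.Finite (ZMod p) M := Module.Finite.of_finite
  have hM' : (arithDatum S).𝒰.IsDiscrete (M.dualTwist (cycloChar p)) :=
    DualTwist.isDiscrete_dualTwist (cycloChar p) (arithDatum S).𝒰 M hM
      (exists_level_cycloChar_eq_one hpS)
  obtain ⟨hβ0, hβ1⟩ := I.beta_bijective hpS M hM
  intro i hi
  interval_cases i
  · haveI := subsingleton_Hc_zero (arithDatum S) M
    exact Module.Finite.of_finite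
  · -- `P⁰(M) → H¹_c(M) → H¹(G_S, M)`
    haveI : Module.Finite (ZMod p) ((arithDatum S).𝒰.levelCohomology M 1) := I.fin M hM
    haveI : ∀ q : (arithDatum S).ι, Module.Finite (ZMod p)
        (((arithDatum S).𝒱 q).levelCohomology ((arithDatum S).resRep M q) 0) := fun q =>
      haveI : Finite ((arithDatum S).resRep M q) := ‹Finite M›
      finite_levelCohomology_zero _ _
    haveI : Module.Finite (ZMod p) ((arithDatum S).locH M 0) := Module.Finite.pi
    exact LocalTate.finite_of_exact ((arithDatum S).exact_ofLocal_toGlobal M 0)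
  · -- `β² : H²_c(M) ≃ H¹(G_S, M')^∨`
    haveI : Module.Finite (ZMod p)
        ((arithDatum S).𝒰.levelCohomology (M.dualTwist (cycloChar p)) 1) :=
      I.fin (M.dualTwist (cycloChar p)) hM'
    exact Module.Finite.of_injective (beta0 (arithDatum S) (cycloChar p) 2 I.tr M) hβ0.1
  · -- `β³ : H³_c(M) ≃ H⁰(G_S, M')^∨`
    haveI : Finite (M.dualTwist (cycloChar p)) := DualTwist.finite_dualTwist (cycloChar p) M
    haveI : Module.Finite (ZMod p)
        ((arithDatum S).𝒰.levelCohomology (M.dualTwist (cycloChar p)) 0) :=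
      finite_levelCohomology_zero _ _
    exact Module.Finite.of_injective (beta1 (arithDatum S) (cycloChar p) 2 I.tr M) hβ1.1

/-- **Additivity of `phiC` for the arithmetic datum**: short exact sequences of finite discrete
`𝔽_p[G_{ℚ,S}]`-modules, `p` odd, `p ∈ S`, `c` any involution. -/
theorem phiC_additive_arith (hp2 : p ≠ 2) (I : GlobalInput p S) (hpS : pPrime p ∈ S) (c : Γℚ)
    (hc : c * c = 1) {X : ShortComplex (Rep (ZMod p) Γℚ)} (hX : X.ShortExact) [Finite X.X₂]
    (hd : (arithDatum S).𝒰.IsDiscrete X.X₂) :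
    phiC (arithDatum S) c X.X₂ = phiC (arithDatum S) c X.X₁ + phiC (arithDatum S) c X.X₃ := by
  haveI : Nonempty (arithDatum S).ι := ⟨⟨pPrime p, hpS⟩⟩
  have hinj : Function.Injective X.f.hom := (Rep.mono_iff_injective _).1 hX.mono_f
  have hsurj : Function.Surjective X.g.hom := (Rep.epi_iff_surjective _).1 hX.epi_g
  haveI hfin₁ : Finite X.X₁ := Finite.of_injective _ hinj
  haveI hfin₃ : Finite X.X₃ := Finite.of_surjective _ hsurj
  have hd₁ : (arithDatum S).𝒰.IsDiscrete X.X₁ :=
    DevissageRep.isDiscrete_of_injective (arithDatum S).𝒰 X.f hinj hd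
  have hd₃ : (arithDatum S).𝒰.IsDiscrete X.X₃ :=
    DevissageRep.isDiscrete_of_surjective (arithDatum S).𝒰 X.g hsurj hd
  haveI : Module.Finite (ZMod p) X.X₂ := Module.Finite.of_finite
  have h2 : (2 : ZMod p) ≠ 0 := by
    intro h
    have h' : ((2 : ℕ) : ZMod p) = 0 := by exact_mod_cast h
    rw [ZMod.natCast_eq_zero_iff] at h'
    exact hp2 ((Nat.prime_dvd_prime_iff_eq Fact.out Nat.prime_two).1 h')
  refine phiC_additive (arithDatum S) c hX hd hc h2 (finHc_arith I hpS X.X₁ hd₁)
    (finHc_arith I hpS X.X₂ hd) (finHc_arith I hpS X.X₃ hd₃)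
    (subsingleton_Hc_zero (arithDatum S) X.X₃) ?_
  refine (arithDatum S).HcMap_surjective_of_subsingleton hX hd 2 (I.van X.X₃ hd₃) (fun q => ?_)
  haveI : Finite (Rep.res (primeLocalToGlobal q.1) X.X₁) := hfin₁
  exact (I.loc q).subsingleton_three (Rep.res (primeLocalToGlobal q.1) X.X₁)
    ((arithDatum S).isDiscrete_resRep X.X₁ hd₁ q)

end Arith

end Fermat.Agent.S56x.Euler.AdditiveCone
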