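import Fermat.Agent.Lib.CFT.Duality.ConeLES
import Fermat.Prelude.Def_ExtEndgame_ProductionDatum

/-!
# P-S56, block (B): the contract of the (EC) line

`(EC)`: for the arithmetic localisation datum `D = arithDatum S` (local places = the finite primes
of `S`), `p` odd, `p ∈ S`, and every finite discrete `𝔽_p[G_S]`-module `M`

  `dim H²_c(M) = dim H¹_c(M) + dim H³_c(M) + dim M^{c = 1}`

(`c` = complex conjugation).  This is Tate's global Euler characteristic formula in the form
needed for the Greenberg-Wiles inequality; the formula line (`S56x/GW`) consumes `ECStatement`,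
the Euler line (`S56x/Euler`) produces it.
-/

set_option autoImplicit false

open CategoryTheory Module ExtCitation

namespace Fermat.Agent.S56x.Euler

open Fermat.Agent.Lib.CFT.Duality Fermat.Agent.Lib.CFT.Profinite

local notation "Γℚ" => (AlgebraicClosure ℚ ≃ₐ[ℚ] AlgebraicClosure ℚ)

variable {p : ℕ} [Fact p.Prime]

/-- `M^{c = 1}`: the invariants of complex conjugation (the local `H⁰` at the real place; this is
definitionally `locH0 S M (Sum.inl ())` of `S56x/GW/Interface`). -/
noncomputable abbrev realInv (M : Rep (ZMod p) Γℚ) : Submodule (ZMod p) M :=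
  (Rep.res archimedeanLoc M).ρ.invariants

theorem mem_realInv_iff (M : Rep (ZMod p) Γℚ) (m : M) :
    m ∈ realInv M ↔ M.ρ complexConjugation m = m := by
  constructor
  · intro h
    exact h archimedeanGen
  · intro h g
    obtain ⟨g, hg⟩ := g
    obtain ⟨n, rfl⟩ := Subgroup.mem_zpowers_iff.mp hg
    have hinv : M.ρ complexConjugation⁻¹ m = m := by
      rw [complexConjugation_inv]; exact h
    have key : ∀ n : ℕ, M.ρ (complexConjugation ^ n) m = m := by
      intro n
      induction n with
      | zero => simp
      | succ n ih => rw [pow_succ, map_mul, Module.End.mul_apply, h, ih]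
    change M.ρ (complexConjugation ^ n) m = m
    rcases Int.eq_nat_or_neg n with ⟨n, rfl | rfl⟩
    · rw [zpow_natCast]; exact key n
    · rw [zpow_neg, zpow_natCast, ← inv_pow, complexConjugation_inv]; exact key n

/-- The defect `φ_c(M) = h²_c - h¹_c - h³_c - dim M^{c=1}` of the datum `arithDatum S`. -/
noncomputable def phiC (S : Finset Nat.Primes) (M : Rep (ZMod p) Γℚ) : ℤ :=
  (finrank (ZMod p) ((arithDatum S).Hc M 2) : ℤ) - finrank (ZMod p) ((arithDatum S).Hc M 1) -
    finrank (ZMod p) ((arithDatum S).Hc M 3) - finrank (ZMod p) (realInv M)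

variable (p) in
/-- **(EC)** for the set `S`: the defect vanishes on all finite discrete modules. -/
def ECStatement (S : Finset Nat.Primes) : Prop :=
  ∀ (M : Rep (ZMod p) Γℚ) [Finite M], (Bridge.levelsS S).IsDiscrete M → phiC S M = 0

theorem ECStatement.finrank_eq {S : Finset Nat.Primes} (h : ECStatement p S)
    (M : Rep (ZMod p) Γℚ) [Finite M] (hM : (Bridge.levelsS S).IsDiscrete M) :
    finrank (ZMod p) ((arithDatum S).Hc M 1) + finrank (ZMod p) ((arithDatum S).Hc M 3) +
        finrank (ZMod p) (realInv M) = finrank (ZMod p) ((arithDatum S).Hc M 2) := by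
  have := h M hM
  unfold phiC at this
  omega

end Fermat.Agent.S56x.Euler
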