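/-
helper49 (P-S56, block (B), leaf (E1), contract form): the results of `S56x/Euler/AdditiveCone`
stated for the defect `phiC S M` of the (EC) contract `S56x/Euler/Contract` (helper55), and the
dictionary with helper87's `GW.TateEulerC` (`S56x/GW/LevelGW`):

* `realInv_eq_fixedSub`, `phiC_eq_additiveCone` : the two defects agree;
* `phiC_of_iso`, `phiC_additive` : iso invariance and additivity on short exact sequences of
  finite discrete modules (`p` odd, `p ∈ S`);
* `phiC_zero_module` : the defect of a module with one element vanishes;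
* `tateEulerC_iff_phiC_eq_zero` : `GW.TateEulerC S M ↔ phiC S M = 0` (as `H⁰_c = 0`).
-/
import Fermat.Agent.S56x.Euler.Contract
import Fermat.Agent.S56x.Euler.AdditiveCone
import Fermat.Agent.S56x.GW.LevelGW

set_option autoImplicit false
set_option linter.style.haveILetI false

open CategoryTheory Module ExtCitation

namespace Fermat.Agent.S56x.Euler

open Fermat.Agent.Lib.CFT.Duality Fermat.Agent.Lib.CFT.Profinite

local notation "Γℚ" => (AlgebraicClosure ℚ ≃ₐ[ℚ] AlgebraicClosure ℚ)

variable {p : ℕ} [Fact p.Prime] {S : Finset Nat.Primes}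

theorem realInv_eq_fixedSub (M : Rep (ZMod p) Γℚ) :
    realInv M = AdditiveCone.fixedSub complexConjugation M := by
  ext m
  rw [mem_realInv_iff, AdditiveCone.mem_fixedSub]

theorem realInv_eq_ker (M : Rep (ZMod p) Γℚ) :
    realInv M = LinearMap.ker (M.ρ complexConjugation - LinearMap.id) := by
  ext m
  rw [mem_realInv_iff, LinearMap.mem_ker, LinearMap.sub_apply, LinearMap.id_apply, sub_eq_zero]

/-- the defect of the contract is the defect of `AdditiveCone` for the complex conjugation -/
theorem phiC_eq_additiveCone (S : Finset Nat.Primes) (M : Rep (ZMod p) Γℚ) :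
    phiC S M = AdditiveCone.phiC (arithDatum S) complexConjugation M := by
  rw [phiC, AdditiveCone.phiC, AdditiveCone.fixDim, ← realInv_eq_fixedSub]
  rfl

/-- **Invariance of the defect under isomorphisms.** -/
theorem phiC_of_iso (S : Finset Nat.Primes) {M N : Rep (ZMod p) Γℚ} (e : M ≅ N) :
    phiC S M = phiC S N := by
  rw [phiC_eq_additiveCone, phiC_eq_additiveCone]
  exact AdditiveCone.phiC_of_iso (arithDatum S) complexConjugation e

/-- **Additivity of the defect** on short exact sequences of finite discrete modules. -/
theorem phiC_additive (hp2 : p ≠ 2) (hpS : pPrime p ∈ S) (I : PoitouTate.GlobalInput p S)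
    {X : ShortComplex (Rep (ZMod p) Γℚ)} (hX : X.ShortExact) [Finite X.X₂]
    (hd : (Bridge.levelsS S).IsDiscrete X.X₂) :
    phiC S X.X₂ = phiC S X.X₁ + phiC S X.X₃ := by
  rw [phiC_eq_additiveCone, phiC_eq_additiveCone, phiC_eq_additiveCone]
  exact AdditiveCone.phiC_additive_arith hp2 I hpS complexConjugation
    complexConjugation_mul_self hX hd

/-- The defect of a module with one element vanishes. -/
theorem phiC_of_subsingleton (S : Finset Nat.Primes) (M : Rep (ZMod p) Γℚ) [Subsingleton M] :
    phiC S M = 0 := by
  have h : ∀ n, finrank (ZMod p) ((arithDatum S).Hc M n) = 0 := by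
    intro n
    have e : (arithDatum S).HcMap (𝟙 M) n = (arithDatum S).HcMap (0 : M ⟶ M) n := by
      congr 1
      ext x
      exact Subsingleton.elim _ _
    rw [LocDatum.HcMap_id, LocDatum.HcMap_zero] at e
    haveI : Subsingleton ((arithDatum S).Hc M n) :=
      ⟨fun x y => by
        have hx := LinearMap.congr_fun e x
        have hy := LinearMap.congr_fun e y
        rw [LinearMap.id_apply, LinearMap.zero_apply] at hx hy
        rw [hx, hy]⟩
    exact finrank_zero_of_subsingleton
  haveI : Subsingleton (realInv M) := inferInstance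
  rw [phiC, h, h, h, finrank_zero_of_subsingleton]
  simp

/-- **Dictionary**: helper87's `GW.TateEulerC S M` is the vanishing of the defect `phiC S M`
(because `H⁰_c = 0` as soon as `S` is not empty). -/
theorem tateEulerC_iff_phiC_eq_zero (hpS : pPrime p ∈ S) (M : Rep (ZMod p) Γℚ) :
    GW.TateEulerC S M ↔ phiC S M = 0 := by
  haveI : Nonempty (arithDatum S).ι := ⟨⟨pPrime p, hpS⟩⟩
  haveI := AdditiveCone.subsingleton_Hc_zero (k := ZMod p) (arithDatum S) M
  have h0 : finrank (ZMod p) ((arithDatum S).Hc M 0) = 0 := finrank_zero_of_subsingleton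
  rw [GW.TateEulerC, GW.eulerCharC, phiC, h0, ← realInv_eq_ker]
  constructor <;> intro h <;> omega

end Fermat.Agent.S56x.Euler
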