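import Fermat.Agent.Lib.CFT.Duality.PoitouTate

/-!
# P-S56 block (B), (E3): compactly supported cohomology in terms of ordinary cohomology (helper81)

For `D = arithDatum S` (`p` odd, `p ∈ S`), `I : GlobalInput p S` and a finite discrete module `M`:

* `finrank_Hc_two` : `dim H²_c(M) = dim H¹(G_S, M')`, `M' = M.dualTwist (cycloChar p)` (global
  duality `β⁰`);
* `finrank_Hc_three` : `dim H³_c(M) = dim H⁰(G_S, M')` (global duality `β¹`);
* `finrank_Hc_one_add` : `dim H¹_c(M) + dim H⁰(G_S, M) = ∑_{v ∈ S} dim H⁰(G_v, M) + dim Ш¹_S(M)`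
  (the beginning of the long exact sequence of the cone; valid for every localisation datum with at
  least one place);
* `ec_iff` : the identity `(EC)` for `M` is equivalent to the identity `(*)`
  `h¹(M') = h⁰(M') - h⁰(M) + ∑_v h⁰_v(M) + dim Ш¹(M) + dim M^{c=1}`.
-/

set_option autoImplicit false

open CategoryTheory Module

namespace Fermat.Agent.S56x.Euler.ConeInduced

open Fermat.Agent.Lib.CFT.Profinite Fermat.Agent.Lib.CFT.Profinite.LevelFamily
open Fermat.Agent.Lib.CFT.Duality Fermat.Agent.Lib.CFT.Duality.GlobalDuality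
open Fermat.Agent.Lib.CFT.Duality.PoitouTate ExtCitation
open Fermat.Agent.Lib.CFT.Profinite.Bridge

local notation "Γℚ" => (AlgebraicClosure ℚ ≃ₐ[ℚ] AlgebraicClosure ℚ)

/-! ### The beginning of the cone sequence, for a general localisation datum -/

section General

variable {k : Type} [Field k] {G : Type} [Group G] (D : LocDatum G) (M : Rep k G)

/-- The localisation map in degree `0` at a single place is injective: it is the inclusion
`M^G ⊆ M^{H_i}`. -/
theorem locMapHAt_zero_injective (i : D.ι) : Function.Injective (D.locMapHAt M 0 i) := by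
  rw [injective_iff_map_eq_zero]
  intro x hx
  obtain ⟨f, rfl⟩ := D.𝒰.classMk_surjective M 0 x
  rw [LocDatum.locMapHAt, levelCohomologyMapOfHom_classMk, classMk_eq_zero_iff_zero] at hx
  have h1 : (levelCocyclesMap (D.φ i) (D.compat i) (𝟙 (D.resRep M i)) 0 f).1 default = 0 := by
    rw [hx]; rfl
  rw [levelCocyclesMap_coe] at h1
  have h2 : f.1 default = 0 := by
    have : f.1 (fun j => D.φ i ((default : Fin 0 → D.H i) j)) = 0 := h1
    convert this using 2
  have h3 : f = 0 := by
    apply Subtype.ext
    funext g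
    rw [Subsingleton.elim g default]
    exact h2
  rw [h3, map_zero]

/-- `H⁰_c(M) = 0` as soon as there is at least one place. -/
theorem Hc_zero_eq_zero [Nonempty D.ι] (x : D.Hc M 0) : x = 0 := by
  apply D.HcToGlobal_zero_injective M
  rw [map_zero]
  obtain ⟨i⟩ := ‹Nonempty D.ι›
  apply locMapHAt_zero_injective D M i
  rw [map_zero]
  have := D.locMapH_HcToGlobal M 0 x
  exact congr_fun this i

/-- The total localisation map in degree `0` is injective as soon as there is a place. -/
theorem locMapH_zero_injective [Nonempty D.ι] : Function.Injective (D.locMapH M 0) := by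
  obtain ⟨i⟩ := ‹Nonempty D.ι›
  intro x y hxy
  exact locMapHAt_zero_injective D M i (congr_fun hxy i)

/-- `H¹_c(M)` is finite dimensional if `P⁰(M)` and `H¹(G, M)` are. -/
theorem finite_Hc_one_of [Module.Finite k (D.locH M 0)]
    [Module.Finite k (D.𝒰.levelCohomology M 1)] : Module.Finite k (D.Hc M 1) := by
  have hex := D.exact_ofLocal_toGlobal M 0
  have h2 : Module.Finite k (LinearMap.ker (D.HcToGlobal M (0 + 1))) := by
    rw [LinearMap.exact_iff.mp hex]
    infer_instance
  have h3 : Module.Finite k (D.Hc M (0 + 1) ⧸ LinearMap.ker (D.HcToGlobal M (0 + 1))) :=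
    Module.Finite.equiv (D.HcToGlobal M (0 + 1)).quotKerEquivRange.symm
  exact Module.Finite.of_submodule_quotient (LinearMap.ker (D.HcToGlobal M (0 + 1)))

/-- **The beginning of the cone sequence, dimension form**:
`dim H¹_c(M) + dim H⁰(G, M) = dim P⁰(M) + dim Ш¹(M)`. -/
theorem finrank_Hc_one_add_of [Nonempty D.ι] [Module.Finite k (D.locH M 0)]
    [Module.Finite k (D.𝒰.levelCohomology M 1)] [Module.Finite k (D.𝒰.levelCohomology M 0)] :
    finrank k (D.Hc M 1) + finrank k (D.𝒰.levelCohomology M 0) =
      finrank k (D.locH M 0) + finrank k (D.shaLevel M 1) := by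
  have := finite_Hc_one_of D M
  have e1 := D.exact_loc_ofLocal M 0
  have e2 := D.exact_ofLocal_toGlobal M 0
  -- rank-nullity for `HcToGlobal 1`
  have r1 := LinearMap.finrank_range_add_finrank_ker (D.HcToGlobal M (0 + 1))
  rw [← D.shaLevel_eq_range M (0 + 1), LinearMap.exact_iff.mp e2] at r1
  -- rank-nullity for `HcOfLocal 0`
  have r2 := LinearMap.finrank_range_add_finrank_ker (D.HcOfLocal M 0)
  rw [LinearMap.exact_iff.mp e1] at r2
  -- `locMapH 0` is injective
  have r3 := LinearMap.finrank_range_of_inj (locMapH_zero_injective D M)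
  change finrank k (D.Hc M (0 + 1)) + _ = _ + finrank k (D.shaLevel M (0 + 1))
  omega

end General

/-! ### The arithmetic datum -/

section Arith

variable {p : ℕ} [Fact p.Prime] {S : Finset Nat.Primes} (I : GlobalInput p S)
  (hpS : pPrime p ∈ S) (M : Rep (ZMod p) Γℚ) [Finite M]
  (hM : (arithDatum S).𝒰.IsDiscrete M)

/-- `H⁰` of a finite module is finite. -/
theorem finite_levelCohomology_zero {G : Type} [Group G] (𝒰 : LevelFamily G)
    (N : Rep (ZMod p) G) [Finite N] : Module.Finite (ZMod p) (𝒰.levelCohomology N 0) := by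
  have : Finite (𝒰.levelCohomology N 0) :=
    Finite.of_injective (fun x => ((𝒰.H0Equiv N x : N.ρ.invariants) : N))
      (Subtype.val_injective.comp (𝒰.H0Equiv N).injective)
  exact Module.Finite.of_finite

theorem finite_locH_zero : Module.Finite (ZMod p) ((arithDatum S).locH M 0) := by
  have : ∀ v : (arithDatum S).ι, Module.Finite (ZMod p)
      (((arithDatum S).𝒱 v).levelCohomology ((arithDatum S).resRep M v) 0) := fun v => by
    have : Finite ((arithDatum S).resRep M v) := ‹Finite M›
    exact finite_levelCohomology_zero _ _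
  exact Module.Finite.pi

include hpS in
theorem nonempty_places : Nonempty (arithDatum S).ι := ⟨⟨pPrime p, hpS⟩⟩

include I hM in
/-- `H¹_c(M)` is finite. -/
theorem finite_Hc_one : Module.Finite (ZMod p) ((arithDatum S).Hc M 1) := by
  have := finite_locH_zero (S := S) M
  have := I.fin M hM
  exact finite_Hc_one_of (arithDatum S) M

include I hM hpS in
/-- `dim H¹_c(M) + dim H⁰(G_S, M) = ∑_{v ∈ S} dim H⁰(G_v, M) + dim Ш¹_S(M)`. -/
theorem finrank_Hc_one_add :
    finrank (ZMod p) ((arithDatum S).Hc M 1) +
        finrank (ZMod p) ((arithDatum S).𝒰.levelCohomology M 0) =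
      (∑ v : (arithDatum S).ι, finrank (ZMod p)
        (((arithDatum S).𝒱 v).levelCohomology ((arithDatum S).resRep M v) 0)) +
        finrank (ZMod p) ((arithDatum S).shaLevel M 1) := by
  have := finite_locH_zero (S := S) M
  have := I.fin M hM
  have := finite_levelCohomology_zero (arithDatum S).𝒰 M
  have := nonempty_places (S := S) hpS
  have : ∀ v : (arithDatum S).ι, Module.Finite (ZMod p)
      (((arithDatum S).𝒱 v).levelCohomology ((arithDatum S).resRep M v) 0) := fun v => by
    have : Finite ((arithDatum S).resRep M v) := ‹Finite M›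
    exact finite_levelCohomology_zero _ _
  rw [finrank_Hc_one_add_of (arithDatum S) M, Module.finrank_pi_fintype]

include hM hpS in
theorem isDiscrete_dual : (arithDatum S).𝒰.IsDiscrete (M.dualTwist (cycloChar p)) :=
  DualTwist.isDiscrete_dualTwist (cycloChar p) (arithDatum S).𝒰 M hM
    (exists_level_cycloChar_eq_one hpS)

include I hM hpS in
/-- `β⁰` as a linear equivalence `H²_c(M) ≃ H¹(G_S, M')^∨`. -/
noncomputable def beta0Equiv : (arithDatum S).Hc M 2 ≃ₗ[ZMod p]
    Module.Dual (ZMod p) ((arithDatum S).𝒰.levelCohomology (M.dualTwist (cycloChar p)) 1) :=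
  LinearEquiv.ofBijective (beta0 (arithDatum S) (cycloChar p) 2 I.tr M)
    (I.beta_bijective hpS M hM).1

include I hM hpS in
/-- `β¹` as a linear equivalence `H³_c(M) ≃ H⁰(G_S, M')^∨`. -/
noncomputable def beta1Equiv : (arithDatum S).Hc M (2 + 1) ≃ₗ[ZMod p]
    Module.Dual (ZMod p) ((arithDatum S).𝒰.levelCohomology (M.dualTwist (cycloChar p)) 0) :=
  LinearEquiv.ofBijective (beta1 (arithDatum S) (cycloChar p) 2 I.tr M)
    (I.beta_bijective hpS M hM).2

include I hM hpS in
theorem finite_Hc_two : Module.Finite (ZMod p) ((arithDatum S).Hc M 2) := by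
  have := I.fin (M.dualTwist (cycloChar p)) (isDiscrete_dual hpS M hM)
  exact Module.Finite.equiv (beta0Equiv I hpS M hM).symm

include I hM hpS in
theorem finite_Hc_three : Module.Finite (ZMod p) ((arithDatum S).Hc M 3) := by
  have := finite_levelCohomology_zero (arithDatum S).𝒰 (M.dualTwist (cycloChar p))
  exact Module.Finite.equiv (beta1Equiv I hpS M hM).symm

include I hM hpS in
/-- **Global duality, dimension form, degree 2**: `dim H²_c(M) = dim H¹(G_S, M')`. -/
theorem finrank_Hc_two : finrank (ZMod p) ((arithDatum S).Hc M 2) =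
    finrank (ZMod p) ((arithDatum S).𝒰.levelCohomology (M.dualTwist (cycloChar p)) 1) := by
  rw [(beta0Equiv I hpS M hM).finrank_eq, Subspace.dual_finrank_eq]

include I hM hpS in
/-- **Global duality, dimension form, degree 3**: `dim H³_c(M) = dim H⁰(G_S, M')`. -/
theorem finrank_Hc_three : finrank (ZMod p) ((arithDatum S).Hc M 3) =
    finrank (ZMod p) ((arithDatum S).𝒰.levelCohomology (M.dualTwist (cycloChar p)) 0) := by
  rw [← Subspace.dual_finrank_eq (K := ZMod p)
    (V := (arithDatum S).𝒰.levelCohomology (M.dualTwist (cycloChar p)) 0)]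
  exact (beta1Equiv I hpS M hM).finrank_eq

/-- The invariants of complex conjugation `M^{c = 1}`. -/
noncomputable def conjInvariants : Submodule (ZMod p) M :=
  LinearMap.ker (M.ρ complexConjugation - 1)

omit [Finite M] in
theorem mem_conjInvariants (m : M) :
    m ∈ conjInvariants M ↔ M.ρ complexConjugation m = m := by
  rw [conjInvariants, LinearMap.mem_ker, LinearMap.sub_apply, Module.End.one_apply, sub_eq_zero]

/-- The identity `(EC)` for `M`:
`dim H²_c(M) = dim H¹_c(M) + dim H³_c(M) + dim M^{c = 1}`. -/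
def EC (S : Finset Nat.Primes) (M : Rep (ZMod p) Γℚ) : Prop :=
  finrank (ZMod p) ((arithDatum S).Hc M 2) =
    finrank (ZMod p) ((arithDatum S).Hc M 1) + finrank (ZMod p) ((arithDatum S).Hc M 3) +
      finrank (ZMod p) (conjInvariants M)

/-- The identity `(*)` for `M`:
`h¹(M') + h⁰(M) = h⁰(M') + ∑_{v ∈ S} h⁰(G_v, M) + dim Ш¹_S(M) + dim M^{c = 1}`. -/
def Star (S : Finset Nat.Primes) (M : Rep (ZMod p) Γℚ) : Prop :=
  finrank (ZMod p) ((arithDatum S).𝒰.levelCohomology (M.dualTwist (cycloChar p)) 1) +
      finrank (ZMod p) ((arithDatum S).𝒰.levelCohomology M 0) =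
    finrank (ZMod p) ((arithDatum S).𝒰.levelCohomology (M.dualTwist (cycloChar p)) 0) +
      (∑ v : (arithDatum S).ι, finrank (ZMod p)
        (((arithDatum S).𝒱 v).levelCohomology ((arithDatum S).resRep M v) 0)) +
      finrank (ZMod p) ((arithDatum S).shaLevel M 1) + finrank (ZMod p) (conjInvariants M)

include I hM hpS in
/-- **`(EC) ⟺ (*)`** for every finite discrete module. -/
theorem ec_iff_star : EC S M ↔ Star S M := by
  have h1 := finrank_Hc_one_add I hpS M hM
  have h2 := finrank_Hc_two I hpS M hM
  have h3 := finrank_Hc_three I hpS M hM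
  unfold EC Star
  omega

end Arith

end Fermat.Agent.S56x.Euler.ConeInduced
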