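import Fermat.Agent.S56x.Euler.DeltaS

/-!
# P-S56 block (B), (E6): the action of a group of automorphisms on `Δ_S(K, n)`

`G` a group acting on the number field `K` by ring automorphisms, `S` a `G`-stable finite set of
primes.  Then `G` acts on `Δ_S(K, n) = {x ∈ Kˣ | ∀ v ∉ S, n ∣ ord_v x} / (Kˣ)ⁿ`
(`DeltaS.Delta S n`), written additively: `deltaAction S hS n`.  (Same formalism as the frozen
`SUnits.sUnitMulDistribMulAction`.)
-/

set_option autoImplicit false

namespace Fermat.Agent.S56x.Euler.DeltaAction

open NumberField IsDedekindDomain Fermat.Agent.Lib.CFT.Global.SUnits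
  Fermat.Agent.S56x.Euler.DeltaS

variable {K : Type*} [Field K] [NumberField K]
variable {G : Type*} [Group G] [MulSemiringAction G K]
variable (S : Finset (HeightOneSpectrum (𝓞 K))) (hS : IsStableUnder G S) (n : ℕ)

/-- The action of `g` on `Δ_S(K, n)`. -/
noncomputable def deltaSmul (g : G) : Delta S n ≃* Delta S n :=
  DeltaMap (MulSemiringAction.toRingEquiv G K g) S (hS g) n

theorem deltaSmul_mk (g : G) (x : deltaPre S n) :
    deltaSmul S hS n g (QuotientGroup.mk x) =
      QuotientGroup.mk (deltaPreMap (MulSemiringAction.toRingEquiv G K g) S (hS g) n x) := rfl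

theorem deltaSmul_mk_val (g : G) (x : deltaPre S n) :
    (((deltaPreMap (MulSemiringAction.toRingEquiv G K g) S (hS g) n x : deltaPre S n) : Kˣ) : K) =
      g • ((x : Kˣ) : K) := rfl

theorem deltaSmul_one (d : Delta S n) : deltaSmul S hS n 1 d = d := by
  obtain ⟨x, rfl⟩ := QuotientGroup.mk_surjective d
  rw [deltaSmul_mk]
  congr 1
  apply Subtype.ext
  apply Units.ext
  rw [deltaSmul_mk_val, one_smul]

theorem deltaSmul_mul (g h : G) (d : Delta S n) :
    deltaSmul S hS n (g * h) d = deltaSmul S hS n g (deltaSmul S hS n h d) := by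
  obtain ⟨x, rfl⟩ := QuotientGroup.mk_surjective d
  rw [deltaSmul_mk, deltaSmul_mk, deltaSmul_mk]
  congr 1
  apply Subtype.ext
  apply Units.ext
  rw [deltaSmul_mk_val, deltaSmul_mk_val, deltaSmul_mk_val, mul_smul]

/-- The action of `G` on the additive group of `Δ_S(K, n)`.  (A definition, not an instance.) -/
@[reducible] noncomputable def deltaAction : DistribMulAction G (Additive (Delta S n)) where
  smul g d := Additive.ofMul (deltaSmul S hS n g d.toMul)
  one_smul d := by
    show Additive.ofMul (deltaSmul S hS n 1 d.toMul) = d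
    rw [deltaSmul_one]
    rfl
  mul_smul g h d := by
    show Additive.ofMul (deltaSmul S hS n (g * h) d.toMul) =
      Additive.ofMul (deltaSmul S hS n g (deltaSmul S hS n h d.toMul))
    rw [deltaSmul_mul]
  smul_zero g := by
    show Additive.ofMul (deltaSmul S hS n g 1) = 0
    rw [map_one]
    rfl
  smul_add g d d' := by
    show Additive.ofMul (deltaSmul S hS n g (d.toMul * d'.toMul)) =
      Additive.ofMul (deltaSmul S hS n g d.toMul) + Additive.ofMul (deltaSmul S hS n g d'.toMul)
    rw [map_mul]
    rfl

theorem deltaAction_smul_def (g : G) (d : Additive (Delta S n)) :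
    letI := deltaAction S hS n
    g • d = Additive.ofMul (deltaSmul S hS n g d.toMul) := rfl

/-- The action on the class of `x`: `g • [x] = [g x]`. -/
theorem deltaAction_smul_mk (g : G) (x : deltaPre S n) :
    letI := deltaAction S hS n
    g • (Additive.ofMul (QuotientGroup.mk x : Delta S n)) =
      Additive.ofMul (QuotientGroup.mk
        (deltaPreMap (MulSemiringAction.toRingEquiv G K g) S (hS g) n x) : Delta S n) := rfl

/-- Compatibility with the action on the `S`-units (frozen `sUnitMulDistribMulAction`). -/
theorem toDelta_smul (g : G) (u : SUnit K S) :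
    letI := sUnitMulDistribMulAction S hS
    letI := deltaAction S hS n
    Additive.ofMul (toDelta S n (g • u)) = g • Additive.ofMul (toDelta S n u) := rfl

end Fermat.Agent.S56x.Euler.DeltaAction
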