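import Fermat.Agent.Lib.CFT.Global.SUnitHerbrand

/-!
# P-S56 block (B), (E5): the equivariant `S`-unit theorem

`K` a number field, `G` a finite group acting on `K` by field automorphisms, `S` a finite
`G`-stable set of finite places of `K`, `Idx K S = S_∞(K) ⊔ S` the `G`-set of places.

* `unitLat S = log(O_{K,S}^×) + ℤ·(1,…,1)`, a `G`-stable full lattice in `Idx K S → ℝ`;
* `toLat S : Additive (SUnit K S) × ℤ →+ unitLat S`, `(u, k) ↦ log u + k·(1,…,1)`:
  surjective, with finite kernel (`= torsion × 0`), `G`-equivariant (trivial action on `ℤ`);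
* `exists_permEmb` : there is an injective `G`-equivariant `(Idx K S → ℤ) →+ unitLat S`
  with finite cokernel (permutation action on the source).

So, for any "index" functional `q` on `ℤ[G]`-modules which is invariant under equivariant maps
with finite kernel and cokernel: `q (O_{K,S}^× ⊕ ℤ) = q (unitLat S) = q (ℤ[Idx K S])`.
-/

set_option autoImplicit false
set_option linter.style.haveILetI false

namespace Fermat.Agent.S56x.Euler.SUnitLattice

open NumberField IsDedekindDomain
open Fermat.Agent.Lib.CFT.Coh.PermLattice Fermat.Agent.Lib.CFT.Coh.Lattice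
  Fermat.Agent.Lib.CFT.Coh.LatticeHerbrand Fermat.Agent.Lib.CFT.Global.SUnits
  Fermat.Agent.Lib.CFT.Global.SUnitHerbrand

variable {K : Type*} [Field K] [NumberField K] (S : Finset (HeightOneSpectrum (𝓞 K)))

/-- The lattice `log(O_{K,S}^×) + ℤ·(1,…,1)` in `ℝ^{S_∞ ⊔ S}`. -/
noncomputable def unitLat : Submodule ℤ (Idx K S → ℝ) := addOnes (sUnitLattice K S)

theorem mem_unitLat_iff {v : Idx K S → ℝ} :
    v ∈ unitLat S ↔ ∃ (u : SUnit K S) (k : ℤ),
      v = logS K S (Additive.ofMul u) + k • ones (Idx K S) := by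
  unfold unitLat
  rw [mem_addOnes]
  constructor
  · rintro ⟨v₀, hv₀, k, rfl⟩
    obtain ⟨u, rfl⟩ := mem_sUnitLattice_iff.mp hv₀
    exact ⟨u, k, rfl⟩
  · rintro ⟨u, k, rfl⟩
    exact ⟨_, mem_sUnitLattice_iff.mpr ⟨u, rfl⟩, k, rfl⟩

theorem sum_eq_zero_of_mem_sUnitLattice :
    ∀ v ∈ sUnitLattice K S, ∑ x, v x = 0 := fun _ hv =>
  mem_traceZero.mp (sUnitLattice_le_traceZero S (Submodule.subset_span hv))

theorem mem_span_sUnitLattice_of_sum_eq_zero :
    ∀ v : Idx K S → ℝ, ∑ x, v x = 0 →
      v ∈ Submodule.span ℝ (sUnitLattice K S : Set (Idx K S → ℝ)) := fun v hv => by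
  rw [span_sUnitLattice]
  exact mem_traceZero.mpr hv

instance discreteTopology_unitLat : DiscreteTopology (unitLat S) :=
  discreteTopology_addOnes (sUnitLattice K S) (sum_eq_zero_of_mem_sUnitLattice S)

instance isZLattice_unitLat : IsZLattice ℝ (unitLat S) :=
  ⟨span_addOnes (sUnitLattice K S) (mem_span_sUnitLattice_of_sum_eq_zero S)⟩

/-- The map `(u, k) ↦ log u + k·(1,…,1)` into the ambient space. -/
noncomputable def toLatFun : Additive (SUnit K S) × ℤ →+ (Idx K S → ℝ) :=
  (logS K S).coprod (zmultiplesHom (Idx K S → ℝ) (ones (Idx K S)))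

theorem toLatFun_apply (u : Additive (SUnit K S)) (k : ℤ) :
    toLatFun S (u, k) = logS K S u + k • ones (Idx K S) := by
  simp [toLatFun]

/-- The map `O_{K,S}^× ⊕ ℤ → unitLat S`, `(u, k) ↦ log u + k·(1,…,1)`. -/
noncomputable def toLat : Additive (SUnit K S) × ℤ →+ unitLat S :=
  (toLatFun S).codRestrict (unitLat S) (fun x => by
    rcases x with ⟨u, k⟩
    rw [toLatFun_apply]
    exact (mem_unitLat_iff S).mpr ⟨u.toMul, k, rfl⟩)

theorem toLat_coe (u : Additive (SUnit K S)) (k : ℤ) :
    ((toLat S (u, k) : unitLat S) : Idx K S → ℝ) = logS K S u + k • ones (Idx K S) :=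
  toLatFun_apply S u k

theorem toLat_surjective : Function.Surjective (toLat S) := by
  rintro ⟨v, hv⟩
  obtain ⟨u, k, rfl⟩ := (mem_unitLat_iff S).mp hv
  exact ⟨(Additive.ofMul u, k), Subtype.ext (toLat_coe S _ k)⟩

theorem toLat_eq_zero_iff (x : Additive (SUnit K S) × ℤ) :
    toLat S x = 0 ↔ logS K S x.1 = 0 ∧ x.2 = 0 := by
  rcases x with ⟨u, k⟩
  constructor
  · intro h
    have h1 : logS K S u + k • ones (Idx K S) = 0 := by
      rw [← toLat_coe, h]; rfl
    have hu : logS K S u ∈ sUnitLattice K S := mem_sUnitLattice_iff.mpr ⟨u.toMul, rfl⟩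
    have h2 := avg_of_mem_addOnes (sum_eq_zero_of_mem_sUnitLattice S) hu k
    rw [h1, map_zero] at h2
    have hk : k = 0 := by exact_mod_cast h2.symm
    subst hk
    rw [zero_smul, add_zero] at h1
    exact ⟨h1, rfl⟩
  · rintro ⟨h1, h2⟩
    apply Subtype.ext
    rw [toLat_coe]
    simp only at h1 h2
    rw [h1, h2, zero_smul, add_zero]
    rfl

theorem finite_ker_toLat : Finite (toLat S).ker := by
  have := finite_ker_logS S
  let f : (toLat S).ker → (logS K S).ker := fun x =>
    ⟨x.1.1, ((toLat_eq_zero_iff S x.1).mp x.2).1⟩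
  refine Finite.of_injective f ?_
  intro x y hxy
  apply Subtype.ext
  have h1 : x.1.1 = y.1.1 := congrArg Subtype.val hxy
  have h2 : x.1.2 = y.1.2 := by
    rw [((toLat_eq_zero_iff S x.1).mp x.2).2, ((toLat_eq_zero_iff S y.1).mp y.2).2]
  exact Prod.ext h1 h2

/-- The kernel of `toLat` is `torsion × 0`. -/
theorem toLat_ofMul_eq_zero_iff (u : SUnit K S) (k : ℤ) :
    toLat S (Additive.ofMul u, k) = 0 ↔ IsOfFinOrder u ∧ k = 0 := by
  rw [toLat_eq_zero_iff, logS_eq_zero_iff]

/-! ### Equivariance -/

section Action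

variable {G : Type*} [Group G] [MulSemiringAction G K] (hS : IsStableUnder G S)

theorem unitLat_stable :
    letI := idxMulAction S hS
    ∀ (g : G), ∀ f ∈ unitLat S, tr g f ∈ unitLat S := by
  letI := idxMulAction S hS
  exact addOnes_stable (sUnitLattice_stable S hS)

/-- The action of `G` on `O_{K,S}^× ⊕ ℤ` (trivial on `ℤ`).  A definition, not an instance. -/
@[reducible] noncomputable def srcAction : DistribMulAction G (Additive (SUnit K S) × ℤ) :=
  letI := sUnitMulDistribMulAction S hS
  { smul := fun g x => (Additive.ofMul (g • x.1.toMul), x.2)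
    one_smul := fun x => by
      show (Additive.ofMul ((1 : G) • x.1.toMul), x.2) = x
      rw [one_smul]; rfl
    mul_smul := fun g h x => by
      show (Additive.ofMul ((g * h) • x.1.toMul), x.2) =
        (Additive.ofMul (g • (Additive.ofMul (h • x.1.toMul)).toMul), x.2)
      rw [mul_smul]; rfl
    smul_zero := fun g => by
      show (Additive.ofMul (g • (1 : SUnit K S)), (0 : ℤ)) = 0
      rw [smul_one]; rfl
    smul_add := fun g x y => by
      show (Additive.ofMul (g • (x.1.toMul * y.1.toMul)), x.2 + y.2) =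
        (Additive.ofMul (g • x.1.toMul), x.2) + (Additive.ofMul (g • y.1.toMul), y.2)
      rw [smul_mul']; rfl }

theorem srcAction_smul (g : G) (u : SUnit K S) (k : ℤ) :
    letI := sUnitMulDistribMulAction S hS
    letI := srcAction S hS
    g • ((Additive.ofMul u, k) : Additive (SUnit K S) × ℤ) = (Additive.ofMul (g • u), k) := rfl

/-- The action of `G` on the lattice `unitLat S` (permutation of the places).
A definition, not an instance. -/
@[reducible] noncomputable def latAction : DistribMulAction G (unitLat S) :=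
  letI := idxMulAction S hS
  { smul := fun g v => ⟨tr g v.1, unitLat_stable S hS g v.1 v.2⟩
    one_smul := fun v => Subtype.ext (tr_one v.1)
    mul_smul := fun g h v => Subtype.ext (tr_mul g h v.1)
    smul_zero := fun _ => Subtype.ext rfl
    smul_add := fun _ _ _ => Subtype.ext rfl }

theorem latAction_coe (g : G) (v : unitLat S) :
    letI := idxMulAction S hS
    letI := latAction S hS
    ((g • v : unitLat S) : Idx K S → ℝ) = tr g (v : Idx K S → ℝ) := rfl

/-- `toLat` is `G`-equivariant. -/
theorem toLat_smul (g : G) (x : Additive (SUnit K S) × ℤ) :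
    letI := srcAction S hS
    letI := latAction S hS
    toLat S (g • x) = g • toLat S x := by
  letI := sUnitMulDistribMulAction S hS
  letI := idxMulAction S hS
  letI := srcAction S hS
  letI := latAction S hS
  rcases x with ⟨u, k⟩
  apply Subtype.ext
  rw [latAction_coe]
  show ((toLat S (Additive.ofMul (g • u.toMul), k) : unitLat S) : Idx K S → ℝ) =
    tr g ((toLat S (u, k) : unitLat S) : Idx K S → ℝ)
  rw [toLat_coe, toLat_coe, logS_smul_eq_tr S hS g u.toMul, tr_add, tr_smul, tr_ones]
  rfl

/-- `toLat` as a `G`-equivariant homomorphism. -/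
noncomputable def toLatHom :
    letI := srcAction S hS
    letI := latAction S hS
    (Additive (SUnit K S) × ℤ) →+[G] unitLat S :=
  letI := srcAction S hS
  letI := latAction S hS
  { toFun := toLat S
    map_smul' := fun g x => toLat_smul S hS g x
    map_zero' := map_zero _
    map_add' := map_add _ }

/-- **Equivariant `S`-unit theorem** (Artin-Tate form).  The permutation lattice `ℤ[S_∞ ⊔ S]`
embeds `G`-equivariantly, with finite cokernel, into `unitLat S = log(O_{K,S}^×) + ℤ·(1,…,1)`. -/
theorem exists_permEmb [Finite G] :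
    letI := idxMulAction S hS
    letI := permAction G (Idx K S) ℤ
    letI := latAction S hS
    ∃ f : (Idx K S → ℤ) →+ unitLat S, Function.Injective f ∧
      (∀ (g : G) (c : Idx K S → ℤ), f (g • c) = g • f c) ∧ Finite (unitLat S ⧸ f.range) := by
  letI := idxMulAction S hS
  letI := permAction G (Idx K S) ℤ
  letI := latAction S hS
  cases nonempty_fintype G
  obtain ⟨L₁, e, hle, -, hfin, heq⟩ :=
    exists_perm_sublattice_of_isZLattice (unitLat S) (unitLat_stable S hS)
  let fl : (Idx K S → ℤ) →ₗ[ℤ] unitLat S := (Submodule.inclusion hle).comp e.toLinearMap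
  have hfl : ∀ c, ((fl c : unitLat S) : Idx K S → ℝ) = ((e c : L₁) : Idx K S → ℝ) := fun c => rfl
  have hrange : fl.toAddMonoidHom.range = (L₁.submoduleOf (unitLat S)).toAddSubgroup := by
    ext v
    constructor
    · rintro ⟨c, rfl⟩
      show ((fl c : unitLat S) : Idx K S → ℝ) ∈ L₁
      rw [hfl]; exact (e c).2
    · intro hv
      have hv' : (v : Idx K S → ℝ) ∈ L₁ := hv
      refine ⟨e.symm ⟨v, hv'⟩, Subtype.ext ?_⟩
      show ((fl (e.symm ⟨v, hv'⟩) : unitLat S) : Idx K S → ℝ) = v
      rw [hfl, LinearEquiv.apply_symm_apply]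
  refine ⟨fl.toAddMonoidHom, ?_, ?_, ?_⟩
  · intro c c' h
    apply e.injective
    apply Subtype.ext
    have := congrArg (fun v : unitLat S => (v : Idx K S → ℝ)) h
    exact this
  · intro g c
    apply Subtype.ext
    show ((fl (tr g c) : unitLat S) : Idx K S → ℝ) = tr g ((fl c : unitLat S) : Idx K S → ℝ)
    rw [hfl, hfl, heq]
  · rw [hrange]
    exact hfin

end Action

end Fermat.Agent.S56x.Euler.SUnitLattice
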