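import Fermat.Agent.S56x.Euler.LatticeModP
import Fermat.Agent.S56x.Euler.SUnitLattice

/-!
# P-S56 block (B), (EC) line: the equivariant Dirichlet `S`-unit theorem modulo `p`

`K` a number field, `G` a finite group acting on `K` with `p ∤ |G|`, `S` a finite `G`-stable set of
primes of `K`, `N` a finite `ℤ[G]`-module killed by `p`.  With `U = O_{K,S}^×` (additively),
`X = S_∞ ⊔ S` (the set of places `Idx K S`) and `R = ℤ[G]`:

`#Hom_R(N, U/p) · #Hom_R(N, ℤ/p) = #Hom_R(N, U[p]) · #Hom_R(N, ℤ[X]/p)`   (`card_hom_sUnit`).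

Here `U[p] = μ_p(K)`, `ℤ` carries the trivial action and `ℤ[X] = (Idx K S → ℤ)` the permutation
action.  All `G`-modules are regarded as `ℤ[G]`-modules through `LatticeModP.zgModule`.
-/

set_option autoImplicit false
set_option linter.style.haveILetI false

namespace Fermat.Agent.S56x.Euler.SUnitModP

open NumberField IsDedekindDomain Function
open Fermat.Agent.Lib.CFT.Coh.PermLattice Fermat.Agent.Lib.CFT.Coh.Lattice
  Fermat.Agent.Lib.CFT.Global.SUnits
open Fermat.Agent.S56x.Euler.LatticeModP Fermat.Agent.S56x.Euler.SUnitLattice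

universe u w

variable {K : Type} [Field K] [NumberField K] (S : Finset (HeightOneSpectrum (𝓞 K)))
variable {G : Type u} [Group G] [MulSemiringAction G K] (hS : IsStableUnder G S)

/-- The action of `G` on the additive group of `S`-units.  A definition, not an instance. -/
@[reducible] noncomputable def unitAction : DistribMulAction G (Additive (SUnit K S)) :=
  letI := sUnitMulDistribMulAction S hS
  { smul := fun g x => Additive.ofMul (g • x.toMul)
    one_smul := fun x => by
      show Additive.ofMul ((1 : G) • x.toMul) = x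
      rw [one_smul]; rfl
    mul_smul := fun g h x => by
      show Additive.ofMul ((g * h) • x.toMul) = Additive.ofMul (g • (h • x.toMul))
      rw [mul_smul]
    smul_zero := fun g => by
      show Additive.ofMul (g • (1 : SUnit K S)) = 0
      rw [smul_one]; rfl
    smul_add := fun g x y => by
      show Additive.ofMul (g • (x.toMul * y.toMul)) =
        Additive.ofMul (g • x.toMul) + Additive.ofMul (g • y.toMul)
      rw [smul_mul']; rfl }

/-- The trivial action of `G` on `ℤ`.  A definition, not an instance. -/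
@[reducible] def trivAction (G : Type u) [Group G] : DistribMulAction G ℤ where
  smul := fun _ k => k
  one_smul := fun _ => rfl
  mul_smul := fun _ _ _ => rfl
  smul_zero := fun _ => rfl
  smul_add := fun _ _ _ => rfl

section Main

attribute [local instance] zgModule

variable [Fintype G] (p : ℕ) [hp : Fact p.Prime]

/-- A map of additive groups with finite kernel onto a finitely generated group has a finitely
generated source. -/
theorem moduleFinite_of_finite_ker {A B : Type*} [AddCommGroup A] [AddCommGroup B]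
    [Module.Finite ℤ B] (f : A →+ B) (hf : Surjective f) [Finite f.ker] : Module.Finite ℤ A := by
  constructor
  refine Submodule.fg_of_fg_map_of_fg_inf_ker f.toIntLinearMap ?_ ?_
  · rw [Submodule.map_top, LinearMap.range_eq_top.mpr hf]
    exact Module.Finite.fg_top
  · rw [top_inf_eq]
    have : Finite (LinearMap.ker f.toIntLinearMap) := ‹Finite f.ker›
    exact (Module.Finite.of_finite : Module.Finite ℤ (LinearMap.ker f.toIntLinearMap)).1 |>
      (Submodule.fg_top _).mp

theorem torsionFree_unitLat (v : unitLat S) (h : p • v = 0) : v = 0 := by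
  have hp0 : p ≠ 0 := hp.out.ne_zero
  apply Subtype.ext
  have h' : p • (v : Idx K S → ℝ) = 0 := congrArg Subtype.val h
  funext i
  have := congrFun h' i
  simp only [Pi.smul_apply, Pi.zero_apply, nsmul_eq_mul] at this
  rcases mul_eq_zero.mp this with h1 | h1
  · exact absurd (by exact_mod_cast h1) hp0
  · exact h1

omit [NumberField K] in
theorem torsionFree_perm (c : Idx K S → ℤ) (h : p • c = 0) : c = 0 := by
  have hp0 : p ≠ 0 := hp.out.ne_zero
  funext i
  have := congrFun h i
  simp only [Pi.smul_apply, Pi.zero_apply, nsmul_eq_mul] at this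
  rcases mul_eq_zero.mp this with h1 | h1
  · exact absurd (by exact_mod_cast h1) hp0
  · exact h1

/-- **Equivariant Dirichlet `S`-unit theorem modulo `p`** (`p ∤ |G|`): with `U = O_{K,S}^×`,
`#Hom_G(N, U/p) · #Hom_G(N, ℤ/p) = #Hom_G(N, U[p]) · #Hom_G(N, ℤ[S_∞ ⊔ S]/p)`. -/
theorem card_hom_sUnit (hG : ¬ p ∣ Fintype.card G) (N : Type w) [AddCommGroup N]
    [DistribMulAction G N] [Finite N] (hNp : ∀ n : N, p • n = 0) :
    letI := unitAction S hS
    letI := trivAction G
    letI := idxMulAction S hS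
    letI := permAction G (Idx K S) ℤ
    Nat.card (N →ₗ[MonoidAlgebra ℤ G] ModP (MonoidAlgebra ℤ G) p (Additive (SUnit K S))) *
        Nat.card (N →ₗ[MonoidAlgebra ℤ G] ModP (MonoidAlgebra ℤ G) p ℤ) =
      Nat.card (N →ₗ[MonoidAlgebra ℤ G] TorP (MonoidAlgebra ℤ G) p (Additive (SUnit K S))) *
        Nat.card (N →ₗ[MonoidAlgebra ℤ G] ModP (MonoidAlgebra ℤ G) p (Idx K S → ℤ)) := by
  letI := unitAction S hS
  letI := trivAction G
  letI := idxMulAction S hS
  letI := permAction G (Idx K S) ℤ
  letI := srcAction S hS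
  letI := latAction S hS
  have hp0 : p ≠ 0 := hp.out.ne_zero
  have hN : LiftsModP.{u, 0, w} (MonoidAlgebra ℤ G) p N := liftsModP_of_not_dvd hG N hNp
  -- the three maps
  let Φ : (Additive (SUnit K S) × ℤ) →ₗ[MonoidAlgebra ℤ G] unitLat S :=
    linearOfEquivariant (toLat S) (toLat_smul S hS)
  obtain ⟨f, hfinj, hfeq, hffin⟩ := exists_permEmb S hS (G := G)
  let Ψ : (Idx K S → ℤ) →ₗ[MonoidAlgebra ℤ G] unitLat S := linearOfEquivariant f hfeq
  -- finiteness
  have : Module.Finite ℤ (unitLat S) := ZLattice.module_finite ℝ (unitLat S)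
  have : Finite (toLat S).ker := finite_ker_toLat S
  have : Module.Finite ℤ (Additive (SUnit K S) × ℤ) :=
    moduleFinite_of_finite_ker (toLat S) (toLat_surjective S)
  have : Module.Finite ℤ (Idx K S → ℤ) := inferInstance
  have fT1 : Finite (TorP (MonoidAlgebra ℤ G) p (Additive (SUnit K S) × ℤ)) :=
    finite_torP_of_fg hp0
  have fM1 : Finite (ModP (MonoidAlgebra ℤ G) p (Additive (SUnit K S) × ℤ)) :=
    finite_modP_of_fg hp0
  have fT2 : Finite (TorP (MonoidAlgebra ℤ G) p (unitLat S)) := finite_torP_of_fg hp0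
  have fM2 : Finite (ModP (MonoidAlgebra ℤ G) p (unitLat S)) := finite_modP_of_fg hp0
  have fT3 : Finite (TorP (MonoidAlgebra ℤ G) p (Idx K S → ℤ)) := finite_torP_of_fg hp0
  have fM3 : Finite (ModP (MonoidAlgebra ℤ G) p (Idx K S → ℤ)) := finite_modP_of_fg hp0
  have fkΦ : Finite (LinearMap.ker Φ) := ‹Finite (toLat S).ker›
  have fcΦ : Finite (unitLat S ⧸ LinearMap.range Φ) := by
    have : LinearMap.range Φ = ⊤ := LinearMap.range_eq_top.mpr (toLat_surjective S)
    have : Subsingleton (unitLat S ⧸ LinearMap.range Φ) :=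
      Submodule.Quotient.subsingleton_iff.mpr this
    infer_instance
  have fkΨ : Finite (LinearMap.ker Ψ) := by
    have : LinearMap.ker Ψ = ⊥ := LinearMap.ker_eq_bot.mpr hfinj
    rw [this]; infer_instance
  have fcΨ : Finite (unitLat S ⧸ LinearMap.range Ψ) := by
    have hle : f.range ≤ ((LinearMap.range Ψ).mkQ.toAddMonoidHom).ker := by
      rintro _ ⟨c, rfl⟩
      rw [AddMonoidHom.mem_ker]
      exact (Submodule.Quotient.mk_eq_zero _).mpr ⟨c, rfl⟩
    exact Finite.of_surjective
      (QuotientAddGroup.lift f.range ((LinearMap.range Ψ).mkQ.toAddMonoidHom) hle)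
      (fun y => by
        obtain ⟨b, rfl⟩ := Submodule.Quotient.mk_surjective _ y
        exact ⟨QuotientAddGroup.mk b, rfl⟩)
  -- the two comparisons
  have e1 := card_of_finite_ker_coker (N := N) (p := p) hN Φ
  have e2 := card_of_finite_ker_coker (N := N) (p := p) hN Ψ
  have tB : Nat.card (N →ₗ[MonoidAlgebra ℤ G] TorP (MonoidAlgebra ℤ G) p (unitLat S)) = 1 :=
    card_hom_torP_of_torsionFree (torsionFree_unitLat S p)
  have tP : Nat.card (N →ₗ[MonoidAlgebra ℤ G] TorP (MonoidAlgebra ℤ G) p (Idx K S → ℤ)) = 1 :=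
    card_hom_torP_of_torsionFree (torsionFree_perm S p)
  rw [tB, mul_one] at e1
  rw [tB, mul_one, tP, one_mul] at e2
  -- the split sequence `0 → U → U × ℤ → ℤ → 0`
  let ι : Additive (SUnit K S) →ₗ[MonoidAlgebra ℤ G] (Additive (SUnit K S) × ℤ) :=
    linearOfEquivariant (AddMonoidHom.inl _ _) (fun g a => rfl)
  let π : (Additive (SUnit K S) × ℤ) →ₗ[MonoidAlgebra ℤ G] ℤ :=
    linearOfEquivariant (AddMonoidHom.snd _ _) (fun g a => rfl)
  have e3 := card_ses (N := N) (p := p) hN ι π
    (fun a b h => (Prod.ext_iff.mp h).1)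
    (fun k => ⟨(0, k), rfl⟩)
    (by
      intro x
      constructor
      · intro hx
        exact ⟨x.1, Prod.ext rfl (Eq.symm hx)⟩
      · rintro ⟨a, rfl⟩
        rfl)
  have tZ : Nat.card (N →ₗ[MonoidAlgebra ℤ G] TorP (MonoidAlgebra ℤ G) p ℤ) = 1 :=
    card_hom_torP_of_torsionFree (fun k hk => by
      rcases (by simpa [nsmul_eq_mul] using hk : p = 0 ∨ k = 0) with h1 | h1
      · exact absurd h1 hp0
      · exact h1)
  rw [tZ, mul_one] at e3
  have pos : 0 < Nat.card (N →ₗ[MonoidAlgebra ℤ G]
      TorP (MonoidAlgebra ℤ G) p (Additive (SUnit K S) × ℤ)) := card_hom_pos _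
  apply Nat.eq_of_mul_eq_mul_left pos
  rw [← e2] at e1
  calc Nat.card (N →ₗ[MonoidAlgebra ℤ G] TorP (MonoidAlgebra ℤ G) p (Additive (SUnit K S) × ℤ)) *
        (Nat.card (N →ₗ[MonoidAlgebra ℤ G] ModP (MonoidAlgebra ℤ G) p (Additive (SUnit K S))) *
          Nat.card (N →ₗ[MonoidAlgebra ℤ G] ModP (MonoidAlgebra ℤ G) p ℤ))
      = Nat.card (N →ₗ[MonoidAlgebra ℤ G] TorP (MonoidAlgebra ℤ G) p (Additive (SUnit K S))) *
          Nat.card (N →ₗ[MonoidAlgebra ℤ G]
            ModP (MonoidAlgebra ℤ G) p (Additive (SUnit K S) × ℤ)) := by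
        rw [e3]; ring
    _ = Nat.card (N →ₗ[MonoidAlgebra ℤ G] TorP (MonoidAlgebra ℤ G) p (Additive (SUnit K S) × ℤ)) *
        (Nat.card (N →ₗ[MonoidAlgebra ℤ G] TorP (MonoidAlgebra ℤ G) p (Additive (SUnit K S))) *
          Nat.card (N →ₗ[MonoidAlgebra ℤ G] ModP (MonoidAlgebra ℤ G) p (Idx K S → ℤ))) := by
        rw [e1]; ring

end Main

end Fermat.Agent.S56x.Euler.SUnitModP
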