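import Fermat.Agent.S56x.Euler.DeltaAction
import Fermat.Agent.S56x.Euler.SUnitModP
import Fermat.Agent.S56x.Euler.RepAction

/-!
# P-S56 block (B), (A5c): `Δ_S(K, p)` versus `O_{K,S}ˣ / p`, equivariantly

`K` a number field, `G` a group acting on `K` by ring automorphisms, `S` a `G`-stable finite set
of primes which generates the class group (`IsClassGenerating S`).  Then, with `U = O_{K,S}ˣ`
written additively and `R = ℤ[G]`,

* `deltaModPEquiv : Additive (Delta S p) ≃+ ModP R p (Additive (SUnit K S))`, with
  `deltaModPEquiv_toDelta` (it sends the class of an `S`-unit `u` to the class of `u`) and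
  `deltaModPEquiv_smul` (equivariance);
* `card_equivariant_delta` / `card_rep_equivariant_delta`: the number of `G`-equivariant additive
  maps `N → Δ_S(K, p)` equals `#Hom_R(N, U/p)` (the term occurring in
  `SUnitModP.card_hom_sUnit`).

The `G`-actions are `DeltaAction.deltaAction S hS p` and `SUnitModP.unitAction S hS`; `G`-modules
are `ℤ[G]`-modules through `LatticeModP.zgModule`.  (No `ℤ[G]`-module structure on
`Additive (Delta S p)` is ever used, only the action.)
-/

set_option autoImplicit false
set_option linter.style.haveILetI false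
set_option linter.unusedSectionVars false
set_option maxSynthPendingDepth 3

namespace Fermat.Agent.S56x.Euler.DeltaBridge

open NumberField IsDedekindDomain Function MonoidAlgebra
open Fermat.Agent.Lib.CFT.Global.SUnits
open Fermat.Agent.S56x.Euler.DeltaS Fermat.Agent.S56x.Euler.DeltaAction
  Fermat.Agent.S56x.Euler.LatticeModP Fermat.Agent.S56x.Euler.SUnitModP
  Fermat.Agent.S56x.Euler.RepAction

universe u w

variable {K : Type} [Field K] [NumberField K] (S : Finset (HeightOneSpectrum (𝓞 K)))
variable {G : Type u} [Group G] [MulSemiringAction G K] (hS : IsStableUnder G S) (p : ℕ)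

attribute [local instance] zgModule

/-! ### `O_{K,S}ˣ → Δ_S(K, p)`, additively -/

/-- `O_{K,S}ˣ → Δ_S(K, p)`, written additively. -/
noncomputable def toDeltaAdd : Additive (SUnit K S) →+ Additive (Delta S p) :=
  MonoidHom.toAdditive (toDelta S p)

theorem toDeltaAdd_apply (u : Additive (SUnit K S)) :
    toDeltaAdd S p u = Additive.ofMul (toDelta S p u.toMul) := rfl

theorem toDeltaAdd_smul (g : G) (u : Additive (SUnit K S)) :
    letI := unitAction S hS
    letI := deltaAction S hS p
    toDeltaAdd S p (g • u) = g • toDeltaAdd S p u :=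
  toDelta_smul S hS p g u.toMul

theorem toDeltaAdd_surjective (hcl : IsClassGenerating S) : Surjective (toDeltaAdd S p) := by
  intro d
  obtain ⟨u, hu⟩ := toDelta_surjective hcl p d.toMul
  exact ⟨Additive.ofMul u, by rw [toDeltaAdd_apply]; exact congrArg Additive.ofMul hu⟩

theorem toDeltaAdd_eq_zero_iff (hp0 : p ≠ 0) (u : Additive (SUnit K S)) :
    toDeltaAdd S p u = 0 ↔ ∃ y : Additive (SUnit K S), p • y = u := by
  have h1 : toDeltaAdd S p u = 0 ↔ u.toMul ∈ (toDelta S p).ker := by
    rw [MonoidHom.mem_ker, toDeltaAdd_apply]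
    exact Iff.rfl
  rw [h1, toDelta_ker hp0]
  constructor
  · rintro ⟨y, hy⟩
    exact ⟨Additive.ofMul y, congrArg Additive.ofMul hy⟩
  · rintro ⟨y, hy⟩
    exact ⟨y.toMul, congrArg Additive.toMul hy⟩

/-! ### The equivalence `Δ_S(K, p) ≃ O_{K,S}ˣ / p` -/

/-- `toDeltaAdd` as a `ℤ`-linear map. -/
noncomputable def toDeltaInt : Additive (SUnit K S) →ₗ[ℤ] Additive (Delta S p) :=
  AddMonoidHom.toIntLinearMap (M := Additive (SUnit K S)) (M₂ := Additive (Delta S p))
    (toDeltaAdd S p)

theorem toDeltaInt_apply (u : Additive (SUnit K S)) : toDeltaInt S p u = toDeltaAdd S p u := rfl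

theorem ker_toDeltaAdd (hp0 : p ≠ 0) :
    letI := unitAction S hS
    LinearMap.ker (toDeltaInt S p) =
      (ImP (MonoidAlgebra ℤ G) p (Additive (SUnit K S))).restrictScalars ℤ := by
  letI := unitAction S hS
  ext u
  rw [LinearMap.mem_ker, Submodule.restrictScalars_mem, mem_imP, toDeltaInt_apply]
  exact toDeltaAdd_eq_zero_iff S p hp0 u

/-- (1) **`Δ_S(K, p) ≃ O_{K,S}ˣ / p`** for `S` class-generating (additive equivalence; it is
equivariant, see `deltaModPEquiv_smul`). -/
noncomputable def deltaModPEquiv (hcl : IsClassGenerating S) (hp0 : p ≠ 0) :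
    letI := unitAction S hS
    Additive (Delta S p) ≃+ ModP (MonoidAlgebra ℤ G) p (Additive (SUnit K S)) :=
  letI := unitAction S hS
  (((Submodule.Quotient.restrictScalarsEquiv ℤ
      (ImP (MonoidAlgebra ℤ G) p (Additive (SUnit K S)))).symm.trans
    ((Submodule.quotEquivOfEq _ _ (ker_toDeltaAdd S hS p hp0).symm).trans
      ((toDeltaInt S p).quotKerEquivOfSurjective
        (toDeltaAdd_surjective S p hcl)))).symm).toAddEquiv

theorem deltaModPEquiv_symm_mk (hcl : IsClassGenerating S) (hp0 : p ≠ 0)
    (u : Additive (SUnit K S)) :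
    letI := unitAction S hS
    (deltaModPEquiv S hS p hcl hp0).symm (Submodule.Quotient.mk u) = toDeltaAdd S p u :=
  rfl

theorem deltaModPEquiv_toDeltaAdd (hcl : IsClassGenerating S) (hp0 : p ≠ 0)
    (u : Additive (SUnit K S)) :
    letI := unitAction S hS
    deltaModPEquiv S hS p hcl hp0 (toDeltaAdd S p u) = Submodule.Quotient.mk u := by
  letI := unitAction S hS
  rw [← deltaModPEquiv_symm_mk S hS p hcl hp0 u, AddEquiv.apply_symm_apply]

/-- The class of an `S`-unit `u` in `Δ_S(K, p)` goes to the class of `u` in `O_{K,S}ˣ / p`. -/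
theorem deltaModPEquiv_toDelta (hcl : IsClassGenerating S) (hp0 : p ≠ 0) (u : SUnit K S) :
    letI := unitAction S hS
    deltaModPEquiv S hS p hcl hp0 (Additive.ofMul (toDelta S p u)) =
      Submodule.Quotient.mk (Additive.ofMul u) :=
  deltaModPEquiv_toDeltaAdd S hS p hcl hp0 (Additive.ofMul u)

/-- (2) Equivariance of `deltaModPEquiv`. -/
theorem deltaModPEquiv_smul (hcl : IsClassGenerating S) (hp0 : p ≠ 0) (g : G)
    (d : Additive (Delta S p)) :
    letI := unitAction S hS
    letI := deltaAction S hS p
    deltaModPEquiv S hS p hcl hp0 (g • d) =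
      (single g (1 : ℤ) : MonoidAlgebra ℤ G) • deltaModPEquiv S hS p hcl hp0 d := by
  letI := unitAction S hS
  letI := deltaAction S hS p
  obtain ⟨u, rfl⟩ := toDeltaAdd_surjective S p hcl d
  rw [← toDeltaAdd_smul S hS p g u, deltaModPEquiv_toDeltaAdd, deltaModPEquiv_toDeltaAdd,
    ← Submodule.Quotient.mk_smul, single_one_smul]

/-! ### Counting equivariant maps -/

/-- Post-composition with an additive equivalence. -/
def postEquiv {N X Y : Type*} [AddZeroClass N] [AddZeroClass X] [AddZeroClass Y] (e : X ≃+ Y) :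
    (N →+ X) ≃ (N →+ Y) where
  toFun φ := e.toAddMonoidHom.comp φ
  invFun ψ := e.symm.toAddMonoidHom.comp ψ
  left_inv φ := by ext n; simp
  right_inv ψ := by ext n; simp

@[simp] theorem postEquiv_apply {N X Y : Type*} [AddZeroClass N] [AddZeroClass X] [AddZeroClass Y]
    (e : X ≃+ Y) (φ : N →+ X) (n : N) : postEquiv e φ n = e (φ n) := rfl

/-- (3) **Counting.**  For a plain `G`-module `N`, the `G`-equivariant additive maps
`N → Δ_S(K, p)` are as many as the `ℤ[G]`-linear maps `N → O_{K,S}ˣ / p`. -/
theorem card_equivariant_delta (hcl : IsClassGenerating S) (hp0 : p ≠ 0)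
    (N : Type w) [AddCommGroup N] [DistribMulAction G N] :
    letI := unitAction S hS
    letI := deltaAction S hS p
    Nat.card {φ : N →+ Additive (Delta S p) // ∀ (g : G) (n : N), φ (g • n) = g • φ n} =
      Nat.card (N →ₗ[MonoidAlgebra ℤ G] ModP (MonoidAlgebra ℤ G) p (Additive (SUnit K S))) := by
  letI := unitAction S hS
  letI := deltaAction S hS p
  refine Nat.card_congr ?_
  refine (Equiv.subtypeEquiv (postEquiv (deltaModPEquiv S hS p hcl hp0)) (fun φ => ?_)).trans
    (linEquivSubtype (G := G) (A := N)
      (ModP (MonoidAlgebra ℤ G) p (Additive (SUnit K S)))).symm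
  refine forall_congr' fun g => forall_congr' fun n => ?_
  rw [postEquiv_apply, postEquiv_apply, ← deltaModPEquiv_smul S hS p hcl hp0 g (φ n)]
  exact ⟨fun h => congrArg _ h, fun h => (deltaModPEquiv S hS p hcl hp0).injective h⟩

/-- (3'), representation form: `N` the space of a representation `ρ` of `G`, made a `G`-module
(hence a `ℤ[G]`-module) through `RepAction.repAction ρ`. -/
theorem card_rep_equivariant_delta (hcl : IsClassGenerating S) (hp0 : p ≠ 0)
    {k : Type*} [CommSemiring k] {N : Type w} [AddCommGroup N] [Module k N]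
    (ρ : Representation k G N) :
    letI := unitAction S hS
    letI := deltaAction S hS p
    letI := repAction ρ
    Nat.card {φ : N →+ Additive (Delta S p) // ∀ (g : G) (n : N), φ (ρ g n) = g • φ n} =
      Nat.card (N →ₗ[MonoidAlgebra ℤ G] ModP (MonoidAlgebra ℤ G) p (Additive (SUnit K S))) := by
  letI := repAction ρ
  exact card_equivariant_delta S hS p hcl hp0 N

end Fermat.Agent.S56x.Euler.DeltaBridge
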