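/-
P-S56, block (B), (EC) line: group actions on `Δ_S(K, n)` (complement to `DeltaS.lean`).

For a group `G` acting on the number field `K` (`MulSemiringAction G K`) and a finite set `S` of
primes stable under `G` (`SUnits.IsStableUnder G S`):
* `DeltaMap_refl`, `DeltaMap_trans` : functoriality of `DeltaMap`;
* `deltaMulDistribMulAction S hS n : MulDistribMulAction G (Delta S n)` (a definition, not an
  instance, like `SUnits.sUnitMulDistribMulAction`);
* `toDelta_smul` : `O_{K,S}ˣ → Δ_S(K, n)` is `G`-equivariant;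
* `sUnitModMulDistribMulAction`, `deltaEquiv_smul` : the induced action on `O_{K,S}ˣ / n` and the
  equivariance of `deltaEquiv`.
-/
import Fermat.Agent.S56x.Euler.DeltaS

set_option autoImplicit false

namespace Fermat.Agent.S56x.Euler.DeltaS

open NumberField IsDedekindDomain Fermat.Agent.Lib.CFT.Global.SUnits

variable {K : Type*} [Field K] [NumberField K]

theorem DeltaMap_apply_mk (σ : K ≃+* K) (S : Finset (HeightOneSpectrum (𝓞 K)))
    (hS : IsStable σ S) (n : ℕ) (x : Kˣ) (hx : x ∈ deltaPre S n) :
    DeltaMap σ S hS n (QuotientGroup.mk ⟨x, hx⟩) =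
      QuotientGroup.mk ⟨unitsMap σ x, (unitsMap_mem_deltaPre_iff hS n x).mpr hx⟩ := rfl

theorem DeltaMap_refl (S : Finset (HeightOneSpectrum (𝓞 K)))
    (hS : IsStable (RingEquiv.refl K) S) (n : ℕ) (y : Delta S n) :
    DeltaMap (RingEquiv.refl K) S hS n y = y := by
  obtain ⟨⟨x, hx⟩, rfl⟩ := QuotientGroup.mk_surjective y
  rw [DeltaMap_apply_mk]
  congr 1

theorem DeltaMap_trans (σ τ : K ≃+* K) (S : Finset (HeightOneSpectrum (𝓞 K)))
    (hσ : IsStable σ S) (hτ : IsStable τ S) (hστ : IsStable (σ.trans τ) S) (n : ℕ)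
    (y : Delta S n) :
    DeltaMap (σ.trans τ) S hστ n y = DeltaMap τ S hτ n (DeltaMap σ S hσ n y) := by
  obtain ⟨⟨x, hx⟩, rfl⟩ := QuotientGroup.mk_surjective y
  rw [DeltaMap_apply_mk, DeltaMap_apply_mk, DeltaMap_apply_mk]
  congr 1

section GroupAction

variable {G : Type*} [Group G] [MulSemiringAction G K]
variable (S : Finset (HeightOneSpectrum (𝓞 K))) (hS : IsStableUnder G S) (n : ℕ)

/-- The action of `G` on `Δ_S(K, n)`. (A definition, not an instance.) -/
@[reducible] noncomputable def deltaMulDistribMulAction : MulDistribMulAction G (Delta S n) where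
  smul g y := DeltaMap (MulSemiringAction.toRingEquiv G K g) S (hS g) n y
  one_smul y := by
    show DeltaMap (MulSemiringAction.toRingEquiv G K 1) S (hS 1) n y = y
    obtain ⟨⟨x, hx⟩, rfl⟩ := QuotientGroup.mk_surjective y
    rw [DeltaMap_apply_mk]
    congr 1
    apply Subtype.ext
    ext
    simp
  mul_smul g h y := by
    show DeltaMap (MulSemiringAction.toRingEquiv G K (g * h)) S (hS (g * h)) n y =
      DeltaMap (MulSemiringAction.toRingEquiv G K g) S (hS g) n
        (DeltaMap (MulSemiringAction.toRingEquiv G K h) S (hS h) n y)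
    obtain ⟨⟨x, hx⟩, rfl⟩ := QuotientGroup.mk_surjective y
    rw [DeltaMap_apply_mk, DeltaMap_apply_mk, DeltaMap_apply_mk]
    congr 1
    apply Subtype.ext
    ext
    simp
  smul_mul g y y' := map_mul (DeltaMap (MulSemiringAction.toRingEquiv G K g) S (hS g) n) y y'
  smul_one g := map_one (DeltaMap (MulSemiringAction.toRingEquiv G K g) S (hS g) n)

theorem smul_delta_def (g : G) (y : Delta S n) :
    letI := deltaMulDistribMulAction S hS n
    g • y = DeltaMap (MulSemiringAction.toRingEquiv G K g) S (hS g) n y := rfl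

/-- `O_{K,S}ˣ → Δ_S(K, n)` is `G`-equivariant. -/
theorem toDelta_smul (g : G) (u : SUnit K S) :
    letI := sUnitMulDistribMulAction S hS
    letI := deltaMulDistribMulAction S hS n
    toDelta S n (g • u) = g • toDelta S n u := rfl

/-- The subgroup of `n`-th powers of `S`-units is `G`-stable. -/
theorem smul_mem_range_pow (g : G) (u : SUnit K S)
    (hu : u ∈ (powMonoidHom n : SUnit K S →* SUnit K S).range) :
    letI := sUnitMulDistribMulAction S hS
    g • u ∈ (powMonoidHom n : SUnit K S →* SUnit K S).range := by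
  let _ := sUnitMulDistribMulAction S hS
  obtain ⟨w, rfl⟩ := hu
  exact ⟨g • w, by simp only [powMonoidHom_apply, smul_pow']⟩

/-- The action of `G` on `O_{K,S}ˣ / n`. (A definition, not an instance.) -/
@[reducible] noncomputable def sUnitModMulDistribMulAction :
    MulDistribMulAction G (SUnit K S ⧸ (powMonoidHom n : SUnit K S →* SUnit K S).range) :=
  letI := sUnitMulDistribMulAction S hS
  { smul := fun g => QuotientGroup.map (powMonoidHom n : SUnit K S →* SUnit K S).range
      (powMonoidHom n : SUnit K S →* SUnit K S).range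
      (MulDistribMulAction.toMonoidHom (SUnit K S) g)
      (fun u hu => Subgroup.mem_comap.mpr (smul_mem_range_pow S hS n g u hu))
    one_smul := fun y => by
      obtain ⟨u, rfl⟩ := QuotientGroup.mk_surjective y
      show QuotientGroup.map _ _ _ _ (QuotientGroup.mk u) = _
      rw [QuotientGroup.map_mk]
      simp
    mul_smul := fun g h y => by
      obtain ⟨u, rfl⟩ := QuotientGroup.mk_surjective y
      show QuotientGroup.map _ _ _ _ (QuotientGroup.mk u) =
        QuotientGroup.map _ _ _ _ (QuotientGroup.map _ _ _ _ (QuotientGroup.mk u))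
      rw [QuotientGroup.map_mk, QuotientGroup.map_mk, QuotientGroup.map_mk]
      simp [mul_smul]
    smul_mul := fun g y y' => map_mul _ y y'
    smul_one := fun g => map_one _ }

theorem smul_sUnitMod_mk (g : G) (u : SUnit K S) :
    letI := sUnitMulDistribMulAction S hS
    letI := sUnitModMulDistribMulAction S hS n
    g • (QuotientGroup.mk u : SUnit K S ⧸ (powMonoidHom n : SUnit K S →* SUnit K S).range) =
      QuotientGroup.mk (g • u) := rfl

/-- `deltaEquiv : O_{K,S}ˣ / n ≃* Δ_S(K, n)` is `G`-equivariant. -/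
theorem deltaEquiv_smul (hcl : IsClassGenerating S) (hn : n ≠ 0) (g : G)
    (y : SUnit K S ⧸ (powMonoidHom n : SUnit K S →* SUnit K S).range) :
    letI := sUnitModMulDistribMulAction S hS n
    letI := deltaMulDistribMulAction S hS n
    deltaEquiv hcl hn (g • y) = g • deltaEquiv hcl hn y := by
  let _ := sUnitMulDistribMulAction S hS
  let _ := sUnitModMulDistribMulAction S hS n
  let _ := deltaMulDistribMulAction S hS n
  obtain ⟨u, rfl⟩ := QuotientGroup.mk_surjective y
  rw [smul_sUnitMod_mk, deltaEquiv_mk, deltaEquiv_mk]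
  exact toDelta_smul S hS n g u

end GroupAction

end Fermat.Agent.S56x.Euler.DeltaS
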