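import Fermat.Agent.Lib.CFT.Profinite.LevelLowDegree

/-!
# P-S56 block (B), (E6): descent of `H¹` along a normal subgroup of invertible index

`G` a group, `V` a normal subgroup of finite index invertible in `k`, `M` a `k`-linear
representation of `G` on which `V` acts trivially.  Then restriction of `1`-cocycles to `V` induces
an isomorphism from `H¹(G, M)` onto the `G`-equivariant homomorphisms `V → M`
(`χ (g v g⁻¹) = g • χ v`).  The inverse is the explicit transfer cocycle
`g ↦ (1/n) Σ_{t ∈ G/V} χ (g · r(t) · r(g t)⁻¹)`.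

With a level family `𝒰` on `G` for which `V` is open and `M` discrete, the level cohomology
`H¹_𝒰(G, M)` corresponds to the equivariant homomorphisms vanishing on a level
(`descentEquiv`).
-/

set_option autoImplicit false
set_option linter.unusedSectionVars false
set_option linter.style.haveILetI false

universe u

open CategoryTheory groupCohomology

namespace Fermat.Agent.S56x.Euler.DescentH1

open Fermat.Agent.Lib.CFT.Profinite

variable {k G : Type u} [CommRing k] [Group G] (M : Rep.{u} k G) (V : Subgroup G)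
  [hVn : V.Normal]

/-- Conjugation of an element of the normal subgroup `V` by `g : G`. -/
def conjV (g : G) (v : V) : V := ⟨g * v * g⁻¹, hVn.conj_mem v v.2 g⟩

@[simp]
theorem coe_conjV (g : G) (v : V) : ((conjV V g v : V) : G) = g * v * g⁻¹ := rfl

/-- The `G`-equivariant homomorphisms `V → M`. -/
def equivHoms : Submodule k (V → M) where
  carrier := {χ | (∀ v w : V, χ (v * w) = χ v + χ w) ∧
    ∀ (g : G) (v : V), χ (conjV V g v) = M.ρ g (χ v)}
  zero_mem' := ⟨fun _ _ => by simp, fun _ _ => by simp⟩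
  add_mem' := by
    rintro χ ψ ⟨h1, h2⟩ ⟨h1', h2'⟩
    refine ⟨fun v w => ?_, fun g v => ?_⟩
    · simp only [Pi.add_apply, h1, h1']; abel
    · simp only [Pi.add_apply, h2, h2', map_add]
  smul_mem' := by
    rintro a χ ⟨h1, h2⟩
    refine ⟨fun v w => ?_, fun g v => ?_⟩
    · simp only [Pi.smul_apply, h1, smul_add]
    · simp only [Pi.smul_apply, h2, map_smul]

theorem mem_equivHoms_iff (χ : V → M) : χ ∈ equivHoms M V ↔
    (∀ v w : V, χ (v * w) = χ v + χ w) ∧ ∀ (g : G) (v : V), χ (conjV V g v) = M.ρ g (χ v) :=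
  Iff.rfl

/-- Restriction of `1`-cocycles to `V`. -/
def resV : cocycles₁ M →ₗ[k] (V → M) where
  toFun c v := c (v : G)
  map_add' _ _ := rfl
  map_smul' _ _ := rfl

@[simp]
theorem resV_apply (c : cocycles₁ M) (v : V) : resV M V c v = c (v : G) := rfl

variable {M V}

theorem cocycle_mul (c : cocycles₁ M) (g h : G) : c (g * h) = M.ρ g (c h) + c g :=
  (mem_cocycles₁_iff c).1 c.2 g h

theorem resV_mem (htriv : ∀ v : V, M.ρ (v : G) = 1) (c : cocycles₁ M) :
    resV M V c ∈ equivHoms M V := by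
  refine ⟨fun v w => ?_, fun g v => ?_⟩
  · simp only [resV_apply, Subgroup.coe_mul, cocycle_mul, htriv v, Module.End.one_apply]
    abel
  · simp only [resV_apply, coe_conjV]
    rw [cocycle_mul, cocycle_mul, map_mul, Module.End.mul_apply, htriv v, Module.End.one_apply,
      cocycles₁_map_inv]
    abel

theorem resV_coboundary (htriv : ∀ v : V, M.ρ (v : G) = 1) {c : cocycles₁ M}
    (hc : (c : G → M) ∈ coboundaries₁ M) : resV M V c = 0 := by
  obtain ⟨a, ha⟩ := hc
  funext v
  have h1 : c (v : G) = M.ρ (v : G) a - a := by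
    have := congrFun ha (v : G)
    rw [← this]
    rfl
  rw [resV_apply, h1, htriv v]
  simp

section Finite

variable [V.FiniteIndex]

/-- right multiplication by `V` does not change the value of a cocycle vanishing on `V` -/
theorem cocycle_mul_of_resV_eq_zero {c : cocycles₁ M} (hc : resV M V c = 0) (g : G) (v : V) :
    c (g * v) = c g := by
  rw [cocycle_mul]
  have : c (v : G) = 0 := congrFun hc v
  rw [this, map_zero, zero_add]

theorem cocycle_out_smul {c : cocycles₁ M} (hc : resV M V c = 0) (g : G) (t : G ⧸ V) :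
    c (g * t.out) = c ((g • t).out) := by
  have h1 : ((g • t).out : G ⧸ V) = ((g * t.out : G) : G ⧸ V) := by
    rw [QuotientGroup.out_eq']
    conv_lhs => rw [← QuotientGroup.out_eq' t]
    rfl
  have h2 : ((g • t).out)⁻¹ * (g * t.out) ∈ V := QuotientGroup.eq.1 h1
  have h3 : g * t.out = (g • t).out * (⟨_, h2⟩ : V) := by
    show g * t.out = (g • t).out * (((g • t).out)⁻¹ * (g * t.out))
    group
  rw [h3, cocycle_mul_of_resV_eq_zero hc]

theorem mem_coboundaries_of_resV_eq_zero (hn : IsUnit ((V.index : ℕ) : k)) {c : cocycles₁ M}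
    (hc : resV M V c = 0) : (c : G → M) ∈ coboundaries₁ M := by
  classical
  haveI : Finite (G ⧸ V) := Subgroup.finite_quotient_of_finiteIndex
  haveI : Fintype (G ⧸ V) := Fintype.ofFinite _
  obtain ⟨u, hu⟩ := hn.exists_left_inv
  set m : M := ∑ t : G ⧸ V, c (t.out) with hm
  have hcard : (Fintype.card (G ⧸ V) : k) = ((V.index : ℕ) : k) := by
    rw [Subgroup.index, Nat.card_eq_fintype_card]
  have key : ∀ g : G, (V.index : k) • c g = m - M.ρ g m := by
    intro g
    have h1 : ∑ t : G ⧸ V, c (g * t.out) = M.ρ g m + (V.index : k) • c g := by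
      simp only [cocycle_mul, Finset.sum_add_distrib, Finset.sum_const, Finset.card_univ, hm,
        map_sum]
      rw [← hcard, Nat.cast_smul_eq_nsmul]
    have h2 : ∑ t : G ⧸ V, c (g * t.out) = m := by
      simp only [cocycle_out_smul hc]
      exact Fintype.sum_equiv (MulAction.toPerm g) _ _ (fun t => rfl)
    rw [h2] at h1
    exact eq_sub_of_add_eq' h1.symm
  refine ⟨-(u • m), ?_⟩
  funext g
  show M.ρ g (-(u • m)) - -(u • m) = c g
  have h3 : c g = u • ((V.index : k) • c g) := by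
    rw [smul_smul, hu, one_smul]
  rw [h3, key g, map_neg, map_smul, smul_sub]
  abel

/-! ### The transfer cocycle -/

/-- `g · r(t) · r(g t)⁻¹ ∈ V` -/
noncomputable def kap (g : G) (t : G ⧸ V) : V :=
  ⟨g * t.out * ((g • t).out)⁻¹, by
    have h1 : ((g • t).out : G ⧸ V) = ((g * t.out : G) : G ⧸ V) := by
      rw [QuotientGroup.out_eq']
      conv_lhs => rw [← QuotientGroup.out_eq' t]
      rfl
    have h2 : ((g • t).out)⁻¹ * (g * t.out) ∈ V := QuotientGroup.eq.1 h1
    have h3 := hVn.conj_mem _ h2 ((g • t).out)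
    have h4 : (g • t).out * (((g • t).out)⁻¹ * (g * t.out)) * ((g • t).out)⁻¹ =
        g * t.out * ((g • t).out)⁻¹ := by group
    rwa [h4] at h3⟩

theorem coe_kap (g : G) (t : G ⧸ V) :
    ((kap g t : V) : G) = g * t.out * ((g • t).out)⁻¹ := rfl

theorem kap_mul (g h : G) (t : G ⧸ V) :
    kap (g * h) t = conjV V g (kap h t) * kap g (h • t) := by
  apply Subtype.ext
  rw [Subgroup.coe_mul, coe_conjV, coe_kap, coe_kap, coe_kap, mul_smul]
  group

theorem smul_eq_of_mem (v : V) (t : G ⧸ V) : (v : G) • t = t := by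
  induction t using QuotientGroup.induction_on with
  | H x =>
    show ((((v : G) * x : G)) : G ⧸ V) = (x : G ⧸ V)
    rw [QuotientGroup.eq]
    have := hVn.conj_mem' _ (V.inv_mem v.2) x
    have h : ((v : G) * x)⁻¹ * x = x⁻¹ * (v : G)⁻¹ * x := by group
    rw [h]
    exact this

theorem kap_of_mem (v : V) (t : G ⧸ V) : kap (v : G) t = v := by
  apply Subtype.ext
  rw [coe_kap, smul_eq_of_mem]
  group

/-- the transfer of an equivariant homomorphism -/
noncomputable def transfer [Fintype (G ⧸ V)] (χ : V → M) (g : G) : M :=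
  ∑ t : G ⧸ V, χ (kap g t)

theorem transfer_mem_cocycles [Fintype (G ⧸ V)] {χ : V → M} (hχ : χ ∈ equivHoms M V) :
    transfer χ ∈ cocycles₁ M := by
  rw [mem_cocycles₁_iff]
  intro g h
  unfold transfer
  simp only [kap_mul, hχ.1, hχ.2, Finset.sum_add_distrib, map_sum]
  congr 1
  exact Fintype.sum_equiv (MulAction.toPerm h) _ _ (fun t => rfl)

theorem transfer_of_mem [Fintype (G ⧸ V)] (χ : V → M) (v : V) :
    transfer χ (v : G) = (V.index : k) • χ v := by
  unfold transfer
  simp only [kap_of_mem, Finset.sum_const, Finset.card_univ]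
  rw [Subgroup.index, Nat.card_eq_fintype_card, Nat.cast_smul_eq_nsmul]

theorem exists_cocycle_resV_eq (hn : IsUnit ((V.index : ℕ) : k)) {χ : V → M}
    (hχ : χ ∈ equivHoms M V) : ∃ c : cocycles₁ M, resV M V c = χ := by
  classical
  haveI : Finite (G ⧸ V) := Subgroup.finite_quotient_of_finiteIndex
  haveI : Fintype (G ⧸ V) := Fintype.ofFinite _
  obtain ⟨u, hu⟩ := hn.exists_left_inv
  refine ⟨u • ⟨transfer χ, transfer_mem_cocycles hχ⟩, ?_⟩
  funext v
  show u • transfer χ (v : G) = χ v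
  rw [transfer_of_mem, smul_smul, hu, one_smul]

end Finite

/-! ### Level cohomology -/

section Level

variable (𝒰 : LevelFamily G)

/-- a cocycle is level constant iff it vanishes on a level -/
theorem isConst₁_iff_vanish (c : cocycles₁ M) :
    𝒰.IsConst₁ (c : G → M) ↔ ∃ U ∈ 𝒰.levels, ∀ s ∈ U, c s = 0 := by
  constructor
  · rintro ⟨U, hU, h⟩
    refine ⟨U, hU, fun s hs => ?_⟩
    have := h 1 s hs
    rwa [one_mul, cocycles₁_map_one] at this
  · rintro ⟨U, hU, h⟩
    refine ⟨U, hU, fun g s hs => ?_⟩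
    rw [cocycle_mul, h s hs, map_zero, zero_add]

variable (M V) in
/-- functions `V → M` vanishing on a level -/
def levelFuns : Submodule k (V → M) where
  carrier := {χ | ∃ U ∈ 𝒰.levels, ∀ v : V, (v : G) ∈ U → χ v = 0}
  zero_mem' := by
    obtain ⟨U, hU⟩ := 𝒰.nonempty
    exact ⟨U, hU, fun _ _ => rfl⟩
  add_mem' := by
    rintro c c' ⟨U, hU, h⟩ ⟨U', hU', h'⟩
    obtain ⟨W, hW, hle⟩ := 𝒰.directed U hU U' hU'
    refine ⟨W, hW, fun s hs => ?_⟩
    show c s + c' s = 0
    rw [h s (hle hs).1, h' s (hle hs).2, add_zero]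
  smul_mem' := by
    rintro a c ⟨U, hU, h⟩
    refine ⟨U, hU, fun s hs => ?_⟩
    show a • c s = 0
    rw [h s hs, smul_zero]

variable (M V) in
/-- the `G`-equivariant homomorphisms `V → M` vanishing on a level -/
def levelEquivHoms : Submodule k (V → M) := equivHoms M V ⊓ levelFuns M V 𝒰

theorem mem_levelEquivHoms_iff (χ : V → M) : χ ∈ levelEquivHoms M V 𝒰 ↔
    χ ∈ equivHoms M V ∧ ∃ U ∈ 𝒰.levels, ∀ v : V, (v : G) ∈ U → χ v = 0 := Iff.rfl

variable [V.FiniteIndex]

/-- the transfer cocycle divided by the index, as a linear map -/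
noncomputable def transferL (hn : IsUnit ((V.index : ℕ) : k)) :
    equivHoms M V →ₗ[k] cocycles₁ M :=
  haveI : Finite (G ⧸ V) := Subgroup.finite_quotient_of_finiteIndex
  letI : Fintype (G ⧸ V) := Fintype.ofFinite _
  { toFun := fun χ => ((hn.unit⁻¹ : kˣ) : k) • ⟨transfer χ.1, transfer_mem_cocycles χ.2⟩
    map_add' := fun χ ψ => by
      rw [← smul_add]
      congr 1
      apply Subtype.ext
      funext g
      show transfer (χ.1 + ψ.1) g = transfer χ.1 g + transfer ψ.1 g
      simp only [transfer, Pi.add_apply, Finset.sum_add_distrib]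
    map_smul' := fun a χ => by
      rw [RingHom.id_apply, smul_comm]
      congr 1
      apply Subtype.ext
      funext g
      show transfer (a • χ.1) g = a • transfer χ.1 g
      simp only [transfer, Pi.smul_apply, Finset.smul_sum] }

theorem resV_transferL (hn : IsUnit ((V.index : ℕ) : k)) (χ : equivHoms M V) :
    resV M V (transferL hn χ) = χ.1 := by
  haveI : Finite (G ⧸ V) := Subgroup.finite_quotient_of_finiteIndex
  letI : Fintype (G ⧸ V) := Fintype.ofFinite _
  funext v
  show ((hn.unit⁻¹ : kˣ) : k) • transfer χ.1 (v : G) = χ.1 v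
  rw [transfer_of_mem, smul_smul]
  have : ((hn.unit⁻¹ : kˣ) : k) * ((V.index : ℕ) : k) = 1 := by
    have h := hn.unit.inv_mul
    rwa [IsUnit.unit_spec] at h
  rw [this, one_smul]

/-- the class of the transfer cocycle of a level equivariant homomorphism -/
noncomputable def transferH1 (hn : IsUnit ((V.index : ℕ) : k)) :
    levelEquivHoms M V 𝒰 →ₗ[k] H1 M :=
  (H1π M).hom ∘ₗ transferL hn ∘ₗ Submodule.inclusion (inf_le_left : levelEquivHoms M V 𝒰 ≤ _)

theorem transferH1_apply (hn : IsUnit ((V.index : ℕ) : k)) (χ : levelEquivHoms M V 𝒰) :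
    transferH1 𝒰 hn χ = (H1π M).hom (transferL hn ⟨χ.1, χ.2.1⟩) := rfl

theorem transferH1_injective (hn : IsUnit ((V.index : ℕ) : k))
    (htriv : ∀ v : V, M.ρ (v : G) = 1) : Function.Injective (transferH1 (M := M) (V := V) 𝒰 hn) := by
  rw [injective_iff_map_eq_zero]
  intro χ h
  rw [transferH1_apply, H1π_eq_zero_iff] at h
  have h1 := resV_coboundary htriv h
  rw [resV_transferL] at h1
  exact Subtype.ext h1

theorem transferL_level (hopen : ∃ U ∈ 𝒰.levels, U ≤ V) (hn : IsUnit ((V.index : ℕ) : k))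
    (χ : levelEquivHoms M V 𝒰) :
    ∃ U ∈ 𝒰.levels, ∀ s ∈ U, transferL hn ⟨χ.1, χ.2.1⟩ s = 0 := by
  obtain ⟨U, hU, hχU⟩ := χ.2.2
  obtain ⟨U₀, hU₀, hle₀⟩ := hopen
  obtain ⟨W, hW, hle⟩ := 𝒰.directed U hU U₀ hU₀
  refine ⟨W, hW, fun s hs => ?_⟩
  have hsV : s ∈ V := hle₀ (hle hs).2
  have h1 : transferL hn ⟨χ.1, χ.2.1⟩ s = χ.1 ⟨s, hsV⟩ :=
    congrFun (resV_transferL hn ⟨χ.1, χ.2.1⟩) ⟨s, hsV⟩
  rw [h1]
  exact hχU ⟨s, hsV⟩ (hle hs).1

theorem range_transferH1 (hopen : ∃ U ∈ 𝒰.levels, U ≤ V) (hn : IsUnit ((V.index : ℕ) : k))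
    (htriv : ∀ v : V, M.ρ (v : G) = 1) (hM : 𝒰.IsDiscrete M) :
    LinearMap.range (transferH1 (M := M) (V := V) 𝒰 hn) =
      LinearMap.range (𝒰.toGroupCohomology M 1).hom := by
  ext x
  rw [𝒰.mem_range_toGroupCohomology_one_iff_of_isDiscrete M hM]
  constructor
  · rintro ⟨χ, rfl⟩
    exact ⟨transferL hn ⟨χ.1, χ.2.1⟩, (isConst₁_iff_vanish 𝒰 _).2 (transferL_level 𝒰 hopen hn χ),
      rfl⟩
  · rintro ⟨c, hc, rfl⟩
    obtain ⟨U, hU, hcU⟩ := (isConst₁_iff_vanish 𝒰 c).1 hc
    have hχ : resV M V c ∈ levelEquivHoms M V 𝒰 :=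
      ⟨resV_mem htriv c, U, hU, fun v hv => hcU _ hv⟩
    refine ⟨⟨resV M V c, hχ⟩, ?_⟩
    rw [transferH1_apply, H1π_eq_iff]
    have h0 : resV M V (transferL hn ⟨resV M V c, hχ.1⟩ - c) = 0 := by
      rw [map_sub, resV_transferL, sub_self]
    exact mem_coboundaries_of_resV_eq_zero hn h0

/-- **Descent of `H¹`**: for `V` normal, open, of index invertible in `k`, acting trivially on the
discrete module `M`, the level cohomology `H¹_𝒰(G, M)` is the module of `G`-equivariant
homomorphisms `V → M` vanishing on a level. -/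
noncomputable def descentEquiv (hopen : ∃ U ∈ 𝒰.levels, U ≤ V)
    (hn : IsUnit ((V.index : ℕ) : k)) (htriv : ∀ v : V, M.ρ (v : G) = 1)
    (hM : 𝒰.IsDiscrete M) : 𝒰.levelCohomology M 1 ≃ₗ[k] levelEquivHoms M V 𝒰 :=
  ((LinearEquiv.ofInjective (𝒰.toGroupCohomology M 1).hom
      (𝒰.toGroupCohomology_one_injective M)).trans
    (LinearEquiv.ofEq _ _ (range_transferH1 𝒰 hopen hn htriv hM).symm)).trans
    (LinearEquiv.ofInjective (transferH1 𝒰 hn) (transferH1_injective 𝒰 hn htriv)).symm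

/-- the class attached to `χ` by `descentEquiv` is the class of the transfer cocycle -/
theorem toGroupCohomology_descentEquiv_symm (hopen : ∃ U ∈ 𝒰.levels, U ≤ V)
    (hn : IsUnit ((V.index : ℕ) : k)) (htriv : ∀ v : V, M.ρ (v : G) = 1)
    (hM : 𝒰.IsDiscrete M) (χ : levelEquivHoms M V 𝒰) :
    (𝒰.toGroupCohomology M 1).hom ((descentEquiv 𝒰 hopen hn htriv hM).symm χ) =
      transferH1 𝒰 hn χ := by
  set x := (descentEquiv 𝒰 hopen hn htriv hM).symm χ with hx
  have h1 : descentEquiv 𝒰 hopen hn htriv hM x = χ := by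
    rw [hx, LinearEquiv.apply_symm_apply]
  unfold descentEquiv at h1
  rw [LinearEquiv.trans_apply, LinearEquiv.symm_apply_eq] at h1
  have h2 := congrArg Subtype.val h1
  exact h2

/-- `descentEquiv` is restriction of cocycles. -/
theorem descentEquiv_apply (hopen : ∃ U ∈ 𝒰.levels, U ≤ V)
    (hn : IsUnit ((V.index : ℕ) : k)) (htriv : ∀ v : V, M.ρ (v : G) = 1)
    (hM : 𝒰.IsDiscrete M) (x : 𝒰.levelCohomology M 1) (c : cocycles₁ M)
    (hx : (𝒰.toGroupCohomology M 1).hom x = (H1π M).hom c) (v : V) :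
    (descentEquiv 𝒰 hopen hn htriv hM x : V → M) v = c (v : G) := by
  set χ := descentEquiv 𝒰 hopen hn htriv hM x with hχ
  have h1 : (descentEquiv 𝒰 hopen hn htriv hM).symm χ = x := by
    rw [hχ, LinearEquiv.symm_apply_apply]
  have h2 := toGroupCohomology_descentEquiv_symm 𝒰 hopen hn htriv hM χ
  rw [h1, hx, transferH1_apply, H1π_eq_iff] at h2
  have h3 := resV_coboundary (V := V) htriv (c := c - transferL hn ⟨χ.1, χ.2.1⟩) h2
  rw [map_sub, resV_transferL, sub_eq_zero] at h3
  exact (congrFun h3 v).symm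

theorem card_levelCohomology_one_eq (hopen : ∃ U ∈ 𝒰.levels, U ≤ V)
    (hn : IsUnit ((V.index : ℕ) : k)) (htriv : ∀ v : V, M.ρ (v : G) = 1)
    (hM : 𝒰.IsDiscrete M) :
    Nat.card (𝒰.levelCohomology M 1) = Nat.card (levelEquivHoms M V 𝒰) :=
  Nat.card_congr (descentEquiv 𝒰 hopen hn htriv hM).toEquiv

end Level

end Fermat.Agent.S56x.Euler.DescentH1
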