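/-
P-S56, block (B), (EC) line, leaf (A5e): for a finite group `H` whose order is invertible in the
field `k` and a finite-dimensional representation `N`, the invariants of the dual representation
have the same dimension as the invariants of `N` (Maschke / averaging).  Mathlib only.
-/
import Mathlib.RepresentationTheory.Invariants
import Mathlib.LinearAlgebra.Dual.Lemmas

set_option autoImplicit false

namespace Fermat.Agent.S56x.Euler.DualInvariants

open Module

variable {k H N : Type*} [Field k] [Group H] [AddCommGroup N] [Module k N]

/-- The (unnormalised) trace/norm operator `∑ h, ρ h`. -/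
noncomputable def sumOp [Fintype H] (ρ : Representation k H N) : N →ₗ[k] N := ∑ h : H, ρ h

theorem sumOp_apply [Fintype H] (ρ : Representation k H N) (v : N) :
    sumOp ρ v = ∑ h : H, ρ h v := by
  simp [sumOp, LinearMap.sum_apply]

theorem sumOp_mem_invariants [Fintype H] (ρ : Representation k H N) (v : N) :
    sumOp ρ v ∈ ρ.invariants := by
  intro g
  rw [sumOp_apply, map_sum]
  have : ∀ h : H, ρ g (ρ h v) = ρ (g * h) v := fun h => by rw [map_mul]; rfl
  simp only [this]
  exact Fintype.sum_bijective (fun h => g * h) (Group.mulLeft_bijective g) _ _ (fun _ => rfl)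

theorem sumOp_of_mem_invariants [Fintype H] (ρ : Representation k H N) {v : N}
    (hv : v ∈ ρ.invariants) : sumOp ρ v = (Fintype.card H : k) • v := by
  rw [sumOp_apply]
  have : ∀ h : H, ρ h v = v := hv
  simp only [this, Finset.sum_const, Finset.card_univ]
  rw [Nat.cast_smul_eq_nsmul]

/-- If `|H|` is invertible in `k`, the invariants are the range of `∑ h, ρ h`. -/
theorem invariants_eq_range_sumOp [Fintype H] (ρ : Representation k H N)
    (hcard : (Fintype.card H : k) ≠ 0) : ρ.invariants = LinearMap.range (sumOp ρ) := by
  apply le_antisymm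
  · intro v hv
    refine ⟨(Fintype.card H : k)⁻¹ • v, ?_⟩
    rw [map_smul, sumOp_of_mem_invariants ρ hv, smul_smul, inv_mul_cancel₀ hcard, one_smul]
  · rintro _ ⟨v, rfl⟩
    exact sumOp_mem_invariants ρ v

/-- The operator `∑ h, ρ.dual h` is the transpose of `∑ h, ρ h`. -/
theorem sumOp_dual [Fintype H] (ρ : Representation k H N) :
    sumOp ρ.dual = (sumOp ρ).dualMap := by
  ext φ v
  rw [sumOp_apply, LinearMap.dualMap_apply, sumOp_apply, LinearMap.sum_apply, map_sum]
  have : ∀ h : H, (ρ.dual h φ) v = φ (ρ h⁻¹ v) := fun h => by
    rw [Representation.dual_apply]; rfl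
  simp only [this]
  exact Fintype.sum_bijective (fun h : H => h⁻¹) (Equiv.inv H).bijective
    _ _ (fun _ => rfl)

/-- **(A5e)** `dim (N^∨)^H = dim N^H` when `|H|` is invertible in `k`. -/
theorem finrank_dual_invariants [Finite H] [FiniteDimensional k N] (ρ : Representation k H N)
    (hcard : (Nat.card H : k) ≠ 0) :
    finrank k ρ.dual.invariants = finrank k ρ.invariants := by
  classical
  have : Fintype H := Fintype.ofFinite H
  have hcard' : (Fintype.card H : k) ≠ 0 := by rwa [← Nat.card_eq_fintype_card]
  rw [invariants_eq_range_sumOp ρ hcard', invariants_eq_range_sumOp ρ.dual hcard', sumOp_dual]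
  exact LinearMap.finrank_range_dualMap_eq_finrank_range _

/-- The `H`-invariant linear functionals on `N` (trivial action on `k`): `Hom_H(N, k)`. -/
def invariantFunctionals (ρ : Representation k H N) : Submodule k (Dual k N) where
  carrier := {φ | ∀ h : H, φ ∘ₗ ρ h = φ}
  zero_mem' := fun h => by simp
  add_mem' := fun {a b} ha hb h => by rw [LinearMap.add_comp, ha h, hb h]
  smul_mem' := fun c a ha h => by rw [LinearMap.smul_comp, ha h]

theorem mem_invariantFunctionals (ρ : Representation k H N) (φ : Dual k N) :
    φ ∈ invariantFunctionals ρ ↔ ∀ (h : H) (v : N), φ (ρ h v) = φ v := by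
  constructor
  · intro hφ h v
    exact LinearMap.congr_fun (hφ h) v
  · intro hφ h
    ext v
    exact hφ h v

theorem invariantFunctionals_eq (ρ : Representation k H N) :
    invariantFunctionals ρ = ρ.dual.invariants := by
  ext φ
  rw [mem_invariantFunctionals, Representation.mem_invariants]
  constructor
  · intro hφ g
    ext v
    rw [Representation.dual_apply]
    exact hφ g⁻¹ v
  · intro hφ h v
    have := LinearMap.congr_fun (hφ h⁻¹) v
    rw [Representation.dual_apply, inv_inv] at this
    exact this

/-- `dim Hom_H(N, k) = dim N^H` when `|H|` is invertible in `k`. -/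
theorem finrank_invariantFunctionals [Finite H] [FiniteDimensional k N]
    (ρ : Representation k H N) (hcard : (Nat.card H : k) ≠ 0) :
    finrank k (invariantFunctionals ρ) = finrank k ρ.invariants := by
  rw [invariantFunctionals_eq]
  exact finrank_dual_invariants ρ hcard

end Fermat.Agent.S56x.Euler.DualInvariants
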