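import Fermat.Agent.Lib.CFT.Duality.ArithDiscrete
import Fermat.Agent.Lib.CFT.Profinite.LevelCochains

/-!
# P-S56, block (B), (EC) line, leaf (A0) part 2: finite discrete modules are inflations

A finite discrete `𝔽_p[Γℚ]`-module `X`, unramified outside `S ∋ p` (i.e. discrete for the level
family `levelsS S`), is trivial on a NORMAL level `V` of `levelsS S` which can be chosen inside
any given level `U₀` and inside the kernel of the mod `p` cyclotomic character.  Hence
`X = Rep.res (QuotientGroup.mk' V) M` for the representation `M := X.ofQuotient V` of the finite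
group `Γℚ ⧸ V` on the same carrier (Mathlib's `Rep.ofQuotient`; the isomorphism is the identity,
`Rep.resOfQuotientIso`).

* `LevelFamily`-generic: `exists_normal_level_le_of_finite`, `isTrivial_comp_subtype`.
* arithmetic: `exists_normal_level_trivial`, `exists_inflation`.
-/

set_option autoImplicit false

open CategoryTheory

namespace Fermat.Agent.S56x.Euler.InflationLevel

open Fermat.Agent.Lib.CFT.Profinite Fermat.Agent.Lib.CFT.Profinite.LevelFamily ExtCitation
open Fermat.Agent.Lib.CFT.Profinite.Bridge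

local notation "Γℚ" => (AlgebraicClosure ℚ ≃ₐ[ℚ] AlgebraicClosure ℚ)

section Generic

universe u

variable {k G : Type u} [CommRing k] [Group G] (𝒰 : LevelFamily G)

/-- A finite discrete module is fixed pointwise by a normal level, which can be chosen inside
finitely many given levels. -/
theorem exists_normal_level_le_of_finite (X : Rep.{u} k G) [Finite X] (hX : 𝒰.IsDiscrete X)
    {ι : Type*} [Finite ι] (U : ι → Subgroup G) (hU : ∀ i, U i ∈ 𝒰.levels) :
    ∃ V ∈ 𝒰.levels, V.Normal ∧ (∀ i, V ≤ U i) ∧ ∀ s ∈ V, ∀ m : X, X.ρ s m = m := by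
  choose W hW hWfix using hX
  obtain ⟨V, hV, hn, hle⟩ := 𝒰.exists_normal_le_of_finite
    (ι := X ⊕ ι) (fun j => Sum.elim W U j) (fun j => by
      cases j with
      | inl m => exact hW m
      | inr i => exact hU i)
  exact ⟨V, hV, hn, fun i => hle (Sum.inr i), fun s hs m => hWfix m s (hle (Sum.inl m) hs)⟩

/-- A module fixed pointwise by `V` restricts to a trivial representation of `V`. -/
theorem isTrivial_comp_subtype (X : Rep.{u} k G) (V : Subgroup G)
    (h : ∀ s ∈ V, ∀ m : X, X.ρ s m = m) : Representation.IsTrivial (X.ρ.comp V.subtype) :=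
  ⟨fun s => LinearMap.ext fun m => h s.1 s.2 m⟩

/-- The representation of `G ⧸ V` on the carrier of `X`, for a normal subgroup `V` fixing `X`
pointwise (Mathlib's `Rep.ofQuotient` with the triviality instance supplied). -/
noncomputable def quotRep (X : Rep.{u} k G) (V : Subgroup G) [V.Normal]
    (h : ∀ s ∈ V, ∀ m : X, X.ρ s m = m) : Rep.{u} k (G ⧸ V) :=
  haveI := isTrivial_comp_subtype X V h
  X.ofQuotient V

theorem quotRep_V (X : Rep.{u} k G) (V : Subgroup G) [V.Normal]
    (h : ∀ s ∈ V, ∀ m : X, X.ρ s m = m) : (quotRep X V h).V = X.V := rfl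

@[simp]
theorem quotRep_ρ_mk (X : Rep.{u} k G) (V : Subgroup G) [V.Normal]
    (h : ∀ s ∈ V, ∀ m : X, X.ρ s m = m) (g : G) (m : X) :
    (quotRep X V h).ρ (g : G ⧸ V) m = X.ρ g m := rfl

instance finite_quotRep (X : Rep.{u} k G) [Finite X] (V : Subgroup G) [V.Normal]
    (h : ∀ s ∈ V, ∀ m : X, X.ρ s m = m) : Finite (quotRep X V h) :=
  inferInstanceAs (Finite X)

/-- `X` is the inflation of `quotRep X V h`; the isomorphism is the identity on carriers. -/
noncomputable def resQuotRepIso (X : Rep.{u} k G) (V : Subgroup G) [V.Normal]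
    (h : ∀ s ∈ V, ∀ m : X, X.ρ s m = m) :
    Rep.res (QuotientGroup.mk' V) (quotRep X V h) ≅ X :=
  haveI := isTrivial_comp_subtype X V h
  Rep.resOfQuotientIso X V

/-- In fact the inflation of `quotRep X V h` IS `X`. -/
theorem res_quotRep (X : Rep.{u} k G) (V : Subgroup G) [V.Normal]
    (h : ∀ s ∈ V, ∀ m : X, X.ρ s m = m) :
    Rep.res (QuotientGroup.mk' V) (quotRep X V h) = X := rfl

/-- **Inflation, generic form.**  If the normal subgroup `V` fixes `X` pointwise then `X` is the
restriction along `G → G ⧸ V` of a representation of `G ⧸ V` on the same carrier. -/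
theorem exists_rep_quotient (X : Rep.{u} k G) [Finite X] (V : Subgroup G) [V.Normal]
    (h : ∀ s ∈ V, ∀ m : X, X.ρ s m = m) :
    ∃ M : Rep.{u} k (G ⧸ V), Finite M ∧ Nonempty (X ≅ Rep.res (QuotientGroup.mk' V) M) :=
  ⟨quotRep X V h, finite_quotRep X V h, ⟨(resQuotRepIso X V h).symm⟩⟩

end Generic

section Arith

variable {p : ℕ} [Fact p.Prime] {S : Finset Nat.Primes}

/-- **(A0) part 2, level form.**  A finite discrete module unramified outside `S ∋ p` is fixed
pointwise by a normal level `V ≤ U₀ ⊓ ker χ_p` of `levelsS S`. -/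
theorem exists_normal_level_trivial (hpS : pPrime p ∈ S) (X : Rep (ZMod p) Γℚ) [Finite X]
    (hX : (levelsS S).IsDiscrete X) (U₀ : Subgroup Γℚ) (hU₀ : U₀ ∈ (levelsS S).levels) :
    ∃ V ∈ (levelsS S).levels, V.Normal ∧ V ≤ U₀ ∧ V ≤ (cycloChar p).ker ∧
      ∀ s ∈ V, ∀ m : X, X.ρ s m = m := by
  obtain ⟨U₁, hU₁, hker⟩ := Fermat.Agent.Lib.CFT.Duality.exists_level_le_ker_cycloChar (p := p) S hpS
  obtain ⟨V, hV, hn, hle, hfix⟩ := exists_normal_level_le_of_finite (levelsS S) X hX
    (ι := Bool) (fun b => if b then U₀ else U₁) (fun b => by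
      cases b
      · exact hU₁
      · exact hU₀)
  exact ⟨V, hV, hn, hle true, (hle false).trans hker, hfix⟩

/-- The property "`X` is inflated from the finite quotient `Γℚ ⧸ V`" (`V` normal). -/
def IsInflationFrom (X : Rep (ZMod p) Γℚ) (V : Subgroup Γℚ) (hn : V.Normal) : Prop :=
  letI := hn
  ∃ M : Rep (ZMod p) (Γℚ ⧸ V), Finite M ∧ Nonempty (X ≅ Rep.res (QuotientGroup.mk' V) M)

/-- **(A0) part 2.**  Every finite discrete module unramified outside `S ∋ p` is the inflation
`Rep.res (QuotientGroup.mk' V) M` of a representation `M` (on the same carrier) of `Γℚ ⧸ V` for a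
normal level `V` of `levelsS S` contained in a given level `U₀` and in `ker χ_p`. -/
theorem exists_inflation (hpS : pPrime p ∈ S) (X : Rep (ZMod p) Γℚ) [Finite X]
    (hX : (levelsS S).IsDiscrete X) (U₀ : Subgroup Γℚ) (hU₀ : U₀ ∈ (levelsS S).levels) :
    ∃ V ∈ (levelsS S).levels, ∃ hn : V.Normal, V ≤ U₀ ∧ V ≤ (cycloChar p).ker ∧
      IsInflationFrom X V hn := by
  obtain ⟨V, hV, hn, h0, hχ, hfix⟩ := exists_normal_level_trivial hpS X hX U₀ hU₀
  refine ⟨V, hV, hn, h0, hχ, ?_⟩
  have := hn
  exact exists_rep_quotient X V hfix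

end Arith

end Fermat.Agent.S56x.Euler.InflationLevel
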