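import Fermat.Agent.Lib.ModRep.Main
import Fermat.Agent.Lib.CFT.Duality.CoindDual

/-!
# P-S56 block (B), leaf (A0) part 1: `Fun(G₀ ⧸ C, X)` inflated is the library's `Coind`

`π : Γ →* G₀` a surjective group homomorphism (think `Γ = Gal(Qbar/ℚ)`, `G₀ = Gal(K/ℚ)`,
`π = AlgEquiv.restrictNormalHom K`), `C ≤ G₀`, `W := C.comap π`, `X` a representation of `G₀`
(helper66's `FRep`).  The inflation to `Γ` of helper66's `funRep (G₀ ⧸ C) X`
(functions `G₀ ⧸ C → X`, `(g f)(a) = g f(g⁻¹ a)`, the object on which the induction theorem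
`Lib/ModRep/Main.additive_eq_zero_of_cyclic` evaluates additive invariants) is isomorphic in
`Rep k Γ` to the library's `DevissageRep.P W (infl X) = Rep.coind W.subtype (Rep.res W.subtype _)`.
-/

set_option autoImplicit false

open CategoryTheory Fermat.Agent.Lib.ModRep Fermat.Agent.Lib.CFT.Duality
open Fermat.Agent.Lib.CFT.Duality.DevissageRep Fermat.Agent.Lib.CFT.Duality.CoindDual

namespace Fermat.Agent.S56x.Euler.PermTensorIso

variable {k : Type} [Field k] {Γ G₀ : Type} [Group Γ] [Group G₀]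

/-- The bijection `Γ ⧸ π⁻¹(C) ≃ G₀ ⧸ C` induced by a surjective `π`. -/
noncomputable def quotEquiv (π : Γ →* G₀) (hπ : Function.Surjective π) (C : Subgroup G₀) :
    Γ ⧸ C.comap π ≃ G₀ ⧸ C :=
  Equiv.ofBijective
    (Quotient.map' π (fun a b hab => by
      rw [QuotientGroup.leftRel_apply] at hab ⊢
      rw [← map_inv, ← map_mul]
      exact hab))
    (by
      constructor
      · intro x y
        induction x using QuotientGroup.induction_on with
        | H a =>
          induction y using QuotientGroup.induction_on with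
          | H b =>
            intro h
            have h' : ((π a : G₀) : G₀ ⧸ C) = ((π b : G₀) : G₀ ⧸ C) := h
            rw [QuotientGroup.eq] at h' ⊢
            rw [Subgroup.mem_comap, map_mul, map_inv]
            exact h'
      · intro y
        induction y using QuotientGroup.induction_on with
        | H b =>
          obtain ⟨a, rfl⟩ := hπ b
          exact ⟨(a : Γ ⧸ C.comap π), rfl⟩)

@[simp] theorem quotEquiv_mk (π : Γ →* G₀) (hπ : Function.Surjective π) (C : Subgroup G₀)
    (a : Γ) : quotEquiv π hπ C (a : Γ ⧸ C.comap π) = ((π a : G₀) : G₀ ⧸ C) := rfl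

theorem quotEquiv_smul (π : Γ →* G₀) (hπ : Function.Surjective π) (C : Subgroup G₀)
    (γ : Γ) (x : Γ ⧸ C.comap π) :
    quotEquiv π hπ C (γ • x) = π γ • quotEquiv π hπ C x := by
  induction x using QuotientGroup.induction_on with
  | H a =>
    have : γ • (a : Γ ⧸ C.comap π) = ((γ * a : Γ) : Γ ⧸ C.comap π) := rfl
    rw [this, quotEquiv_mk, quotEquiv_mk, map_mul]
    rfl

/-- The inflation of an `FRep` of `G₀` to `Γ`. -/
noncomputable abbrev infl (π : Γ →* G₀) (X : FRep k G₀) : Rep.{0} k Γ :=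
  Rep.res π (Rep.of X.ρ)

/-- The underlying linear equivalence `(G₀ ⧸ C → X) ≃ Coind_W (infl X)`. -/
noncomputable def linEquiv (π : Γ →* G₀) (hπ : Function.Surjective π) (C : Subgroup G₀)
    (X : FRep k G₀) :
    (G₀ ⧸ C → X.V) ≃ₗ[k] P (C.comap π) (infl π X) :=
  (LinearEquiv.funCongrLeft k X.V (quotEquiv π hπ C)).trans
    (coordEquiv (C.comap π) (infl π X)).symm

theorem coord_linEquiv (π : Γ →* G₀) (hπ : Function.Surjective π) (C : Subgroup G₀)
    (X : FRep k G₀) (f : G₀ ⧸ C → X.V) (x : Γ ⧸ C.comap π) :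
    coord (C.comap π) (infl π X) (linEquiv π hπ C X f) x = f (quotEquiv π hπ C x) := by
  have h : coordEquiv (C.comap π) (infl π X) (linEquiv π hπ C X f) =
      LinearEquiv.funCongrLeft k X.V (quotEquiv π hπ C) f := by
    rw [linEquiv, LinearEquiv.trans_apply, LinearEquiv.apply_symm_apply]
  exact congrFun h x

/-- The equivariance of `linEquiv`. -/
theorem linEquiv_comm (π : Γ →* G₀) (hπ : Function.Surjective π) (C : Subgroup G₀)
    (X : FRep k G₀) (γ : Γ) :
    (linEquiv π hπ C X).toLinearMap ∘ₗ (Rep.res π (Rep.of (funRep (G₀ ⧸ C) X))).ρ γ =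
      (P (C.comap π) (infl π X)).ρ γ ∘ₗ (linEquiv π hπ C X).toLinearMap := by
  apply LinearMap.ext
  intro f
  apply (coordEquiv (C.comap π) (infl π X)).injective
  funext x
  show coord (C.comap π) (infl π X) (linEquiv π hπ C X (funRep (G₀ ⧸ C) X (π γ) f)) x =
    coord (C.comap π) (infl π X) ((P (C.comap π) (infl π X)).ρ γ (linEquiv π hπ C X f)) x
  rw [coord_ρ, coord_linEquiv, coord_linEquiv, quotEquiv_smul, map_inv]
  rfl

/-- **(A0) part 1**, as an isomorphism in `Rep k Γ`:
`infl (Fun(G₀ ⧸ C, X)) ≅ Coind_W (infl X)`, `W = π⁻¹(C)`. -/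
noncomputable def isoFunRep (π : Γ →* G₀) (hπ : Function.Surjective π) (C : Subgroup G₀)
    (X : FRep k G₀) :
    Rep.res π (Rep.of (funRep (G₀ ⧸ C) X)) ≅ P (C.comap π) (infl π X) :=
  Rep.mkIso (Representation.Equiv.mk (linEquiv π hπ C X) (linEquiv_comm π hπ C X))

/-- **(A0) part 1.** -/
theorem nonempty_iso_funRep (π : Γ →* G₀) (hπ : Function.Surjective π) (C : Subgroup G₀)
    (X : FRep k G₀) :
    Nonempty (Rep.res π (Rep.of (funRep (G₀ ⧸ C) X)) ≅ P (C.comap π) (infl π X)) :=
  ⟨isoFunRep π hπ C X⟩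

/-- **(A0) part 1**, in the exact shape met when the induction theorem
`Lib/ModRep/Main.additive_eq_zero_of_cyclic` is applied to `F.val X := φ (infl π X)`. -/
theorem nonempty_iso_funFRep (π : Γ →* G₀) (hπ : Function.Surjective π) (C : Subgroup G₀)
    [Finite (G₀ ⧸ C)] (X : FRep k G₀) :
    Nonempty (infl π (funFRep (G₀ ⧸ C) X) ≅ P (C.comap π) (infl π X)) :=
  ⟨isoFunRep π hπ C X⟩

/-- A finite dimensional `Rep` as an `FRep`. -/
abbrev toFRep (M : Rep.{0} k G₀) [Module.Finite k M] : FRep k G₀ := ⟨M.V, M.ρ⟩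

theorem infl_toFRep (π : Γ →* G₀) (M : Rep.{0} k G₀) [Module.Finite k M] :
    infl π (toFRep M) = Rep.res π M := rfl

/-- **(A0) part 1**, for `M : Rep k G₀`. -/
theorem nonempty_iso_funFRep_rep (π : Γ →* G₀) (hπ : Function.Surjective π) (C : Subgroup G₀)
    [Finite (G₀ ⧸ C)] (M : Rep.{0} k G₀) [Module.Finite k M] :
    Nonempty (infl π (funFRep (G₀ ⧸ C) (toFRep M)) ≅ P (C.comap π) (Rep.res π M)) :=
  ⟨isoFunRep π hπ C (toFRep M)⟩

/-- An equivariant equivalence of `FRep`s gives an isomorphism of the inflations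
(so that `X ↦ φ (infl π X)` is iso-invariant as soon as `φ` is). -/
noncomputable def inflIso (π : Γ →* G₀) {X Y : FRep k G₀} (e : REquiv X Y) :
    infl π X ≅ infl π Y :=
  Rep.mkIso (Representation.Equiv.mk e.e (fun γ => by
    apply LinearMap.ext
    intro v
    exact e.comm (π γ) v))

/-! ### The short exact sequence of inflations attached to an invariant subspace

This is what turns an invariant `φ` of `Rep k Γ` which is additive on short exact sequences into
an `AddInv k G₀ ℤ` (`X ↦ φ (infl π X)`), the input of the induction theorem. -/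

/-- `infl (X.sub U) ⟶ infl X`. -/
noncomputable def inflSub (π : Γ →* G₀) (X : FRep k G₀) (U : Submodule k X.V) (hU : Inv X U) :
    infl π (X.sub U hU) ⟶ infl π X :=
  Rep.ofHom ⟨U.subtype, fun _ => rfl⟩

/-- `infl X ⟶ infl (X.quot U)`. -/
noncomputable def inflQuot (π : Γ →* G₀) (X : FRep k G₀) (U : Submodule k X.V) (hU : Inv X U) :
    infl π X ⟶ infl π (X.quot U hU) :=
  Rep.ofHom ⟨U.mkQ, fun _ => rfl⟩

@[simp] theorem inflSub_apply (π : Γ →* G₀) (X : FRep k G₀) (U : Submodule k X.V) (hU : Inv X U)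
    (u : U) : (inflSub π X U hU).hom u = (u : X.V) := rfl

@[simp] theorem inflQuot_apply (π : Γ →* G₀) (X : FRep k G₀) (U : Submodule k X.V)
    (hU : Inv X U) (x : X.V) : (inflQuot π X U hU).hom x = Submodule.Quotient.mk x := rfl

/-- The short complex `infl (X.sub U) ⟶ infl X ⟶ infl (X.quot U)`. -/
noncomputable def inflSeq (π : Γ →* G₀) (X : FRep k G₀) (U : Submodule k X.V) (hU : Inv X U) :
    ShortComplex (Rep.{0} k Γ) :=
  ShortComplex.mk (inflSub π X U hU) (inflQuot π X U hU) (by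
    ext u
    exact (Submodule.Quotient.mk_eq_zero U).2 u.2)

@[simp] theorem inflSeq_X₁ (π : Γ →* G₀) (X : FRep k G₀) (U : Submodule k X.V) (hU : Inv X U) :
    (inflSeq π X U hU).X₁ = infl π (X.sub U hU) := rfl
@[simp] theorem inflSeq_X₂ (π : Γ →* G₀) (X : FRep k G₀) (U : Submodule k X.V) (hU : Inv X U) :
    (inflSeq π X U hU).X₂ = infl π X := rfl
@[simp] theorem inflSeq_X₃ (π : Γ →* G₀) (X : FRep k G₀) (U : Submodule k X.V) (hU : Inv X U) :
    (inflSeq π X U hU).X₃ = infl π (X.quot U hU) := rfl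

theorem inflSeq_shortExact (π : Γ →* G₀) (X : FRep k G₀) (U : Submodule k X.V) (hU : Inv X U) :
    (inflSeq π X U hU).ShortExact where
  exact := by
    rw [← ShortComplex.exact_map_iff_of_faithful (F := forget₂ (Rep k Γ) (ModuleCat k)),
      ShortComplex.moduleCat_exact_iff]
    intro x hx
    have hx' : Submodule.Quotient.mk (p := U) (x : X.V) = 0 := hx
    exact ⟨⟨x, (Submodule.Quotient.mk_eq_zero U).1 hx'⟩, rfl⟩
  mono_f := (Rep.mono_iff_injective _).2 (fun a b h => Subtype.ext h)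
  epi_g := (Rep.epi_iff_surjective _).2 (Submodule.Quotient.mk_surjective U)

/-- An invariant of `Rep k Γ`, invariant under isomorphisms and additive on the short exact
sequences `inflSeq`, gives an additive invariant of `FRep k G₀`. -/
noncomputable def addInvOfInfl (π : Γ →* G₀) (φ : Rep.{0} k Γ → ℤ)
    (hiso : ∀ A B : Rep.{0} k Γ, Nonempty (A ≅ B) → φ A = φ B)
    (hadd : ∀ (X : FRep k G₀) (U : Submodule k X.V) (hU : Inv X U),
      φ (inflSeq π X U hU).X₂ = φ (inflSeq π X U hU).X₁ + φ (inflSeq π X U hU).X₃) :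
    AddInv k G₀ ℤ :=
  AddInv.ofGroup (fun X => φ (infl π X))
    (fun _ _ e => hiso _ _ ⟨inflIso π e⟩)
    (fun X U hU => hadd X U hU)

@[simp] theorem addInvOfInfl_val (π : Γ →* G₀) (φ : Rep.{0} k Γ → ℤ)
    (hiso : ∀ A B : Rep.{0} k Γ, Nonempty (A ≅ B) → φ A = φ B)
    (hadd : ∀ (X : FRep k G₀) (U : Submodule k X.V) (hU : Inv X U),
      φ (inflSeq π X U hU).X₂ = φ (inflSeq π X U hU).X₁ + φ (inflSeq π X U hU).X₃)
    (X : FRep k G₀) : (addInvOfInfl π φ hiso hadd).val X = φ (infl π X) := rfl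

/-- **Consumer form of the induction theorem** (`Lib/ModRep/Main.additive_eq_zero_of_cyclic` +
(A0) part 1): an isomorphism-invariant `φ : Rep k Γ → ℤ`, additive on the sequences `inflSeq`,
which vanishes on `Coind_{π⁻¹ D} (infl X)` for all cyclic `D ≤ G₀` of order prime to `p` and all
`X`, vanishes on every inflation. -/
theorem infl_eq_zero_of_cyclic [Finite k] (p : ℕ) [Fact p.Prime] [CharP k p] [Finite G₀]
    (π : Γ →* G₀) (hπ : Function.Surjective π) (φ : Rep.{0} k Γ → ℤ)
    (hiso : ∀ A B : Rep.{0} k Γ, Nonempty (A ≅ B) → φ A = φ B)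
    (hadd : ∀ (X : FRep k G₀) (U : Submodule k X.V) (hU : Inv X U),
      φ (inflSeq π X U hU).X₂ = φ (inflSeq π X U hU).X₁ + φ (inflSeq π X U hU).X₃)
    (hind : ∀ D : Subgroup G₀, IsCyclic D → (Nat.card D).Coprime p →
      ∀ X : FRep k G₀, φ (P (D.comap π) (infl π X)) = 0)
    (X : FRep k G₀) : φ (infl π X) = 0 := by
  have h := additive_eq_zero_of_cyclic p (addInvOfInfl π φ hiso hadd) (fun D hD hDp Y => by
    rw [addInvOfInfl_val, hiso _ _ (nonempty_iso_funFRep π hπ D Y)]
    exact hind D hD hDp Y) X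
  simpa using h

end Fermat.Agent.S56x.Euler.PermTensorIso
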