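import Fermat.Agent.S56x.Euler.IdempotentInd
import Fermat.Agent.S56x.Euler.ShaInducedDefs
import Fermat.Agent.Lib.CFT.Duality.ConeLES
import Fermat.Agent.Lib.CFT.Duality.DevissageRep
import Fermat.Agent.Lib.CFT.Profinite.MackeyCompat
import Fermat.Agent.Lib.CFT.Profinite.LevelH1Trivial
import Fermat.Agent.Lib.CFT.Profinite.Cores

/-!
# P-S56 block (B), (EC) line, input (A4): `Sha¹` of induced modules vanishes (helper71)

In the notation of helper11's Hind contract: `π : Γℚ →* G0` surjective with kernel `V` (a normal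
level), `C ≤ G0` of order prime to `p`, `W = π⁻¹(C)`, `M : Rep (ZMod p) G0` finite dimensional,
`M0 = Rep.res π M`, `I = DevissageRep.P W M0`.

* `eq_zero_of_stable` : an additive functor with a stable family of subsets which vanishes on the
  regular representation `Fun(G0, k)` vanishes on `Rep.coind C.subtype N` (idempotent trick,
  `Euler/IdempotentInd.lean`);
* `inflCoindIso`, `inflRegIso` : `Inf (Coind_C^{G0} M) ≅ P W M0`, `Inf (Fun(G0, k)) ≅ P V k`;
* `shaLevel_P_eq_bot` (A4a) : for any localisation datum, `Sha¹(P V k) = ⊥ → Sha¹(P W M0) = ⊥`;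
* `shaLevel_PV_eq_bot` (A4b) : `Sha¹(P V k) = ⊥` if every level character of `V` killing all
  `V ∩ g φᵢ(Hᵢ) g⁻¹` is zero (Shapiro + Mackey compatibility in degree one);
* `shaLevel_P_eq_bot_of_noSplitChar` : the arithmetic statement, from `NoSplitChar p S V`
  (`Euler/ShaInducedDefs.lean`; proved in `Euler/ShaTrivialGalois.lean` from the triviality of the
  `S`-class group of the level field).
-/

set_option autoImplicit false

open CategoryTheory

namespace Fermat.Agent.S56x.Euler.ShaInduced

open Fermat.Agent.Lib.CFT.Profinite Fermat.Agent.Lib.CFT.Profinite.LevelFamily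
open Fermat.Agent.Lib.CFT.Profinite.LES Fermat.Agent.Lib.CFT.Duality
open Fermat.Agent.S56x.Euler.IdempotentInd

universe u

/-! ### A stable family of subsets that vanishes on the regular representation vanishes on
coinduced modules -/

section Stable

variable {k G : Type u} [Field k] [Group G] (F : Rep.{u} k G ⥤ ModuleCat.{u} k) [F.Additive]
  (P : ∀ X : Rep.{u} k G, Set (F.obj X))
  (hP : ∀ {X Y : Rep.{u} k G} (f : X ⟶ Y) (x : F.obj X), x ∈ P X → (F.map f).hom x ∈ P Y)

include hP in
theorem eq_zero_of_stable (hR : ∀ z ∈ P (regRep (k := k) (G := G)), z = 0)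
    {C : Subgroup G} [Finite C] (hC : (Nat.card C : k) ≠ 0) (N : Rep.{u} k C)
    {ι : Type*} [Fintype ι] [DecidableEq ι] (b : Module.Basis ι k N.V)
    (x : F.obj (Rep.coind C.subtype N)) (hx : x ∈ P (Rep.coind C.subtype N)) : x = 0 := by
  classical
  haveI : Fintype C := Fintype.ofFinite C
  have hC' : (Fintype.card C : k) ≠ 0 := by rwa [← Nat.card_eq_fintype_card]
  set A := indAction C N
  -- transport to the invariants
  set x' : F.obj A.invRep := (F.map (invIsoCoind C N).inv).hom x with hx'
  have hx'P : x' ∈ P A.invRep := hP _ x hx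
  set y : F.obj (funRep (k := k) G N.V) := (F.map A.incl).hom x' with hy
  have hyP : y ∈ P _ := hP _ x' hx'P
  have hy0 : y = 0 := by
    rw [← ofTensor_toTensor N b F y, toTensor_apply]
    have : ∀ i, (F.map (prj N b i)).hom y = 0 := fun i => hR _ (hP _ y hyP)
    simp [this]
  have hx'0 : x' = 0 := by
    apply A.map_incl_injective F hC'
    rw [← hy, hy0, map_zero]
  have : x = (F.map (invIsoCoind C N).hom).hom x' := by
    rw [hx', ← map_comp_apply, Iso.inv_hom_id, F.map_id]
    rfl
  rw [this, hx'0, map_zero]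

end Stable

/-! ### `Sha¹` of inflated modules -/

section Sha

variable {k : Type} [Field k] {G : Type} [Group G] (D : LocDatum G)
  {G0 : Type} [Group G0] (π : G →* G0)

/-- `X ↦ H¹_𝒰(G, Inf X)` as an additive functor on `Rep k G0`. -/
noncomputable abbrev inflH1 : Rep.{0} k G0 ⥤ ModuleCat.{0} k :=
  Rep.resFunctor π ⋙ levelCohomologyFunctor (k := k) D.𝒰 1

/-- The locally trivial classes of the inflation of `X`. -/
def shaSet (X : Rep.{0} k G0) : Set ((inflH1 (k := k) D π).obj X) :=
  {x | x ∈ D.shaLevel (Rep.res π X) 1}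

theorem shaSet_stable {X Y : Rep.{0} k G0} (f : X ⟶ Y) (x : (inflH1 (k := k) D π).obj X)
    (hx : x ∈ shaSet D π X) : ((inflH1 (k := k) D π).map f).hom x ∈ shaSet D π Y := by
  have hx' : D.locMapH (Rep.res π X) 1 x = 0 := hx
  have h := D.locMapH_levelCohomologyMap ((Rep.resFunctor π).map f) 1 x
  have h2 : D.locHMap ((Rep.resFunctor π).map f) 1 (D.locMapH (Rep.res π X) 1 x) = 0 := by
    rw [hx', map_zero]
  exact h.trans h2

/-- **`Sha¹` of the inflation of a module coinduced from a subgroup of order prime to the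
characteristic vanishes as soon as `Sha¹` of the inflated regular representation does.** -/
theorem shaLevel_res_coind_eq_bot
    (hR : D.shaLevel (Rep.res π (regRep (k := k) (G := G0))) 1 = ⊥)
    {C : Subgroup G0} [Finite C] (hC : (Nat.card C : k) ≠ 0) (N : Rep.{0} k C)
    [Module.Finite k N.V] :
    D.shaLevel (Rep.res π (Rep.coind C.subtype N)) 1 = ⊥ := by
  classical
  rw [eq_bot_iff]
  intro x hx
  rw [Submodule.mem_bot]
  exact eq_zero_of_stable (inflH1 (k := k) D π) (shaSet D π) (shaSet_stable D π)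
    (fun z hz => by
      have : z ∈ D.shaLevel (Rep.res π (regRep (k := k) (G := G0))) 1 := hz
      rw [hR] at this
      exact this)
    hC N (Module.finBasis k N.V) x hx

/-- `Sha¹ = ⊥` is invariant under isomorphisms of the coefficient module. -/
theorem shaLevel_eq_bot_of_iso {A B : Rep.{0} k G} (e : A ≅ B)
    (hA : D.shaLevel A 1 = ⊥) : D.shaLevel B 1 = ⊥ := by
  rw [eq_bot_iff]
  intro x hx
  rw [Submodule.mem_bot]
  have hx' : D.locMapH B 1 x = 0 := hx
  have h1 : (D.𝒰.levelCohomologyMap e.inv 1).hom x ∈ D.shaLevel A 1 := by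
    show D.locMapH A 1 _ = 0
    rw [D.locMapH_levelCohomologyMap, hx', map_zero]
  rw [hA, Submodule.mem_bot] at h1
  have h2 : (D.𝒰.levelCohomologyMap e.hom 1).hom ((D.𝒰.levelCohomologyMap e.inv 1).hom x) = x := by
    have := levelCohomologyMap_comp D.𝒰 e.inv e.hom 1
    rw [Iso.inv_hom_id, levelCohomologyMap_id] at this
    exact (congr($this x)).symm
  rw [← h2, h1, map_zero]

end Sha

/-! ### Inflation of coinduced modules -/

section Inflation

variable {k : Type} [Field k] {G : Type} [Group G] {G0 : Type} [Group G0] (π : G →* G0)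
  (hπ : Function.Surjective π)

include hπ in
theorem exists_ker_mul (g : G) : ∃ v ∈ π.ker, Function.surjInv hπ (π g) = v * g := by
  refine ⟨Function.surjInv hπ (π g) * g⁻¹, ?_, by group⟩
  rw [MonoidHom.mem_ker, map_mul, Function.surjInv_eq hπ, map_inv, mul_inv_cancel]

variable (C : Subgroup G0) (M : Rep.{0} k G0)

/-- The linear equivalence underlying `inflCoindIso`: `f ↦ f ∘ π`. -/
noncomputable def inflCoindEquiv :
    (Rep.res π (Rep.coind C.subtype (Rep.res C.subtype M))).V ≃ₗ[k]
      (DevissageRep.P (C.comap π) (Rep.res π M)).V where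
  toFun f := ⟨fun g => f.1 (π g), fun w g => by
    show f.1 (π ((w : G) * g)) = M.ρ (π (w : G)) (f.1 (π g))
    rw [map_mul]
    exact f.2 ⟨π (w : G), w.2⟩ (π g)⟩
  map_add' _ _ := rfl
  map_smul' _ _ := rfl
  invFun f := ⟨fun x => f.1 (Function.surjInv hπ x), fun c x => by
    show f.1 (Function.surjInv hπ ((c : G0) * x)) = M.ρ (c : G0) (f.1 (Function.surjInv hπ x))
    set w : G := Function.surjInv hπ ((c : G0) * x) * (Function.surjInv hπ x)⁻¹ with hw
    have hπw : π w = (c : G0) := by
      rw [hw, map_mul, map_inv, Function.surjInv_eq hπ, Function.surjInv_eq hπ, mul_inv_cancel_right]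
    have hwW : w ∈ C.comap π := by
      rw [Subgroup.mem_comap, hπw]
      exact c.2
    have h1 : Function.surjInv hπ ((c : G0) * x) = w * Function.surjInv hπ x := by
      rw [hw, inv_mul_cancel_right]
    rw [h1]
    have := f.2 ⟨w, hwW⟩ (Function.surjInv hπ x)
    refine this.trans ?_
    show M.ρ (π w) _ = _
    rw [hπw]⟩
  left_inv f := by
    apply Subtype.ext
    funext x
    show f.1 (π (Function.surjInv hπ x)) = f.1 x
    rw [Function.surjInv_eq hπ]
  right_inv f := by
    apply Subtype.ext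
    funext g
    show f.1 (Function.surjInv hπ (π g)) = f.1 g
    obtain ⟨v, hv, h⟩ := exists_ker_mul π hπ g
    rw [h]
    have hvW : v ∈ C.comap π := by
      rw [Subgroup.mem_comap, MonoidHom.mem_ker.1 hv]
      exact C.one_mem
    have := f.2 ⟨v, hvW⟩ g
    refine this.trans ?_
    show M.ρ (π v) (f.1 g) = f.1 g
    rw [MonoidHom.mem_ker.1 hv, map_one]
    rfl

/-- **The inflation of `Coind_C^{G0} M` is `Coind_W^G (Inf M)`**, `W` the preimage of `C`. -/
noncomputable def inflCoindIso :
    Rep.res π (Rep.coind C.subtype (Rep.res C.subtype M)) ≅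
      DevissageRep.P (C.comap π) (Rep.res π M) :=
  Rep.mkIso <| Representation.Equiv.mk (inflCoindEquiv π hπ C M) (fun g => by
    ext f g'
    show f.1 (π g' * π g) = f.1 (π (g' * g))
    rw [map_mul])

/-- The linear equivalence underlying `inflRegIso`: `f ↦ f ∘ π`. -/
noncomputable def inflRegEquiv :
    (Rep.res π (regRep (k := k) (G := G0))).V ≃ₗ[k]
      (DevissageRep.P π.ker (Rep.trivial k G k)).V where
  toFun f := ⟨fun g => f (π g), fun v g => by
    show f (π ((v : G) * g)) = f (π g)
    rw [map_mul, MonoidHom.mem_ker.1 v.2, one_mul]⟩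
  map_add' _ _ := rfl
  map_smul' _ _ := rfl
  invFun f := fun x => f.1 (Function.surjInv hπ x)
  left_inv f := by
    funext x
    show f (π (Function.surjInv hπ x)) = f x
    rw [Function.surjInv_eq hπ]
  right_inv f := by
    apply Subtype.ext
    funext g
    show f.1 (Function.surjInv hπ (π g)) = f.1 g
    obtain ⟨v, hv, h⟩ := exists_ker_mul π hπ g
    rw [h]
    exact f.2 ⟨v, hv⟩ g

/-- **The inflation of the regular representation `Fun(G0, k)` is `Coind_V^G k`**, `V = ker π`. -/
noncomputable def inflRegIso :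
    Rep.res π (regRep (k := k) (G := G0)) ≅ DevissageRep.P π.ker (Rep.trivial k G k) :=
  Rep.mkIso <| Representation.Equiv.mk (inflRegEquiv π hπ) (fun g => by
    ext f g'
    show f (π g' * π g) = f (π (g' * g))
    rw [map_mul])

end Inflation

/-! ### (A4a): reduction of `Sha¹(P W M0)` to `Sha¹(P V k)` -/

section Reduction

variable {k : Type} [Field k] {G : Type} [Group G] (D : LocDatum G)
  {G0 : Type} [Group G0] (π : G →* G0) (hπ : Function.Surjective π)

include hπ in
/-- **(A4a).** Let `π : G →* G0` be surjective with kernel `V`, `C ≤ G0` a finite subgroup of order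
invertible in `k`, `W = π⁻¹(C)` and `M` a finite dimensional representation of `G0`.  If
`Sha¹(Coind_V^G k) = 0` then `Sha¹(Coind_W^G (Inf M)) = 0`. -/
theorem shaLevel_P_eq_bot (C : Subgroup G0) [Finite C] (hC : (Nat.card C : k) ≠ 0)
    (M : Rep.{0} k G0) [Module.Finite k M.V]
    (hR : D.shaLevel (DevissageRep.P π.ker (Rep.trivial k G k)) 1 = ⊥) :
    D.shaLevel (DevissageRep.P (C.comap π) (Rep.res π M)) 1 = ⊥ := by
  haveI : Module.Finite k (Rep.res C.subtype M).V := ‹Module.Finite k M.V›
  exact shaLevel_eq_bot_of_iso D (inflCoindIso π hπ C M)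
    (shaLevel_res_coind_eq_bot D π (shaLevel_eq_bot_of_iso D (inflRegIso π hπ).symm hR) hC
      (Rep.res C.subtype M))

end Reduction

/-! ### (A4b): `Sha¹(Coind_V^G k)` and split characters -/

section Split

variable {k : Type} [Field k] {G : Type} [Group G] (D : LocDatum G) (V : Subgroup G)

/-- `f` kills `V ∩ g φᵢ(Hᵢ) g⁻¹` for all places `i` and all `g`. -/
def KillsLocal {A : Type*} [AddZeroClass A] (f : Additive V →+ A) : Prop :=
  ∀ (i : D.ι) (g : G) (h : D.H i) (hv : g * D.φ i h * g⁻¹ ∈ V), f (Additive.ofMul ⟨_, hv⟩) = 0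

/-- The trivial module `k` of `V`, as the restriction of the trivial module of `G`. -/
noncomputable abbrev trivV : Rep.{0} k V := Rep.res V.subtype (Rep.trivial k G k)

instance : (trivV (k := k) V).IsTrivial := ⟨fun _ => rfl⟩

instance (i : D.ι) (g : G) : (mackeyTwist (D.φ i) V (trivV (k := k) V) g).IsTrivial :=
  ⟨fun _ => rfl⟩

variable {V} in
/-- The level character of `V` attached to a class of `H¹(G, Coind_V^G k)` by Shapiro's lemma. -/
noncomputable def shapiroChar (x : D.𝒰.levelCohomology (DevissageRep.P V (Rep.trivial k G k)) 1) :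
    (restrict D.𝒰 V).levelChars (trivV (k := k) V) :=
  (restrict D.𝒰 V).H1TrivEquiv (trivV (k := k) V) ((shapiro D.𝒰 V (trivV (k := k) V) 1).hom x)

variable {V} in
theorem killsLocal_shapiroChar (hV : IsOpenSubgroup D.𝒰 V)
    (x : D.𝒰.levelCohomology (DevissageRep.P V (Rep.trivial k G k)) 1)
    (hx : x ∈ D.shaLevel (DevissageRep.P V (Rep.trivial k G k)) 1) :
    KillsLocal D V (shapiroChar D x : Additive V →+ k) := by
  intro i g h hv
  have hA : (restrict D.𝒰 V).IsDiscrete (trivV (k := k) V) :=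
    (restrict D.𝒰 V).isDiscrete_of_isTrivial _
  have hloc : (map (D.φ i) (D.compat i)
      (𝟙 (Rep.res (D.φ i) (Rep.coind V.subtype (trivV (k := k) V)))) 1).hom x = 0 :=
    (D.mem_shaLevel_iff _ 1 x).1 hx i
  have hc := mackeyMap_comp (D.φ i) V (trivV (k := k) V) (D.compat i) hV hA g 1
  have hc' := congr($hc x)
  rw [ModuleCat.comp_apply, ModuleCat.comp_apply, hloc, map_zero] at hc'
  -- the restriction of the Shapiro class along `mackeyHom` vanishes
  let s : mackeyStab (D.φ i) V g := ⟨h, hv⟩
  have key := H1TrivEquiv_map_apply (mackeyHom (D.φ i) V g)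
    (isCompatible_mackeyHom V (D.compat i) g)
    (𝟙 (mackeyTwist (D.φ i) V (trivV (k := k) V) g))
    ((shapiro D.𝒰 V (trivV (k := k) V) 1).hom x) s
  rw [← hc', map_zero] at key
  exact key.symm

/-- **(A4b).** If every level character of `V` killing all `V ∩ g φᵢ(Hᵢ) g⁻¹` is zero, then
`Sha¹(Coind_V^G k) = 0`. -/
theorem shaLevel_PV_eq_bot (hV : IsOpenSubgroup D.𝒰 V)
    (hchar : ∀ f : (restrict D.𝒰 V).levelChars (trivV (k := k) V),
      KillsLocal D V (f : Additive V →+ k) → f = 0) :
    D.shaLevel (DevissageRep.P V (Rep.trivial k G k)) 1 = ⊥ := by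
  rw [eq_bot_iff]
  intro x hx
  rw [Submodule.mem_bot]
  have hA : (restrict D.𝒰 V).IsDiscrete (trivV (k := k) V) :=
    (restrict D.𝒰 V).isDiscrete_of_isTrivial _
  have h0 := hchar (shapiroChar D x) (killsLocal_shapiroChar D hV x hx)
  have h1 : (shapiro D.𝒰 V (trivV (k := k) V) 1).hom x = 0 :=
    ((restrict D.𝒰 V).H1TrivEquiv (trivV (k := k) V)).injective (h0.trans (map_zero _).symm)
  exact (shapiro_bijective hV 1 _ hA).1 (h1.trans (map_zero _).symm)

end Split

/-! ### The arithmetic statement -/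

section Arith

open ExtCitation

local notation "Γℚ" => (AlgebraicClosure ℚ ≃ₐ[ℚ] AlgebraicClosure ℚ)

variable {p : ℕ} [Fact p.Prime] (S : Finset Nat.Primes)

theorem killsDecomp_of_killsLocal {V : Subgroup Γℚ} {A : Type*} [AddZeroClass A]
    (f : Additive V →+ A) (h : KillsLocal (arithDatum S) V f) : KillsDecomp S V f :=
  fun q hq g hh hv => h ⟨q, hq⟩ g hh hv

/-- **(A4b), arithmetic form.** -/
theorem shaLevel_PV_eq_bot_of_noSplitChar (V : Subgroup Γℚ)
    (hV : IsOpenSubgroup (Bridge.levelsS S) V) (h : NoSplitChar p S V) :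
    (arithDatum S).shaLevel (DevissageRep.P V (Rep.trivial (ZMod p) Γℚ (ZMod p))) 1 = ⊥ := by
  refine shaLevel_PV_eq_bot (arithDatum S) V hV fun f hk => ?_
  obtain ⟨U', ⟨U, hU, rfl⟩, hU'⟩ := f.2
  exact Subtype.ext (h f.1 ⟨U, hU, fun v hv => hU' v hv⟩ (killsDecomp_of_killsLocal S f.1 hk))

/-- **(A4): `Sha¹(Coind_W^Γ (Inf M)) = 0`** for `π : Γℚ →* G0` surjective with open kernel `V`
satisfying `NoSplitChar p S V`, `C ≤ G0` of order prime to `p`, `W = π⁻¹(C)` and `M` a finite
dimensional `ZMod p`-representation of `G0`. -/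
theorem shaLevel_P_eq_bot_of_noSplitChar {G0 : Type} [Group G0] (π : Γℚ →* G0)
    (hπ : Function.Surjective π) (hV : IsOpenSubgroup (Bridge.levelsS S) π.ker)
    (h : NoSplitChar p S π.ker) (C : Subgroup G0) [Finite C]
    (hC : (Nat.card C : ZMod p) ≠ 0) (M : Rep.{0} (ZMod p) G0) [Module.Finite (ZMod p) M.V] :
    (arithDatum S).shaLevel (DevissageRep.P (C.comap π) (Rep.res π M)) 1 = ⊥ :=
  shaLevel_P_eq_bot (arithDatum S) π hπ C hC M (shaLevel_PV_eq_bot_of_noSplitChar S π.ker hV h)

/-- Variant with the kernel given as a subgroup `V`. -/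
theorem shaLevel_P_eq_bot_of_noSplitChar' {G0 : Type} [Group G0] (π : Γℚ →* G0)
    (hπ : Function.Surjective π) (V : Subgroup Γℚ) (hker : π.ker = V)
    (hV : IsOpenSubgroup (Bridge.levelsS S) V)
    (h : NoSplitChar p S V) (C : Subgroup G0) [Finite C]
    (hC : (Nat.card C : ZMod p) ≠ 0) (M : Rep.{0} (ZMod p) G0) [Module.Finite (ZMod p) M.V] :
    (arithDatum S).shaLevel (DevissageRep.P (C.comap π) (Rep.res π M)) 1 = ⊥ := by
  subst hker
  exact shaLevel_P_eq_bot_of_noSplitChar S π hπ hV h C hC M

end Arith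

end Fermat.Agent.S56x.Euler.ShaInduced
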