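import Fermat.Agent.S56x.Euler.HindAssembly
import Fermat.Agent.S56x.Euler.AdditiveConeContract
import Fermat.Agent.S56x.Euler.PermTensorIso
import Fermat.Agent.S56x.Euler.ShapiroDual
import Fermat.Agent.S56x.Euler.ShaInduced
import Fermat.Agent.S56x.Euler.KillClassGroup
import Fermat.Agent.S56x.Euler.InflationLevel

/-!
# P-S56 block (B), (EC) line: Tate's global Euler characteristic formula after enlarging `S`

(helper11.)  Final assembly of the `(EC)` line.  For a finite Galois extension `K/ℚ` inside `Qbar`,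
unramified outside `S ∋ p` and containing `μ_p`, with `G₀ = Gal(K/ℚ)` and `π : Γℚ → G₀`:

* `LevelTate S W M₀` : the numerical identity
  `h¹(W, N') + h⁰(W, N) = ∑_{q ∈ S} h⁰(G_q, I) + h⁰(W, N') + dim I^{c = 1}`
  (`N = M₀|_W`, `I = Coind_W N`) — the combination of the inputs (A3) (Kummer theory, helper84) and
  (A5) (equivariant Dirichlet mod `p`, helper75) of the note `S56-IFACE-EC-Hind`;
* `tateEulerC_P_of_levelTate` : `LevelTate` + `Sha¹(I) = 0` ⇒ `TateEulerC S I`
  ((A1) + (A2) = `ShapiroDual`);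
* `phiC_infl_eq_zero` : the induction theorem (helper66, in helper5's consumer form) applied to
  `phiC S ∘ Inf_π`: if `NoSplitChar p S V` and `LevelTate` holds for all cyclic `p'`-subgroups of
  `G₀`, then `phiC S (Inf X) = 0` for all `X`;
* `exists_superset_phiC_eq_zero` : for every finite discrete `M` there is `T ⊇ S` with
  `phiC T M = 0`, given the two remaining inputs `LevelTateAll p` and `NoSplitAll p` (as
  hypotheses until their producers land).
-/

set_option autoImplicit false
set_option linter.style.haveILetI false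
set_option linter.unusedSectionVars false

open CategoryTheory groupCohomology Module

namespace Fermat.Agent.S56x.Euler.EC

open Fermat.Agent.Lib.CFT.Profinite Fermat.Agent.Lib.CFT.Profinite.LevelFamily ExtCitation
open Fermat.Agent.Lib.CFT.Profinite.Bridge
open Fermat.Agent.Lib.CFT.Duality Fermat.Agent.Lib.CFT.Duality.PoitouTate
open Fermat.Agent.Lib.CFT.Global
open Fermat.Agent.Lib.ModRep
open Fermat.Agent.S56x.GW Fermat.Agent.S56x.Euler Fermat.Agent.S56x.Euler.Hind
open Fermat.Agent.S56x.Euler.ShaInduced Fermat.Agent.S56x.Euler.PermTensorIso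

local notation "Qbar" => AlgebraicClosure ℚ
local notation "Γℚ" => (AlgebraicClosure ℚ ≃ₐ[ℚ] AlgebraicClosure ℚ)

local instance isAlgebraicQbar_ec : Algebra.IsAlgebraic ℚ (AlgebraicClosure ℚ) :=
  AlgebraicClosure.isAlgebraic ℚ
local instance isAlgClosureQbar_ec : IsAlgClosure ℚ (AlgebraicClosure ℚ) :=
  ⟨inferInstance, inferInstance⟩
local instance normalQbar_ec : Normal ℚ (AlgebraicClosure ℚ) :=
  IsAlgClosure.normal ℚ (AlgebraicClosure ℚ)

variable {p : ℕ} [Fact p.Prime]

/-! ### The level identity and the cyclic step -/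

/-- **Tate's formula at the level `W`** (inputs (A3) + (A5)):
`h¹(W, N') + h⁰(W, N) = ∑_{q ∈ S} h⁰(G_q, I) + h⁰(W, N') + dim I^{c = 1}` for `N = M₀|_W`,
`N' = N.dualTwist χ`, `I = Coind_W^Γ N`. -/
def LevelTate (S : Finset Nat.Primes) (W : Subgroup Γℚ) (M₀ : Rep (ZMod p) Γℚ) : Prop :=
  finrank (ZMod p) ((LES.restrict (levelsS S) W).levelCohomology
      ((Rep.res W.subtype M₀).dualTwist ((cycloChar p).comp W.subtype)) 1)
    + finrank (ZMod p) ((LES.restrict (levelsS S) W).levelCohomology (Rep.res W.subtype M₀) 0) =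
  finrank (ZMod p) ((arithDatum S).locH (DevissageRep.P W M₀) 0)
    + finrank (ZMod p) ((LES.restrict (levelsS S) W).levelCohomology
        ((Rep.res W.subtype M₀).dualTwist ((cycloChar p).comp W.subtype)) 0)
    + finrank (ZMod p) (fixc (DevissageRep.P W M₀))

/-- `LevelTate` from its two halves (A3) `h¹(W, N') = u` and (A5). -/
theorem levelTate_of_inputs {S : Finset Nat.Primes} {W : Subgroup Γℚ} {M₀ : Rep (ZMod p) Γℚ}
    (u : ℕ)
    (hA3 : finrank (ZMod p) ((LES.restrict (levelsS S) W).levelCohomology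
        ((Rep.res W.subtype M₀).dualTwist ((cycloChar p).comp W.subtype)) 1) = u)
    (hA5 : u + finrank (ZMod p)
        ((LES.restrict (levelsS S) W).levelCohomology (Rep.res W.subtype M₀) 0) =
      finrank (ZMod p) ((arithDatum S).locH (DevissageRep.P W M₀) 0)
        + finrank (ZMod p) ((LES.restrict (levelsS S) W).levelCohomology
            ((Rep.res W.subtype M₀).dualTwist ((cycloChar p).comp W.subtype)) 0)
        + finrank (ZMod p) (fixc (DevissageRep.P W M₀))) :
    LevelTate S W M₀ := by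
  unfold LevelTate
  rw [hA3]
  exact hA5

/-- **The cyclic step**: `LevelTate` and `Sha¹(I) = 0` give Tate's formula for
`I = Coind_W^Γ (M₀|_W)`. -/
theorem tateEulerC_P_of_levelTate {S : Finset Nat.Primes} (I : GlobalInput p S)
    (hpS : pPrime p ∈ S) (W : Subgroup Γℚ) (hW : LES.IsOpenSubgroup (levelsS S) W)
    (M₀ : Rep (ZMod p) Γℚ) [Finite M₀] (hM₀ : (levelsS S).IsDiscrete M₀)
    (hsha : (arithDatum S).shaLevel (DevissageRep.P W M₀) 1 = ⊥)
    (hLT : LevelTate S W M₀) : TateEulerC S (DevissageRep.P W M₀) := by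
  have hχ : ∃ U ∈ (levelsS S).levels, ∀ s ∈ U, cycloChar p s = 1 :=
    exists_level_cycloChar_eq_one hpS
  exact tateEulerC_P_of_inputs I hpS W hW M₀ hM₀ _
    (ShapiroDual.finrank_dualTwist_P (cycloChar p) M₀ hW hM₀ hχ 1)
    (ShapiroDual.finrank_dualTwist_P (cycloChar p) M₀ hW hM₀ hχ 0)
    (ShapiroDual.finrank_P M₀ hW hM₀ 0) rfl hsha hLT

/-! ### One level `K` -/

theorem proj_surjective (K : IntermediateField ℚ Qbar) [Normal ℚ K] :
    Function.Surjective (proj K) :=
  AlgEquiv.restrictNormalHom_surjective Qbar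

theorem ker_proj (K : IntermediateField ℚ Qbar) [Normal ℚ K] :
    (proj K).ker = K.fixingSubgroup := by
  ext σ
  rw [MonoidHom.mem_ker, proj_eq_one_iff]

section OneLevel

variable (K : IntermediateField ℚ Qbar) [FiniteDimensional ℚ K] [Normal ℚ K]

variable {S : Finset Nat.Primes}

theorem fixingSubgroup_mem_levels (hKS : K.IsUnramifiedOutside S) :
    K.fixingSubgroup ∈ (levelsS S).levels := ⟨K, hKS, rfl⟩

theorem isOpenSubgroup_comap (hKS : K.IsUnramifiedOutside S) (D : Subgroup (K ≃ₐ[ℚ] K)) :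
    LES.IsOpenSubgroup (levelsS S) (D.comap (proj K)) :=
  isOpenSubgroup_preW K S (fixingSubgroup_mem_levels K hKS) D

theorem isDiscrete_inflFRep (hKS : K.IsUnramifiedOutside S) (X : FRep (ZMod p) (K ≃ₐ[ℚ] K)) :
    (levelsS S).IsDiscrete (PermTensorIso.infl (proj K) X) :=
  isDiscrete_infl K S (fixingSubgroup_mem_levels K hKS) (Rep.of X.ρ)

instance finite_inflFRep (X : FRep (ZMod p) (K ≃ₐ[ℚ] K)) :
    Finite (PermTensorIso.infl (proj K) X) :=
  haveI : Finite X.V := Module.finite_of_finite (ZMod p)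
  inferInstanceAs (Finite X.V)

/-- **(EC) on one level.**  If every level character of `V = Gal(Qbar/K)` which is totally split
above `S` vanishes, and Tate's formula holds at the levels `W = π⁻¹(D)` for the cyclic subgroups
`D ≤ Gal(K/ℚ)` of order prime to `p`, then `phiC S (Inf X) = 0` for every finite dimensional
representation `X` of `Gal(K/ℚ)`. -/
theorem phiC_infl_eq_zero (hp2 : p ≠ 2) (hpS : pPrime p ∈ S) (I : GlobalInput p S)
    (hKS : K.IsUnramifiedOutside S)
    (hns : NoSplitChar p S K.fixingSubgroup)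
    (hLT : ∀ D : Subgroup (K ≃ₐ[ℚ] K), IsCyclic D → (Nat.card D).Coprime p →
      ∀ X : FRep (ZMod p) (K ≃ₐ[ℚ] K),
        LevelTate S (D.comap (proj K)) (PermTensorIso.infl (proj K) X))
    (X : FRep (ZMod p) (K ≃ₐ[ℚ] K)) : phiC S (PermTensorIso.infl (proj K) X) = 0 := by
  haveI : Finite (K ≃ₐ[ℚ] K) := inferInstance
  refine infl_eq_zero_of_cyclic (k := ZMod p) p (proj K) (proj_surjective K) (phiC S)
    (fun A B ⟨e⟩ => phiC_of_iso S e) (fun Y U hU => ?_) (fun D hD hDp Y => ?_) X
  · haveI : Finite (inflSeq (proj K) Y U hU).X₂ :=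
      inferInstanceAs (Finite (PermTensorIso.infl (proj K) Y))
    exact phiC_additive hp2 hpS I (inflSeq_shortExact (proj K) Y U hU)
      (isDiscrete_inflFRep K hKS Y)
  · rw [← tateEulerC_iff_phiC_eq_zero hpS]
    have hDfin : Finite D := inferInstance
    have hDne : (Nat.card D : ZMod p) ≠ 0 := by
      rw [Ne, ZMod.natCast_eq_zero_iff]
      intro hdvd
      have h1 : p ∣ Nat.gcd (Nat.card D) p := Nat.dvd_gcd hdvd dvd_rfl
      rw [Nat.Coprime] at hDp
      rw [hDp] at h1
      exact (Fact.out : p.Prime).one_lt.ne' (Nat.dvd_one.1 h1)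
    have hsha : (arithDatum S).shaLevel
        (DevissageRep.P (D.comap (proj K)) (PermTensorIso.infl (proj K) Y)) 1 = ⊥ :=
      shaLevel_P_eq_bot_of_noSplitChar' S (proj K) (proj_surjective K) K.fixingSubgroup
        (ker_proj K) (LES.isOpenSubgroup_of_mem (fixingSubgroup_mem_levels K hKS)) hns D hDne
        (Rep.of Y.ρ)
    exact tateEulerC_P_of_levelTate I hpS _ (isOpenSubgroup_comap K hKS D) _
      (isDiscrete_inflFRep K hKS Y) hsha (hLT D hD hDp Y)

end OneLevel

/-! ### Descent of a finite discrete module to a finite Galois level -/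

section Descent

variable {S : Finset Nat.Primes}

section Desc

variable (K : IntermediateField ℚ Qbar) [Normal ℚ K] (M : Rep.{0} (ZMod p) Γℚ)

theorem ρ_eq_of_proj_eq (hfix : ∀ σ ∈ K.fixingSubgroup, ∀ m : M, M.ρ σ m = m) {σ τ : Γℚ}
    (h : proj K σ = proj K τ) : M.ρ σ = M.ρ τ := by
  have h1 : proj K (σ⁻¹ * τ) = 1 := by rw [map_mul, map_inv, h, inv_mul_cancel]
  have h2 : σ⁻¹ * τ ∈ K.fixingSubgroup := (proj_eq_one_iff K _).1 h1
  have h3 : M.ρ (σ⁻¹ * τ) = 1 := by
    ext m
    exact hfix _ h2 m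
  have : τ = σ * (σ⁻¹ * τ) := by group
  rw [this, map_mul, h3, mul_one]

/-- The descent of `M.ρ` to `Gal(K/ℚ)` when `Gal(Qbar/K)` acts trivially. -/
noncomputable def descRho (hfix : ∀ σ ∈ K.fixingSubgroup, ∀ m : M, M.ρ σ m = m) :
    Representation (ZMod p) (K ≃ₐ[ℚ] K) M where
  toFun g := M.ρ (Function.surjInv (proj_surjective K) g)
  map_one' := by
    rw [← map_one M.ρ]
    apply ρ_eq_of_proj_eq K M hfix
    rw [Function.surjInv_eq (proj_surjective K), map_one]
  map_mul' g h := by
    rw [← map_mul]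
    apply ρ_eq_of_proj_eq K M hfix
    rw [Function.surjInv_eq (proj_surjective K), map_mul,
      Function.surjInv_eq (proj_surjective K), Function.surjInv_eq (proj_surjective K)]

theorem descRho_proj (hfix : ∀ σ ∈ K.fixingSubgroup, ∀ m : M, M.ρ σ m = m) (σ : Γℚ) :
    descRho K M hfix (proj K σ) = M.ρ σ := by
  show M.ρ _ = M.ρ σ
  apply ρ_eq_of_proj_eq K M hfix
  rw [Function.surjInv_eq (proj_surjective K)]

/-- A module on which `Gal(Qbar/K)` acts trivially is the inflation of a representation of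
`Gal(K/ℚ)` on the same carrier. -/
theorem exists_iso_infl_of_trivial [Finite M]
    (hfix : ∀ σ ∈ K.fixingSubgroup, ∀ m : M, M.ρ σ m = m) :
    ∃ X : FRep (ZMod p) (K ≃ₐ[ℚ] K), Nonempty (M ≅ PermTensorIso.infl (proj K) X) := by
  haveI : Module.Finite (ZMod p) M := Module.Finite.of_finite
  refine ⟨⟨M, descRho K M hfix⟩, ⟨?_⟩⟩
  exact Rep.mkIso (ρ := M.ρ) (σ := (descRho K M hfix).comp (proj K))
    (Representation.Equiv.mk (LinearEquiv.refl (ZMod p) M) (fun g => by
      ext m
      show M.ρ g m = descRho K M hfix (proj K g) m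
      rw [descRho_proj K M hfix]))

end Desc

/-- Every finite discrete module unramified outside `S ∋ p` is the inflation of a finite
dimensional representation of `Gal(K/ℚ)` for a finite Galois extension `K/ℚ` inside `Qbar`,
unramified outside `S`, with `Gal(Qbar/K)` in the kernel of the mod `p` cyclotomic character. -/
theorem exists_iso_infl (hpS : pPrime p ∈ S) (M : Rep (ZMod p) Γℚ) [Finite M]
    (hM : (levelsS S).IsDiscrete M) :
    ∃ (K : IntermediateField ℚ Qbar) (_ : FiniteDimensional ℚ K) (_ : Normal ℚ K),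
      K.IsUnramifiedOutside S ∧ K.fixingSubgroup ≤ (cycloChar p).ker ∧
      ∃ X : FRep (ZMod p) (K ≃ₐ[ℚ] K), Nonempty (M ≅ PermTensorIso.infl (proj K) X) := by
  obtain ⟨U₀, hU₀⟩ := (levelsS S).nonempty
  obtain ⟨V, hV, -, -, hVχ, hfix⟩ :=
    InflationLevel.exists_normal_level_trivial hpS M hM U₀ hU₀
  obtain ⟨F, hF, rfl⟩ := (mem_levelsS_iff S V).1 hV
  haveI := hF.1
  have hKS : (IntermediateField.normalClosure ℚ F Qbar).IsUnramifiedOutside S :=
    isUnramifiedOutside_normalClosure hF
  have hfd : FiniteDimensional ℚ (IntermediateField.normalClosure ℚ F Qbar) := hKS.1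
  have hn : Normal ℚ (IntermediateField.normalClosure ℚ F Qbar) := normalClosure.normal ℚ F Qbar
  have hle : (IntermediateField.normalClosure ℚ F Qbar).fixingSubgroup ≤ F.fixingSubgroup :=
    fixingSubgroup_normalClosure_le F
  exact ⟨_, hfd, hn, hKS, hle.trans hVχ,
    exists_iso_infl_of_trivial _ M (fun σ hσ m => hfix σ (hle hσ) m)⟩

end Descent

/-! ### The final statement -/

/-- INPUT (A3)+(A5) for all levels: Tate's formula at the level `W = π⁻¹(D)` for every finite
Galois `K/ℚ` unramified outside `S ∋ p`, containing `μ_p`, whose primes above `S` generate the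
class group, and every cyclic subgroup `D ≤ Gal(K/ℚ)` of order prime to `p`. -/
def LevelTateAll (p : ℕ) [Fact p.Prime] : Prop :=
  ∀ (S : Finset Nat.Primes), pPrime p ∈ S →
  ∀ (K : IntermediateField ℚ Qbar) [FiniteDimensional ℚ K] [Normal ℚ K] [NumberField K],
    K.IsUnramifiedOutside S → K.fixingSubgroup ≤ (cycloChar p).ker →
    SUnits.IsClassGenerating (FirstIneq.primesAbove K S) →
    ∀ D : Subgroup (K ≃ₐ[ℚ] K), IsCyclic D → (Nat.card D).Coprime p →
      ∀ X : FRep (ZMod p) (K ≃ₐ[ℚ] K),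
        LevelTate S (D.comap (proj K)) (PermTensorIso.infl (proj K) X)

/-- INPUT (E8): no nonzero level character of `Gal(Qbar/K)` is totally split above `S` when the
primes of `K` above `S` generate the class group. -/
def NoSplitAll (p : ℕ) [Fact p.Prime] : Prop :=
  ∀ (S : Finset Nat.Primes), pPrime p ∈ S →
  ∀ (K : IntermediateField ℚ Qbar) [FiniteDimensional ℚ K] [Normal ℚ K] [NumberField K],
    K.IsUnramifiedOutside S →
    SUnits.IsClassGenerating (FirstIneq.primesAbove K S) → NoSplitChar p S K.fixingSubgroup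

/-- Discreteness is preserved by enlarging `S`. -/
theorem isDiscrete_mono {S T : Finset Nat.Primes} (hST : S ⊆ T) (M : Rep (ZMod p) Γℚ)
    (hM : (levelsS S).IsDiscrete M) : (levelsS T).IsDiscrete M := by
  intro m
  obtain ⟨U, ⟨F, hF, rfl⟩, h⟩ := hM m
  exact ⟨_, ⟨F, hF.mono hST, rfl⟩, h⟩

/-- **(EC) after enlarging `S`**: for every finite discrete module `M` unramified outside `S ∋ p`
(`p` odd) there is a finite set of primes `T ⊇ S` with `phiC T M = 0`, i.e. `TateEulerC T M`. -/
theorem exists_superset_phiC_eq_zero (hp2 : p ≠ 2) (hLT : LevelTateAll p) (hNS : NoSplitAll p)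
    (I : ∀ T : Finset Nat.Primes, pPrime p ∈ T → GlobalInput p T)
    (S : Finset Nat.Primes) (hpS : pPrime p ∈ S) (M : Rep (ZMod p) Γℚ) [Finite M]
    (hM : (levelsS S).IsDiscrete M) :
    ∃ T : Finset Nat.Primes, S ⊆ T ∧ phiC T M = 0 := by
  obtain ⟨K, hfd, hn, hKS, hKχ, X, ⟨e⟩⟩ := exists_iso_infl hpS M hM
  haveI : NumberField K := { to_charZero := inferInstance, to_finiteDimensional := hfd }
  obtain ⟨T, hST, hcl⟩ := KillClassGroup.exists_isClassGenerating_primesAbove K S
  have hpT : pPrime p ∈ T := hST hpS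
  have hKT : K.IsUnramifiedOutside T := hKS.mono hST
  refine ⟨T, hST, ?_⟩
  rw [phiC_of_iso T e]
  exact phiC_infl_eq_zero K hp2 hpT (I T hpT) hKT (hNS T hpT K hKT hcl)
    (fun D hD hDp Y => hLT T hpT K hKT hKχ hcl D hD hDp Y) X

/-- The same in the shape of the (EC) contract: `T` disjoint from `S`, conclusion for `S ∪ T`. -/
theorem exists_enlarge_phiC_eq_zero (hp2 : p ≠ 2) (hLT : LevelTateAll p) (hNS : NoSplitAll p)
    (I : ∀ T : Finset Nat.Primes, pPrime p ∈ T → GlobalInput p T)
    (S : Finset Nat.Primes) (hpS : pPrime p ∈ S) (M : Rep (ZMod p) Γℚ) [Finite M]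
    (hM : (levelsS S).IsDiscrete M) :
    ∃ T : Finset Nat.Primes, Disjoint S T ∧ phiC (S ∪ T) M = 0 := by
  classical
  obtain ⟨T, hST, h⟩ := exists_superset_phiC_eq_zero hp2 hLT hNS I S hpS M hM
  refine ⟨T \ S, Finset.disjoint_sdiff, ?_⟩
  rw [Finset.union_sdiff_of_subset hST]
  exact h

end Fermat.Agent.S56x.Euler.EC
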