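import Mathlib
import Fermat.Agent.S56x.Euler.InflationLevel
import Fermat.Agent.S56x.Euler.HindSetting

/-!
# P-S56, block (B), (EC) line: finite discrete modules are inflations, `K`-form

`K`-form corollary of `Euler/InflationLevel.lean` in the SETTING v2 of `Euler/HindSetting.lean`
(helper11): a finite discrete `𝔽_p[Γℚ]`-module `X` unramified outside `S ∋ p` is EQUAL to the
inflation `Hind.infl K M = Rep.res (Hind.proj K) M` of a representation `M` (on the same carrier)
of `Gal(K/ℚ) = (K ≃ₐ[ℚ] K)`, for a finite Galois extension `K/ℚ` inside `Qbar` whose fixing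
subgroup is a level of `levelsS S` contained in `ker χ_p` (and in any given level `U₀`).

* `descRep K X h` : the representation of `Gal(K/ℚ)` on the carrier of `X`
  (`h : ∀ s ∈ K.fixingSubgroup, ∀ m, X.ρ s m = m`), `infl_descRep : Hind.infl K (descRep K X h) = X`;
* `exists_galois_level_trivial`, `exists_inflation_gal`.
-/

set_option autoImplicit false

open CategoryTheory

namespace Fermat.Agent.S56x.Euler.InflationGal

open Fermat.Agent.Lib.CFT.Profinite Fermat.Agent.Lib.CFT.Profinite.LevelFamily ExtCitation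
open Fermat.Agent.Lib.CFT.Profinite.Bridge
open Fermat.Agent.S56x.Euler

local notation "Qbar" => AlgebraicClosure ℚ
local notation "Γℚ" => (AlgebraicClosure ℚ ≃ₐ[ℚ] AlgebraicClosure ℚ)

local instance isAlgebraicQbar_ig : Algebra.IsAlgebraic ℚ (AlgebraicClosure ℚ) :=
  AlgebraicClosure.isAlgebraic ℚ
local instance isAlgClosureQbar_ig : IsAlgClosure ℚ (AlgebraicClosure ℚ) :=
  ⟨inferInstance, inferInstance⟩
local instance normalQbar_ig : Normal ℚ (AlgebraicClosure ℚ) :=
  IsAlgClosure.normal ℚ (AlgebraicClosure ℚ)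
local instance isGaloisQbar_ig : IsGalois ℚ (AlgebraicClosure ℚ) := ⟨⟩

variable {p : ℕ} [Fact p.Prime]

section Desc

variable (K : IntermediateField ℚ Qbar) [Normal ℚ K]

theorem proj_surjective : Function.Surjective (Hind.proj K) :=
  AlgEquiv.restrictNormalHom_surjective Qbar

/-- `X.ρ` is constant on the fibres of `π`. -/
theorem ρ_eq_of_proj_eq (X : Rep (ZMod p) Γℚ)
    (h : ∀ s ∈ K.fixingSubgroup, ∀ m : X, X.ρ s m = m) {σ τ : Γℚ}
    (hστ : Hind.proj K σ = Hind.proj K τ) : X.ρ σ = X.ρ τ := by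
  have h1 : Hind.proj K (τ⁻¹ * σ) = 1 := by
    rw [map_mul, map_inv, hστ, inv_mul_cancel]
  have h2 : X.ρ (τ⁻¹ * σ) = 1 :=
    LinearMap.ext fun m => h _ ((Hind.proj_eq_one_iff K _).1 h1) m
  have h3 : X.ρ σ = X.ρ (τ * (τ⁻¹ * σ)) := by
    rw [mul_inv_cancel_left]
  rw [h3, map_mul, h2, mul_one]

/-- The descent of the action of `Γℚ` on `X` to `Gal(K/ℚ)`. -/
noncomputable def descRepresentation (X : Rep (ZMod p) Γℚ)
    (h : ∀ s ∈ K.fixingSubgroup, ∀ m : X, X.ρ s m = m) :
    Representation (ZMod p) (K ≃ₐ[ℚ] K) X.V where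
  toFun g := X.ρ (Function.surjInv (proj_surjective K) g)
  map_one' := by
    rw [← map_one X.ρ]
    apply ρ_eq_of_proj_eq K X h
    rw [Function.surjInv_eq (proj_surjective K), map_one]
  map_mul' g g' := by
    rw [← map_mul X.ρ]
    apply ρ_eq_of_proj_eq K X h
    rw [map_mul, Function.surjInv_eq (proj_surjective K), Function.surjInv_eq (proj_surjective K),
      Function.surjInv_eq (proj_surjective K)]

theorem descRepresentation_comp (X : Rep (ZMod p) Γℚ)
    (h : ∀ s ∈ K.fixingSubgroup, ∀ m : X, X.ρ s m = m) :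
    (descRepresentation K X h).comp (Hind.proj K) = X.ρ := by
  ext1 σ
  show X.ρ (Function.surjInv (proj_surjective K) (Hind.proj K σ)) = X.ρ σ
  apply ρ_eq_of_proj_eq K X h
  rw [Function.surjInv_eq (proj_surjective K)]

@[simp]
theorem descRepresentation_proj (X : Rep (ZMod p) Γℚ)
    (h : ∀ s ∈ K.fixingSubgroup, ∀ m : X, X.ρ s m = m) (σ : Γℚ) :
    descRepresentation K X h (Hind.proj K σ) = X.ρ σ :=
  DFunLike.congr_fun (descRepresentation_comp K X h) σ

/-- The representation of `Gal(K/ℚ)` on the carrier of `X`, for `X` fixed pointwise by the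
fixing subgroup of `K`. -/
noncomputable def descRep (X : Rep (ZMod p) Γℚ)
    (h : ∀ s ∈ K.fixingSubgroup, ∀ m : X, X.ρ s m = m) : Rep (ZMod p) (K ≃ₐ[ℚ] K) :=
  Rep.of (descRepresentation K X h)

theorem descRep_V (X : Rep (ZMod p) Γℚ)
    (h : ∀ s ∈ K.fixingSubgroup, ∀ m : X, X.ρ s m = m) : (descRep K X h).V = X.V := rfl

instance finite_descRep (X : Rep (ZMod p) Γℚ) [Finite X]
    (h : ∀ s ∈ K.fixingSubgroup, ∀ m : X, X.ρ s m = m) : Finite (descRep K X h) :=
  inferInstanceAs (Finite X)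

/-- **`X` IS the inflation of `descRep K X h`.** -/
theorem infl_descRep (X : Rep (ZMod p) Γℚ)
    (h : ∀ s ∈ K.fixingSubgroup, ∀ m : X, X.ρ s m = m) :
    Hind.infl K (descRep K X h) = X := by
  show Rep.of ((descRepresentation K X h).comp (Hind.proj K)) = X
  rw [descRepresentation_comp]

/-- The isomorphism form of `infl_descRep`. -/
noncomputable def inflDescRepIso (X : Rep (ZMod p) Γℚ)
    (h : ∀ s ∈ K.fixingSubgroup, ∀ m : X, X.ρ s m = m) :
    X ≅ Hind.infl K (descRep K X h) :=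
  eqToIso (infl_descRep K X h).symm

end Desc

section Arith

variable {S : Finset Nat.Primes}

/-- **(A0) part 2, `K`-form, level statement.**  A finite discrete module unramified outside
`S ∋ p` is fixed pointwise by the fixing subgroup of a finite Galois extension `K/ℚ` which is a
level of `levelsS S` inside `U₀ ⊓ ker χ_p`. -/
theorem exists_galois_level_trivial (hpS : pPrime p ∈ S) (X : Rep (ZMod p) Γℚ) [Finite X]
    (hX : (levelsS S).IsDiscrete X) (U₀ : Subgroup Γℚ) (hU₀ : U₀ ∈ (levelsS S).levels) :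
    ∃ (K : IntermediateField ℚ Qbar) (_ : FiniteDimensional ℚ K) (_ : IsGalois ℚ K),
      K.fixingSubgroup ∈ (levelsS S).levels ∧ K.fixingSubgroup ≤ U₀ ∧
      K.fixingSubgroup ≤ (cycloChar p).ker ∧ ∀ s ∈ K.fixingSubgroup, ∀ m : X, X.ρ s m = m := by
  obtain ⟨V, hV, -, h0, hχ, hfix⟩ :=
    InflationLevel.exists_normal_level_trivial hpS X hX U₀ hU₀
  obtain ⟨F, hF, rfl⟩ := hV
  have hfd : FiniteDimensional ℚ F := hF.1
  have hle := fixingSubgroup_normalClosure_le F
  have hn : Normal ℚ (IntermediateField.normalClosure ℚ F Qbar) := normalClosure.normal ℚ F Qbar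
  have hsep : Algebra.IsSeparable ℚ (IntermediateField.normalClosure ℚ F Qbar) :=
    Algebra.isSeparable_tower_bot_of_isSeparable ℚ _ Qbar
  exact ⟨IntermediateField.normalClosure ℚ F Qbar, inferInstance, ⟨⟩,
    ⟨_, isUnramifiedOutside_normalClosure hF, rfl⟩, hle.trans h0, hle.trans hχ,
    fun s hs m => hfix s (hle hs) m⟩

/-- **(A0) part 2, `K`-form.**  Every finite discrete module unramified outside `S ∋ p` is the
inflation `Hind.infl K M` of a finite representation `M` of `Gal(K/ℚ)` for a finite Galois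
extension `K/ℚ` whose fixing subgroup is a level of `levelsS S` inside `ker χ_p`. -/
theorem exists_inflation_gal (hpS : pPrime p ∈ S) (X : Rep (ZMod p) Γℚ) [Finite X]
    (hX : (levelsS S).IsDiscrete X) :
    ∃ (K : IntermediateField ℚ Qbar) (_ : FiniteDimensional ℚ K) (_ : IsGalois ℚ K),
      K.fixingSubgroup ∈ (levelsS S).levels ∧ K.fixingSubgroup ≤ (cycloChar p).ker ∧
      ∃ (M : Rep (ZMod p) (K ≃ₐ[ℚ] K)) (_ : Finite M), Hind.infl K M = X := by
  obtain ⟨U₀, hU₀⟩ := (levelsS S).nonempty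
  obtain ⟨K, hfd, hgal, hK, -, hχ, hfix⟩ := exists_galois_level_trivial hpS X hX U₀ hU₀
  exact ⟨K, hfd, hgal, hK, hχ, descRep K X hfix, finite_descRep K X hfix, infl_descRep K X hfix⟩

/-- Isomorphism form of `exists_inflation_gal` (the shape of note `S56-IFACE-EC-Hind`). -/
theorem exists_inflation_gal_iso (hpS : pPrime p ∈ S) (X : Rep (ZMod p) Γℚ) [Finite X]
    (hX : (levelsS S).IsDiscrete X) :
    ∃ (K : IntermediateField ℚ Qbar) (_ : FiniteDimensional ℚ K) (_ : IsGalois ℚ K),
      K.fixingSubgroup ∈ (levelsS S).levels ∧ K.fixingSubgroup ≤ (cycloChar p).ker ∧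
      ∃ (M : Rep (ZMod p) (K ≃ₐ[ℚ] K)) (_ : Finite M), Nonempty (X ≅ Hind.infl K M) := by
  obtain ⟨K, hfd, hgal, hK, hχ, M, hM, h⟩ := exists_inflation_gal hpS X hX
  exact ⟨K, hfd, hgal, hK, hχ, M, hM, ⟨eqToIso h.symm⟩⟩

end Arith

end Fermat.Agent.S56x.Euler.InflationGal
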