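import Fermat.Agent.S56x.Euler.PhiInflate
import Fermat.Agent.S56x.Euler.InflationGal
import Fermat.Agent.S56x.Euler.KillClassGroup
import Fermat.Agent.S56x.GW.GlobalInputArith

/-!
# P-S56, block (B), (EC) line: from the cyclic step `hind` to the export consumed by `GW/MainAssembly`

(helper87; hypothesis-style top of the `(EC)` line, backup/plug for `Euler/EC.lean`.)

`HindStatement p` is the cyclic step of the `(EC)` line in the `K`-form of `Euler/HindSetting.lean`:
Tate's formula `TateEulerC S (Coind_W (Inf M |_W))`, `W` the preimage of a cyclic subgroup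
`C ≤ Gal(K/ℚ)` of order prime to `p`, for every finite Galois `K/ℚ` unramified outside `S`,
containing `μ_p`, whose primes above `S` generate the class group.

`exists_tateEulerC_of_hind` derives from it the hypothesis `hEC` of `GW/MainAssembly.gwRest_of`
VERBATIM: for every finite discrete `M` unramified outside `S ∋ p` there is `T ⊇ S` with
`TateEulerC T M`.  Ingredients: `InflationGal.exists_inflation_gal_iso` (helper38),
`KillClassGroup.exists_isClassGenerating_primesAbove` (helper63),
`PhiInflate.tateEulerC_of_iso_res` (helper49, on top of helper66's induction theorem and helper5's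
`isoPermRep`), `arithGlobalInput` (helper87).
-/

set_option autoImplicit false

open CategoryTheory Module ExtCitation

namespace Fermat.Agent.S56x.Euler.ECTop

open Fermat.Agent.Lib.CFT.Profinite Fermat.Agent.Lib.CFT.Profinite.LevelFamily
open Fermat.Agent.Lib.CFT.Profinite.Bridge
open Fermat.Agent.Lib.CFT.Global Fermat.Agent.Lib.CFT.Duality
open Fermat.Agent.S56x.GW Fermat.Agent.S56x.Euler

local notation "Qbar" => AlgebraicClosure ℚ
local notation "Γℚ" => (AlgebraicClosure ℚ ≃ₐ[ℚ] AlgebraicClosure ℚ)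

variable {p : ℕ} [Fact p.Prime]

/-- **The cyclic step `hind` of the `(EC)` line, `K`-form** (the target of `Euler/Hind.lean`). -/
def HindStatement (p : ℕ) [Fact p.Prime] : Prop :=
  ∀ (S : Finset Nat.Primes), pPrime p ∈ S →
  ∀ (K : IntermediateField ℚ Qbar) [FiniteDimensional ℚ K] [IsGalois ℚ K] [NumberField K],
    K.fixingSubgroup ∈ (levelsS S).levels → K.fixingSubgroup ≤ (cycloChar p).ker →
    SUnits.IsClassGenerating (FirstIneq.primesAbove (↥K) S) →
    ∀ C : Subgroup (K ≃ₐ[ℚ] K), IsCyclic C → (Nat.card C).Coprime p →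
    ∀ M : Rep (ZMod p) (K ≃ₐ[ℚ] K), Module.Finite (ZMod p) M →
      TateEulerC S (Hind.indMod K C M)

/-- Levels unramified outside `S` are levels unramified outside any `T ⊇ S`. -/
theorem mem_levelsS_of_subset {S T : Finset Nat.Primes} (h : S ⊆ T) {U : Subgroup Γℚ}
    (hU : U ∈ (levelsS S).levels) : U ∈ (levelsS T).levels := by
  obtain ⟨F, hF, rfl⟩ := hU
  exact ⟨F, hF.mono h, rfl⟩

/-- Discreteness is monotone in `S`. -/
theorem isDiscrete_of_subset {S T : Finset Nat.Primes} (h : S ⊆ T) {M : Rep (ZMod p) Γℚ}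
    (hM : (levelsS S).IsDiscrete M) : (levelsS T).IsDiscrete M := by
  intro m
  obtain ⟨U, hU, hm⟩ := hM m
  exact ⟨U, mem_levelsS_of_subset h hU, hm⟩

/-- **Tate's formula after enlarging `S`, from the cyclic step.**  The conclusion is the hypothesis
`hEC` of `GW/MainAssembly.gwRest_of` verbatim. -/
theorem exists_tateEulerC_of_hind (hp2 : p ≠ 2) (hind : HindStatement p)
    (S : Finset Nat.Primes) (hpS : pPrime p ∈ S) (M : Rep.{0} (ZMod p) Γℚ) [Finite M]
    (hM : (levelsS S).IsDiscrete M) : ∃ T : Finset Nat.Primes, S ⊆ T ∧ TateEulerC T M := by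
  obtain ⟨K, hfd, hgal, hKS, hKχ, X, hX, ⟨e⟩⟩ :=
    InflationGal.exists_inflation_gal_iso hpS M hM
  have : NumberField (↥K) := ⟨⟩
  obtain ⟨T, hST, hcl⟩ := KillClassGroup.exists_isClassGenerating_primesAbove (F := ↥K) S
  have hpT : pPrime p ∈ T := hST hpS
  have hKT : K.fixingSubgroup ∈ (levelsS T).levels := mem_levelsS_of_subset hST hKS
  refine ⟨T, hST, ?_⟩
  have : Module.Finite (ZMod p) X := Module.Finite.of_finite
  refine PhiInflate.tateEulerC_of_iso_res (Hind.proj K) hp2 hpT (arithGlobalInput hp2 T hpT)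
    (InflationGal.proj_surjective K) ⟨K.fixingSubgroup, hKT, fun s hs => ?_⟩
    (fun D hD hDp Y hY => hind T hpT K hKT hKχ hcl D hD hDp Y hY) X M e
  exact MonoidHom.mem_ker.2 ((Hind.proj_eq_one_iff K s).2 hs)

end Fermat.Agent.S56x.Euler.ECTop
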