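/-
P-S56 (Taylor–Wiles primes), block (B), (EC) line: equivariant counting lemmas (helper4).
Mathlib + `Euler/InvDual` (helper65: `avg`, `funRep`, `eqFun`) only.

For a finite group `H` whose order is invertible in the field `k`:

* `finrank_invariants_of_exact` : a short exact sequence `0 → A → B → C → 0` of `H`-representations
  (`B` finite-dimensional) gives `finrank B^H = finrank A^H + finrank C^H` (Maschke: `(·)^H` is
  exact; surjectivity on invariants by the averaging operator);
* `finrank_eqFun_of_exact` : the same for the equivariant functions `eqFun X ·` on a finite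
  `H`-set `X`;
* `finrank_linHom_invariants_of_exact` : the same for `Hom_H(N, ·) = (linHom ρN ·).invariants`.

For ANY group `H` (no finiteness, no hypothesis on the characteristic) and an `H`-set `X` with
finitely many orbits:

* `eqFunOrbitEquiv` : `eqFun X ρ ≃ₗ ∏_{ω ∈ H \ X} V^{Stab (x_ω)}`, `f ↦ (f x_ω)_ω`, where
  `x_ω = ω.out` is the chosen representative of the orbit `ω`;
* `finrank_eqFun_eq_sum` : `finrank (eqFun X ρ) = ∑_ω finrank V^{Stab (x_ω)}`.
-/
import Mathlib
import Fermat.Agent.S56x.Euler.InvDual

set_option autoImplicit false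
set_option linter.style.haveILetI false
set_option linter.unusedSectionVars false

open Module

noncomputable section

namespace Fermat.Agent.S56x.Euler.EquivariantCount

open Fermat.Agent.S56x.Euler.InvDual

variable {k : Type*} [Field k] {H : Type*} [Group H]

/-! ### Exactness of invariants (Maschke) -/

section Exact

variable {A B C : Type*} [AddCommGroup A] [Module k A] [AddCommGroup B] [Module k B]
  [AddCommGroup C] [Module k C]
  (ρA : Representation k H A) (ρB : Representation k H B) (ρC : Representation k H C)
  (f : A →ₗ[k] B) (g : B →ₗ[k] C)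

/-- the restriction of an equivariant map to the invariants -/
def invMap {A B : Type*} [AddCommGroup A] [Module k A] [AddCommGroup B] [Module k B]
    (ρA : Representation k H A) (ρB : Representation k H B) (f : A →ₗ[k] B)
    (hf : ∀ h a, f (ρA h a) = ρB h (f a)) : ρA.invariants →ₗ[k] ρB.invariants :=
  (f.comp ρA.invariants.subtype).codRestrict ρB.invariants (fun a h => by
    have ha : ρA h (a : A) = a := a.2 h
    show ρB h (f (a : A)) = f (a : A)
    rw [← hf, ha])

@[simp] theorem coe_invMap {A B : Type*} [AddCommGroup A] [Module k A] [AddCommGroup B]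
    [Module k B] (ρA : Representation k H A) (ρB : Representation k H B) (f : A →ₗ[k] B)
    (hf : ∀ h a, f (ρA h a) = ρB h (f a)) (a : ρA.invariants) :
    ((invMap ρA ρB f hf a : ρB.invariants) : B) = f (a : A) := rfl

theorem invMap_injective (hfρ : ∀ h a, f (ρA h a) = ρB h (f a)) (hf : Function.Injective f) :
    Function.Injective (invMap ρA ρB f hfρ) := by
  intro a b hab
  apply Subtype.ext
  apply hf
  have := congrArg (Subtype.val) hab
  simpa using this

/-- left exactness of invariants -/
theorem range_invMap_eq_ker (hfρ : ∀ h a, f (ρA h a) = ρB h (f a))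
    (hgρ : ∀ h b, g (ρB h b) = ρC h (g b)) (hf : Function.Injective f)
    (hfg : LinearMap.range f = LinearMap.ker g) :
    LinearMap.range (invMap ρA ρB f hfρ) = LinearMap.ker (invMap ρB ρC g hgρ) := by
  apply le_antisymm
  · rintro _ ⟨a, rfl⟩
    rw [LinearMap.mem_ker]
    apply Subtype.ext
    rw [coe_invMap, coe_invMap]
    have : f (a : A) ∈ LinearMap.ker g := hfg ▸ LinearMap.mem_range_self f (a : A)
    simpa using this
  · intro b hb
    rw [LinearMap.mem_ker] at hb
    have hb' : g (b : B) = 0 := by
      have := congrArg Subtype.val hb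
      simpa using this
    have hmem : (b : B) ∈ LinearMap.range f := hfg ▸ (LinearMap.mem_ker.mpr hb')
    obtain ⟨a, ha⟩ := hmem
    have hainv : a ∈ ρA.invariants := by
      intro h
      apply hf
      rw [hfρ, ha]
      exact b.2 h
    exact ⟨⟨a, hainv⟩, Subtype.ext ha⟩

/-- right exactness of invariants when `|H|` is invertible (averaging) -/
theorem invMap_surjective [Fintype H] (hH : (Fintype.card H : k) ≠ 0)
    (hgρ : ∀ h b, g (ρB h b) = ρC h (g b)) (hg : Function.Surjective g) :
    Function.Surjective (invMap ρB ρC g hgρ) := by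
  intro c
  obtain ⟨b, hb⟩ := hg (c : C)
  refine ⟨⟨avg ρB b, avg_mem_invariants ρB b⟩, ?_⟩
  apply Subtype.ext
  rw [coe_invMap]
  show g (avg ρB b) = (c : C)
  rw [avg_apply, map_smul, map_sum]
  have : ∀ h : H, g (ρB h b) = (c : C) := fun h => by
    rw [hgρ, hb]; exact c.2 h
  simp only [this, Finset.sum_const, Finset.card_univ]
  rw [← Nat.cast_smul_eq_nsmul k, smul_smul, inv_mul_cancel₀ hH, one_smul]

/-- **Maschke, dimension form**: for a short exact sequence `0 → A → B → C → 0` of
representations of a finite group of order invertible in `k`,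
`finrank B^H = finrank A^H + finrank C^H`. -/
theorem finrank_invariants_of_exact [Finite H] (hH : (Nat.card H : k) ≠ 0)
    [FiniteDimensional k B]
    (hfρ : ∀ h a, f (ρA h a) = ρB h (f a)) (hgρ : ∀ h b, g (ρB h b) = ρC h (g b))
    (hf : Function.Injective f) (hg : Function.Surjective g)
    (hfg : LinearMap.range f = LinearMap.ker g) :
    finrank k ρB.invariants = finrank k ρA.invariants + finrank k ρC.invariants := by
  haveI := Fintype.ofFinite H
  have hH' : (Fintype.card H : k) ≠ 0 := by rwa [← Nat.card_eq_fintype_card]
  have h1 := LinearMap.finrank_range_add_finrank_ker (invMap ρB ρC g hgρ)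
  rw [LinearMap.range_eq_top.mpr (invMap_surjective ρB ρC g hH' hgρ hg), finrank_top,
    ← range_invMap_eq_ker ρA ρB ρC f g hfρ hgρ hf hfg,
    LinearMap.finrank_range_of_inj (invMap_injective ρA ρB f hfρ hf)] at h1
  omega

end Exact

/-! ### Equivariant functions on an `H`-set are exact -/

section ExactEqFun

variable {A B C : Type*} [AddCommGroup A] [Module k A] [AddCommGroup B] [Module k B]
  [AddCommGroup C] [Module k C]
  (ρA : Representation k H A) (ρB : Representation k H B) (ρC : Representation k H C)
  (f : A →ₗ[k] B) (g : B →ₗ[k] C)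

/-- `eqFun X ·` is exact: `finrank eqFun(X,B) = finrank eqFun(X,A) + finrank eqFun(X,C)`. -/
theorem finrank_eqFun_of_exact [Finite H] (hH : (Nat.card H : k) ≠ 0)
    (X : Type*) [MulAction H X] [Finite X] [FiniteDimensional k B]
    (hfρ : ∀ h a, f (ρA h a) = ρB h (f a)) (hgρ : ∀ h b, g (ρB h b) = ρC h (g b))
    (hf : Function.Injective f) (hg : Function.Surjective g)
    (hfg : LinearMap.range f = LinearMap.ker g) :
    finrank k (eqFun X ρB) = finrank k (eqFun X ρA) + finrank k (eqFun X ρC) := by
  rw [eqFun_eq_invariants, eqFun_eq_invariants, eqFun_eq_invariants]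
  haveI := Fintype.ofFinite X
  refine finrank_invariants_of_exact (funRep X ρA) (funRep X ρB) (funRep X ρC)
    (f.compLeft X) (g.compLeft X) hH ?_ ?_ ?_ ?_ ?_
  · intro h a
    ext x
    simp [hfρ]
  · intro h b
    ext x
    simp [hgρ]
  · exact fun a b hab => funext fun x => hf (congrFun hab x)
  · intro c
    choose b hb using hg
    exact ⟨fun x => b (c x), funext fun x => hb (c x)⟩
  · ext b
    rw [LinearMap.mem_ker]
    constructor
    · rintro ⟨a, rfl⟩
      ext x
      have : f (a x) ∈ LinearMap.ker g := hfg ▸ LinearMap.mem_range_self f (a x)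
      simpa using this
    · intro hb
      have hx : ∀ x, b x ∈ LinearMap.range f := fun x => by
        rw [hfg, LinearMap.mem_ker]
        exact congrFun hb x
      choose a ha using hx
      exact ⟨a, funext ha⟩

end ExactEqFun

/-! ### `Hom_H(N, ·)` is exact -/

section ExactHom

variable {N A B C : Type*} [AddCommGroup N] [Module k N] [AddCommGroup A] [Module k A]
  [AddCommGroup B] [Module k B] [AddCommGroup C] [Module k C]
  (ρN : Representation k H N)
  (ρA : Representation k H A) (ρB : Representation k H B) (ρC : Representation k H C)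
  (f : A →ₗ[k] B) (g : B →ₗ[k] C)

/-- `Hom_H(N, ·) = (linHom ρN ·).invariants` is exact:
`finrank Hom_H(N,B) = finrank Hom_H(N,A) + finrank Hom_H(N,C)`. -/
theorem finrank_linHom_invariants_of_exact [Finite H] (hH : (Nat.card H : k) ≠ 0)
    [FiniteDimensional k N] [FiniteDimensional k B]
    (hfρ : ∀ h a, f (ρA h a) = ρB h (f a)) (hgρ : ∀ h b, g (ρB h b) = ρC h (g b))
    (hf : Function.Injective f) (hg : Function.Surjective g)
    (hfg : LinearMap.range f = LinearMap.ker g) :
    finrank k (Representation.linHom ρN ρB).invariants =
      finrank k (Representation.linHom ρN ρA).invariants +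
        finrank k (Representation.linHom ρN ρC).invariants := by
  refine finrank_invariants_of_exact (Representation.linHom ρN ρA) (Representation.linHom ρN ρB)
    (Representation.linHom ρN ρC) (LinearMap.llcomp k N A B f) (LinearMap.llcomp k N B C g)
    hH ?_ ?_ ?_ ?_ ?_
  · intro h a
    ext n
    simp [Representation.linHom_apply, hfρ]
  · intro h b
    ext n
    simp [Representation.linHom_apply, hgρ]
  · intro a b hab
    ext n
    exact hf (by simpa using LinearMap.congr_fun hab n)
  · intro c
    obtain ⟨s, hs⟩ := g.exists_rightInverse_of_surjective (LinearMap.range_eq_top.mpr hg)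
    refine ⟨s.comp c, ?_⟩
    ext n
    have := LinearMap.congr_fun hs (c n)
    simpa using this
  · ext b
    rw [LinearMap.mem_ker]
    constructor
    · rintro ⟨a, rfl⟩
      ext n
      have : f (a n) ∈ LinearMap.ker g := hfg ▸ LinearMap.mem_range_self f (a n)
      simpa using this
    · intro hb
      obtain ⟨r, hr⟩ := f.exists_leftInverse_of_injective (LinearMap.ker_eq_bot.mpr hf)
      have hx : ∀ n, b n ∈ LinearMap.range f := fun n => by
        rw [hfg, LinearMap.mem_ker]
        have := LinearMap.congr_fun hb n
        simpa using this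
      refine ⟨r.comp b, ?_⟩
      ext n
      obtain ⟨a, ha⟩ := hx n
      have h1 : r (f a) = a := by
        have := LinearMap.congr_fun hr a
        simpa using this
      show f (r (b n)) = b n
      rw [← ha, h1]

end ExactHom

/-! ### Orbit decomposition of the equivariant functions -/

section Orbits

variable {V : Type*} [AddCommGroup V] [Module k V] (X : Type*) [MulAction H X]
  (ρ : Representation k H V)

/-- the restriction of `ρ` to the stabiliser of `x` -/
abbrev stabRep (x : X) : Representation k (MulAction.stabilizer H x) V :=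
  ρ.comp (MulAction.stabilizer H x).subtype

theorem mem_stabRep_invariants {x : X} {v : V} :
    v ∈ (stabRep X ρ x).invariants ↔ ∀ s : H, s • x = x → ρ s v = v := by
  constructor
  · intro hv s hs
    exact hv ⟨s, hs⟩
  · intro hv s
    exact hv s.1 s.2

/-- the value of an equivariant function at `x` is fixed by the stabiliser of `x` -/
theorem eqFun_apply_mem {f : X → V} (hf : f ∈ eqFun X ρ) (x : X) :
    f x ∈ (stabRep X ρ x).invariants := by
  rw [mem_stabRep_invariants]
  intro s hs
  rw [← hf s x, hs]

/-- every point is a translate of the chosen representative of its orbit -/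
theorem exists_smul_out (y : X) :
    ∃ h : H, h • (Quotient.out (Quotient.mk (MulAction.orbitRel H X) y)) = y := by
  have h1 : (MulAction.orbitRel H X).r (Quotient.out (Quotient.mk (MulAction.orbitRel H X) y)) y :=
    Quotient.mk_out (s := MulAction.orbitRel H X) y
  have h2 : (Quotient.out (Quotient.mk (MulAction.orbitRel H X) y)) ∈ MulAction.orbit H y := h1
  obtain ⟨g, hg⟩ := h2
  refine ⟨g⁻¹, ?_⟩
  rw [← hg, inv_smul_smul]

/-- a translating element -/
def transl (y : X) : H := Classical.choose (exists_smul_out (H := H) X y)

theorem transl_smul (y : X) :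
    transl (H := H) X y • (Quotient.out (Quotient.mk (MulAction.orbitRel H X) y)) = y :=
  Classical.choose_spec (exists_smul_out (H := H) X y)

/-- evaluation at the orbit representatives -/
def evalOut : eqFun X ρ →ₗ[k]
    (∀ ω : MulAction.orbitRel.Quotient H X, (stabRep X ρ (Quotient.out ω)).invariants) where
  toFun f ω := ⟨(f : X → V) (Quotient.out ω), eqFun_apply_mem X ρ f.2 _⟩
  map_add' _ _ := rfl
  map_smul' _ _ := rfl

@[simp] theorem evalOut_apply (f : eqFun X ρ) (ω : MulAction.orbitRel.Quotient H X) :
    ((evalOut X ρ f ω : (stabRep X ρ (Quotient.out ω)).invariants) : V) =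
      (f : X → V) (Quotient.out ω) := rfl

theorem evalOut_injective : Function.Injective (evalOut X ρ) := by
  intro f g hfg
  apply Subtype.ext
  funext y
  have hy := transl_smul (H := H) X y
  have h1 := f.2 (transl (H := H) X y) (Quotient.out (Quotient.mk (MulAction.orbitRel H X) y))
  have h2 := g.2 (transl (H := H) X y) (Quotient.out (Quotient.mk (MulAction.orbitRel H X) y))
  rw [hy] at h1 h2
  rw [h1, h2]
  congr 1
  have := congrArg (fun F => ((F (Quotient.mk (MulAction.orbitRel H X) y) :
    (stabRep X ρ (Quotient.out (Quotient.mk (MulAction.orbitRel H X) y))).invariants) : V))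
    hfg
  exact this

/-- the underlying vector of a family of invariants only depends on the orbit -/
theorem coe_congr
    (n : ∀ ω : MulAction.orbitRel.Quotient H X, (stabRep X ρ (Quotient.out ω)).invariants)
    {ω ω' : MulAction.orbitRel.Quotient H X} (h : ω = ω') : (n ω : V) = (n ω' : V) := by
  subst h; rfl

/-- the equivariant function with prescribed values at the orbit representatives -/
def extendOut
    (n : ∀ ω : MulAction.orbitRel.Quotient H X, (stabRep X ρ (Quotient.out ω)).invariants) :
    X → V :=
  fun y => ρ (transl (H := H) X y) (n (Quotient.mk (MulAction.orbitRel H X) y) : V)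

/-- `extendOut` does not depend on the translating element -/
theorem extendOut_eq
    (n : ∀ ω : MulAction.orbitRel.Quotient H X, (stabRep X ρ (Quotient.out ω)).invariants)
    (y : X) (h : H)
    (hh : h • (Quotient.out (Quotient.mk (MulAction.orbitRel H X) y)) = y) :
    extendOut X ρ n y = ρ h (n (Quotient.mk (MulAction.orbitRel H X) y) : V) := by
  unfold extendOut
  set x₀ := Quotient.out (Quotient.mk (MulAction.orbitRel H X) y) with hx₀
  set t := transl (H := H) X y with ht
  have ht' : t • x₀ = y := transl_smul (H := H) X y
  have hs : (h⁻¹ * t) • x₀ = x₀ := by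
    rw [mul_smul, ht', ← hh, inv_smul_smul]
  have hinv := (mem_stabRep_invariants X ρ).mp
    (n (Quotient.mk (MulAction.orbitRel H X) y)).2 (h⁻¹ * t) hs
  have : ρ t (n (Quotient.mk (MulAction.orbitRel H X) y) : V) =
      ρ h (ρ (h⁻¹ * t) (n (Quotient.mk (MulAction.orbitRel H X) y) : V)) := by
    rw [← Module.End.mul_apply, ← map_mul, mul_inv_cancel_left]
  rw [this, hinv]

theorem extendOut_mem
    (n : ∀ ω : MulAction.orbitRel.Quotient H X, (stabRep X ρ (Quotient.out ω)).invariants) :
    extendOut X ρ n ∈ eqFun X ρ := by
  intro h y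
  have hω : Quotient.mk (MulAction.orbitRel H X) (h • y) =
      Quotient.mk (MulAction.orbitRel H X) y := by
    apply Quotient.sound
    exact ⟨h, rfl⟩
  have hy := transl_smul (H := H) X y
  have h1 : (h * transl (H := H) X y) •
      (Quotient.out (Quotient.mk (MulAction.orbitRel H X) (h • y))) = h • y := by
    rw [hω, mul_smul, hy]
  rw [extendOut_eq X ρ n (h • y) _ h1, map_mul, Module.End.mul_apply]
  congr 1
  unfold extendOut
  rw [coe_congr X ρ n hω]

theorem evalOut_surjective : Function.Surjective (evalOut X ρ) := by
  intro n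
  refine ⟨⟨extendOut X ρ n, extendOut_mem X ρ n⟩, ?_⟩
  funext ω
  apply Subtype.ext
  rw [evalOut_apply]
  show extendOut X ρ n (Quotient.out ω) = (n ω : V)
  have hω : Quotient.mk (MulAction.orbitRel H X) (Quotient.out ω) = ω := Quotient.out_eq ω
  have h1 : (1 : H) • (Quotient.out (Quotient.mk (MulAction.orbitRel H X) (Quotient.out ω))) =
      Quotient.out ω := by
    rw [one_smul, hω]
  rw [extendOut_eq X ρ n (Quotient.out ω) 1 h1, map_one, Module.End.one_apply]
  exact coe_congr X ρ n hω

/-- **orbit decomposition**: `eqFun X ρ ≃ ∏_ω V^{Stab (x_ω)}`, `f ↦ (f x_ω)_ω`. -/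
def eqFunOrbitEquiv : eqFun X ρ ≃ₗ[k]
    (∀ ω : MulAction.orbitRel.Quotient H X, (stabRep X ρ (Quotient.out ω)).invariants) :=
  LinearEquiv.ofBijective (evalOut X ρ) ⟨evalOut_injective X ρ, evalOut_surjective X ρ⟩

@[simp] theorem eqFunOrbitEquiv_apply (f : eqFun X ρ) (ω : MulAction.orbitRel.Quotient H X) :
    ((eqFunOrbitEquiv X ρ f ω : (stabRep X ρ (Quotient.out ω)).invariants) : V) =
      (f : X → V) (Quotient.out ω) := rfl

/-- **dimension of the equivariant functions**: the sum over the orbits of the dimensions of the
invariants of the stabilisers of the orbit representatives. -/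
theorem finrank_eqFun_eq_sum [Fintype (MulAction.orbitRel.Quotient H X)]
    [FiniteDimensional k V] :
    finrank k (eqFun X ρ) =
      ∑ ω : MulAction.orbitRel.Quotient H X,
        finrank k (stabRep X ρ (Quotient.out ω)).invariants := by
  rw [LinearEquiv.finrank_eq (eqFunOrbitEquiv X ρ), Module.finrank_pi_fintype]

end Orbits

end Fermat.Agent.S56x.Euler.EquivariantCount

end
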