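import Mathlib

/-!
# P-S56 block (B), (EC) line: the idempotent trick for induced modules (helper71)

For a subgroup `C` of a group `G` of finite order invertible in the field `k` and a representation
`N` of `C`, the coinduced module `Rep.coind C.subtype N` is the module of invariants of
`Fun(G, N)` (functions `G → N`, `G` acting by right translation) under the commuting action
`(c • f) x = ρ_N(c) (f (c⁻¹ x))` of `C` by endomorphisms of representations.  Hence every additive
functor `F : Rep k G ⥤ ModuleCat k` satisfies `F(coind N) = F(Fun(G, N))^C`, and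
`F(Fun(G, N)) = F(Fun(G, k)) ⊗ N`.

* `fixedEquiv` : the functor-free linear algebra core;
* `EndAction`, `EndAction.invRep`, `EndAction.invEquiv : F(X^C) ≃ F(X)^C`;
* `funRep`, `twist`, `indAction`, `invIsoCoind : (indAction C N).invRep ≅ Rep.coind C.subtype N`;
* `tensorEquiv : F(Fun(G, N)) ≃ F(Fun(G, k)) ⊗ N`;
* `subsingleton_map_coind` : if `F` kills `Fun(G, k)` it kills `Rep.coind C.subtype N`.
-/

set_option autoImplicit false

open CategoryTheory

namespace Fermat.Agent.S56x.Euler.IdempotentInd

universe u v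

variable {k G : Type u} [Field k] [Group G]

/-! ### The functor-free linear algebra core -/

section LinAlg

variable {C' : Type*} [Fintype C'] {FX FY : Type*} [AddCommGroup FX] [Module k FX]
  [AddCommGroup FY] [Module k FY]

/-- The common fixed space of a family of operators. -/
def fixedSub (ψ : C' → (FX →ₗ[k] FX)) : Submodule k FX where
  carrier := {z | ∀ c, ψ c z = z}
  add_mem' := fun {x y} hx hy c => by
    show ψ c (x + y) = x + y
    rw [map_add, hx c, hy c]
  zero_mem' := fun c => map_zero _
  smul_mem' := fun r x hx c => by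
    show ψ c (r • x) = r • x
    rw [map_smul, hx c]

theorem mem_fixedSub_iff (ψ : C' → (FX →ₗ[k] FX)) {z : FX} :
    z ∈ fixedSub ψ ↔ ∀ c, ψ c z = z := Iff.rfl

/-- **Functor-free form.** If `Fi : FY → FX`, `Fr : FX → FY` satisfy `Fr ∘ Fi = |C|`,
`Fi ∘ Fr = Σ_c ψ_c`, `ψ_c ∘ Fi = Fi` and `|C|` is invertible, then `Fi` identifies `FY` with the common
fixed space of the `ψ_c`. -/
noncomputable def fixedEquiv (Fi : FY →ₗ[k] FX) (Fr : FX →ₗ[k] FY) (ψ : C' → (FX →ₗ[k] FX))
    (h1 : ∀ y, Fr (Fi y) = (Fintype.card C' : k) • y) (h2 : ∀ z, Fi (Fr z) = ∑ c, ψ c z)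
    (h3 : ∀ c y, ψ c (Fi y) = Fi y) (hC : (Fintype.card C' : k) ≠ 0) :
    FY ≃ₗ[k] fixedSub ψ :=
  LinearEquiv.ofBijective (Fi.codRestrict (fixedSub ψ) fun y c => h3 c y)
    ⟨fun y y' h => by
      have h0 : Fi y = Fi y' := congrArg Subtype.val h
      have h4 := congrArg Fr h0
      rw [h1, h1] at h4
      exact smul_right_injective _ hC h4, fun z => by
      refine ⟨(Fintype.card C' : k)⁻¹ • Fr z.1, Subtype.ext ?_⟩
      show Fi ((Fintype.card C' : k)⁻¹ • Fr z.1) = z.1
      rw [map_smul, h2]
      have hz : ∀ c, ψ c z.1 = z.1 := z.2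
      simp_rw [hz]
      rw [Finset.sum_const, Finset.card_univ, ← Nat.cast_smul_eq_nsmul k, smul_smul,
        inv_mul_cancel₀ hC, one_smul]⟩

theorem fixedEquiv_apply_coe (Fi : FY →ₗ[k] FX) (Fr : FX →ₗ[k] FY) (ψ : C' → (FX →ₗ[k] FX))
    (h1 : ∀ y, Fr (Fi y) = (Fintype.card C' : k) • y) (h2 : ∀ z, Fi (Fr z) = ∑ c, ψ c z)
    (h3 : ∀ c y, ψ c (Fi y) = Fi y) (hC : (Fintype.card C' : k) ≠ 0) (y : FY) :
    ((fixedEquiv Fi Fr ψ h1 h2 h3 hC y : fixedSub ψ) : FX) = Fi y := rfl

end LinAlg

/-- An action of a group `C` on a representation `X` by endomorphisms of representations. -/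
structure EndAction (C : Type*) [Group C] (X : Rep.{u} k G) where
  /-- the operators -/
  a : C → (X ⟶ X)
  map_one : a 1 = 𝟙 X
  map_mul : ∀ c c' : C, a (c * c') = a c' ≫ a c

namespace EndAction

variable {C : Type*} [Group C] {X : Rep.{u} k G} (A : EndAction C X)

theorem a_mul_apply (c c' : C) (x : X) : (A.a (c * c')).hom x = (A.a c).hom ((A.a c').hom x) := by
  rw [A.map_mul]; rfl

theorem a_one_apply (x : X) : (A.a 1).hom x = x := by
  rw [A.map_one]; rfl

/-- The submodule of `C`-invariants. -/
def invSub : Submodule k X.V where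
  carrier := {x | ∀ c, (A.a c).hom x = x}
  add_mem' := fun {x y} hx hy c => by
    show (A.a c).hom (x + y) = x + y
    rw [map_add, hx c, hy c]
  zero_mem' := fun c => map_zero _
  smul_mem' := fun r x hx c => by
    show (A.a c).hom (r • x) = r • x
    rw [map_smul, hx c]

theorem mem_invSub_iff {x : X.V} : x ∈ A.invSub ↔ ∀ c, (A.a c).hom x = x := Iff.rfl

/-- The representation of `G` on the `C`-invariants. -/
def invRepresentation : Representation k G A.invSub where
  toFun g := (X.ρ g).restrict fun x hx c => by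
    rw [Rep.hom_comm_apply, hx c]
  map_one' := by
    ext x
    simp
  map_mul' g h := by
    ext x
    show X.ρ (g * h) x.1 = X.ρ g (X.ρ h x.1)
    rw [_root_.map_mul]
    rfl

/-- The `C`-invariants as a representation of `G`. -/
noncomputable abbrev invRep : Rep.{u} k G := Rep.of A.invRepresentation

theorem invRep_ρ_coe (g : G) (x : A.invRep) : ((A.invRep.ρ g x : A.invSub) : X.V) = X.ρ g x.1 := rfl

/-- The inclusion of the invariants. -/
noncomputable def incl : A.invRep ⟶ X :=
  Rep.ofHom ⟨A.invSub.subtype, fun g => by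
    ext x
    rfl⟩

@[simp] theorem incl_apply (x : A.invRep) : A.incl.hom x = x.1 := rfl

theorem incl_comp_a (c : C) : A.incl ≫ A.a c = A.incl := by
  ext x
  exact x.2 c

variable [Fintype C]

/-- The (unnormalised) averaging operator `Σ_c a(c)`. -/
noncomputable def avg : X ⟶ X := ∑ c : C, A.a c

/-- evaluation of morphisms at a vector, as an additive map -/
def evalHom {Y Z : Rep.{u} k G} (y : Y) : (Y ⟶ Z) →+ Z.V where
  toFun f := f.hom y
  map_zero' := rfl
  map_add' _ _ := rfl

theorem avg_apply (x : X) : A.avg.hom x = ∑ c : C, (A.a c).hom x :=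
  map_sum (evalHom (Z := X) x) _ _

theorem a_avg_apply (c : C) (x : X) : (A.a c).hom (A.avg.hom x) = A.avg.hom x := by
  rw [avg_apply, map_sum]
  simp_rw [← A.a_mul_apply]
  exact Fintype.sum_equiv (Equiv.mulLeft c) _ _ fun _ => rfl

/-- The averaging operator, corestricted to the invariants. -/
noncomputable def proj : X ⟶ A.invRep :=
  Rep.ofHom ⟨A.avg.hom.toLinearMap.codRestrict A.invSub fun x c => A.a_avg_apply c x, fun g => by
    ext x
    exact Rep.hom_comm_apply A.avg g x⟩

theorem proj_apply_coe (x : X) : ((A.proj.hom x : A.invSub) : X.V) = A.avg.hom x := rfl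

theorem proj_comp_incl : A.proj ≫ A.incl = ∑ c : C, A.a c := by
  ext x
  rfl

theorem incl_comp_proj : A.incl ≫ A.proj = (Fintype.card C) • 𝟙 A.invRep := by
  ext x
  show A.avg.hom x.1 = _
  rw [avg_apply]
  have hx : ∀ c : C, (A.a c).hom x.1 = x.1 := x.2
  simp_rw [hx]
  rw [Finset.sum_const, Finset.card_univ]
  rfl

/-! ### Additive functors commute with invariants -/

section Functor

variable (F : Rep.{u} k G ⥤ ModuleCat.{v} k)

/-- The invariants of `F(X)` under the operators `F(a c)`. -/
def FInv : Submodule k (F.obj X) where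
  carrier := {y | ∀ c, (F.map (A.a c)).hom y = y}
  add_mem' := fun {x y} hx hy c => by
    show (F.map (A.a c)).hom (x + y) = x + y
    rw [map_add, hx c, hy c]
  zero_mem' := fun c => map_zero _
  smul_mem' := fun r x hx c => by
    show (F.map (A.a c)).hom (r • x) = r • x
    rw [map_smul, hx c]

theorem mem_FInv_iff {y : F.obj X} : y ∈ A.FInv F ↔ ∀ c, (F.map (A.a c)).hom y = y := Iff.rfl

theorem map_incl_mem (y : F.obj A.invRep) : (F.map A.incl).hom y ∈ A.FInv F := fun c => by
  show (F.map A.incl ≫ F.map (A.a c)).hom y = _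
  rw [← F.map_comp, A.incl_comp_a]

/-- evaluation of morphisms of modules at a vector, as an additive map -/
def evalHomM {Y Z : ModuleCat.{v} k} (y : Y) : (Y ⟶ Z) →+ Z where
  toFun f := f.hom y
  map_zero' := rfl
  map_add' _ _ := rfl

variable [F.Additive]

theorem map_proj_map_incl (y : F.obj A.invRep) :
    (F.map A.proj).hom ((F.map A.incl).hom y) = (Fintype.card C : k) • y := by
  show (F.map A.incl ≫ F.map A.proj).hom y = _
  rw [← F.map_comp, A.incl_comp_proj, F.map_nsmul, F.map_id]
  show evalHomM y ((Fintype.card C) • 𝟙 (F.obj A.invRep)) = _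
  rw [map_nsmul, Nat.cast_smul_eq_nsmul]
  rfl

theorem map_incl_map_proj (z : F.obj X) :
    (F.map A.incl).hom ((F.map A.proj).hom z) = ∑ c : C, (F.map (A.a c)).hom z := by
  show (F.map A.proj ≫ F.map A.incl).hom z = _
  rw [← F.map_comp, A.proj_comp_incl, F.map_sum]
  exact map_sum (evalHomM (Z := F.obj X) z) _ _

theorem map_incl_injective (hC : (Fintype.card C : k) ≠ 0) :
    Function.Injective (F.map A.incl).hom := by
  intro y y' h
  have h1 := congrArg (F.map A.proj).hom h
  rw [A.map_proj_map_incl F, A.map_proj_map_incl F] at h1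
  exact smul_right_injective _ hC h1

theorem exists_of_mem_FInv (hC : (Fintype.card C : k) ≠ 0) {z : F.obj X} (hz : z ∈ A.FInv F) :
    ∃ y : F.obj A.invRep, (F.map A.incl).hom y = z := by
  refine ⟨(Fintype.card C : k)⁻¹ • (F.map A.proj).hom z, ?_⟩
  rw [map_smul, A.map_incl_map_proj F]
  have hz' : ∀ c : C, (F.map (A.a c)).hom z = z := hz
  simp_rw [hz']
  rw [Finset.sum_const, Finset.card_univ, ← Nat.cast_smul_eq_nsmul k, smul_smul,
    inv_mul_cancel₀ hC, one_smul]

/-- **Additive functors commute with invariants** under a finite group of invertible order: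
`F(X^C) ≃ F(X)^C`. -/
noncomputable def invEquiv (hC : (Fintype.card C : k) ≠ 0) : F.obj A.invRep ≃ₗ[k] A.FInv F :=
  LinearEquiv.ofBijective
    ((F.map A.incl).hom.codRestrict (A.FInv F) fun y => A.map_incl_mem F y)
    ⟨fun y y' h => A.map_incl_injective F hC (congrArg Subtype.val h), fun z => by
      obtain ⟨y, hy⟩ := A.exists_of_mem_FInv F hC z.2
      exact ⟨y, Subtype.ext hy⟩⟩

theorem invEquiv_apply_coe (hC : (Fintype.card C : k) ≠ 0) (y : F.obj A.invRep) :
    ((A.invEquiv F hC y : A.FInv F) : F.obj X) = (F.map A.incl).hom y := rfl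

end Functor

end EndAction


/-! ### The regular-type representation `Fun(G, V)` -/

section FunRep

variable (G) (V : Type u) [AddCommGroup V] [Module k V]

/-- right translation on functions `G → V` -/
def funρ : Representation k G (G → V) where
  toFun g := LinearMap.funLeft k V (· * g)
  map_one' := by ext f x; simp
  map_mul' g h := by ext f x; simp [mul_assoc]

/-- `Fun(G, V)` with `G` acting by right translation, `(g • f) x = f (x g)`. -/
noncomputable abbrev funRep : Rep.{u} k G := Rep.of (funρ (k := k) G V)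

variable {G V}

theorem funRep_ρ_apply (g : G) (f : funRep (k := k) G V) (x : G) :
    (funRep (k := k) G V).ρ g f x = f (x * g) := rfl

/-- A linear map `V → V'` and a left translation give a morphism `Fun(G, V) ⟶ Fun(G, V')`,
`f ↦ (x ↦ T (f (s⁻¹ x)))`. -/
noncomputable def twist {V' : Type u} [AddCommGroup V'] [Module k V'] (s : G) (T : V →ₗ[k] V') :
    funRep (k := k) G V ⟶ funRep (k := k) G V' :=
  Rep.ofHom ⟨(T.compLeft G).comp (LinearMap.funLeft k V (s⁻¹ * ·)), fun g => by
    ext f x
    simp [funρ, mul_assoc]⟩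

theorem twist_apply {V' : Type u} [AddCommGroup V'] [Module k V'] (s : G) (T : V →ₗ[k] V')
    (f : funRep (k := k) G V) (x : G) : (twist s T).hom f x = T (f (s⁻¹ * x)) := rfl

theorem twist_comp {V' V'' : Type u} [AddCommGroup V'] [Module k V'] [AddCommGroup V'']
    [Module k V''] (s s' : G) (T : V →ₗ[k] V') (T' : V' →ₗ[k] V'') :
    twist s T ≫ twist s' T' = twist (s' * s) (T' ∘ₗ T) := by
  ext f x
  show T' (T (f (s⁻¹ * (s'⁻¹ * x)))) = T' (T (f ((s' * s)⁻¹ * x)))
  rw [mul_inv_rev, mul_assoc]

theorem twist_add {V' : Type u} [AddCommGroup V'] [Module k V'] (s : G) (T T' : V →ₗ[k] V') :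
    twist s (T + T') = twist s T + twist s T' := by
  ext f x
  rfl

theorem twist_smul {V' : Type u} [AddCommGroup V'] [Module k V'] (s : G) (r : k) (T : V →ₗ[k] V') :
    twist s (r • T) = r • twist s T := by
  ext f x
  rfl

theorem twist_zero {V' : Type u} [AddCommGroup V'] [Module k V'] (s : G) :
    twist s (0 : V →ₗ[k] V') = 0 := by
  ext f x
  rfl

theorem twist_sum {V' : Type u} [AddCommGroup V'] [Module k V'] {ι : Type*} (t : Finset ι) (s : G)
    (T : ι → (V →ₗ[k] V')) : twist s (∑ i ∈ t, T i) = ∑ i ∈ t, twist s (T i) := by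
  classical
  induction t using Finset.induction_on with
  | empty => simp [twist_zero]
  | insert i t hi ih => rw [Finset.sum_insert hi, Finset.sum_insert hi, twist_add, ih]

theorem twist_one_id : twist (1 : G) (LinearMap.id : V →ₗ[k] V) = 𝟙 (funRep (k := k) G V) := by
  ext f x
  show f ((1 : G)⁻¹ * x) = f x
  simp

end FunRep

/-! ### Coinduction from a subgroup as invariants of `Fun(G, N)` -/

section IndAction

variable (C : Subgroup G) (N : Rep.{u} k C)

/-- The action of `C` on `Fun(G, N)` by `(c • f) x = ρ_N(c) (f (c⁻¹ x))`; it commutes with the right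
translations. -/
noncomputable def indAction : EndAction C (funRep (k := k) G N.V) where
  a c := twist (c : G) (N.ρ c)
  map_one := by
    ext f x
    show N.ρ 1 (f ((1 : G)⁻¹ * x)) = f x
    simp
  map_mul c c' := by
    ext f x
    show N.ρ (c * c') (f (((c * c' : C) : G)⁻¹ * x)) = N.ρ c (N.ρ c' (f ((c' : G)⁻¹ * ((c : G)⁻¹ * x))))
    rw [_root_.map_mul, Subgroup.coe_mul, mul_inv_rev, mul_assoc]
    rfl

theorem indAction_a_apply (c : C) (f : funRep (k := k) G N.V) (x : G) :
    ((indAction C N).a c).hom f x = N.ρ c (f ((c : G)⁻¹ * x)) := rfl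

theorem invSub_indAction_eq :
    (indAction C N).invSub = Representation.coindV C.subtype N.ρ := by
  ext f
  rw [EndAction.mem_invSub_iff, Representation.mem_coindV]
  constructor
  · intro h c x
    have := congrFun (h c) ((c : G) * x)
    rw [indAction_a_apply, inv_mul_cancel_left] at this
    exact this.symm
  · intro h c
    funext x
    rw [indAction_a_apply, ← h c, Subgroup.subtype_apply, mul_inv_cancel_left]

/-- **Coinduction is the space of invariants** of `Fun(G, N)` under the twisted left translations. -/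
noncomputable def invIsoCoind : (indAction C N).invRep ≅ Rep.coind C.subtype N :=
  Rep.mkIso <| Representation.Equiv.mk (LinearEquiv.ofEq _ _ (invSub_indAction_eq C N)) (fun g => by
    ext f
    rfl)

end IndAction

/-! ### `F(Fun(G, N)) = F(Fun(G, k)) ⊗ N`, equivariantly -/

section Tensor

open TensorProduct

variable {C : Subgroup G} (N : Rep.{u} k C) {ι : Type*} [Fintype ι] [DecidableEq ι]
  (b : Module.Basis ι k N.V) (F : Rep.{u} k G ⥤ ModuleCat.{v} k)

/-- The regular representation `Fun(G, k)` (right translations). -/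
noncomputable abbrev regRep : Rep.{u} k G := funRep (k := k) G k

/-- Left translation by `c⁻¹` on `Fun(G, k)`: an endomorphism of the representation. -/
noncomputable def lam (s : G) : regRep (k := k) (G := G) ⟶ regRep (k := k) (G := G) :=
  twist s LinearMap.id

theorem lam_apply (s : G) (f : regRep (k := k) (G := G)) (x : G) : (lam s).hom f x = f (s⁻¹ * x) := rfl

theorem lam_one : lam (1 : G) = 𝟙 (regRep (k := k) (G := G)) := twist_one_id

theorem lam_mul (s s' : G) : lam (k := k) (s * s') = lam s' ≫ lam s := by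
  rw [lam, lam, lam, twist_comp]
  rfl

/-- The `i`-th coordinate embedding `Fun(G, k) ⟶ Fun(G, N)`, `f ↦ f • b i`. -/
noncomputable def inj (i : ι) : regRep (k := k) (G := G) ⟶ funRep (k := k) G N.V :=
  twist 1 (LinearMap.toSpanSingleton k N.V (b i))

/-- The `i`-th coordinate projection `Fun(G, N) ⟶ Fun(G, k)`. -/
noncomputable def prj (i : ι) : funRep (k := k) G N.V ⟶ regRep (k := k) (G := G) :=
  twist 1 (b.coord i)

theorem inj_comp_prj (i j : ι) :
    inj N b i ≫ prj N b j = if i = j then 𝟙 _ else 0 := by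
  rw [inj, prj, twist_comp]
  split_ifs with h
  · subst h
    rw [← twist_one_id, mul_one]
    congr 1
    ext
    simp
  · rw [← twist_zero (1 * 1)]
    congr 1
    ext
    simp [Finsupp.single_eq_of_ne (Ne.symm h)]

theorem sum_prj_comp_inj : ∑ i, prj N b i ≫ inj N b i = 𝟙 (funRep (k := k) G N.V) := by
  simp_rw [prj, inj, twist_comp]
  rw [← twist_sum, ← twist_one_id, mul_one]
  congr 1
  ext n
  rw [LinearMap.sum_apply]
  simp only [LinearMap.coe_comp, Function.comp_apply,
    LinearMap.toSpanSingleton_apply, LinearMap.id_coe, id_eq, Module.Basis.coord_apply]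
  exact b.sum_repr n

variable [F.Additive]

theorem map_comp_apply {A₁ A₂ A₃ : Rep.{u} k G} (f : A₁ ⟶ A₂) (g : A₂ ⟶ A₃) (y : F.obj A₁) :
    (F.map (f ≫ g)).hom y = (F.map g).hom ((F.map f).hom y) := by
  rw [F.map_comp]
  rfl

theorem map_inj_map_prj (i j : ι) (z : F.obj (regRep (k := k) (G := G))) :
    (F.map (prj N b j)).hom ((F.map (inj N b i)).hom z) = if i = j then z else 0 := by
  rw [← map_comp_apply, inj_comp_prj]
  split_ifs with h
  · rw [F.map_id]
    rfl
  · rw [F.map_zero]
    rfl

theorem sum_map_prj_map_inj (y : F.obj (funRep (k := k) G N.V)) :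
    ∑ i, (F.map (inj N b i)).hom ((F.map (prj N b i)).hom y) = y := by
  simp_rw [← map_comp_apply]
  have h := congrArg (fun f => (F.map f).hom y) (sum_prj_comp_inj N b)
  simp only [F.map_sum, F.map_id] at h
  exact ((map_sum (EndAction.evalHomM (Z := F.obj (funRep (k := k) G N.V)) y) _ _).symm.trans h)

/-- `F(Fun(G, N)) → F(Fun(G, k)) ⊗ N`, `y ↦ Σᵢ F(prᵢ) y ⊗ bᵢ`. -/
noncomputable def toTensor :
    F.obj (funRep (k := k) G N.V) →ₗ[k] (F.obj (regRep (k := k) (G := G))) ⊗[k] N.V :=
  ∑ i, ((TensorProduct.mk k (F.obj (regRep (k := k) (G := G))) N.V).flip (b i)) ∘ₗ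
    (F.map (prj N b i)).hom

theorem toTensor_apply (y : F.obj (funRep (k := k) G N.V)) :
    toTensor N b F y = ∑ i, (F.map (prj N b i)).hom y ⊗ₜ[k] b i := by
  rw [toTensor, LinearMap.sum_apply]
  rfl

/-- `F(Fun(G, k)) ⊗ N → F(Fun(G, N))`, `z ⊗ n ↦ Σᵢ nᵢ • F(inᵢ) z`. -/
noncomputable def ofTensor :
    (F.obj (regRep (k := k) (G := G))) ⊗[k] N.V →ₗ[k] F.obj (funRep (k := k) G N.V) :=
  TensorProduct.lift (LinearMap.mk₂ k
    (fun z n => ∑ i, b.coord i n • (F.map (inj N b i)).hom z)
    (fun z z' n => by simp only [map_add, smul_add, Finset.sum_add_distrib])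
    (fun r z n => by simp only [map_smul, Finset.smul_sum, smul_comm r])
    (fun z n n' => by simp only [map_add, add_smul, Finset.sum_add_distrib])
    (fun r z n => by simp only [map_smul, smul_eq_mul, mul_smul, Finset.smul_sum]))

theorem ofTensor_tmul (z : F.obj (regRep (k := k) (G := G))) (n : N.V) :
    ofTensor N b F (z ⊗ₜ[k] n) = ∑ i, b.coord i n • (F.map (inj N b i)).hom z := rfl

theorem ofTensor_toTensor (y : F.obj (funRep (k := k) G N.V)) :
    ofTensor N b F (toTensor N b F y) = y := by
  rw [toTensor_apply, map_sum]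
  simp_rw [ofTensor_tmul]
  have : ∀ i, ∑ j, b.coord j (b i) • (F.map (inj N b j)).hom ((F.map (prj N b i)).hom y) =
      (F.map (inj N b i)).hom ((F.map (prj N b i)).hom y) := by
    intro i
    rw [Finset.sum_eq_single i]
    · simp
    · intro j _ hj
      simp [Finsupp.single_eq_of_ne hj]
    · intro h
      exact absurd (Finset.mem_univ i) h
  simp_rw [this]
  exact sum_map_prj_map_inj N b F y

theorem toTensor_ofTensor (t : (F.obj (regRep (k := k) (G := G))) ⊗[k] N.V) :
    toTensor N b F (ofTensor N b F t) = t := by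
  induction t using TensorProduct.induction_on with
  | zero => simp
  | add x y hx hy => rw [map_add, map_add, hx, hy]
  | tmul z n =>
    rw [ofTensor_tmul, toTensor_apply]
    simp_rw [map_sum, map_smul, map_inj_map_prj]
    have : ∀ i, (∑ j, b.coord j n • (if j = i then z else 0)) = b.coord i n • z := by
      intro i
      rw [Finset.sum_eq_single i]
      · simp
      · intro j _ hj
        simp [hj]
      · intro h
        exact absurd (Finset.mem_univ i) h
    simp_rw [this, TensorProduct.smul_tmul]
    rw [← TensorProduct.tmul_sum]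
    congr 1
    exact b.sum_repr n

/-- **`F(Fun(G, N)) ≃ F(Fun(G, k)) ⊗ N`.** -/
noncomputable def tensorEquiv :
    F.obj (funRep (k := k) G N.V) ≃ₗ[k] (F.obj (regRep (k := k) (G := G))) ⊗[k] N.V :=
  LinearEquiv.ofLinearMap (toTensor N b F) (ofTensor N b F)
    (LinearMap.ext fun t => toTensor_ofTensor N b F t)
    (LinearMap.ext fun y => ofTensor_toTensor N b F y)

include b in
/-- If `F` kills the regular representation `Fun(G, k)`, it kills `Fun(G, N)`. -/
theorem subsingleton_map_funRep [Subsingleton (F.obj (regRep (k := k) (G := G)))] :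
    Subsingleton (F.obj (funRep (k := k) G N.V)) :=
  (tensorEquiv N b F).toEquiv.subsingleton

include b in
/-- **If an additive functor kills the regular representation `Fun(G, k)`, it kills every module
coinduced from a finite subgroup of order invertible in `k`.** -/
theorem subsingleton_map_coind [Finite C] (hC : (Nat.card C : k) ≠ 0)
    [Subsingleton (F.obj (regRep (k := k) (G := G)))] :
    Subsingleton (F.obj (Rep.coind C.subtype N)) := by
  classical
  haveI : Fintype C := Fintype.ofFinite C
  have hC' : (Fintype.card C : k) ≠ 0 := by rwa [← Nat.card_eq_fintype_card]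
  haveI := subsingleton_map_funRep N b F
  haveI : Subsingleton ((indAction C N).FInv F) := inferInstance
  haveI : Subsingleton (F.obj (indAction C N).invRep) :=
    ((indAction C N).invEquiv F hC').toEquiv.subsingleton
  exact ((F.mapIso (invIsoCoind C N)).toLinearEquiv.symm).toEquiv.subsingleton

end Tensor

end Fermat.Agent.S56x.Euler.IdempotentInd
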