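import Mathlib
import Fermat.Prelude.Def_GaloisRep_ComplexConjugation

/-!
# P-S56, (EC) line, leaf (A5a)(4): infinite places of a Galois level field (helper86)

For a finite Galois extension `K/ℚ` inside `Qbar`, with `G = Gal(K/ℚ)` acting on the infinite
places of `K` (Mathlib's action), `cK` the restriction of the Prelude's complex conjugation and
`w0 K` the place induced by the Prelude's complex embedding:

* `isPretransitive`: `G` acts transitively on `InfinitePlace K`;
* `stabilizer_w0`: the stabiliser of `w0 K` is `⟨cK⟩ = {1, cK}`;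
* `orbitEquiv : G ⧸ ⟨cK⟩ ≃ InfinitePlace K`, `G`-equivariant (`orbitEquiv_smul`);
* `smul_w0_eq_iff` : the `Γℚ`-form of the stabiliser.

No "totally complex" hypothesis is needed: if `K` is real then `cK = 1`.
-/

set_option autoImplicit false
set_option linter.unusedSectionVars false

open NumberField NumberField.InfinitePlace

namespace Fermat.Agent.S56x.Euler.InfinitePlaceOrbit

local notation "Qbar" => AlgebraicClosure ℚ
local notation "Γℚ" => (AlgebraicClosure ℚ ≃ₐ[ℚ] AlgebraicClosure ℚ)

section Group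

variable {G : Type*} [Group G]

/-- The cyclic group generated by an involution is `{1, g}`. -/
theorem mem_zpowers_of_mul_self {g : G} (hg : g * g = 1) (x : G) :
    x ∈ Subgroup.zpowers g ↔ x = 1 ∨ x = g := by
  constructor
  · rintro ⟨n, rfl⟩
    have h2 : g ^ (2 : ℤ) = 1 := by rw [zpow_two, hg]
    have hn : g ^ n = g ^ (n % 2) := by
      conv_lhs => rw [← Int.emod_add_mul_ediv n 2, zpow_add, zpow_mul, h2, one_zpow, mul_one]
    rcases Int.emod_two_eq_zero_or_one n with h | h
    · left; show g ^ n = 1; rw [hn, h, zpow_zero]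
    · right; show g ^ n = g; rw [hn, h, zpow_one]
  · rintro (rfl | rfl)
    · exact one_mem _
    · exact Subgroup.mem_zpowers _

end Group

variable (K : IntermediateField ℚ Qbar) [FiniteDimensional ℚ K] [IsGalois ℚ K]

instance numberField : NumberField K where
  to_charZero := inferInstance
  to_finiteDimensional := inferInstance

/-- The complex embedding of `K` induced by the Prelude's `complexEmbedding`. -/
noncomputable def phi0 : K →+* ℂ :=
  (complexEmbedding : Qbar →ₐ[ℚ] ℂ).toRingHom.comp (algebraMap K Qbar)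

@[simp] theorem phi0_apply (x : K) : phi0 K x = complexEmbedding (x : Qbar) := rfl

/-- The distinguished infinite place of `K`. -/
noncomputable def w0 : InfinitePlace K := InfinitePlace.mk (phi0 K)

/-- The restriction of complex conjugation to `K`. -/
noncomputable def cK : K ≃ₐ[ℚ] K := AlgEquiv.restrictNormalHom K complexConjugation

theorem cK_apply (x : K) : ((cK K x : K) : Qbar) = complexConjugation (x : Qbar) :=
  AlgEquiv.restrictNormal_commutes complexConjugation K x

theorem cK_mul_self : cK K * cK K = 1 := by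
  rw [cK, ← map_mul, complexConjugation_mul_self, map_one]

theorem isConj_cK : ComplexEmbedding.IsConj (phi0 K) (cK K) := by
  ext x
  show (starRingEnd ℂ) (phi0 K x) = phi0 K (cK K x)
  rw [phi0_apply, phi0_apply, cK_apply, complexEmbedding_complexConjugation]

/-- `Gal(K/ℚ)` acts transitively on the infinite places of `K`. -/
theorem exists_smul_eq (w w' : InfinitePlace K) : ∃ σ : K ≃ₐ[ℚ] K, σ • w = w' :=
  exists_smul_eq_of_comap_eq (Subsingleton.elim _ _)

instance isPretransitive : MulAction.IsPretransitive (K ≃ₐ[ℚ] K) (InfinitePlace K) :=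
  ⟨exists_smul_eq K⟩

/-- The stabiliser of the distinguished place is generated by complex conjugation. -/
theorem mem_stabilizer_w0_iff (σ : K ≃ₐ[ℚ] K) :
    σ ∈ MulAction.stabilizer (K ≃ₐ[ℚ] K) (w0 K) ↔ σ = 1 ∨ σ = cK K := by
  rw [w0, mem_stabilizer_mk_iff]
  refine or_congr Iff.rfl ?_
  rw [eq_comm]
  exact ((isConj_cK K).ext_iff).symm

theorem stabilizer_w0 :
    MulAction.stabilizer (K ≃ₐ[ℚ] K) (w0 K) = Subgroup.zpowers (cK K) := by
  ext σ
  rw [mem_stabilizer_w0_iff, mem_zpowers_of_mul_self (cK_mul_self K)]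

/-- **The infinite places of `K` as a homogeneous space**: `Gal(K/ℚ) ⧸ ⟨cK⟩ ≃ InfinitePlace K`,
`σ ↦ σ • w0`. -/
noncomputable def orbitEquiv : (K ≃ₐ[ℚ] K) ⧸ Subgroup.zpowers (cK K) ≃ InfinitePlace K :=
  (Subgroup.quotientEquivOfEq (stabilizer_w0 K).symm).trans
    (Equiv.ofBijective (MulAction.ofQuotientStabilizer (K ≃ₐ[ℚ] K) (w0 K))
      ⟨MulAction.injective_ofQuotientStabilizer _ _, fun w => by
        obtain ⟨σ, hσ⟩ := exists_smul_eq K (w0 K) w
        exact ⟨QuotientGroup.mk σ, by rw [MulAction.ofQuotientStabilizer_mk, hσ]⟩⟩)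

@[simp] theorem orbitEquiv_mk (σ : K ≃ₐ[ℚ] K) :
    orbitEquiv K (QuotientGroup.mk σ) = σ • w0 K := rfl

/-- `orbitEquiv` is equivariant. -/
theorem orbitEquiv_smul (σ : K ≃ₐ[ℚ] K) (x : (K ≃ₐ[ℚ] K) ⧸ Subgroup.zpowers (cK K)) :
    orbitEquiv K (σ • x) = σ • orbitEquiv K x := by
  induction x using QuotientGroup.induction_on with
  | H τ =>
    show orbitEquiv K (QuotientGroup.mk (σ * τ)) = σ • orbitEquiv K (QuotientGroup.mk τ)
    rw [orbitEquiv_mk, orbitEquiv_mk, mul_smul]

/-- The `Γℚ`-form of the stabiliser: `σ` fixes the distinguished place of `K` iff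
`σ ∈ Gal(Qbar/K) · ⟨c⟩`. -/
theorem restrict_smul_w0_eq_iff (σ : Γℚ) :
    (AlgEquiv.restrictNormalHom K σ) • w0 K = w0 K ↔
      σ ∈ K.fixingSubgroup ∨ σ * complexConjugation ∈ K.fixingSubgroup := by
  rw [← MulAction.mem_stabilizer_iff, mem_stabilizer_w0_iff]
  have hker : ∀ τ : Γℚ, AlgEquiv.restrictNormalHom K τ = 1 ↔ τ ∈ K.fixingSubgroup := by
    intro τ
    rw [IntermediateField.mem_fixingSubgroup_iff]
    constructor
    · intro h x hx
      have := AlgEquiv.restrictNormal_commutes τ K ⟨x, hx⟩
      rw [show AlgEquiv.restrictNormal τ K = AlgEquiv.restrictNormalHom K τ from rfl, h] at this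
      exact this.symm
    · intro h
      ext x
      have := AlgEquiv.restrictNormal_commutes τ K x
      rw [show AlgEquiv.restrictNormal τ K = AlgEquiv.restrictNormalHom K τ from rfl] at this
      exact this.trans (h x x.2)
  refine or_congr (hker σ) ?_
  rw [← hker, map_mul, ← cK]
  constructor
  · rintro h; rw [h, cK_mul_self]
  · intro h
    calc AlgEquiv.restrictNormalHom K σ
        = AlgEquiv.restrictNormalHom K σ * (cK K * cK K) := by rw [cK_mul_self, mul_one]
      _ = (AlgEquiv.restrictNormalHom K σ * cK K) * cK K := by rw [mul_assoc]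
      _ = cK K := by rw [h, one_mul]

end Fermat.Agent.S56x.Euler.InfinitePlaceOrbit
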