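import Fermat.Agent.S56x.Euler.InfinitePlaceOrbit
import Fermat.Agent.Lib.CFT.Global.SUnits

/-!
# P-S56, (EC) line, leaf (A5a)(4), part 2 (helper86): the shapes requested by `Euler/ShapiroLocal`

* `restrict_smul_w0_eq_iff_mem_sup`: `σ : Γℚ` fixes the distinguished infinite place of `K` iff
  `σ ∈ Gal(Qbar/K) ⊔ ⟨c⟩`;
* `smul_eq_infMap`: Mathlib's action of `Gal(K/ℚ)` on `InfinitePlace K` is `SUnits.infMap`.
-/

set_option autoImplicit false
set_option linter.unusedSectionVars false

open NumberField NumberField.InfinitePlace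

namespace Fermat.Agent.S56x.Euler.InfinitePlaceOrbit

local notation "Qbar" => AlgebraicClosure ℚ
local notation "Γℚ" => (AlgebraicClosure ℚ ≃ₐ[ℚ] AlgebraicClosure ℚ)

variable (K : IntermediateField ℚ Qbar) [FiniteDimensional ℚ K] [IsGalois ℚ K]

/-- The `Γℚ`-stabiliser of the distinguished infinite place of `K` is `Gal(Qbar/K) ⊔ ⟨c⟩`. -/
theorem restrict_smul_w0_eq_iff_mem_sup (σ : Γℚ) :
    (AlgEquiv.restrictNormalHom K σ) • w0 K = w0 K ↔
      σ ∈ K.fixingSubgroup ⊔ Subgroup.zpowers complexConjugation := by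
  constructor
  · intro h
    rcases (restrict_smul_w0_eq_iff K σ).1 h with h | h
    · exact Subgroup.mem_sup_left h
    · have : σ = (σ * complexConjugation) * complexConjugation := by
        rw [mul_assoc, complexConjugation_mul_self, mul_one]
      rw [this]
      exact Subgroup.mul_mem_sup h (Subgroup.mem_zpowers _)
  · intro h
    have hle : K.fixingSubgroup ⊔ Subgroup.zpowers complexConjugation ≤
        (MulAction.stabilizer (K ≃ₐ[ℚ] K) (w0 K)).comap (AlgEquiv.restrictNormalHom K) := by
      refine sup_le ?_ ?_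
      · intro τ hτ
        exact MulAction.mem_stabilizer_iff.2 ((restrict_smul_w0_eq_iff K τ).2 (Or.inl hτ))
      · rw [Subgroup.zpowers_le]
        refine MulAction.mem_stabilizer_iff.2 ((restrict_smul_w0_eq_iff K _).2 (Or.inr ?_))
        rw [complexConjugation_mul_self]
        exact one_mem _
    exact MulAction.mem_stabilizer_iff.1 (hle h)

/-- Mathlib's Galois action on infinite places is `SUnits.infMap`. -/
theorem smul_eq_infMap (σ : K ≃ₐ[ℚ] K) (w : InfinitePlace K) :
    σ • w = Fermat.Agent.Lib.CFT.Global.SUnits.infMap (σ : K ≃+* K) w := by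
  ext x
  rfl

end Fermat.Agent.S56x.Euler.InfinitePlaceOrbit
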