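import Fermat.Agent.S56x.Euler.PairingHom
import Fermat.Agent.S56x.Euler.DeltaAction
import Fermat.Agent.Lib.CFT.Global.KummerChars
import Fermat.Agent.Lib.CFT.Global.FirstIneqUnits
import Fermat.Agent.Lib.CFT.Global.SVersion.ESbarRep
import Fermat.Agent.Lib.CFT.Global.SVersion.OpenLevelField

/-!
# P-S56 block (B), (E6)/(A3): the arithmetic Kummer pairing and `H¹(W, N^∨(1)) ≃ Hom_W(N, Δ_S)`

Setting (helper11's SETTING v2): `K ⊆ Qbar` finite Galois over `ℚ`, unramified outside `S ∋ p`,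
containing a primitive `p`-th root of unity `ζ`; `C ≤ Gal(K/ℚ)`; `W = Wgrp K C` the preimage of
`C` in `Γℚ`; `V = Vsub K C = Gal(Qbar/K)` inside `W`.

* `zlog`, `pair0` : the pairing `Gal(Qbar/K) × Kˣ → 𝔽_p`, `⟨v, b⟩ = log_ζ (v β / β)`, `β^p = b`
  (from the frozen `KummerChars.kummerCharW`), bi-additive, killing `p`-th powers,
  `pair0_conj` : `⟨σ v σ⁻¹, σ b⟩ = χ_cyc(σ) ⟨v, b⟩`;
* `DeltaK p S K = Additive (Δ_S(K, p))` with the action `actW` of `W` (through `projC : W → C`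
  and `DeltaAction.deltaAction`); `kummerB : V → Δ_S(K, p) →+ 𝔽_p`;
* `isKummerPairing` : `kummerB` satisfies the axioms of `PairingHom.IsKummerPairing`
  (Hilbert 90 from the frozen `Kummer.exists_kummerChar_eq`; the ramification input
  `RamInput p S K` is a hypothesis here, proved in `Euler/KummerRam.lean`);
* `h1EquivEqHoms` : `H¹_{levelsS S}(W, N^∨(1)) ≃ EqHoms N (Δ_S(K, p))` for `p ∤ |C|` and `N`
  trivial on `V`.  No class group hypothesis.
-/

set_option autoImplicit false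
set_option linter.unusedSectionVars false
set_option linter.style.haveILetI false

open NumberField IsDedekindDomain

namespace Fermat.Agent.S56x.Euler.KummerPairing

/-! ### A discrete logarithm on `p`-th roots of unity -/

section ZLog

variable {R : Type*} [CommRing R] [IsDomain R] {p : ℕ} [hp : Fact p.Prime] {ζ : R}
  (hζ : IsPrimitiveRoot ζ p)

include hζ

theorem pow_natCast_val (n : ℕ) : ζ ^ ((n : ZMod p)).val = ζ ^ n := by
  rw [ZMod.val_natCast]
  conv_rhs => rw [← Nat.div_add_mod n p, pow_add, pow_mul, hζ.pow_eq_one, one_pow, one_mul]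

theorem pow_val_add (a b : ZMod p) : ζ ^ (a + b).val = ζ ^ a.val * ζ ^ b.val := by
  rw [← pow_add, ← pow_natCast_val hζ (a.val + b.val)]
  congr 2
  rw [Nat.cast_add, ZMod.natCast_zmod_val, ZMod.natCast_zmod_val]

theorem pow_val_mul (a b : ZMod p) : ζ ^ (a * b).val = (ζ ^ a.val) ^ b.val := by
  rw [← pow_mul, ← pow_natCast_val hζ (a.val * b.val)]
  congr 2
  rw [Nat.cast_mul, ZMod.natCast_zmod_val, ZMod.natCast_zmod_val]

theorem pow_val_injective {a b : ZMod p} (h : ζ ^ a.val = ζ ^ b.val) : a = b := by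
  have : NeZero p := ⟨hp.out.ne_zero⟩
  exact ZMod.val_injective p (hζ.pow_inj (ZMod.val_lt a) (ZMod.val_lt b) h)

open Classical in
/-- The discrete logarithm to base `ζ` (junk value `0` off the `p`-th roots of unity). -/
noncomputable def zlog (μ : R) : ZMod p :=
  haveI : NeZero p := ⟨hp.out.ne_zero⟩
  if h : μ ^ p = 1 then ((hζ.eq_pow_of_pow_eq_one h).choose : ZMod p) else 0

theorem pow_zlog {μ : R} (h : μ ^ p = 1) : ζ ^ (zlog hζ μ).val = μ := by
  have : NeZero p := ⟨hp.out.ne_zero⟩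
  rw [zlog, dif_pos h, pow_natCast_val hζ]
  exact (hζ.eq_pow_of_pow_eq_one h).choose_spec.2

theorem zlog_eq {μ : R} {a : ZMod p} (h : ζ ^ a.val = μ) : zlog hζ μ = a := by
  have h1 : μ ^ p = 1 := by rw [← h, ← pow_mul, mul_comm, pow_mul, hζ.pow_eq_one, one_pow]
  apply pow_val_injective hζ
  rw [pow_zlog hζ h1, h]

theorem zlog_one : zlog hζ (1 : R) = 0 := by
  apply zlog_eq
  rw [ZMod.val_zero, pow_zero]

theorem zlog_mul {μ ν : R} (hμ : μ ^ p = 1) (hν : ν ^ p = 1) :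
    zlog hζ (μ * ν) = zlog hζ μ + zlog hζ ν := by
  apply zlog_eq
  rw [pow_val_add hζ, pow_zlog hζ hμ, pow_zlog hζ hν]

theorem zlog_eq_zero_iff {μ : R} (hμ : μ ^ p = 1) : zlog hζ μ = 0 ↔ μ = 1 := by
  constructor
  · intro h
    have := pow_zlog hζ hμ
    rw [h, ZMod.val_zero, pow_zero] at this
    exact this.symm
  · rintro rfl
    exact zlog_one hζ

end ZLog

/-! ### The Kummer pairing `Gal(Qbar/K) × Kˣ → 𝔽_p` -/

section Pair0

open Fermat.Agent.Lib.CFT.Global.KummerChars Fermat.Agent.Lib.CFT.Global.SUnits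
  Fermat.Agent.Lib.CFT.Global.SVersion

local notation "Qbar" => AlgebraicClosure ℚ
local notation "Γℚ" => (AlgebraicClosure ℚ ≃ₐ[ℚ] AlgebraicClosure ℚ)

variable {p : ℕ} [hp : Fact p.Prime] {K : IntermediateField ℚ Qbar} {ζ : ↥K}
  (hζ : IsPrimitiveRoot ζ p)

include hζ in
theorem primitiveRoots_nonempty : (primitiveRoots p ↥K).Nonempty :=
  ⟨ζ, (mem_primitiveRoots hp.out.pos).2 hζ⟩

/-- The Kummer pairing: `⟨v, b⟩ = log_ζ (v β / β)`, `β ^ p = b`. -/
noncomputable def pair0 (v : ↥K.fixingSubgroup) (b : (↥K)ˣ) : ZMod p :=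
  zlog hζ (((kummerCharW (primitiveRoots_nonempty hζ) b v : (↥K)ˣ) : ↥K))

theorem kummerCharW_val_pow (v : ↥K.fixingSubgroup) (b : (↥K)ˣ) :
    (((kummerCharW (primitiveRoots_nonempty hζ) b v : (↥K)ˣ) : ↥K)) ^ p = 1 := by
  have h := kummerCharW_pow (primitiveRoots_nonempty hζ) b v
  have h2 := congrArg (fun u : (↥K)ˣ => (u : ↥K)) h
  simpa using h2

theorem pow_pair0 (v : ↥K.fixingSubgroup) (b : (↥K)ˣ) :
    ζ ^ (pair0 hζ v b).val = ((kummerCharW (primitiveRoots_nonempty hζ) b v : (↥K)ˣ) : ↥K) :=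
  pow_zlog hζ (kummerCharW_val_pow hζ v b)

theorem pair0_mul_right (v : ↥K.fixingSubgroup) (b b' : (↥K)ˣ) :
    pair0 hζ v (b * b') = pair0 hζ v b + pair0 hζ v b' := by
  unfold pair0
  rw [map_mul, MonoidHom.mul_apply, Units.val_mul,
    zlog_mul hζ (kummerCharW_val_pow hζ v b) (kummerCharW_val_pow hζ v b')]

theorem pair0_mul_left (v v' : ↥K.fixingSubgroup) (b : (↥K)ˣ) :
    pair0 hζ (v * v') b = pair0 hζ v b + pair0 hζ v' b := by
  unfold pair0
  rw [map_mul, Units.val_mul,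
    zlog_mul hζ (kummerCharW_val_pow hζ v b) (kummerCharW_val_pow hζ v' b)]

theorem pair0_one_right (v : ↥K.fixingSubgroup) : pair0 hζ v 1 = 0 := by
  unfold pair0
  rw [map_one, MonoidHom.one_apply, Units.val_one, zlog_one]

theorem pair0_pow_right (v : ↥K.fixingSubgroup) (c : (↥K)ˣ) : pair0 hζ v (c ^ p) = 0 := by
  have h : ∀ n : ℕ, pair0 hζ v (c ^ n) = (n : ZMod p) * pair0 hζ v c := by
    intro n
    induction n with
    | zero => rw [pow_zero, pair0_one_right, Nat.cast_zero, zero_mul]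
    | succ k ih => rw [pow_succ, pair0_mul_right, ih, Nat.cast_succ, add_mul, one_mul]
  rw [h, ZMod.natCast_self, zero_mul]

theorem pair0_eq_zero_iff (v : ↥K.fixingSubgroup) (b : (↥K)ˣ) :
    pair0 hζ v b = 0 ↔ kummerCharW (primitiveRoots_nonempty hζ) b v = 1 := by
  unfold pair0
  rw [zlog_eq_zero_iff hζ (kummerCharW_val_pow hζ v b)]
  exact ⟨fun h => Units.ext h, fun h => by rw [h]; rfl⟩

theorem forall_pair0_eq_zero_iff (b : (↥K)ˣ) :
    (∀ v : ↥K.fixingSubgroup, pair0 hζ v b = 0) ↔ ∃ c : (↥K)ˣ, c ^ p = b := by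
  rw [← kummerCharW_eq_one_iff (primitiveRoots_nonempty hζ) b]
  constructor
  · intro h
    ext1 v
    exact (pair0_eq_zero_iff hζ v b).1 (h v)
  · intro h v
    rw [pair0_eq_zero_iff, h]
    rfl

/-- Galois equivariance of the Kummer pairing: `⟨σ v σ⁻¹, σ b⟩ = χ_cyc(σ) ⟨v, b⟩`. -/
theorem pair0_conj (σ : Γℚ) (v v' : ↥K.fixingSubgroup) (b b' : (↥K)ˣ)
    (hv : (v' : Γℚ) = σ * (v : Γℚ) * σ⁻¹) (hb : (((b' : (↥K)ˣ) : ↥K) : Qbar) = σ ((b : ↥K) : Qbar)) :
    pair0 hζ v' b' = (ExtCitation.cycloChar p σ : ZMod p) * pair0 hζ v b := by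
  obtain ⟨β, hβ⟩ := hasRoots_top K p b (Subgroup.mem_top b)
  have hβ' : β ^ p = ((b : ↥K) : Qbar) := hβ
  have hσβ : (σ β) ^ p = ((b' : ↥K) : Qbar) := by rw [← map_pow, hβ', hb]
  have hβ0 : β ≠ 0 := by
    rintro rfl
    rw [zero_pow hp.out.ne_zero] at hβ'
    have : ((b : ↥K) : Qbar) ≠ 0 := by
      have := b.ne_zero
      exact fun h => this (by exact_mod_cast h)
    exact this hβ'.symm
  have hσβ0 : σ β ≠ 0 := fun h => hβ0 ((map_eq_zero_iff σ σ.injective).1 h)
  have h1 := kummerCharW_spec (primitiveRoots_nonempty hζ) b' v' hσβ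
  have h2 := kummerCharW_spec (primitiveRoots_nonempty hζ) b v hβ'
  have h3 : (v' : Γℚ) (σ β) = σ ((v : Γℚ) β) := by
    rw [hv, AlgEquiv.mul_apply, AlgEquiv.mul_apply, ← AlgEquiv.mul_apply σ⁻¹ σ, inv_mul_cancel,
      AlgEquiv.one_apply]
  rw [h3, h2, map_mul] at h1
  have h4 : σ ((((kummerCharW (primitiveRoots_nonempty hζ) b v : (↥K)ˣ) : ↥K)) : Qbar) =
      ((((kummerCharW (primitiveRoots_nonempty hζ) b' v' : (↥K)ˣ) : ↥K)) : Qbar) :=
    mul_right_cancel₀ hσβ0 h1
  apply zlog_eq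
  have h5 : ((ζ : ↥K) : Qbar) ^ p = 1 := by
    have := congrArg (fun x : ↥K => (x : Qbar)) hζ.pow_eq_one
    simpa using this
  have h6 := apply_eq_pow_cycloExp p σ h5
  apply Subtype.ext
  rw [← h4, ← pow_pair0 hζ v b, pow_val_mul hζ]
  push_cast
  rw [map_pow, h6]
  rfl

end Pair0

/-! ### The setting: `K` finite Galois, `C ≤ Gal(K/ℚ)`, `W` the preimage of `C` in `Γℚ` -/

section Setting

open Fermat.Agent.Lib.CFT.Global.KummerChars Fermat.Agent.Lib.CFT.Global.SUnits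
  Fermat.Agent.Lib.CFT.Global.SVersion Fermat.Agent.Lib.CFT.Global
  Fermat.Agent.Lib.CFT.Profinite Fermat.Agent.Lib.CFT.Profinite.Bridge Fermat.Agent.Lib.CFT.Profinite.LES
  Fermat.Agent.S56x.Euler.DeltaS Fermat.Agent.S56x.Euler.DeltaAction
  Fermat.Agent.S56x.Euler.DescentH1 Fermat.Agent.S56x.Euler.PairingHom

local notation "Qbar" => AlgebraicClosure ℚ
local notation "Γℚ" => (AlgebraicClosure ℚ ≃ₐ[ℚ] AlgebraicClosure ℚ)

local instance isAlgebraicQbar_kp : Algebra.IsAlgebraic ℚ (AlgebraicClosure ℚ) :=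
  AlgebraicClosure.isAlgebraic ℚ
local instance isAlgClosureQbar_kp : IsAlgClosure ℚ (AlgebraicClosure ℚ) :=
  ⟨inferInstance, inferInstance⟩
local instance normalQbar_kp : Normal ℚ (AlgebraicClosure ℚ) :=
  IsAlgClosure.normal ℚ (AlgebraicClosure ℚ)
local instance isGaloisQbar_kp : IsGalois ℚ (AlgebraicClosure ℚ) := ⟨⟩

theorem finiteDimensional_extendScalars (K L : IntermediateField ℚ Qbar) (h : K ≤ L)
    [FiniteDimensional ℚ L] : FiniteDimensional ↥K ↥(IntermediateField.extendScalars h) := by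
  let e : ↥L ≃ₗ[ℚ] ↥(IntermediateField.extendScalars h) :=
    { toFun := fun x => ⟨x.1, x.2⟩
      invFun := fun x => ⟨x.1, x.2⟩
      map_add' := fun _ _ => rfl
      map_smul' := fun q x => by
        apply Subtype.ext
        simp [Algebra.smul_def]
      left_inv := fun _ => rfl
      right_inv := fun _ => rfl }
  have h1 : Module.Finite ℚ ↥(IntermediateField.extendScalars h) := Module.Finite.equiv e
  exact Module.Finite.of_restrictScalars_finite ℚ ↥K ↥(IntermediateField.extendScalars h)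

variable {p : ℕ} [hp : Fact p.Prime] (S : Finset Nat.Primes)
  (K : IntermediateField ℚ Qbar) [FiniteDimensional ℚ K] [Normal ℚ K]
  (C : Subgroup (K ≃ₐ[ℚ] K))

/-- The preimage `W` of `C ≤ Gal(K/ℚ)` in `Γℚ`. -/
noncomputable abbrev Wgrp : Subgroup Γℚ := C.comap (AlgEquiv.restrictNormalHom (F := ℚ) (K₁ := Qbar) K)

/-- The projection `W → C`. -/
noncomputable def projC : ↥(Wgrp K C) →* ↥C :=
  (AlgEquiv.restrictNormalHom (F := ℚ) (K₁ := Qbar) K).subgroupComap C

theorem coe_restrictNormalHom_apply (σ : Γℚ) (x : ↥K) :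
    ((AlgEquiv.restrictNormalHom (F := ℚ) (K₁ := Qbar) K σ x : ↥K) : Qbar) = σ (x : Qbar) :=
  AlgEquiv.restrictNormal_commutes σ K x

theorem projC_apply_apply (w : ↥(Wgrp K C)) (x : ↥K) :
    (((projC K C w : ↥C) : K ≃ₐ[ℚ] K) x : Qbar) = (w : Γℚ) (x : Qbar) :=
  coe_restrictNormalHom_apply K (w : Γℚ) x

theorem restrictNormalHom_eq_one_iff (σ : Γℚ) :
    AlgEquiv.restrictNormalHom (F := ℚ) (K₁ := Qbar) K σ = 1 ↔ σ ∈ K.fixingSubgroup := by
  rw [IntermediateField.mem_fixingSubgroup_iff]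
  constructor
  · intro h x hx
    have := coe_restrictNormalHom_apply K σ ⟨x, hx⟩
    rw [h] at this
    exact this.symm
  · intro h
    ext x
    rw [coe_restrictNormalHom_apply]
    exact h x x.2

theorem fixingSubgroup_le_Wgrp : K.fixingSubgroup ≤ Wgrp K C := by
  intro σ hσ
  show AlgEquiv.restrictNormalHom K σ ∈ C
  rw [(restrictNormalHom_eq_one_iff K σ).2 hσ]
  exact one_mem C

/-- `V = Gal(Qbar/K)` as a subgroup of `W`. -/
noncomputable abbrev Vsub : Subgroup ↥(Wgrp K C) := K.fixingSubgroup.subgroupOf (Wgrp K C)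

theorem fixingSubgroup_eq_ker :
    K.fixingSubgroup = (AlgEquiv.restrictNormalHom (F := ℚ) (K₁ := Qbar) K).ker := by
  ext σ
  rw [MonoidHom.mem_ker, restrictNormalHom_eq_one_iff]

instance normal_fixingSubgroup : (K.fixingSubgroup).Normal := by
  rw [fixingSubgroup_eq_ker]
  infer_instance

instance normal_Vsub : (Vsub K C).Normal := Subgroup.Normal.subgroupOf inferInstance _

/-- An element of `V ≤ W` as an element of `Gal(Qbar/K) ≤ Γℚ`. -/
noncomputable def vK (v : ↥(Vsub K C)) : ↥K.fixingSubgroup := ⟨((v : ↥(Wgrp K C)) : Γℚ), v.2⟩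

theorem vK_mul (v v' : ↥(Vsub K C)) : vK K C (v * v') = vK K C v * vK K C v' := rfl

theorem vK_surjective : Function.Surjective (vK K C) := fun v =>
  ⟨⟨⟨(v : Γℚ), fixingSubgroup_le_Wgrp K C v.2⟩, v.2⟩, rfl⟩

/-! ### The group `D = Δ_S(K, p)` with its `W`-action, and the pairing -/

variable (p) in
/-- `D = Δ_S(K, p)`, additively. -/
abbrev DeltaK : Type := Additive (Delta (FirstIneq.primesAbove ↥K S) p)

variable (hst : IsStableUnder ↥C (FirstIneq.primesAbove ↥K S))

/-- The action of `W` on `Δ_S(K, p)` (through `W → C ≤ Gal(K/ℚ)`).  A definition, not an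
instance. -/
@[reducible] noncomputable def actW : DistribMulAction ↥(Wgrp K C) (DeltaK p S K) :=
  letI := deltaAction (G := ↥C) (FirstIneq.primesAbove ↥K S) hst p
  DistribMulAction.compHom _ (projC K C)

theorem actW_smul_mk (w : ↥(Wgrp K C)) (x : deltaPre (FirstIneq.primesAbove ↥K S) p) :
    letI := actW (p := p) S K C hst
    w • (Additive.ofMul (QuotientGroup.mk x) : DeltaK p S K) =
      Additive.ofMul (QuotientGroup.mk (deltaPreMap
        (MulSemiringAction.toRingEquiv ↥C ↥K (projC K C w)) _ (hst (projC K C w)) p x)) := rfl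

theorem exists_eq_mk (d : DeltaK p S K) :
    ∃ x : deltaPre (FirstIneq.primesAbove ↥K S) p, d = Additive.ofMul (QuotientGroup.mk x) := by
  obtain ⟨x, hx⟩ := QuotientGroup.mk_surjective d.toMul
  exact ⟨x, by rw [hx]; rfl⟩

variable {ζ : ↥K} (hζ : IsPrimitiveRoot ζ p)

/-- `b ↦ ⟨v, b⟩` as a homomorphism `Kˣ → 𝔽_p`. -/
noncomputable def pairHom (v : ↥K.fixingSubgroup) : (↥K)ˣ →* Multiplicative (ZMod p) where
  toFun b := Multiplicative.ofAdd (pair0 hζ v b)
  map_one' := by rw [pair0_one_right]; rfl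
  map_mul' b b' := by rw [pair0_mul_right]; rfl

/-- `⟨v, ·⟩` on `Δ_S(K, p)`. -/
noncomputable def pairDelta (v : ↥K.fixingSubgroup) :
    Delta (FirstIneq.primesAbove ↥K S) p →* Multiplicative (ZMod p) :=
  QuotientGroup.lift _ ((pairHom K hζ v).comp (deltaPre (FirstIneq.primesAbove ↥K S) p).subtype)
    (by
      intro x hx
      rw [Subgroup.mem_subgroupOf] at hx
      obtain ⟨c, hc⟩ := hx
      show Multiplicative.ofAdd (pair0 hζ v (x : (↥K)ˣ)) = 1
      rw [← hc]
      show Multiplicative.ofAdd (pair0 hζ v (c ^ p)) = 1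
      rw [pair0_pow_right]
      rfl)

/-- **The Kummer pairing** `V × Δ_S(K, p) → 𝔽_p`. -/
noncomputable def kummerB (v : ↥(Vsub K C)) : DeltaK p S K →+ ZMod p :=
  MonoidHom.toAdditiveLeft (pairDelta S K hζ (vK K C v))

theorem kummerB_mk (v : ↥(Vsub K C)) (x : deltaPre (FirstIneq.primesAbove ↥K S) p) :
    kummerB S K C hζ v (Additive.ofMul (QuotientGroup.mk x)) = pair0 hζ (vK K C v) (x : (↥K)ˣ) :=
  rfl

theorem mem_deltaS_iff_mem_deltaPre (b : (↥K)ˣ) :
    b ∈ deltaS K p S ↔ b ∈ deltaPre (FirstIneq.primesAbove ↥K S) p := by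
  rw [mem_deltaS, mem_deltaPre_iff]
  refine forall_congr' fun v => ?_
  rw [FirstIneq.mem_primesAbove]
  push Not
  rfl

theorem kummerB_add_left (v v' : ↥(Vsub K C)) (d : DeltaK p S K) :
    kummerB S K C hζ (v * v') d = kummerB S K C hζ v d + kummerB S K C hζ v' d := by
  obtain ⟨x, rfl⟩ := exists_eq_mk S K d
  rw [kummerB_mk, kummerB_mk, kummerB_mk, vK_mul]
  exact pair0_mul_left hζ _ _ _

theorem kummerB_equivariant (g : ↥(Wgrp K C)) (v : ↥(Vsub K C)) (d : DeltaK p S K) :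
    letI := actW (p := p) S K C hst
    kummerB S K C hζ (conjV (Vsub K C) g v) (g • d) =
      (((ExtCitation.cycloChar p).comp (Wgrp K C).subtype) g : ZMod p) * kummerB S K C hζ v d := by
  letI := actW (p := p) S K C hst
  obtain ⟨x, rfl⟩ := exists_eq_mk S K d
  rw [actW_smul_mk, kummerB_mk, kummerB_mk]
  refine pair0_conj hζ (g : Γℚ) (vK K C v) _ _ _ rfl ?_
  exact projC_apply_apply K C g ((x : (↥K)ˣ) : ↥K)

theorem kummerB_injective (d : DeltaK p S K) (h : ∀ v : ↥(Vsub K C), kummerB S K C hζ v d = 0) :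
    d = 0 := by
  obtain ⟨x, rfl⟩ := exists_eq_mk S K d
  obtain ⟨c, hc⟩ := (forall_pair0_eq_zero_iff hζ (x : (↥K)ˣ)).1 (fun v' => by
    obtain ⟨v, rfl⟩ := vK_surjective K C v'
    exact h v)
  have h1 : (QuotientGroup.mk x : Delta (FirstIneq.primesAbove ↥K S) p) = 1 := by
    rw [QuotientGroup.eq_one_iff, Subgroup.mem_subgroupOf]
    exact ⟨c, hc⟩
  rw [h1]
  rfl

theorem kummerB_level (hK : K.IsUnramifiedOutside S) (hpS : (⟨p, hp.out⟩ : Nat.Primes) ∈ S)
    (d : DeltaK p S K) :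
    ∃ U ∈ (restrict (levelsS S) (Wgrp K C)).levels,
      ∀ v : ↥(Vsub K C), (v : ↥(Wgrp K C)) ∈ U → kummerB S K C hζ v d = 0 := by
  obtain ⟨x, rfl⟩ := exists_eq_mk S K d
  have hb : (x : (↥K)ˣ) ∈ deltaS K p S := (mem_deltaS_iff_mem_deltaPre S K _).2 x.2
  have hpS' : ∀ q : Nat.Primes, (q : ℕ) ∣ p → q ∈ S := by
    intro q hq
    have : q = ⟨p, hp.out⟩ := Subtype.ext ((Nat.prime_dvd_prime_iff_eq q.2 hp.out).1 hq)
    rw [this]
    exact hpS
  obtain ⟨L, -, hle⟩ := exists_galLevel_le_ker (primitiveRoots_nonempty hζ) S hK hpS' hb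
  refine ⟨(L.V).comap (Wgrp K C).subtype, ⟨L.V, L.fixingSubgroup_mem_levels, rfl⟩, fun v hv => ?_⟩
  rw [kummerB_mk, pair0_eq_zero_iff]
  exact hle (show vK K C v ∈ (L.V).subgroupOf K.fixingSubgroup from hv)

/-- The ramification input (R1): if `β ^ p = b ∈ Kˣ` and `β` lies in an extension of `K`
unramified outside `S`, then `b ∈ Δ_S`. -/
def RamInput (p : ℕ) (S : Finset Nat.Primes) (K : IntermediateField ℚ Qbar)
    [FiniteDimensional ℚ K] : Prop :=
  ∀ (L : IntermediateField ℚ Qbar), K ≤ L → L.IsUnramifiedOutside S → ∀ (b : (↥K)ˣ) (β : Qbar),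
    β ∈ L → β ^ p = ((b : ↥K) : Qbar) → b ∈ deltaS K p S

theorem kummerB_surjective (hK : K.IsUnramifiedOutside S) (hR1 : RamInput p S K)
    (ψ : ↥(Vsub K C) → ZMod p) (hadd : ∀ v v', ψ (v * v') = ψ v + ψ v')
    (hlev : ∃ U ∈ (restrict (levelsS S) (Wgrp K C)).levels,
      ∀ v : ↥(Vsub K C), (v : ↥(Wgrp K C)) ∈ U → ψ v = 0) :
    ∃ d : DeltaK p S K, ∀ v, ψ v = kummerB S K C hζ v d := by
  obtain ⟨_, ⟨_, ⟨F', hF', rfl⟩, rfl⟩, hψU⟩ := hlev
  let sec : ↥K.fixingSubgroup → ↥(Vsub K C) :=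
    fun v' => ⟨⟨(v' : Γℚ), fixingSubgroup_le_Wgrp K C v'.2⟩, v'.2⟩
  have hsec : ∀ v, sec (vK K C v) = v := fun v => rfl
  have hsecmul : ∀ a b, sec (a * b) = sec a * sec b := fun _ _ => rfl
  have hζp : ∀ a : ZMod p, (ζ ^ a.val) ^ p = 1 := by
    intro a
    rw [← pow_mul, mul_comm, pow_mul, hζ.pow_eq_one, one_pow]
  let χ : (Qbar ≃ₐ[↥K] Qbar) →* rootsOfUnity p ↥K :=
    { toFun := fun τ =>
        rootsOfUnity.mkOfPowEq (ζ ^ (ψ (sec (K.fixingSubgroupEquiv.symm τ))).val) (hζp _)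
      map_one' := by
        apply Subtype.ext
        apply Units.ext
        rw [rootsOfUnity.coe_mkOfPowEq, map_one]
        have h0 : ψ (sec 1) = 0 := by
          have := hadd (sec 1) (sec 1)
          rw [← hsecmul, mul_one] at this
          exact left_eq_add.mp this
        rw [h0, ZMod.val_zero, pow_zero]
        rfl
      map_mul' := fun τ τ' => by
        apply Subtype.ext
        apply Units.ext
        rw [Subgroup.coe_mul, Units.val_mul, rootsOfUnity.coe_mkOfPowEq,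
          rootsOfUnity.coe_mkOfPowEq, rootsOfUnity.coe_mkOfPowEq, map_mul, hsecmul, hadd,
          pow_val_add hζ] }
  have hχapp : ∀ τ, (((χ τ : rootsOfUnity p ↥K) : (↥K)ˣ) : ↥K) =
      ζ ^ (ψ (sec (K.fixingSubgroupEquiv.symm τ))).val := fun τ => rfl
  have hχ : χ ∈ Fermat.Agent.Lib.CFT.Kummer.levelChars ↥K Qbar p := by
    have hfin' : FiniteDimensional ℚ F' := hF'.1
    have hfin : FiniteDimensional ℚ ↥(K ⊔ F') := inferInstance
    refine ⟨IntermediateField.extendScalars (le_sup_left : K ≤ K ⊔ F'),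
      finiteDimensional_extendScalars K _ le_sup_left, fun τ hτ => ?_⟩
    rw [MonoidHom.mem_ker]
    have h1 : ((K.fixingSubgroupEquiv.symm τ : ↥K.fixingSubgroup) : Γℚ) ∈ F'.fixingSubgroup := by
      rw [IntermediateField.mem_fixingSubgroup_iff]
      intro x hx
      have hx' : x ∈ IntermediateField.extendScalars (le_sup_left : K ≤ K ⊔ F') :=
        (le_sup_right : F' ≤ K ⊔ F') hx
      exact (IntermediateField.mem_fixingSubgroup_iff _ τ).1 hτ x hx'
    have h2 : ψ (sec (K.fixingSubgroupEquiv.symm τ)) = 0 := hψU _ h1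
    apply Subtype.ext
    apply Units.ext
    rw [hχapp, h2, ZMod.val_zero, pow_zero]
    rfl
  obtain ⟨b, hb⟩ := Fermat.Agent.Lib.CFT.Kummer.exists_kummerChar_eq (primitiveRoots_nonempty hζ) (hasRoots_top K p) hχ
  have hval : ∀ v' : ↥K.fixingSubgroup, pair0 hζ v' b = ψ (sec v') := by
    intro v'
    apply zlog_eq
    rw [kummerCharW_apply, hb, hχapp, MulEquiv.symm_apply_apply]
  have hbmem : b ∈ deltaPre (FirstIneq.primesAbove ↥K S) p := by
    rw [← mem_deltaS_iff_mem_deltaPre]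
    obtain ⟨β, hβ⟩ := hasRoots_top K p b (Subgroup.mem_top b)
    have hβ' : β ^ p = ((b : ↥K) : Qbar) := hβ
    refine hR1 (K ⊔ F') le_sup_left (hK.sup hF') b β ?_ hβ'
    have hker := ker_kummerCharW (primitiveRoots_nonempty hζ) b hβ'
    have hle : (K ⊔ F').fixingSubgroup ≤
        (K ⊔ IntermediateField.adjoin ℚ {β}).fixingSubgroup := by
      intro σ hσ
      have hσK : σ ∈ K.fixingSubgroup := IntermediateField.fixingSubgroup_antitone le_sup_left hσ
      have h5 : (⟨σ, hσK⟩ : ↥K.fixingSubgroup) ∈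
          (kummerCharW (primitiveRoots_nonempty hζ) b).ker := by
        rw [MonoidHom.mem_ker, ← pair0_eq_zero_iff hζ, hval]
        exact hψU _ (IntermediateField.fixingSubgroup_antitone le_sup_right hσ)
      rw [hker] at h5
      exact h5
    have h3 : K ⊔ IntermediateField.adjoin ℚ {β} ≤ K ⊔ F' := by
      have := IntermediateField.fixedField_antitone hle
      rwa [InfiniteGalois.fixedField_fixingSubgroup, InfiniteGalois.fixedField_fixingSubgroup]
        at this
    exact h3 ((le_sup_right : IntermediateField.adjoin ℚ {β} ≤ _)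
      (IntermediateField.mem_adjoin_simple_self ℚ β))
  refine ⟨Additive.ofMul (QuotientGroup.mk ⟨b, hbmem⟩), fun v => ?_⟩
  rw [kummerB_mk, hval, hsec]

/-- **The Kummer pairing `V × Δ_S(K, p) → 𝔽_p` satisfies the axioms of `PairingHom`.** -/
theorem isKummerPairing (hK : K.IsUnramifiedOutside S) (hpS : (⟨p, hp.out⟩ : Nat.Primes) ∈ S)
    (hR1 : RamInput p S K) :
    letI := actW (p := p) S K C hst
    IsKummerPairing (D := DeltaK p S K) (Vsub K C)
      ((ExtCitation.cycloChar p).comp (Wgrp K C).subtype)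
      (restrict (levelsS S) (Wgrp K C)) (kummerB S K C hζ) := by
  letI := actW (p := p) S K C hst
  exact ⟨kummerB_add_left S K C hζ, kummerB_equivariant S K C hst hζ, kummerB_injective S K C hζ,
    kummerB_level S K C hζ hK hpS, kummerB_surjective S K C hζ hK hR1⟩

/-! ### Auxiliary facts for the descent step -/

include hζ in
/-- `Gal(Qbar/K)` is killed by the cyclotomic character when `μ_p ⊆ K`. -/
theorem cycloChar_eq_one_of_mem (σ : Γℚ) (hσ : σ ∈ K.fixingSubgroup) :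
    ExtCitation.cycloChar p σ = 1 := by
  have h5 : ((ζ : ↥K) : Qbar) ^ p = 1 := by
    have := congrArg (fun x : ↥K => (x : Qbar)) hζ.pow_eq_one
    simpa using this
  have h6 := apply_eq_pow_cycloExp p σ h5
  have h7 : σ ((ζ : ↥K) : Qbar) = ((ζ : ↥K) : Qbar) :=
    (IntermediateField.mem_fixingSubgroup_iff _ σ).1 hσ _ ζ.2
  rw [h7] at h6
  have h8 : ζ ^ ((ExtCitation.cycloChar p σ : ZMod p)).val = ζ ^ ((1 : ZMod p)).val := by
    apply Subtype.ext
    rw [ExtCitation.val_cycloChar]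
    push_cast
    rw [← h6, ZMod.val_one, pow_one]
  exact Units.ext (pow_val_injective hζ h8)

theorem projC_surjective : Function.Surjective (projC K C) := by
  intro c
  obtain ⟨σ, hσ⟩ := AlgEquiv.restrictNormalHom_surjective (F := ℚ) (K₁ := ↥K) Qbar (c : K ≃ₐ[ℚ] K)
  exact ⟨⟨σ, show AlgEquiv.restrictNormalHom K σ ∈ C by rw [hσ]; exact c.2⟩, Subtype.ext hσ⟩

theorem ker_projC : (projC K C).ker = Vsub K C := by
  ext w
  rw [MonoidHom.mem_ker, Subgroup.mem_subgroupOf, ← restrictNormalHom_eq_one_iff]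
  constructor
  · intro h
    exact congrArg Subtype.val h
  · intro h
    exact Subtype.ext h

theorem index_Vsub : (Vsub K C).index = Nat.card ↥C := by
  rw [← ker_projC, Subgroup.index_ker, MonoidHom.range_eq_top.2 (projC_surjective K C)]
  exact Nat.card_congr Subgroup.topEquiv.toEquiv

/-! ### The export -/

section Export

variable (N : Rep.{0} (ZMod p) ↥(Wgrp K C)) [Finite N]

include hζ in
/-- The twisted dual of `N` is trivial on `V`. -/
theorem dualTwist_trivial (hN : ∀ v : ↥(Vsub K C), N.ρ (v : ↥(Wgrp K C)) = 1)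
    (v : ↥(Vsub K C)) :
    (N.dualTwist ((ExtCitation.cycloChar p).comp (Wgrp K C).subtype)).ρ (v : ↥(Wgrp K C)) = 1 := by
  apply LinearMap.ext
  intro f
  rw [Rep.dualTwist_ρ_apply]
  have h1 : ((ExtCitation.cycloChar p).comp (Wgrp K C).subtype) (v : ↥(Wgrp K C)) = 1 :=
    cycloChar_eq_one_of_mem K hζ _ v.2
  have h2 : N.ρ ((v : ↥(Wgrp K C))⁻¹) = 1 := by
    have := hN v⁻¹
    simpa using this
  rw [h1, h2, Units.val_one, one_smul]
  rfl

/-- **(A3), bijection form**: `H¹(W, N^∨(1)) ≃ Hom_W(N, Δ_S(K, p))` for `p ∤ |C|`, `N` a finite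
`𝔽_p[W]`-module trivial on `V = Gal(Qbar/K)`. -/
noncomputable def h1EquivEqHoms (hK : K.IsUnramifiedOutside S)
    (hpS : (⟨p, hp.out⟩ : Nat.Primes) ∈ S) (hR1 : RamInput p S K)
    (hN : ∀ v : ↥(Vsub K C), N.ρ (v : ↥(Wgrp K C)) = 1) (hC : ¬ p ∣ Nat.card ↥C) :
    letI := actW (p := p) S K C hst
    (restrict (levelsS S) (Wgrp K C)).levelCohomology
        (N.dualTwist ((ExtCitation.cycloChar p).comp (Wgrp K C).subtype)) 1 ≃
      EqHoms N (D := DeltaK p S K) := by
  letI := actW (p := p) S K C hst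
  have hVfin : (K.fixingSubgroup).FiniteIndex := finiteIndex_fixingSubgroup K
  have hVfin' : (Vsub K C).FiniteIndex := inferInstance
  have hVlev : Vsub K C ∈ (restrict (levelsS S) (Wgrp K C)).levels :=
    ⟨K.fixingSubgroup, ⟨K, hK, rfl⟩, rfl⟩
  have hn : IsUnit (((Vsub K C).index : ℕ) : ZMod p) := by
    rw [index_Vsub, isUnit_iff_ne_zero, Ne, ZMod.natCast_eq_zero_iff]
    exact hC
  have htriv := dualTwist_trivial K C hζ N hN
  have hM : (restrict (levelsS S) (Wgrp K C)).IsDiscrete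
      (N.dualTwist ((ExtCitation.cycloChar p).comp (Wgrp K C).subtype)) := by
    intro m
    refine ⟨Vsub K C, hVlev, fun s hs => ?_⟩
    rw [htriv ⟨s, hs⟩]
    rfl
  exact (descentEquiv (restrict (levelsS S) (Wgrp K C)) ⟨_, hVlev, le_rfl⟩ hn htriv hM).toEquiv.trans
    (eqHomsEquiv (isKummerPairing S K C hst hζ hK hpS hR1)).symm

end Export

end Setting

end Fermat.Agent.S56x.Euler.KummerPairing
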