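import Mathlib

/-!
# P-S56 block (B): the mod `p` multiplicity quotient of a module (abstract part)

`R` a ring, `p` a natural number, `N` an `R`-module having the lifting property against
surjections of `R`-modules killed by `p` (`LiftsModP`; e.g. `R = ℤ[G]`, `p ∤ |G|`, `p N = 0`).
For an `R`-module `A` put `A[p] = TorP R p A`, `A/p = ModP R p A` and consider the "quotient"
`q_N(A) = #Hom_R(N, A/p) / #Hom_R(N, A[p])`.

* `card_ses` : `q_N` is multiplicative in short exact sequences;
* `bal_of_finite` : `q_N(A) = 1` for finite `A`;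
* `card_of_finite_ker_coker` : `q_N(A) = q_N(B)` if `A → B` has finite kernel and cokernel.

Everything is stated multiplicatively in `ℕ` (no division).
-/

set_option autoImplicit false

namespace Fermat.Agent.S56x.Euler.LatticeModP

open Function

universe u v w

section Basic

variable (R : Type u) [Ring R] (p : ℕ)

/-- Multiplication by `p`, as an `R`-linear endomorphism. -/
def mulP (A : Type v) [AddCommGroup A] [Module R A] : A →ₗ[R] A where
  toFun x := p • x
  map_add' := smul_add p
  map_smul' r x := smul_comm p r x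

@[simp] theorem mulP_apply (A : Type v) [AddCommGroup A] [Module R A] (x : A) :
    mulP R p A x = p • x := rfl

/-- The `p`-torsion submodule. -/
abbrev TorP (A : Type v) [AddCommGroup A] [Module R A] : Submodule R A :=
  LinearMap.ker (mulP R p A)

/-- The submodule `pA`. -/
abbrev ImP (A : Type v) [AddCommGroup A] [Module R A] : Submodule R A :=
  LinearMap.range (mulP R p A)

/-- The quotient `A/pA`. -/
abbrev ModP (A : Type v) [AddCommGroup A] [Module R A] : Type v := A ⧸ ImP R p A

variable {R p}
variable {A : Type v} [AddCommGroup A] [Module R A] {B : Type v} [AddCommGroup B] [Module R B]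
  {C : Type v} [AddCommGroup C] [Module R C]

theorem mem_torP {x : A} : x ∈ TorP R p A ↔ p • x = 0 := LinearMap.mem_ker

theorem mem_imP {x : A} : x ∈ ImP R p A ↔ ∃ y, p • y = x := LinearMap.mem_range

theorem smul_torP_eq_zero (x : TorP R p A) : p • x = 0 :=
  Subtype.ext (mem_torP.mp x.2)

theorem smul_modP_eq_zero (x : ModP R p A) : p • x = 0 := by
  obtain ⟨a, rfl⟩ := Submodule.Quotient.mk_surjective _ x
  rw [← Submodule.Quotient.mk_smul, Submodule.Quotient.mk_eq_zero]
  exact ⟨a, rfl⟩

/-- The map induced on `p`-torsion. -/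
def torMap (f : A →ₗ[R] B) : TorP R p A →ₗ[R] TorP R p B :=
  (f.comp (TorP R p A).subtype).codRestrict (TorP R p B) (fun x => by
    rw [mem_torP]
    show p • f x = 0
    rw [← map_nsmul, mem_torP.mp x.2, map_zero])

@[simp] theorem torMap_coe (f : A →ₗ[R] B) (x : TorP R p A) : (torMap f x : B) = f x := rfl

/-- The map induced on `A/p`. -/
def modMap (f : A →ₗ[R] B) : ModP R p A →ₗ[R] ModP R p B :=
  Submodule.mapQ _ _ f (by
    rintro _ ⟨y, rfl⟩
    exact ⟨f y, by simp [map_nsmul]⟩)

@[simp] theorem modMap_mk (f : A →ₗ[R] B) (x : A) :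
    modMap (p := p) f (Submodule.Quotient.mk x) = Submodule.Quotient.mk (f x) := rfl

end Basic

/-! ### The six term exact sequence of a short exact sequence -/

section SixTerm

variable {R : Type u} [Ring R] {p : ℕ}
variable {A' : Type v} [AddCommGroup A'] [Module R A'] {A : Type v} [AddCommGroup A] [Module R A]
  {A'' : Type v} [AddCommGroup A''] [Module R A'']
  (i : A' →ₗ[R] A) (π : A →ₗ[R] A'') (hi : Injective i) (hπ : Surjective π) (hex : Exact i π)

include hi in
theorem torMap_injective : Injective (torMap (p := p) i) := by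
  intro x y h
  apply Subtype.ext
  apply hi
  exact congrArg Subtype.val h

include hi hex in
theorem exact_torMap : Exact (torMap (p := p) i) (torMap (p := p) π) := by
  intro y
  constructor
  · intro hy
    have hy' : π (y : A) = 0 := congrArg Subtype.val hy
    obtain ⟨x, hx⟩ := (hex (y : A)).mp hy'
    have hxp : x ∈ TorP R p A' := by
      rw [mem_torP]
      apply hi
      rw [map_nsmul, hx, map_zero]
      exact mem_torP.mp y.2
    exact ⟨⟨x, hxp⟩, Subtype.ext hx⟩
  · rintro ⟨x, rfl⟩
    apply Subtype.ext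
    show π (i x) = 0
    exact (hex _).mpr ⟨x, rfl⟩

include hπ in
theorem modMap_surjective : Surjective (modMap (p := p) π) := by
  intro y
  obtain ⟨a, rfl⟩ := Submodule.Quotient.mk_surjective _ y
  obtain ⟨b, rfl⟩ := hπ a
  exact ⟨Submodule.Quotient.mk b, rfl⟩

include hπ hex in
theorem exact_modMap : Exact (modMap (p := p) i) (modMap (p := p) π) := by
  intro y
  constructor
  · intro hy
    obtain ⟨a, rfl⟩ := Submodule.Quotient.mk_surjective _ y
    rw [modMap_mk, Submodule.Quotient.mk_eq_zero] at hy
    obtain ⟨c, hc⟩ := hy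
    obtain ⟨b, rfl⟩ := hπ c
    have h0 : π (a - p • b) = 0 := by
      rw [map_sub, map_nsmul]
      rw [mulP_apply] at hc
      rw [hc, sub_self]
    obtain ⟨x, hx⟩ := (hex _).mp h0
    refine ⟨Submodule.Quotient.mk x, ?_⟩
    rw [modMap_mk, hx]
    rw [Submodule.Quotient.eq]
    exact ⟨-b, by simp⟩
  · rintro ⟨x, rfl⟩
    obtain ⟨a, rfl⟩ := Submodule.Quotient.mk_surjective _ x
    rw [modMap_mk, modMap_mk, (hex _).mpr ⟨a, rfl⟩]
    rfl

/-- The connecting homomorphism `A''[p] → A'/p` as a `ℤ`-linear map (Mathlib's snake lemma). -/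
noncomputable def deltaZ : TorP R p A'' →ₗ[ℤ] ModP R p A' :=
  SnakeLemma.δ' ((mulP R p A').restrictScalars ℤ) ((mulP R p A).restrictScalars ℤ)
    ((mulP R p A'').restrictScalars ℤ) (i.restrictScalars ℤ) (π.restrictScalars ℤ) hex
    (i.restrictScalars ℤ) (π.restrictScalars ℤ) hex
    (by ext x; simp [map_nsmul]) (by ext x; simp [map_nsmul])
    ((TorP R p A'').subtype.restrictScalars ℤ)
    (by
      intro x
      constructor
      · intro hx
        exact ⟨⟨x, hx⟩, rfl⟩
      · rintro ⟨y, rfl⟩
        exact y.2)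
    ((ImP R p A').mkQ.restrictScalars ℤ)
    (by
      intro x
      constructor
      · intro hx
        exact (Submodule.Quotient.mk_eq_zero _).mp hx
      · intro hx
        exact (Submodule.Quotient.mk_eq_zero _).mpr hx)
    hπ hi

theorem deltaZ_eq (x : TorP R p A'') (y : A) (hy : π y = x) (z : A') (hz : i z = p • y) :
    deltaZ i π hi hπ hex x = Submodule.Quotient.mk z :=
  SnakeLemma.δ'_eq _ _ _ _ _ _ _ _ _ _ _ _ _ _ _ _ _ x y hy z hz

include hπ hex in
theorem exists_lifts (x : TorP R p A'') :
    ∃ (y : A) (z : A'), π y = x ∧ i z = p • y := by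
  obtain ⟨y, hy⟩ := hπ (x : A'')
  have h0 : π (p • y) = 0 := by
    rw [map_nsmul, hy]
    exact mem_torP.mp x.2
  obtain ⟨z, hz⟩ := (hex _).mp h0
  exact ⟨y, z, hy, hz⟩

/-- The connecting homomorphism `A''[p] → A'/p`, as an `R`-linear map. -/
noncomputable def delta : TorP R p A'' →ₗ[R] ModP R p A' where
  toFun := deltaZ i π hi hπ hex
  map_add' := (deltaZ i π hi hπ hex).map_add
  map_smul' r x := by
    obtain ⟨y, z, hy, hz⟩ := exists_lifts i π hπ hex x
    rw [deltaZ_eq i π hi hπ hex x y hy z hz,
      deltaZ_eq i π hi hπ hex (r • x) (r • y) (by rw [map_smul, hy]; rfl) (r • z)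
        (by rw [map_smul, hz, smul_comm])]
    rfl

theorem delta_eq (x : TorP R p A'') (y : A) (hy : π y = x) (z : A') (hz : i z = p • y) :
    delta i π hi hπ hex x = Submodule.Quotient.mk z :=
  deltaZ_eq i π hi hπ hex x y hy z hz

theorem exact_torMap_delta : Exact (torMap (p := p) π) (delta i π hi hπ hex) := by
  have h := SnakeLemma.exact_δ'_right ((mulP R p A').restrictScalars ℤ)
    ((mulP R p A).restrictScalars ℤ)
    ((mulP R p A'').restrictScalars ℤ) (i.restrictScalars ℤ) (π.restrictScalars ℤ) hex
    (i.restrictScalars ℤ) (π.restrictScalars ℤ) hex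
    (by ext x; simp [map_nsmul]) (by ext x; simp [map_nsmul])
    ((TorP R p A).subtype.restrictScalars ℤ)
    (by
      intro x
      constructor
      · intro hx
        exact ⟨⟨x, hx⟩, rfl⟩
      · rintro ⟨y, rfl⟩
        exact y.2)
    ((TorP R p A'').subtype.restrictScalars ℤ)
    (by
      intro x
      constructor
      · intro hx
        exact ⟨⟨x, hx⟩, rfl⟩
      · rintro ⟨y, rfl⟩
        exact y.2)
    ((ImP R p A').mkQ.restrictScalars ℤ)
    (by
      intro x
      constructor
      · intro hx
        exact (Submodule.Quotient.mk_eq_zero _).mp hx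
      · intro hx
        exact (Submodule.Quotient.mk_eq_zero _).mpr hx)
    hπ hi ((torMap (p := p) π).restrictScalars ℤ) (by ext x; rfl) Subtype.val_injective
  exact h

theorem exact_delta_modMap : Exact (delta i π hi hπ hex) (modMap (p := p) i) := by
  have h := SnakeLemma.exact_δ'_left ((mulP R p A').restrictScalars ℤ)
    ((mulP R p A).restrictScalars ℤ)
    ((mulP R p A'').restrictScalars ℤ) (i.restrictScalars ℤ) (π.restrictScalars ℤ) hex
    (i.restrictScalars ℤ) (π.restrictScalars ℤ) hex
    (by ext x; simp [map_nsmul]) (by ext x; simp [map_nsmul])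
    ((TorP R p A'').subtype.restrictScalars ℤ)
    (by
      intro x
      constructor
      · intro hx
        exact ⟨⟨x, hx⟩, rfl⟩
      · rintro ⟨y, rfl⟩
        exact y.2)
    ((ImP R p A').mkQ.restrictScalars ℤ)
    (by
      intro x
      constructor
      · intro hx
        exact (Submodule.Quotient.mk_eq_zero _).mp hx
      · intro hx
        exact (Submodule.Quotient.mk_eq_zero _).mpr hx)
    ((ImP R p A).mkQ.restrictScalars ℤ)
    (by
      intro x
      constructor
      · intro hx
        exact (Submodule.Quotient.mk_eq_zero _).mp hx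
      · intro hx
        exact (Submodule.Quotient.mk_eq_zero _).mpr hx)
    hπ hi ((modMap (p := p) i).restrictScalars ℤ) (by ext x; rfl)
    (Submodule.Quotient.mk_surjective _)
  exact h

end SixTerm

/-! ### The functor `Hom_R(N, -)` on modules killed by `p` -/

section HomFunctor

variable (R : Type u) [Ring R] (p : ℕ)

/-- `N` has the lifting property against surjections of `R`-modules (in `Type v`) killed by
`p`. -/
def LiftsModP (N : Type w) [AddCommGroup N] [Module R N] : Prop :=
  ∀ (X Y : Type v) [AddCommGroup X] [Module R X] [AddCommGroup Y] [Module R Y]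
    (f : X →ₗ[R] Y), Surjective f → (∀ x : X, p • x = 0) →
    ∀ φ : N →ₗ[R] Y, ∃ ψ : N →ₗ[R] X, f.comp ψ = φ

variable {R p}
variable {N : Type w} [AddCommGroup N] [Module R N]
  {X : Type v} [AddCommGroup X] [Module R X] {Y : Type v} [AddCommGroup Y] [Module R Y]
  {Z : Type v} [AddCommGroup Z] [Module R Z]

/-- Post-composition with a linear map, as an additive map on `Hom` groups. -/
def postComp (N : Type w) [AddCommGroup N] [Module R N] (f : X →ₗ[R] Y) :
    (N →ₗ[R] X) →+ (N →ₗ[R] Y) :=
  AddMonoidHom.mk' (fun φ => f.comp φ) (fun φ ψ => by ext n; simp)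

@[simp] theorem postComp_apply (f : X →ₗ[R] Y) (φ : N →ₗ[R] X) (n : N) :
    postComp N f φ n = f (φ n) := rfl

theorem postComp_injective (f : X →ₗ[R] Y) (hf : Injective f) : Injective (postComp N f) := by
  intro φ ψ h
  ext n
  apply hf
  exact congrArg (fun χ : N →ₗ[R] Y => χ n) h

theorem postComp_surjective (hN : LiftsModP.{u, v, w} R p N) (f : X →ₗ[R] Y) (hf : Surjective f)
    (hX : ∀ x : X, p • x = 0) : Surjective (postComp N f) := by
  intro φ
  obtain ⟨ψ, hψ⟩ := hN X Y f hf hX φ
  exact ⟨ψ, hψ⟩

theorem postComp_exact (hN : LiftsModP.{u, v, w} R p N) (f : X →ₗ[R] Y) (g : Y →ₗ[R] Z)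
    (hfg : Exact f g) (hX : ∀ x : X, p • x = 0) : Exact (postComp N f) (postComp N g) := by
  intro φ
  constructor
  · intro hφ
    have hmem : ∀ n, φ n ∈ LinearMap.range f := fun n =>
      (hfg (φ n)).mp (congrArg (fun χ : N →ₗ[R] Z => χ n) hφ)
    obtain ⟨ψ, hψ⟩ := hN X (LinearMap.range f) f.rangeRestrict
      f.surjective_rangeRestrict hX (φ.codRestrict (LinearMap.range f) hmem)
    refine ⟨ψ, ?_⟩
    ext n
    have := congrArg (fun χ : N →ₗ[R] LinearMap.range f => (χ n : Y)) hψ
    exact this
  · rintro ⟨ψ, rfl⟩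
    ext n
    exact (hfg _).mpr ⟨ψ n, rfl⟩

instance finite_hom [Finite N] [Finite X] : Finite (N →ₗ[R] X) :=
  Finite.of_injective (fun φ : N →ₗ[R] X => (φ : N → X)) DFunLike.coe_injective

/-- Transport of `Hom` groups along a linear equivalence of the target. -/
def homCongr (N : Type w) [AddCommGroup N] [Module R N] (e : X ≃ₗ[R] Y) :
    (N →ₗ[R] X) ≃ (N →ₗ[R] Y) where
  toFun φ := e.toLinearMap.comp φ
  invFun φ := e.symm.toLinearMap.comp φ
  left_inv φ := by ext n; simp
  right_inv φ := by ext n; simp

end HomFunctor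

/-! ### Counting along exact sequences -/

section Count

theorem card_eq_ker_mul_range {X Y : Type*} [AddCommGroup X] [AddCommGroup Y] (f : X →+ Y) :
    Nat.card X = Nat.card f.ker * Nat.card f.range := by
  rw [AddSubgroup.card_eq_card_quotient_mul_card_addSubgroup f.ker,
    Nat.card_congr (QuotientAddGroup.quotientKerEquivRange f).toEquiv, mul_comm]

theorem card_ker_eq_card_range_of_exact {X Y Z : Type*} [AddCommGroup X] [AddCommGroup Y]
    [AddCommGroup Z] (f : X →+ Y) (g : Y →+ Z) (h : Exact f g) :
    Nat.card g.ker = Nat.card f.range := by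
  have : g.ker = f.range := by
    ext y
    rw [AddMonoidHom.mem_ker, AddMonoidHom.mem_range]
    exact h y
  rw [this]

/-- Cardinalities in a six term exact sequence `0 → X₁ → X₂ → X₃ → X₄ → X₅ → X₆ → 0`. -/
theorem card_six {X₁ X₂ X₃ X₄ X₅ X₆ : Type*} [AddCommGroup X₁] [AddCommGroup X₂]
    [AddCommGroup X₃] [AddCommGroup X₄] [AddCommGroup X₅] [AddCommGroup X₆]
    (f₁ : X₁ →+ X₂) (f₂ : X₂ →+ X₃) (f₃ : X₃ →+ X₄) (f₄ : X₄ →+ X₅) (f₅ : X₅ →+ X₆)
    (h₁ : Injective f₁) (h₁₂ : Exact f₁ f₂) (h₂₃ : Exact f₂ f₃) (h₃₄ : Exact f₃ f₄)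
    (h₄₅ : Exact f₄ f₅) (h₅ : Surjective f₅) :
    Nat.card X₁ * Nat.card X₃ * Nat.card X₅ = Nat.card X₂ * Nat.card X₄ * Nat.card X₆ := by
  have e1 : Nat.card f₁.range = Nat.card X₁ :=
    (Nat.card_congr (AddMonoidHom.ofInjective h₁).toEquiv).symm
  have e6 : Nat.card f₅.range = Nat.card X₆ := by
    rw [AddMonoidHom.range_eq_top.mpr h₅]
    exact Nat.card_congr AddSubgroup.topEquiv.toEquiv
  have c2 := card_eq_ker_mul_range f₂
  have c3 := card_eq_ker_mul_range f₃
  have c4 := card_eq_ker_mul_range f₄
  have c5 := card_eq_ker_mul_range f₅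
  rw [card_ker_eq_card_range_of_exact f₁ f₂ h₁₂, e1] at c2
  rw [card_ker_eq_card_range_of_exact f₂ f₃ h₂₃] at c3
  rw [card_ker_eq_card_range_of_exact f₃ f₄ h₃₄] at c4
  rw [card_ker_eq_card_range_of_exact f₄ f₅ h₄₅, e6] at c5
  rw [c2, c3, c4, c5]
  ring

end Count

/-! ### Multiplicativity in short exact sequences -/

section Ses

variable {R : Type u} [Ring R] {p : ℕ} {N : Type w} [AddCommGroup N] [Module R N]
variable {A' : Type v} [AddCommGroup A'] [Module R A'] {A : Type v} [AddCommGroup A] [Module R A]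
  {A'' : Type v} [AddCommGroup A''] [Module R A'']

/-- **Multiplicativity** of `#Hom(N, A/p) / #Hom(N, A[p])` in short exact sequences. -/
theorem card_ses (hN : LiftsModP.{u, v, w} R p N)
    (i : A' →ₗ[R] A) (π : A →ₗ[R] A'') (hi : Injective i) (hπ : Surjective π) (hex : Exact i π) :
    Nat.card (N →ₗ[R] TorP R p A') * Nat.card (N →ₗ[R] TorP R p A'') *
        Nat.card (N →ₗ[R] ModP R p A) =
      Nat.card (N →ₗ[R] TorP R p A) * Nat.card (N →ₗ[R] ModP R p A') *
        Nat.card (N →ₗ[R] ModP R p A'') := by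
  have h := card_six (postComp N (torMap (p := p) i)) (postComp N (torMap (p := p) π))
    (postComp N (delta i π hi hπ hex)) (postComp N (modMap (p := p) i))
    (postComp N (modMap (p := p) π))
    (postComp_injective _ (torMap_injective i hi))
    (postComp_exact hN _ _ (exact_torMap i π hi hex) smul_torP_eq_zero)
    (postComp_exact hN _ _ (exact_torMap_delta i π hi hπ hex) smul_torP_eq_zero)
    (postComp_exact hN _ _ (exact_delta_modMap i π hi hπ hex) smul_torP_eq_zero)
    (postComp_exact hN _ _ (exact_modMap i π hπ hex) smul_modP_eq_zero)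
    (postComp_surjective hN _ (modMap_surjective π hπ) smul_modP_eq_zero)
  linarith [h]

/-- `A` is *balanced* (with respect to `N`): `#Hom(N, A/p) = #Hom(N, A[p])`. -/
def Bal (R : Type u) [Ring R] (p : ℕ) (N : Type w) [AddCommGroup N] [Module R N]
    (A : Type v) [AddCommGroup A] [Module R A] : Prop :=
  Nat.card (N →ₗ[R] ModP R p A) = Nat.card (N →ₗ[R] TorP R p A)

theorem bal_of_killed (hA : ∀ a : A, p • a = 0) : Bal R p N A := by
  have h1 : TorP R p A = ⊤ := by
    rw [eq_top_iff]
    intro a _
    exact mem_torP.mpr (hA a)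
  have h2 : ImP R p A = ⊥ := by
    rw [eq_bot_iff]
    rintro _ ⟨y, rfl⟩
    exact (Submodule.mem_bot R).mpr (hA y)
  unfold Bal
  rw [Nat.card_congr (homCongr N (Submodule.quotEquivOfEqBot _ h2)),
    Nat.card_congr (homCongr N (LinearEquiv.ofTop _ h1))]

instance finite_modP [Finite A] : Finite (ModP R p A) :=
  Finite.of_surjective _ (Submodule.Quotient.mk_surjective (ImP R p A))

theorem card_hom_pos [Finite N] (X : Type v) [AddCommGroup X] [Module R X] [Finite X] :
    0 < Nat.card (N →ₗ[R] X) := Nat.card_pos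

/-- **Finite modules are balanced.** -/
theorem bal_of_finite [Finite N] (hN : LiftsModP.{u, v, w} R p N) :
    ∀ (n : ℕ) (A : Type v) [AddCommGroup A] [Module R A] [Finite A], Nat.card A = n →
      Bal R p N A := by
  intro n
  induction n using Nat.strong_induction_on with
  | _ n ih =>
    intro A _ _ _ hcard
    by_cases htop : ImP R p A = ⊤
    · -- multiplication by `p` is bijective
      have hsurj : Surjective (mulP R p A) := LinearMap.range_eq_top.mp htop
      have hinj : Injective (mulP R p A) := Finite.injective_iff_surjective.mpr hsurj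
      have h1 : TorP R p A = ⊥ := LinearMap.ker_eq_bot.mpr hinj
      have s1 : Subsingleton (TorP R p A) := by
        rw [h1]; infer_instance
      have s2 : Subsingleton (ModP R p A) := Submodule.Quotient.subsingleton_iff.mpr htop
      unfold Bal
      rw [Nat.card_unique, Nat.card_unique]
    · -- `pA` is a proper submodule
      have hlt : Nat.card (ImP R p A) < n := by
        rw [← hcard]
        have hne : (ImP R p A : Set A) ≠ Set.univ := fun h =>
          htop (SetLike.coe_injective (by simpa using h))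
        have hss : (ImP R p A : Set A) ⊂ Set.univ := Set.ssubset_univ_iff.mpr hne
        have := Set.ncard_lt_ncard hss (Set.toFinite _)
        rwa [Set.ncard_univ] at this
      have ih1 : Bal R p N (ImP R p A) := ih _ hlt _ rfl
      have ih2 : Bal R p N (ModP R p A) := bal_of_killed smul_modP_eq_zero
      have h := card_ses (N := N) (p := p) hN (ImP R p A).subtype (ImP R p A).mkQ
        (Submodule.injective_subtype _) (Submodule.mkQ_surjective _)
        (LinearMap.exact_subtype_mkQ _)
      unfold Bal at ih1 ih2 ⊢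
      rw [← ih1, ← ih2] at h
      have hp1 : 0 < Nat.card (N →ₗ[R] ModP R p (ImP R p A)) := card_hom_pos _
      have hp2 : 0 < Nat.card (N →ₗ[R] ModP R p (ModP R p A)) := card_hom_pos _
      have h' : Nat.card (N →ₗ[R] ModP R p (ImP R p A)) * Nat.card (N →ₗ[R] ModP R p (ModP R p A)) *
          Nat.card (N →ₗ[R] ModP R p A) =
          Nat.card (N →ₗ[R] ModP R p (ImP R p A)) * Nat.card (N →ₗ[R] ModP R p (ModP R p A)) *
          Nat.card (N →ₗ[R] TorP R p A) := by
        linarith [h]
      exact Nat.eq_of_mul_eq_mul_left (Nat.mul_pos hp1 hp2) h'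

theorem bal_of_finite' [Finite N] (hN : LiftsModP.{u, v, w} R p N) (A : Type v) [AddCommGroup A]
    [Module R A] [Finite A] : Bal R p N A :=
  bal_of_finite hN _ A rfl

variable {B : Type v} [AddCommGroup B] [Module R B]

/-- **Invariance under maps with finite kernel and cokernel.** -/
theorem card_of_finite_ker_coker [Finite N] (hN : LiftsModP.{u, v, w} R p N) (f : A →ₗ[R] B)
    [Finite (LinearMap.ker f)] [Finite (B ⧸ LinearMap.range f)]
    [Finite (TorP R p A)] [Finite (ModP R p A)] [Finite (TorP R p B)] [Finite (ModP R p B)] :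
    Nat.card (N →ₗ[R] ModP R p A) * Nat.card (N →ₗ[R] TorP R p B) =
      Nat.card (N →ₗ[R] TorP R p A) * Nat.card (N →ₗ[R] ModP R p B) := by
  have hfinT : Finite (TorP R p (LinearMap.range f)) :=
    Finite.of_injective _ (torMap_injective (p := p) (LinearMap.range f).subtype
      (Submodule.injective_subtype _))
  have hfinM : Finite (ModP R p (LinearMap.range f)) :=
    Finite.of_surjective _ (modMap_surjective (p := p) f.rangeRestrict
      f.surjective_rangeRestrict)
  have hK : Bal R p N (LinearMap.ker f) := bal_of_finite' hN _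
  have hQ : Bal R p N (B ⧸ LinearMap.range f) := bal_of_finite' hN _
  have h1 := card_ses (N := N) (p := p) hN (LinearMap.ker f).subtype f.rangeRestrict
    (Submodule.injective_subtype _) f.surjective_rangeRestrict (by
      intro a
      constructor
      · intro ha
        have ha' : f a = 0 := congrArg Subtype.val ha
        exact ⟨⟨a, ha'⟩, rfl⟩
      · rintro ⟨x, rfl⟩
        exact Subtype.ext x.2)
  have h2 := card_ses (N := N) (p := p) hN (LinearMap.range f).subtype (LinearMap.range f).mkQ
    (Submodule.injective_subtype _) (Submodule.mkQ_surjective _)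
    (LinearMap.exact_subtype_mkQ _)
  unfold Bal at hK hQ
  rw [hK] at h1
  rw [hQ] at h2
  have pK : 0 < Nat.card (N →ₗ[R] TorP R p (LinearMap.ker f)) := card_hom_pos _
  have pQ : 0 < Nat.card (N →ₗ[R] TorP R p (B ⧸ LinearMap.range f)) := card_hom_pos _
  have pC : 0 < Nat.card (N →ₗ[R] TorP R p (LinearMap.range f)) := card_hom_pos _
  have e1 : Nat.card (N →ₗ[R] TorP R p (LinearMap.range f)) * Nat.card (N →ₗ[R] ModP R p A) =
      Nat.card (N →ₗ[R] TorP R p A) * Nat.card (N →ₗ[R] ModP R p (LinearMap.range f)) := by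
    apply Nat.eq_of_mul_eq_mul_left pK
    linarith [h1]
  have e2 : Nat.card (N →ₗ[R] TorP R p (LinearMap.range f)) * Nat.card (N →ₗ[R] ModP R p B) =
      Nat.card (N →ₗ[R] TorP R p B) * Nat.card (N →ₗ[R] ModP R p (LinearMap.range f)) := by
    apply Nat.eq_of_mul_eq_mul_left pQ
    linarith [h2]
  apply Nat.eq_of_mul_eq_mul_left pC
  calc Nat.card (N →ₗ[R] TorP R p (LinearMap.range f)) *
        (Nat.card (N →ₗ[R] ModP R p A) * Nat.card (N →ₗ[R] TorP R p B))
      = (Nat.card (N →ₗ[R] TorP R p (LinearMap.range f)) * Nat.card (N →ₗ[R] ModP R p A)) *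
          Nat.card (N →ₗ[R] TorP R p B) := by ring
    _ = Nat.card (N →ₗ[R] TorP R p A) *
          (Nat.card (N →ₗ[R] TorP R p B) * Nat.card (N →ₗ[R] ModP R p (LinearMap.range f))) := by
        rw [e1]; ring
    _ = Nat.card (N →ₗ[R] TorP R p (LinearMap.range f)) *
          (Nat.card (N →ₗ[R] TorP R p A) * Nat.card (N →ₗ[R] ModP R p B)) := by
        rw [← e2]; ring

end Ses

/-! ### Finiteness, torsion-free modules, products -/

section Misc

variable {R : Type u} [Ring R] {p : ℕ} {N : Type w} [AddCommGroup N] [Module R N]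
variable {A : Type v} [AddCommGroup A] [Module R A] {B : Type v} [AddCommGroup B] [Module R B]

theorem isTorsion_of_smul_eq_zero {M : Type*} [AddCommGroup M] (hp : p ≠ 0)
    (h : ∀ x : M, p • x = 0) : Module.IsTorsion ℤ M := by
  intro x
  refine ⟨⟨(p : ℤ), mem_nonZeroDivisors_of_ne_zero (by exact_mod_cast hp)⟩, ?_⟩
  show (p : ℤ) • x = 0
  rw [natCast_zsmul]
  exact h x

theorem finite_torP_of_fg [Module.Finite ℤ A] (hp : p ≠ 0) : Finite (TorP R p A) := by
  have h1 : Module.Finite ℤ (TorP R p A) :=
    Module.Finite.of_injective ((TorP R p A).subtype.restrictScalars ℤ)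
      (Submodule.injective_subtype _)
  exact Module.finite_of_fg_torsion _ (isTorsion_of_smul_eq_zero hp smul_torP_eq_zero)

theorem finite_modP_of_fg [Module.Finite ℤ A] (hp : p ≠ 0) : Finite (ModP R p A) := by
  have h1 : Module.Finite ℤ (ModP R p A) :=
    Module.Finite.of_surjective ((ImP R p A).mkQ.restrictScalars ℤ)
      (Submodule.mkQ_surjective (ImP R p A))
  exact Module.finite_of_fg_torsion _ (isTorsion_of_smul_eq_zero hp smul_modP_eq_zero)

theorem card_hom_torP_of_torsionFree (hA : ∀ a : A, p • a = 0 → a = 0) :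
    Nat.card (N →ₗ[R] TorP R p A) = 1 := by
  have h1 : TorP R p A = ⊥ := by
    rw [eq_bot_iff]
    intro a ha
    exact (Submodule.mem_bot R).mpr (hA a (mem_torP.mp ha))
  have : Subsingleton (TorP R p A) := by
    rw [h1]; infer_instance
  exact Nat.card_unique

/-- The quotient of a product is the product of the quotients. -/
theorem card_prod (hN : LiftsModP.{u, v, w} R p N) :
    Nat.card (N →ₗ[R] TorP R p A) * Nat.card (N →ₗ[R] TorP R p B) *
        Nat.card (N →ₗ[R] ModP R p (A × B)) =
      Nat.card (N →ₗ[R] TorP R p (A × B)) * Nat.card (N →ₗ[R] ModP R p A) *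
        Nat.card (N →ₗ[R] ModP R p B) :=
  card_ses hN (LinearMap.inl R A B) (LinearMap.snd R A B) LinearMap.inl_injective
    LinearMap.snd_surjective (by
      intro x
      constructor
      · intro hx
        exact ⟨x.1, Prod.ext rfl hx.symm⟩
      · rintro ⟨a, rfl⟩
        rfl)

end Misc

/-! ### Group rings: the lifting property when `p ∤ |G|` -/

section GroupRing

open MonoidAlgebra

variable {G : Type u} [Group G] [Fintype G] {p : ℕ} [hp : Fact p.Prime]

theorem smul_eq_self_of_mod_eq_one {Y : Type*} [AddCommGroup Y] {p : ℕ} (hY : ∀ y : Y, p • y = 0)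
    {m : ℕ} (hm : m % p = 1) (y : Y) : m • y = y := by
  conv_lhs => rw [← Nat.div_add_mod m p, hm]
  rw [add_smul, mul_smul, hY, one_smul, zero_add]

theorem exists_addLift (p : ℕ) [Fact p.Prime] {N X Y : Type*} [AddCommGroup N] [AddCommGroup X]
    [AddCommGroup Y] [Module (ZMod p) N] [Module (ZMod p) X] [Module (ZMod p) Y]
    (f : X →+ Y) (hf : Surjective f) (φ : N →+ Y) : ∃ s : N →+ X, ∀ n, f (s n) = φ n := by
  obtain ⟨g, hg⟩ := Module.projective_lifting_property (AddMonoidHom.toZModLinearMap p f)
    (AddMonoidHom.toZModLinearMap p φ) hf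
  refine ⟨(g : N →+ X), fun n => ?_⟩
  exact congrArg (fun χ : N →ₗ[ZMod p] Y => χ n) hg

/-- **Maschke**: if `p ∤ |G|` then every `ℤ[G]`-module killed by `p` has the lifting property
against surjections of `ℤ[G]`-modules killed by `p`. -/
theorem liftsModP_of_not_dvd (hG : ¬ p ∣ Fintype.card G) (N : Type w) [AddCommGroup N]
    [Module (MonoidAlgebra ℤ G) N] (hNp : ∀ n : N, p • n = 0) :
    LiftsModP.{u, v, w} (MonoidAlgebra ℤ G) p N := by
  intro X Y _ _ _ _ f hf hX φ
  have hY : ∀ y : Y, p • y = 0 := by
    intro y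
    obtain ⟨x, rfl⟩ := hf y
    rw [← map_nsmul, hX, map_zero]
  -- an additive section
  obtain ⟨s, hs⟩ : ∃ s : N →+ X, ∀ n, f (s n) = φ n :=
    @exists_addLift p _ N X Y _ _ _ (AddCommGroup.zmodModule hNp) (AddCommGroup.zmodModule hX)
      (AddCommGroup.zmodModule hY) (f : X →+ Y) hf (φ : N →+ Y)
  -- the inverse of `|G|` modulo `p`
  obtain ⟨m, -, hm⟩ : ∃ m < p, Fintype.card G * m % p = 1 :=
    Nat.exists_mul_mod_eq_one_of_coprime
      ((Nat.Prime.coprime_iff_not_dvd hp.out).mpr hG).symm hp.out.one_lt
  refine ⟨m • (s.toIntLinearMap.sumOfConjugatesEquivariant G), ?_⟩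
  ext n
  rw [LinearMap.comp_apply, LinearMap.smul_apply, map_nsmul,
    LinearMap.sumOfConjugatesEquivariant_apply, map_sum]
  have : ∀ g : G, f (s.toIntLinearMap.conjugate g n) = φ n := by
    intro g
    rw [LinearMap.conjugate_apply, map_smul]
    show single g⁻¹ (1 : ℤ) • f (s (single g (1 : ℤ) • n)) = φ n
    rw [hs, ← map_smul, ← mul_smul, single_mul_single, mul_one, inv_mul_cancel, ← one_def,
      one_smul]
  rw [Finset.sum_congr rfl (fun g _ => this g), Finset.sum_const, Finset.card_univ, ← mul_smul,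
    mul_comm]
  exact smul_eq_self_of_mod_eq_one hY hm (φ n)

end GroupRing

/-! ### Bridge: distributive actions as `ℤ[G]`-modules -/

section Bridge

open MonoidAlgebra

variable (G : Type u) [Group G]

/-- The `ℤ[G]`-module structure attached to a distributive action of `G` on an abelian group.
(A definition, not an instance.) -/
@[reducible] noncomputable def zgModule (A : Type v) [AddCommGroup A] [DistribMulAction G A] :
    Module (MonoidAlgebra ℤ G) A :=
  Module.compHom A
    ((MonoidAlgebra.lift ℤ (Module.End ℤ A) G (DistribMulAction.toModuleEnd ℤ A)) :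
      MonoidAlgebra ℤ G →+* Module.End ℤ A)

attribute [local instance] zgModule

variable {G}
variable {A : Type v} [AddCommGroup A] [DistribMulAction G A]
  {B : Type v} [AddCommGroup B] [DistribMulAction G B]

theorem single_one_smul (g : G) (a : A) : (single g (1 : ℤ) : MonoidAlgebra ℤ G) • a = g • a := by
  show ((MonoidAlgebra.lift ℤ (Module.End ℤ A) G (DistribMulAction.toModuleEnd ℤ A))
    (single g (1 : ℤ))) a = g • a
  rw [MonoidAlgebra.lift_single, one_smul]
  rfl

/-- An equivariant additive map is `ℤ[G]`-linear. -/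
noncomputable def linearOfEquivariant (f : A →+ B) (hf : ∀ (g : G) (a : A), f (g • a) = g • f a) :
    A →ₗ[MonoidAlgebra ℤ G] B :=
  MonoidAlgebra.equivariantOfLinearOfComm f.toIntLinearMap (fun g a => by
    rw [single_one_smul, single_one_smul]
    exact hf g a)

@[simp] theorem linearOfEquivariant_apply (f : A →+ B)
    (hf : ∀ (g : G) (a : A), f (g • a) = g • f a) (a : A) : linearOfEquivariant f hf a = f a := rfl

theorem linear_map_smul_group (f : A →ₗ[MonoidAlgebra ℤ G] B) (g : G) (a : A) :
    f (g • a) = g • f a := by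
  rw [← single_one_smul, map_smul, single_one_smul]

/-- Equivariant additive maps. -/
def EqHom (G : Type u) [Group G] (A : Type v) [AddCommGroup A] [DistribMulAction G A]
    (B : Type w) [AddCommGroup B] [DistribMulAction G B] : Type (max v w) :=
  {f : A →+ B // ∀ (g : G) (a : A), f (g • a) = g • f a}

/-- Equivariant additive maps are the same as `ℤ[G]`-linear maps. -/
noncomputable def eqHomEquiv : EqHom G A B ≃ (A →ₗ[MonoidAlgebra ℤ G] B) where
  toFun f := linearOfEquivariant f.1 f.2
  invFun φ := ⟨φ.toAddMonoidHom, fun g a => linear_map_smul_group φ g a⟩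
  left_inv f := by
    apply Subtype.ext
    ext a
    rfl
  right_inv φ := by
    ext a
    rfl

/-- A `G`-stable subgroup, as a `ℤ[G]`-submodule. -/
def stableSubmodule (L : AddSubgroup A) (hL : ∀ (g : G), ∀ a ∈ L, g • a ∈ L) :
    Submodule (MonoidAlgebra ℤ G) A where
  carrier := L
  add_mem' := L.add_mem
  zero_mem' := L.zero_mem
  smul_mem' r a ha := by
    induction r using MonoidAlgebra.induction_on with
    | of g =>
      rw [MonoidAlgebra.of_apply, single_one_smul]
      exact hL g a ha
    | add x y hx hy =>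
      rw [add_smul]
      exact L.add_mem hx hy
    | smul k x hx =>
      rw [smul_assoc]
      exact L.zsmul_mem hx k

@[simp] theorem mem_stableSubmodule (L : AddSubgroup A) (hL : ∀ (g : G), ∀ a ∈ L, g • a ∈ L)
    (a : A) : a ∈ stableSubmodule L hL ↔ a ∈ L := Iff.rfl

end Bridge

end Fermat.Agent.S56x.Euler.LatticeModP
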