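import Fermat.Agent.S56x.Euler.HindA5
import Fermat.Agent.S56x.Euler.KummerDelta
import Fermat.Agent.S56x.Euler.EC

/-!
# P-S56 block (B), (EC) line: the input `LevelTateAll` of `Euler/EC.lean`

(helper75.)  `EC.LevelTateAll p` (Tate's formula at every level `W = π⁻¹(D)`, `D ≤ Gal(K/ℚ)` of
order prime to `p`, the primes of `K` above `S` generating the class group) from

* (A3) `KummerDelta.card_H1_resW_eq_card_deltaHoms` (helper84): the Kummer count
  `#H¹(W, N') = #Hom_C(M, Δ_{S_K}(K, p))`;
* (A5) `HindA5.hA5_of_delta` (helper75): equivariant Dirichlet modulo `p`, Galois form.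
-/

set_option autoImplicit false
set_option linter.style.haveILetI false
set_option linter.unusedSectionVars false

open CategoryTheory Module

namespace Fermat.Agent.S56x.Euler.LevelTateProof

open NumberField IsDedekindDomain
open Fermat.Agent.Lib.CFT.Profinite Fermat.Agent.Lib.CFT.Profinite.LevelFamily ExtCitation
open Fermat.Agent.Lib.CFT.Profinite.Bridge
open Fermat.Agent.Lib.CFT.Duality
open Fermat.Agent.Lib.CFT.Global Fermat.Agent.Lib.CFT.Global.SUnits
open Fermat.Agent.Lib.ModRep
open Fermat.Agent.S56x.Euler Fermat.Agent.S56x.Euler.Hind Fermat.Agent.S56x.Euler.HindA5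
open Fermat.Agent.S56x.Euler.EC

local notation "Qbar" => AlgebraicClosure ℚ
local notation "Γℚ" => (AlgebraicClosure ℚ ≃ₐ[ℚ] AlgebraicClosure ℚ)

variable {p : ℕ} [hp : Fact p.Prime]

/-- **Tate's formula at the level `W = π⁻¹(C)`** for the inflation of a finite representation `M`
of `Gal(K/ℚ)`: (A3) + (A5). -/
theorem levelTate_infl (K : IntermediateField ℚ Qbar) [FiniteDimensional ℚ K] [IsGalois ℚ K]
    (S : Finset Nat.Primes) (hpS : pPrime p ∈ S)
    (hKS : K.fixingSubgroup ∈ (levelsS S).levels)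
    (hle : K.fixingSubgroup ≤ (cycloChar p).ker)
    (hcl : IsClassGenerating (FirstIneq.primesAbove K S))
    (C : Subgroup (K ≃ₐ[ℚ] K)) (hcop : (Nat.card C).Coprime p)
    (M : Rep.{0} (ZMod p) (K ≃ₐ[ℚ] K)) [Finite M] :
    LevelTate S (preW K C) (infl K M) := by
  haveI : Module.Finite (ZMod p) M := Module.Finite.of_finite
  exact hA5_of_delta K S C M hle hcop hcl
    (KummerDelta.card_H1_resW_eq_card_deltaHoms S K C M hpS hKS hle hcop)

/-- **The input `LevelTateAll` of `Euler/EC.lean`.** -/
theorem levelTateAll : LevelTateAll p := by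
  intro S hpS K hfd hn hnf hKS hle hcl D _ hDp X
  haveI : IsGalois ℚ K := ⟨⟩
  haveI : Finite (Rep.of X.ρ : Rep.{0} (ZMod p) (K ≃ₐ[ℚ] K)) :=
    (Module.finite_of_finite (ZMod p) : Finite X.V)
  exact levelTate_infl K S hpS (fixingSubgroup_mem_levels K hKS) hle hcl D hDp (Rep.of X.ρ)

end Fermat.Agent.S56x.Euler.LevelTateProof
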