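import Fermat.Agent.S56x.Euler.DescentH1
import Fermat.Prelude.Def_GroupCohomology_Selmer

/-!
# P-S56 block (B), (E6): equivariant level homomorphisms into a twisted dual, via a pairing

`G` a group, `V` a normal subgroup, `N` a finite `𝔽_p[G]`-module, `χ : G → 𝔽_pˣ` a character,
`D` an abelian group with a `G`-action, `B : V → D →+ 𝔽_p` a pairing which is additive in `V`,
`χ`-equivariant (`B (g v g⁻¹) (g d) = χ g · B v d`), non-degenerate in `D`, and identifies `D`
with the level characters of `V`.  Then the `G`-equivariant level homomorphisms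
`V → N.dualTwist χ` are in bijection with the `G`-equivariant additive maps `N → D`.
-/

set_option autoImplicit false
set_option linter.unusedSectionVars false

open CategoryTheory

namespace Fermat.Agent.S56x.Euler.PairingHom

open Fermat.Agent.Lib.CFT.Profinite Fermat.Agent.S56x.Euler.DescentH1

variable {p : ℕ} [Fact p.Prime] {G : Type} [Group G] (N : Rep.{0} (ZMod p) G)
  (V : Subgroup G) [hVn : V.Normal] (χ : G →* (ZMod p)ˣ) (𝒰 : LevelFamily G)
  {D : Type} [AddCommGroup D] [DistribMulAction G D] (B : V → D →+ ZMod p)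

/-- The `G`-equivariant additive maps `N → D`. -/
def EqHoms : Type := {φ : N →+ D // ∀ (g : G) (n : N), φ (N.ρ g n) = g • φ n}

/-- The hypotheses on the pairing. -/
structure IsKummerPairing : Prop where
  add_left : ∀ (v v' : V) (d : D), B (v * v') d = B v d + B v' d
  equivariant : ∀ (g : G) (v : V) (d : D), B (conjV V g v) (g • d) = (χ g : ZMod p) * B v d
  injective : ∀ d : D, (∀ v : V, B v d = 0) → d = 0
  level : ∀ d : D, ∃ U ∈ 𝒰.levels, ∀ v : V, (v : G) ∈ U → B v d = 0
  surjective : ∀ ψ : V → ZMod p, (∀ v v' : V, ψ (v * v') = ψ v + ψ v') →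
    (∃ U ∈ 𝒰.levels, ∀ v : V, (v : G) ∈ U → ψ v = 0) → ∃ d : D, ∀ v : V, ψ v = B v d

variable {N V χ 𝒰 B}

/-- the element of the dual attached to `φ` and `v` -/
noncomputable def dualOf (φ : N →+ D) (v : V) : Module.Dual (ZMod p) N :=
  AddMonoidHom.toZModLinearMap p ((B v).comp φ)

@[simp]
theorem dualOf_apply (φ : N →+ D) (v : V) (n : N) : dualOf (B := B) φ v n = B v (φ n) := rfl

variable [Finite N]

theorem dualOf_mem (hB : IsKummerPairing V χ 𝒰 B) (φ : EqHoms N (D := D)) :
    (fun v : V => (dualOf (B := B) φ.1 v : (N.dualTwist χ))) ∈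
      levelEquivHoms (N.dualTwist χ) V 𝒰 := by
  refine ⟨⟨fun v w => ?_, fun g v => ?_⟩, ?_⟩
  · apply LinearMap.ext
    intro n
    show B (v * w) (φ.1 n) = B v (φ.1 n) + B w (φ.1 n)
    exact hB.add_left v w _
  · apply LinearMap.ext
    intro n
    show B (conjV V g v) (φ.1 n) = (χ g : ZMod p) * B v (φ.1 (N.ρ g⁻¹ n))
    rw [φ.2 g⁻¹ n, ← hB.equivariant g v, smul_inv_smul]
  · have hex : ∀ n : N, ∃ U ∈ 𝒰.levels, ∀ v : V, (v : G) ∈ U → B v (φ.1 n) = 0 :=
      fun n => hB.level (φ.1 n)
    choose U hU hUv using hex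
    obtain ⟨W, hW, -, hle⟩ := 𝒰.exists_normal_le_of_finite U hU
    refine ⟨W, hW, fun v hv => ?_⟩
    apply LinearMap.ext
    intro n
    exact hUv n v (hle n hv)

/-- the map from equivariant homomorphisms `N → D` to equivariant level homomorphisms
`V → N.dualTwist χ` -/
noncomputable def toLevelEquivHoms (hB : IsKummerPairing V χ 𝒰 B) (φ : EqHoms N (D := D)) :
    levelEquivHoms (N.dualTwist χ) V 𝒰 :=
  ⟨_, dualOf_mem hB φ⟩

theorem toLevelEquivHoms_apply (hB : IsKummerPairing V χ 𝒰 B) (φ : EqHoms N (D := D)) (v : V)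
    (n : N) : ((toLevelEquivHoms hB φ : V → (N.dualTwist χ)) v : Module.Dual (ZMod p) N) n =
      B v (φ.1 n) := rfl

theorem toLevelEquivHoms_injective (hB : IsKummerPairing V χ 𝒰 B) :
    Function.Injective (toLevelEquivHoms (N := N) hB) := by
  intro φ φ' h
  apply Subtype.ext
  apply AddMonoidHom.ext
  intro n
  rw [← sub_eq_zero]
  apply hB.injective
  intro v
  rw [map_sub, sub_eq_zero]
  have h1 := congrArg (fun ξ : levelEquivHoms (N.dualTwist χ) V 𝒰 =>
    ((ξ : V → (N.dualTwist χ)) v : Module.Dual (ZMod p) N) n) h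
  exact h1

theorem toLevelEquivHoms_surjective (hB : IsKummerPairing V χ 𝒰 B) :
    Function.Surjective (toLevelEquivHoms (N := N) hB) := by
  rintro ⟨ξ, ⟨hadd, heq⟩, U, hU, hξU⟩
  have hex : ∀ n : N, ∃ d : D, ∀ v : V, (ξ v : Module.Dual (ZMod p) N) n = B v d := by
    intro n
    refine hB.surjective (fun v => (ξ v : Module.Dual (ZMod p) N) n) (fun v v' => ?_)
      ⟨U, hU, fun v hv => ?_⟩
    · show (ξ (v * v') : Module.Dual (ZMod p) N) n = _
      rw [hadd]
      rfl
    · show (ξ v : Module.Dual (ZMod p) N) n = 0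
      rw [hξU v hv]
      rfl
  choose d hd using hex
  have huniq : ∀ {a b : D}, (∀ v : V, B v a = B v b) → a = b := by
    intro a b h
    rw [← sub_eq_zero]
    apply hB.injective
    intro v
    rw [map_sub, h v, sub_self]
  have hdadd : ∀ n n' : N, d (n + n') = d n + d n' := by
    intro n n'
    apply huniq
    intro v
    rw [map_add, ← hd, ← hd, ← hd, map_add]
  let φ : N →+ D := AddMonoidHom.mk' d hdadd
  have hφeq : ∀ (g : G) (n : N), φ (N.ρ g n) = g • φ n := by
    intro g n
    apply huniq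
    intro v
    show B v (d (N.ρ g n)) = B v (g • d n)
    have hv : conjV V g (conjV V g⁻¹ v) = v := by
      apply Subtype.ext
      simp only [coe_conjV]
      group
    have h1 : B v (g • d n) = (χ g : ZMod p) * B (conjV V g⁻¹ v) (d n) := by
      conv_lhs => rw [← hv]
      exact hB.equivariant g _ _
    rw [h1, ← hd, ← hd, heq g⁻¹ v]
    show (ξ v : Module.Dual (ZMod p) N) (N.ρ g n) =
      (χ g : ZMod p) * ((χ g⁻¹ : ZMod p) * (ξ v : Module.Dual (ZMod p) N) (N.ρ g⁻¹⁻¹ n))
    rw [inv_inv, ← mul_assoc, ← Units.val_mul, ← map_mul, mul_inv_cancel, map_one, Units.val_one,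
      one_mul]
  refine ⟨⟨φ, hφeq⟩, ?_⟩
  apply Subtype.ext
  funext v
  apply LinearMap.ext
  intro n
  exact (hd n v).symm

/-- **The bijection**: equivariant additive maps `N → D` ≃ equivariant level homomorphisms
`V → N.dualTwist χ`. -/
noncomputable def eqHomsEquiv (hB : IsKummerPairing V χ 𝒰 B) :
    EqHoms N (D := D) ≃ levelEquivHoms (N.dualTwist χ) V 𝒰 :=
  Equiv.ofBijective (toLevelEquivHoms hB)
    ⟨toLevelEquivHoms_injective hB, toLevelEquivHoms_surjective hB⟩

end Fermat.Agent.S56x.Euler.PairingHom
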