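import Fermat.Agent.Lib.ModRep.RepGlue
import Fermat.Agent.S56x.Euler.PermTensorIso

/-!
# P-S56 block (B), leaf (A0) part 1 in `Rep`/`permRep` form

For a surjective `π : Γ →* G₀`, `D ≤ G₀` and `X : Rep k G₀`:

`Rep.res π (permRep (G₀ ⧸ D) X) ≅ DevissageRep.P (D.comap π) (Rep.res π X)`

(`permRep` = helper66's `Lib/ModRep/RepGlue.permRep`, the object on which the `Rep`-form of the
induction theorem `rep_additive_eq_zero_of_cyclic` evaluates `φ`).  Same construction as
`PermTensorIso.isoFunRep`, without any finiteness.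
-/

set_option autoImplicit false

open CategoryTheory Fermat.Agent.Lib.ModRep Fermat.Agent.Lib.CFT.Duality
open Fermat.Agent.Lib.CFT.Duality.DevissageRep Fermat.Agent.Lib.CFT.Duality.CoindDual
open Fermat.Agent.S56x.Euler.PermTensorIso

namespace Fermat.Agent.S56x.Euler.PermRepIso

variable {k : Type} [Field k] {Γ G₀ : Type} [Group Γ] [Group G₀]

/-- The underlying linear equivalence `(G₀ ⧸ D → X) ≃ Coind_W (Rep.res π X)`, `W = π⁻¹(D)`. -/
noncomputable def linEquivRep (π : Γ →* G₀) (hπ : Function.Surjective π) (D : Subgroup G₀)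
    (X : Rep.{0} k G₀) :
    (G₀ ⧸ D → X.V) ≃ₗ[k] P (D.comap π) (Rep.res π X) :=
  (LinearEquiv.funCongrLeft k X.V (quotEquiv π hπ D)).trans
    (coordEquiv (D.comap π) (Rep.res π X)).symm

theorem coord_linEquivRep (π : Γ →* G₀) (hπ : Function.Surjective π) (D : Subgroup G₀)
    (X : Rep.{0} k G₀) (f : G₀ ⧸ D → X.V) (x : Γ ⧸ D.comap π) :
    coord (D.comap π) (Rep.res π X) (linEquivRep π hπ D X f) x = f (quotEquiv π hπ D x) := by
  have h : coordEquiv (D.comap π) (Rep.res π X) (linEquivRep π hπ D X f) =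
      LinearEquiv.funCongrLeft k X.V (quotEquiv π hπ D) f := by
    rw [linEquivRep, LinearEquiv.trans_apply, LinearEquiv.apply_symm_apply]
  exact congrFun h x

/-- In the other direction: the value of `linEquivRep.symm F` at `π γ D` is `γ F(γ⁻¹)`. -/
theorem linEquivRep_symm_apply (π : Γ →* G₀) (hπ : Function.Surjective π) (D : Subgroup G₀)
    (X : Rep.{0} k G₀) (F : P (D.comap π) (Rep.res π X)) (γ : Γ) :
    (linEquivRep π hπ D X).symm F ((π γ : G₀) : G₀ ⧸ D) = X.ρ (π γ) (F.1 γ⁻¹) := by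
  obtain ⟨f, rfl⟩ := (linEquivRep π hπ D X).surjective F
  rw [LinearEquiv.symm_apply_apply]
  have h := coord_linEquivRep π hπ D X f (γ : Γ ⧸ D.comap π)
  rw [quotEquiv_mk, coord_mk] at h
  exact h.symm

/-- The equivariance of `linEquivRep`. -/
theorem linEquivRep_comm (π : Γ →* G₀) (hπ : Function.Surjective π) (D : Subgroup G₀)
    (X : Rep.{0} k G₀) (γ : Γ) :
    (linEquivRep π hπ D X).toLinearMap ∘ₗ (Rep.res π (permRep (G₀ ⧸ D) X)).ρ γ =
      (P (D.comap π) (Rep.res π X)).ρ γ ∘ₗ (linEquivRep π hπ D X).toLinearMap := by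
  apply LinearMap.ext
  intro f
  apply (coordEquiv (D.comap π) (Rep.res π X)).injective
  funext x
  show coord (D.comap π) (Rep.res π X)
      (linEquivRep π hπ D X (permRepresentation (G₀ ⧸ D) X.ρ (π γ) f)) x =
    coord (D.comap π) (Rep.res π X)
      ((P (D.comap π) (Rep.res π X)).ρ γ (linEquivRep π hπ D X f)) x
  rw [coord_ρ, coord_linEquivRep, coord_linEquivRep, quotEquiv_smul, map_inv]
  rfl

/-- **(A0) part 1, `Rep` form.** -/
noncomputable def isoPermRep (π : Γ →* G₀) (hπ : Function.Surjective π) (D : Subgroup G₀)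
    (X : Rep.{0} k G₀) :
    Rep.res π (permRep (G₀ ⧸ D) X) ≅ P (D.comap π) (Rep.res π X) :=
  Rep.mkIso (Representation.Equiv.mk (linEquivRep π hπ D X) (linEquivRep_comm π hπ D X))

theorem nonempty_iso_permRep (π : Γ →* G₀) (hπ : Function.Surjective π) (D : Subgroup G₀)
    (X : Rep.{0} k G₀) :
    Nonempty (Rep.res π (permRep (G₀ ⧸ D) X) ≅ P (D.comap π) (Rep.res π X)) :=
  ⟨isoPermRep π hπ D X⟩

@[simp] theorem isoPermRep_hom_apply (π : Γ →* G₀) (hπ : Function.Surjective π)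
    (D : Subgroup G₀) (X : Rep.{0} k G₀) (f : G₀ ⧸ D → X.V) :
    (isoPermRep π hπ D X).hom.hom f = linEquivRep π hπ D X f := rfl

/-- The special case `π = QuotientGroup.mk' V`. -/
noncomputable def isoPermRepQuot (V : Subgroup Γ) [V.Normal] (D : Subgroup (Γ ⧸ V))
    (X : Rep.{0} k (Γ ⧸ V)) :
    Rep.res (QuotientGroup.mk' V) (permRep ((Γ ⧸ V) ⧸ D) X) ≅
      P (D.comap (QuotientGroup.mk' V)) (Rep.res (QuotientGroup.mk' V) X) :=
  isoPermRep (QuotientGroup.mk' V) (QuotientGroup.mk'_surjective V) D X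

end Fermat.Agent.S56x.Euler.PermRepIso
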