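/-
helper49 (P-S56, block (B), (EC) line): the defect `phiC S` as an ADDITIVE INVARIANT in the sense
of `Lib/ModRep` (helper66), ready for the induction theorem `additive_eq_zero_of_cyclic`.

For `V` a normal level of `levelsS S` and `G0 = Γℚ ⧸ V`:

* `inflRep π X : Rep k G` : inflation of a finite dimensional representation `X : FRep k G0`
  along a homomorphism `π : G →* G0` (generic), `inflIso`, `inflSeq`, `inflSeq_shortExact`;
* `isDiscrete_inflRep` : the inflation along `Γℚ → Γℚ ⧸ V` is discrete for `levelsS S`;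
* `phiAddInv hp2 hpS I V hV : AddInv (ZMod p) (Γℚ ⧸ V) ℤ` with
  `val X = phiC S (inflRep (QuotientGroup.mk' V) X)`;
* `phiC_inflRep_eq_zero_of_cyclic` : if `phiC S` vanishes on the inflations of all
  `Fun(G0 ⧸ D, X)`, `D ≤ G0` cyclic of order prime to `p`, then it vanishes on all inflations.
-/
import Fermat.Agent.S56x.Euler.AdditiveConeContract
import Fermat.Agent.Lib.ModRep.Main

set_option autoImplicit false
set_option linter.style.haveILetI false

open CategoryTheory Module ExtCitation

namespace Fermat.Agent.S56x.Euler.PhiAddInv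

open Fermat.Agent.Lib.CFT.Duality Fermat.Agent.Lib.CFT.Profinite Fermat.Agent.Lib.ModRep

local notation "Γℚ" => (AlgebraicClosure ℚ ≃ₐ[ℚ] AlgebraicClosure ℚ)

/-! ### Inflation of finite dimensional representations -/

section Inflation

variable {k : Type} [Field k] {G G0 : Type} [Group G] [Group G0] (π : G →* G0)

/-- The inflation of `X : FRep k G0` along `π : G →* G0`, as an object of `Rep k G`. -/
noncomputable def inflRep (X : FRep k G0) : Rep k G := Rep.of (X.ρ.comp π)

theorem inflRep_ρ_apply (X : FRep k G0) (g : G) (x : X.V) :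
    (inflRep π X).ρ g x = X.ρ (π g) x := rfl

instance (X : FRep k G0) : Module.Finite k (inflRep π X) := X.fin

instance [Finite k] (X : FRep k G0) : Finite (inflRep π X) :=
  Module.finite_of_finite k (M := X.V)

/-- An equivariant equivalence inflates to an isomorphism. -/
noncomputable def inflIso {X Y : FRep k G0} (e : REquiv X Y) : inflRep π X ≅ inflRep π Y :=
  Rep.mkIso (Representation.Equiv.mk e.e (fun g => by
    ext v
    exact e.comm (π g) v))

/-- The inflation of the inclusion of an invariant subspace. -/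
noncomputable def inflSub (X : FRep k G0) (U : Submodule k X.V) (hU : Inv X U) :
    inflRep π (X.sub U hU) ⟶ inflRep π X :=
  Rep.ofHom (LinearMap.intertwiningMap_of_isIntertwiningMap _ _ U.subtype (fun _ _ => rfl))

/-- The inflation of the projection to the quotient by an invariant subspace. -/
noncomputable def inflQuot (X : FRep k G0) (U : Submodule k X.V) (hU : Inv X U) :
    inflRep π X ⟶ inflRep π (X.quot U hU) :=
  Rep.ofHom (LinearMap.intertwiningMap_of_isIntertwiningMap _ _ U.mkQ (fun _ _ => rfl))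

theorem inflSub_apply (X : FRep k G0) (U : Submodule k X.V) (hU : Inv X U) (u : U) :
    (inflSub π X U hU).hom u = (u : X.V) := rfl

theorem inflQuot_apply (X : FRep k G0) (U : Submodule k X.V) (hU : Inv X U) (x : X.V) :
    (inflQuot π X U hU).hom x = Submodule.Quotient.mk x := rfl

/-- The short complex `0 → Inf U → Inf X → Inf (X ⧸ U) → 0`. -/
noncomputable def inflSeq (X : FRep k G0) (U : Submodule k X.V) (hU : Inv X U) :
    ShortComplex (Rep k G) :=
  ShortComplex.mk (inflSub π X U hU) (inflQuot π X U hU) (by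
    ext u
    exact (Submodule.Quotient.mk_eq_zero U).2 (show ↥U from u).2)

@[simp] theorem inflSeq_X₁ (X : FRep k G0) (U : Submodule k X.V) (hU : Inv X U) :
    (inflSeq π X U hU).X₁ = inflRep π (X.sub U hU) := rfl

@[simp] theorem inflSeq_X₂ (X : FRep k G0) (U : Submodule k X.V) (hU : Inv X U) :
    (inflSeq π X U hU).X₂ = inflRep π X := rfl

@[simp] theorem inflSeq_X₃ (X : FRep k G0) (U : Submodule k X.V) (hU : Inv X U) :
    (inflSeq π X U hU).X₃ = inflRep π (X.quot U hU) := rfl

theorem inflSeq_shortExact (X : FRep k G0) (U : Submodule k X.V) (hU : Inv X U) :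
    (inflSeq π X U hU).ShortExact where
  exact := by
    rw [← ShortComplex.exact_map_iff_of_faithful _ (forget₂ (Rep k G) (ModuleCat k)),
      ShortComplex.moduleCat_exact_iff_range_eq_ker]
    change LinearMap.range U.subtype = LinearMap.ker U.mkQ
    rw [Submodule.range_subtype, Submodule.ker_mkQ]
  mono_f := (Rep.mono_iff_injective _).2 (fun u u' h => Subtype.ext h)
  epi_g := (Rep.epi_iff_surjective _).2 (fun y => by
    obtain ⟨x, rfl⟩ := Submodule.Quotient.mk_surjective U y
    exact ⟨x, rfl⟩)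

end Inflation

/-! ### The additive invariant -/

section Arith

variable {p : ℕ} [Fact p.Prime] {S : Finset Nat.Primes} (V : Subgroup Γℚ) [V.Normal]

/-- The inflation from `Γℚ ⧸ V`, `V` a level, is discrete. -/
theorem isDiscrete_inflRep (hV : V ∈ (Bridge.levelsS S).levels) (X : FRep (ZMod p) (Γℚ ⧸ V)) :
    (Bridge.levelsS S).IsDiscrete (inflRep (QuotientGroup.mk' V) X) := by
  intro m
  refine ⟨V, hV, fun s hs => ?_⟩
  change X.ρ ((QuotientGroup.mk' V) s) m = m
  have h1 : (QuotientGroup.mk' V) s = 1 := (QuotientGroup.eq_one_iff s).2 hs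
  rw [h1, map_one]
  rfl

/-- Additivity of `phiC S ∘ Inf` in an invariant subspace and its quotient. -/
theorem phiC_inflRep_add (hp2 : p ≠ 2) (hpS : pPrime p ∈ S) (I : PoitouTate.GlobalInput p S)
    (hV : V ∈ (Bridge.levelsS S).levels) (X : FRep (ZMod p) (Γℚ ⧸ V))
    (U : Submodule (ZMod p) X.V) (hU : Inv X U) :
    phiC S (inflRep (QuotientGroup.mk' V) X) =
      phiC S (inflRep (QuotientGroup.mk' V) (X.sub U hU)) +
        phiC S (inflRep (QuotientGroup.mk' V) (X.quot U hU)) := by
  haveI : Finite (inflSeq (QuotientGroup.mk' V) X U hU).X₂ :=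
    inferInstanceAs (Finite (inflRep (QuotientGroup.mk' V) X))
  have h := phiC_additive hp2 hpS I (inflSeq_shortExact (QuotientGroup.mk' V) X U hU)
    (isDiscrete_inflRep V hV X)
  rw [inflSeq_X₁, inflSeq_X₂, inflSeq_X₃] at h
  exact h

/-- **The defect `phiC S ∘ Inf` as an additive invariant** of the finite dimensional
representations of `Γℚ ⧸ V` over `𝔽_p`. -/
noncomputable def phiAddInv (hp2 : p ≠ 2) (hpS : pPrime p ∈ S) (I : PoitouTate.GlobalInput p S)
    (hV : V ∈ (Bridge.levelsS S).levels) : AddInv (ZMod p) (Γℚ ⧸ V) ℤ :=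
  AddInv.ofGroup (fun X => phiC S (inflRep (QuotientGroup.mk' V) X))
    (fun _ _ e => phiC_of_iso S (inflIso (QuotientGroup.mk' V) e))
    (fun X U hU => phiC_inflRep_add V hp2 hpS I hV X U hU)

@[simp] theorem phiAddInv_val (hp2 : p ≠ 2) (hpS : pPrime p ∈ S)
    (I : PoitouTate.GlobalInput p S) (hV : V ∈ (Bridge.levelsS S).levels)
    (X : FRep (ZMod p) (Γℚ ⧸ V)) :
    (phiAddInv V hp2 hpS I hV).val X = phiC S (inflRep (QuotientGroup.mk' V) X) := rfl

/-- **The induction theorem for the defect**: it suffices to prove `(EC)` for the inflations of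
the modules `Fun(G0 ⧸ D, X)` (`≅ Coind_W (X|_W)`, `W` the preimage of `D`), `D ≤ G0 = Γℚ ⧸ V`
cyclic of order prime to `p`. -/
theorem phiC_inflRep_eq_zero_of_cyclic (hp2 : p ≠ 2) (hpS : pPrime p ∈ S)
    (I : PoitouTate.GlobalInput p S) (hV : V ∈ (Bridge.levelsS S).levels) [Finite (Γℚ ⧸ V)]
    (hind : ∀ D : Subgroup (Γℚ ⧸ V), IsCyclic D → (Nat.card D).Coprime p →
      ∀ X : FRep (ZMod p) (Γℚ ⧸ V),
        phiC S (inflRep (QuotientGroup.mk' V) (funFRep ((Γℚ ⧸ V) ⧸ D) X)) = 0)
    (X : FRep (ZMod p) (Γℚ ⧸ V)) : phiC S (inflRep (QuotientGroup.mk' V) X) = 0 :=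
  additive_eq_zero_of_cyclic p (phiAddInv V hp2 hpS I hV) hind X

omit [V.Normal] in
/-- The quotient by a level is finite. -/
theorem finite_quotient_of_level (hV : V ∈ (Bridge.levelsS S).levels) : Finite (Γℚ ⧸ V) := by
  haveI : V.FiniteIndex := (Bridge.levelsS S).finiteIndex V hV
  exact Subgroup.finite_quotient_of_finiteIndex

/-- A representation on which the normal subgroup `V` acts trivially descends to `Γℚ ⧸ V`. -/
noncomputable def descend (M : Rep (ZMod p) Γℚ) [Finite M]
    (hfix : ∀ s ∈ V, ∀ a : M, M.ρ s a = a) : FRep (ZMod p) (Γℚ ⧸ V) :=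
  haveI : Module.Finite (ZMod p) M := Module.Finite.of_finite
  ⟨M, QuotientGroup.lift V M.ρ (fun s hs => by
    rw [MonoidHom.mem_ker]
    ext a
    exact hfix s hs a)⟩

/-- `M` is the inflation of its descent. -/
noncomputable def descendIso (M : Rep (ZMod p) Γℚ) [Finite M]
    (hfix : ∀ s ∈ V, ∀ a : M, M.ρ s a = a) :
    M ≅ inflRep (QuotientGroup.mk' V) (descend V M hfix) :=
  Rep.mkIso (ρ := M.ρ) (σ := (descend V M hfix).ρ.comp (QuotientGroup.mk' V))
    (Representation.Equiv.mk (LinearEquiv.refl (ZMod p) M) (fun _ => rfl))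

end Arith

section Final

variable {p : ℕ} [Fact p.Prime] {S : Finset Nat.Primes}

/-- Every finite discrete module is the inflation of a finite dimensional representation of
`Γℚ ⧸ V` for a normal level `V`, which can be chosen inside any given level `U₀`. -/
theorem exists_iso_inflRep (M : Rep (ZMod p) Γℚ) [Finite M]
    (hM : (Bridge.levelsS S).IsDiscrete M) {U₀ : Subgroup Γℚ}
    (hU₀ : U₀ ∈ (Bridge.levelsS S).levels) :
    ∃ (V : Subgroup Γℚ) (_ : V.Normal), V ∈ (Bridge.levelsS S).levels ∧ V ≤ U₀ ∧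
      ∃ X : FRep (ZMod p) (Γℚ ⧸ V), Nonempty (M ≅ inflRep (QuotientGroup.mk' V) X) := by
  obtain ⟨W, hW, -, hfix⟩ := DevissageRep.exists_normal_level_acting_trivially
    (Bridge.levelsS S) hM
  obtain ⟨V, hV, hVW, hVU, hn⟩ := (Bridge.levelsS S).exists_normal_le_inf hW hU₀
  have hfix' : ∀ s ∈ V, ∀ a : M, M.ρ s a = a := fun s hs a => hfix s (hVW hs) a
  exact ⟨V, hn, hV, hVU, descend V M hfix', ⟨descendIso V M hfix'⟩⟩

/-- **Reduction of `(EC)` to the induced modules.**  Let `U₀` be a level (e.g. contained in the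
kernel of the cyclotomic character).  If the defect vanishes on the inflations of all
`Fun(G0 ⧸ D, X)` for all normal levels `V ≤ U₀`, `G0 = Γℚ ⧸ V`, `D ≤ G0` cyclic of order prime to
`p`, then it vanishes on every finite discrete module. -/
theorem phiC_eq_zero_of_cyclic (hp2 : p ≠ 2) (hpS : pPrime p ∈ S)
    (I : PoitouTate.GlobalInput p S) {U₀ : Subgroup Γℚ}
    (hU₀ : U₀ ∈ (Bridge.levelsS S).levels)
    (hind : ∀ (V : Subgroup Γℚ) [V.Normal] [Finite (Γℚ ⧸ V)],
      V ∈ (Bridge.levelsS S).levels → V ≤ U₀ →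
      ∀ D : Subgroup (Γℚ ⧸ V), IsCyclic D → (Nat.card D).Coprime p →
        ∀ X : FRep (ZMod p) (Γℚ ⧸ V),
          phiC S (inflRep (QuotientGroup.mk' V) (funFRep ((Γℚ ⧸ V) ⧸ D) X)) = 0)
    (M : Rep (ZMod p) Γℚ) [Finite M] (hM : (Bridge.levelsS S).IsDiscrete M) :
    phiC S M = 0 := by
  obtain ⟨V, hn, hV, hVU, X, ⟨e⟩⟩ := exists_iso_inflRep M hM hU₀
  haveI : Finite (Γℚ ⧸ V) := finite_quotient_of_level V hV
  rw [phiC_of_iso S e]
  exact phiC_inflRep_eq_zero_of_cyclic V hp2 hpS I hV (hind V hV hVU) X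

end Final


end Fermat.Agent.S56x.Euler.PhiAddInv
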