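/-
helper49 (P-S56, block (B), (EC) line): the induction theorem applied to the defect `phiC S`,
GENERIC in the surjection `π : Γℚ →* G0` (`G0` a finite group, `ker π` containing a level), in
`Rep` form (helper66's `Lib/ModRep/RepGlue.rep_additive_eq_zero_of_cyclic`, `permRep`).

Instances: `G0 = Γℚ ⧸ V`, `π = QuotientGroup.mk' V`; `G0 = (K ≃ₐ[ℚ] K)`, `π = Hind.proj K`.

* `isDiscrete_res`, `phiC_res_of_iso`, `phiC_res_additive` : `A ↦ phiC S (Rep.res π A)` is
  invariant under isomorphisms and additive on short exact sequences of finite dimensional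
  representations of `G0`;
* `phiC_res_eq_zero_of_cyclic` : if it vanishes on `permRep (G0 ⧸ D) X`, `D` cyclic of order
  prime to `p`, it vanishes on all finite dimensional representations;
* `phiC_res_eq_zero_of_tate` : the same with the hypothesis in helper11's `hind` form
  `GW.TateEulerC S (DevissageRep.P (D.comap π) (Rep.res π X))` (via helper5's `isoPermRep`);
  `tateEulerC_res_of_tate` : conclusion in `TateEulerC` form.
-/
import Fermat.Agent.S56x.Euler.AdditiveConeContract
import Fermat.Agent.S56x.Euler.PermRepIso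
import Fermat.Agent.Lib.ModRep.RepGlue

set_option autoImplicit false
set_option linter.style.haveILetI false

open CategoryTheory Module ExtCitation

namespace Fermat.Agent.S56x.Euler.PhiInflate

open Fermat.Agent.Lib.CFT.Duality Fermat.Agent.Lib.CFT.Profinite Fermat.Agent.Lib.ModRep

local notation "Γℚ" => (AlgebraicClosure ℚ ≃ₐ[ℚ] AlgebraicClosure ℚ)

variable {p : ℕ} [Fact p.Prime] {S : Finset Nat.Primes} {G0 : Type} [Group G0] (π : Γℚ →* G0)

/-- The inflation along `π` is discrete if `ker π` contains a level. -/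
theorem isDiscrete_res (hker : ∃ V ∈ (Bridge.levelsS S).levels, V ≤ π.ker)
    (A : Rep (ZMod p) G0) : (Bridge.levelsS S).IsDiscrete (Rep.res π A) := by
  obtain ⟨V, hV, hle⟩ := hker
  intro m
  refine ⟨V, hV, fun s hs => ?_⟩
  change A.ρ (π s) m = m
  rw [MonoidHom.mem_ker.1 (hle hs), map_one]
  rfl

/-- Invariance under isomorphisms. -/
theorem phiC_res_of_iso (S : Finset Nat.Primes) {A B : Rep (ZMod p) G0} (e : A ≅ B) :
    phiC S (Rep.res π A) = phiC S (Rep.res π B) :=
  phiC_of_iso S ((Rep.resFunctor π).mapIso e)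

/-- Additivity on short exact sequences of finite dimensional representations of `G0`. -/
theorem phiC_res_additive (hp2 : p ≠ 2) (hpS : pPrime p ∈ S) (I : PoitouTate.GlobalInput p S)
    (hker : ∃ V ∈ (Bridge.levelsS S).levels, V ≤ π.ker)
    (X : ShortComplex (Rep (ZMod p) G0)) (hX : X.ShortExact)
    (hfin : Module.Finite (ZMod p) X.X₂) :
    phiC S (Rep.res π X.X₂) = phiC S (Rep.res π X.X₁) + phiC S (Rep.res π X.X₃) := by
  have hfin' : Finite (Rep.res π X.X₂) := Module.finite_of_finite (ZMod p) (M := X.X₂)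
  have hX' : (X.map (Rep.resFunctor π)).ShortExact := (Rep.shortExact_res π).2 hX
  have h := @phiC_additive p _ S hp2 hpS I (X.map (Rep.resFunctor π)) hX' hfin'
    (isDiscrete_res π hker X.X₂)
  exact h

/-- **The induction theorem for the defect, generic in `π`** (`Rep` form). -/
theorem phiC_res_eq_zero_of_cyclic [Finite G0] (hp2 : p ≠ 2) (hpS : pPrime p ∈ S)
    (I : PoitouTate.GlobalInput p S) (hker : ∃ V ∈ (Bridge.levelsS S).levels, V ≤ π.ker)
    (hind : ∀ D : Subgroup G0, IsCyclic D → (Nat.card D).Coprime p →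
      ∀ X : Rep (ZMod p) G0, Module.Finite (ZMod p) X →
        phiC S (Rep.res π (permRep (G0 ⧸ D) X)) = 0)
    (X : Rep (ZMod p) G0) [Module.Finite (ZMod p) X] : phiC S (Rep.res π X) = 0 :=
  rep_additive_eq_zero_of_cyclic p (fun A => phiC S (Rep.res π A))
    (fun _ _ _ e => phiC_res_of_iso π S e)
    (fun X hX hfin => phiC_res_additive π hp2 hpS I hker X hX hfin) hind X

/-- **The induction theorem with the hypothesis in `hind` form**: Tate's formula for the modules
`Coind_W (Inf X |_W)`, `W = π⁻¹(D)`, `D ≤ G0` cyclic of order prime to `p`, implies `(EC)` for all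
inflations `Inf X`. -/
theorem phiC_res_eq_zero_of_tate [Finite G0] (hp2 : p ≠ 2) (hpS : pPrime p ∈ S)
    (I : PoitouTate.GlobalInput p S) (hπ : Function.Surjective π)
    (hker : ∃ V ∈ (Bridge.levelsS S).levels, V ≤ π.ker)
    (hT : ∀ D : Subgroup G0, IsCyclic D → (Nat.card D).Coprime p →
      ∀ X : Rep (ZMod p) G0, Module.Finite (ZMod p) X →
        GW.TateEulerC S (DevissageRep.P (D.comap π) (Rep.res π X)))
    (X : Rep (ZMod p) G0) [Module.Finite (ZMod p) X] : phiC S (Rep.res π X) = 0 := by
  refine phiC_res_eq_zero_of_cyclic π hp2 hpS I hker (fun D hD hDp Y hY => ?_) X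
  rw [phiC_of_iso S (PermRepIso.isoPermRep π hπ D Y)]
  exact (tateEulerC_iff_phiC_eq_zero hpS _).1 (hT D hD hDp Y hY)

/-- The same with the conclusion in `TateEulerC` form. -/
theorem tateEulerC_res_of_tate [Finite G0] (hp2 : p ≠ 2) (hpS : pPrime p ∈ S)
    (I : PoitouTate.GlobalInput p S) (hπ : Function.Surjective π)
    (hker : ∃ V ∈ (Bridge.levelsS S).levels, V ≤ π.ker)
    (hT : ∀ D : Subgroup G0, IsCyclic D → (Nat.card D).Coprime p →
      ∀ X : Rep (ZMod p) G0, Module.Finite (ZMod p) X →
        GW.TateEulerC S (DevissageRep.P (D.comap π) (Rep.res π X)))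
    (X : Rep (ZMod p) G0) [Module.Finite (ZMod p) X] : GW.TateEulerC S (Rep.res π X) :=
  (tateEulerC_iff_phiC_eq_zero hpS _).2 (phiC_res_eq_zero_of_tate π hp2 hpS I hπ hker hT X)

/-- Transport along an isomorphism: `(EC)` for every module isomorphic to an inflation. -/
theorem tateEulerC_of_iso_res [Finite G0] (hp2 : p ≠ 2) (hpS : pPrime p ∈ S)
    (I : PoitouTate.GlobalInput p S) (hπ : Function.Surjective π)
    (hker : ∃ V ∈ (Bridge.levelsS S).levels, V ≤ π.ker)
    (hT : ∀ D : Subgroup G0, IsCyclic D → (Nat.card D).Coprime p →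
      ∀ X : Rep (ZMod p) G0, Module.Finite (ZMod p) X →
        GW.TateEulerC S (DevissageRep.P (D.comap π) (Rep.res π X)))
    (X : Rep (ZMod p) G0) [Module.Finite (ZMod p) X] (M : Rep (ZMod p) Γℚ)
    (e : M ≅ Rep.res π X) : GW.TateEulerC S M := by
  rw [tateEulerC_iff_phiC_eq_zero hpS, phiC_of_iso S e]
  exact phiC_res_eq_zero_of_tate π hp2 hpS I hπ hker hT X

end Fermat.Agent.S56x.Euler.PhiInflate
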