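import Mathlib
import Fermat.Prelude.Def_GaloisRep_CompletionBridge
import Fermat.Prelude.Def_GaloisRep_ComplexConjugation
import Fermat.Agent.Lib.CFT.Profinite.BridgePlaces
import Fermat.Agent.Lib.CFT.Global.Places.GaloisLocalPrimes
import Fermat.Agent.Lib.CFT.Global.SUnits
import Fermat.Agent.S56x.Euler.InfinitePlaceStab

/-!
# P-S56, block (B), line (EC), step E3 (helper31): double cosets and the places of a level field

`F` a finite normal extension of `ℚ` inside `Qbar`, `V = F.fixingSubgroup`.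

* `finPlace q F g`: the prime of `𝓞 F` cut out by `x ↦ padicEmbedding q (g x)`;
  it only depends on the double coset `φ_q(G_q) g V`, distinct double cosets give distinct primes,
  and every prime above `q` occurs;
* `infPlace F g`: the infinite place `x ↦ ‖complexEmbedding (g x)‖`; it only depends on the
  double coset `⟨c⟩ g V`, distinct double cosets give distinct places, and every place occurs;
* equivariance: `finPlace q F (g * γ⁻¹) = primeMap (γ|F) (finPlace q F g)` and
  `infPlace F (g * γ⁻¹) = infMap (γ|F) (infPlace F g)` in the conventions of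
  `Fermat.Agent.Lib.CFT.Global.SUnits`.
-/

set_option autoImplicit false
set_option linter.unusedSectionVars false

open scoped NumberField NNReal

namespace Fermat.Agent.S56x.Euler.PlacesBridge

open NumberField IsDedekindDomain Fermat.Agent.Lib.CFT.Profinite.Bridge
  Fermat.Agent.Lib.CFT.Global.SUnits

local notation "Qbar" => AlgebraicClosure ℚ
local notation "Γℚ" => (AlgebraicClosure ℚ ≃ₐ[ℚ] AlgebraicClosure ℚ)

/-! ### The number field structure on a finite subextension of `Qbar` -/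

instance numberField_of_finite (F : IntermediateField ℚ Qbar) [FiniteDimensional ℚ F] :
    NumberField F where
  to_charZero := inferInstance
  to_finiteDimensional := inferInstance

/-! ### Finite places -/

section Fin

variable (q : ℕ) [Fact q.Prime] (F : IntermediateField ℚ Qbar) [FiniteDimensional ℚ F]

local notation "Ωq" => PadicAlgCl q
local notation "Gq" => (PadicAlgCl q ≃ₐ[ℚ_[q]] PadicAlgCl q)

/-- The ring homomorphism `𝓞 F → Ωq`, `x ↦ ι_q (g x)`. -/
noncomputable def intEmb (g : Γℚ) : 𝓞 F →+* Ωq :=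
  ((padicEmbedding q).toRingHom.comp (g : Qbar →+* Qbar)).comp
    ((algebraMap F Qbar).comp (algebraMap (𝓞 F) F))

theorem intEmb_apply (g : Γℚ) (x : 𝓞 F) :
    intEmb q F g x = padicEmbedding q (g ((x : F) : Qbar)) := rfl

theorem isIntegral_intEmb (g : Γℚ) (x : 𝓞 F) : IsIntegral ℤ (intEmb q F g x) :=
  (RingOfIntegers.isIntegral x).map (intEmb q F g).toIntAlgHom

/-- Integral elements of `Ωq` have norm at most one. -/
theorem norm_le_one_of_isIntegral {y : Ωq} (hy : IsIntegral ℤ y) : ‖y‖ ≤ 1 := by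
  have h1 : IsIntegral (padicIntegers q) y := hy.tower_top
  obtain ⟨z, hz⟩ := (IsIntegrallyClosed.isIntegral_iff (R := padicIntegers q) (K := Ωq)).mp h1
  have hz2 : ‖(z : Ωq)‖₊ ≤ 1 := (mem_padicIntegers_iff q).mp z.2
  rw [← hz]
  exact_mod_cast hz2

theorem norm_intEmb_le_one (g : Γℚ) (x : 𝓞 F) : ‖intEmb q F g x‖ ≤ 1 :=
  norm_le_one_of_isIntegral q (isIntegral_intEmb q F g x)

/-- The prime ideal of `𝓞 F` cut out by `x ↦ ι_q (g x)`. -/
noncomputable def finIdeal (g : Γℚ) : Ideal (𝓞 F) where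
  carrier := {x | ‖intEmb q F g x‖ < 1}
  add_mem' := by
    intro x y hx hy
    show ‖intEmb q F g (x + y)‖ < 1
    rw [map_add]
    exact lt_of_le_of_lt (PadicAlgCl.isNonarchimedean q _ _) (max_lt hx hy)
  zero_mem' := by
    show ‖intEmb q F g 0‖ < 1
    rw [map_zero, norm_zero]
    exact one_pos
  smul_mem' := by
    intro a x hx
    show ‖intEmb q F g (a • x)‖ < 1
    rw [smul_eq_mul, map_mul, norm_mul]
    calc ‖intEmb q F g a‖ * ‖intEmb q F g x‖ ≤ 1 * ‖intEmb q F g x‖ :=
          mul_le_mul_of_nonneg_right (norm_intEmb_le_one q F g a) (norm_nonneg _)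
      _ < 1 := by rw [one_mul]; exact hx

theorem mem_finIdeal_iff (g : Γℚ) (x : 𝓞 F) : x ∈ finIdeal q F g ↔ ‖intEmb q F g x‖ < 1 :=
  Iff.rfl

theorem natCast_mem_finIdeal (g : Γℚ) : ((q : ℕ) : 𝓞 F) ∈ finIdeal q F g := by
  rw [mem_finIdeal_iff, map_natCast]
  rw [← map_natCast (algebraMap ℚ_[q] Ωq), PadicAlgCl.norm_extends, Padic.norm_p]
  have hq : (1 : ℝ) < q := by exact_mod_cast (Fact.out : q.Prime).one_lt
  exact inv_lt_one_of_one_lt₀ hq

instance finIdeal_isPrime (g : Γℚ) : (finIdeal q F g).IsPrime where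
  ne_top' := by
    intro h
    have h1 : (1 : 𝓞 F) ∈ finIdeal q F g := h ▸ Submodule.mem_top
    rw [mem_finIdeal_iff, map_one, norm_one] at h1
    exact lt_irrefl _ h1
  mem_or_mem' := by
    intro x y hxy
    rw [mem_finIdeal_iff, map_mul, norm_mul] at hxy
    by_contra hcon
    push Not at hcon
    obtain ⟨hx, hy⟩ := hcon
    rw [mem_finIdeal_iff, not_lt] at hx hy
    have hx1 : ‖intEmb q F g x‖ = 1 := le_antisymm (norm_intEmb_le_one q F g x) hx
    have hy1 : ‖intEmb q F g y‖ = 1 := le_antisymm (norm_intEmb_le_one q F g y) hy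
    rw [hx1, hy1, one_mul] at hxy
    exact lt_irrefl _ hxy

theorem finIdeal_ne_bot (g : Γℚ) : finIdeal q F g ≠ ⊥ := by
  intro h
  have h1 := natCast_mem_finIdeal q F g
  rw [h, Ideal.mem_bot] at h1
  exact (Nat.cast_ne_zero.mpr (Fact.out : q.Prime).ne_zero) h1

/-- The prime of `𝓞 F` attached to `g ∈ Γℚ`: `x ↦ ι_q (g x)`. -/
noncomputable def finPlace (g : Γℚ) : HeightOneSpectrum (𝓞 F) :=
  ⟨finIdeal q F g, inferInstance, finIdeal_ne_bot q F g⟩

@[simp] theorem finPlace_asIdeal (g : Γℚ) : (finPlace q F g).asIdeal = finIdeal q F g := rfl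

theorem mem_finPlace_iff (g : Γℚ) (x : 𝓞 F) :
    x ∈ (finPlace q F g).asIdeal ↔ ‖padicEmbedding q (g ((x : F) : Qbar))‖ < 1 := Iff.rfl

theorem natCast_mem_finPlace (g : Γℚ) : ((q : ℕ) : 𝓞 F) ∈ (finPlace q F g).asIdeal :=
  natCast_mem_finIdeal q F g

/-- Left multiplication by the image of a local Galois element does not change the prime. -/
theorem finPlace_local_mul (h : Gq) (g : Γℚ) :
    finPlace q F (localGaloisToGlobal q h * g) = finPlace q F g := by
  apply HeightOneSpectrum.ext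
  ext x
  rw [mem_finPlace_iff, mem_finPlace_iff, AlgEquiv.mul_apply, padicEmbedding_localGaloisToGlobal]
  have := nnnorm_padicAlgCl_algEquiv q h (padicEmbedding q (g ((x : F) : Qbar)))
  rw [← coe_nnnorm, this, coe_nnnorm]

/-- Right multiplication by an element of `V = F.fixingSubgroup` does not change the prime. -/
theorem finPlace_mul_of_mem {s : Γℚ} (hs : s ∈ F.fixingSubgroup) (g : Γℚ) :
    finPlace q F (g * s) = finPlace q F g := by
  apply HeightOneSpectrum.ext
  ext x
  rw [mem_finPlace_iff, mem_finPlace_iff, AlgEquiv.mul_apply]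
  have : s ((x : F) : Qbar) = ((x : F) : Qbar) :=
    (IntermediateField.mem_fixingSubgroup_iff F s).mp hs _ (x : F).2
  rw [this]

/-! ### Equivariance -/

section Equivariance

variable [Normal ℚ F]

/-- The restriction of `γ ∈ Γℚ` to the normal subfield `F`. -/
noncomputable abbrev resF (γ : Γℚ) : F ≃ₐ[ℚ] F := AlgEquiv.restrictNormalHom F γ

theorem resF_coe (γ : Γℚ) (x : F) : ((resF F γ x : F) : Qbar) = γ (x : Qbar) :=
  AlgEquiv.restrictNormal_commutes γ F x

theorem resF_symm_coe (γ : Γℚ) (x : F) : (((resF F γ).symm x : F) : Qbar) = γ⁻¹ (x : Qbar) := by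
  have h : (resF F γ).symm = resF F γ⁻¹ := by
    show (resF F γ)⁻¹ = resF F γ⁻¹
    exact (map_inv (AlgEquiv.restrictNormalHom F) γ).symm
  rw [h, resF_coe]

/-- **Equivariance of `finPlace`**: `finPlace (g γ⁻¹) = (γ|F) (finPlace g)`. -/
theorem finPlace_mul_inv (g γ : Γℚ) :
    finPlace q F (g * γ⁻¹) =
      primeMap (MulSemiringAction.toRingEquiv (F ≃ₐ[ℚ] F) F (resF F γ)) (finPlace q F g) := by
  apply HeightOneSpectrum.ext
  ext a
  rw [mem_primeMap_iff, mem_finPlace_iff, mem_finPlace_iff, AlgEquiv.mul_apply]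
  have h : (((RingOfIntegers.mapRingEquiv
      (MulSemiringAction.toRingEquiv (F ≃ₐ[ℚ] F) F (resF F γ)).symm a : 𝓞 F) : F) : Qbar) =
      γ⁻¹ ((a : F) : Qbar) := by
    rw [← resF_symm_coe]
    rfl
  rw [h]

end Equivariance

/-! ### Surjectivity onto the primes above `q` -/

section Surj

variable [Normal ℚ F]

open scoped Pointwise in
theorem mem_primeMap_toRingEquiv_iff (σ : F ≃ₐ[ℚ] F) (v : HeightOneSpectrum (𝓞 F)) (a : 𝓞 F) :
    a ∈ (primeMap (MulSemiringAction.toRingEquiv (F ≃ₐ[ℚ] F) F σ) v).asIdeal ↔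
      a ∈ σ • v.asIdeal := by
  rw [mem_primeMap_iff, Ideal.mem_pointwise_smul_iff_inv_smul_mem]
  have h : RingOfIntegers.mapRingEquiv
      (MulSemiringAction.toRingEquiv (F ≃ₐ[ℚ] F) F σ).symm a = σ⁻¹ • a := by
    apply RingOfIntegers.ext
    rfl
  rw [h]

theorem liesOver_of_natCast_mem (v : HeightOneSpectrum (𝓞 F))
    (hv : ((q : ℕ) : 𝓞 F) ∈ v.asIdeal) :
    v.asIdeal.LiesOver (Ideal.span {((q : ℕ) : ℤ)}) := by
  have hq : Prime ((q : ℕ) : ℤ) := Nat.prime_iff_prime_int.mp (Fact.out : q.Prime)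
  rw [Ideal.liesOver_span_iff v.isPrime.ne_top hq]
  simpa using hv

open scoped Pointwise in
/-- Every prime of `𝓞 F` above `q` is of the form `finPlace q F g`. -/
theorem exists_finPlace_eq (v : HeightOneSpectrum (𝓞 F))
    (hv : ((q : ℕ) : 𝓞 F) ∈ v.asIdeal) : ∃ g : Γℚ, finPlace q F g = v := by
  have : IsGalois ℚ F := ⟨⟩
  have : Normal ℚ Qbar := normal_qbar
  have h0 := liesOver_of_natCast_mem q F (finPlace q F 1) (natCast_mem_finPlace q F 1)
  have h1 := liesOver_of_natCast_mem q F v hv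
  have : (finPlace q F 1).asIdeal.IsPrime := (finPlace q F 1).isPrime
  have : v.asIdeal.IsPrime := v.isPrime
  obtain ⟨σ, hσ⟩ := Ideal.exists_smul_eq_of_isGaloisGroup (Ideal.span {((q : ℕ) : ℤ)})
    (finPlace q F 1).asIdeal v.asIdeal (F ≃ₐ[ℚ] F)
  obtain ⟨γ, rfl⟩ := AlgEquiv.restrictNormalHom_surjective (F := ℚ) (K₁ := F) Qbar σ
  refine ⟨1 * γ⁻¹, ?_⟩
  rw [finPlace_mul_inv]
  apply HeightOneSpectrum.ext
  ext a
  rw [mem_primeMap_toRingEquiv_iff, hσ]

end Surj

end Fin

/-! ### Injectivity on double cosets, by counting -/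

section Count

open Fermat.Agent.Lib.CFT.Global Fermat.Agent.Lib.CFT.Global.Places.Galois

variable (q : Nat.Primes) (F : IntermediateField ℚ Qbar) [FiniteDimensional ℚ F] [Normal ℚ F]

/-- `finPlace`, with values in the primes above `q`. -/
noncomputable def finPlaceOver (g : Γℚ) : FirstIneq.PrimesOverQ F q :=
  ⟨finPlace (pv q) F g, natCast_mem_finPlace (pv q) F g⟩

/-- `finPlace` on double cosets `φ_q(G_q) \ Γℚ / V`. -/
noncomputable def finPlaceQuot :
    DoubleCoset.Quotient ((localGaloisToGlobal (pv q)).range : Set Γℚ)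
      (F.fixingSubgroup : Set Γℚ) → FirstIneq.PrimesOverQ F q :=
  Quotient.lift (s := DoubleCoset.setoid _ _) (finPlaceOver q F) (by
    intro g g' h
    obtain ⟨_, ⟨h₀, rfl⟩, s, hs, rfl⟩ := (DoubleCoset.rel_iff).mp h
    apply Subtype.ext
    show finPlace (pv q) F g = finPlace (pv q) F (localGaloisToGlobal (pv q) h₀ * g * s)
    rw [finPlace_mul_of_mem (pv q) F hs, finPlace_local_mul])

theorem finPlaceQuot_surjective : Function.Surjective (finPlaceQuot q F) := by
  rintro ⟨v, hv⟩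
  obtain ⟨g, hg⟩ := exists_finPlace_eq (pv q) F v hv
  exact ⟨DoubleCoset.mk _ _ g, Subtype.ext hg⟩

theorem finPlaceQuot_bijective : Function.Bijective (finPlaceQuot q F) := by
  have e : DoubleCoset.Quotient ((localGaloisToGlobal (pv q)).range : Set Γℚ)
      (F.fixingSubgroup : Set Γℚ) ≃ FirstIneq.PrimesOverQ F q :=
    (placeEquiv (pv q) F).trans (maxSpecEquivPrimesOverQ F q)
  have : Finite (DoubleCoset.Quotient ((localGaloisToGlobal (pv q)).range : Set Γℚ)
      (F.fixingSubgroup : Set Γℚ)) := Finite.of_equiv _ e.symm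
  exact ⟨(Finite.injective_iff_surjective_of_equiv e).mpr (finPlaceQuot_surjective q F),
    finPlaceQuot_surjective q F⟩

/-- `finPlace g = finPlace g'` iff `g'` lies in the double coset `φ_q(G_q) g V`. -/
theorem finPlace_eq_iff (g g' : Γℚ) :
    finPlace (pv q) F g = finPlace (pv q) F g' ↔
      ∃ h : (PadicAlgCl (pv q) ≃ₐ[ℚ_[pv q]] PadicAlgCl (pv q)), ∃ s ∈ F.fixingSubgroup,
        g' = localGaloisToGlobal (pv q) h * g * s := by
  constructor
  · intro h
    have h1 : finPlaceQuot q F (DoubleCoset.mk _ _ g) = finPlaceQuot q F (DoubleCoset.mk _ _ g') :=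
      Subtype.ext h
    have h2 := (finPlaceQuot_bijective q F).1 h1
    obtain ⟨_, ⟨h₀, rfl⟩, s, hs, e⟩ := (DoubleCoset.eq _ _ _ _).mp h2
    exact ⟨h₀, s, hs, e⟩
  · rintro ⟨h, s, hs, rfl⟩
    rw [finPlace_mul_of_mem (pv q) F hs, finPlace_local_mul]

end Count

/-! ### Infinite places -/

section Inf

open Fermat.Agent.S56x.Euler.InfinitePlaceOrbit

variable (F : IntermediateField ℚ Qbar) [FiniteDimensional ℚ F] [IsGalois ℚ F]

/-- The infinite place of `F` attached to `g ∈ Γℚ`: `x ↦ ‖complexEmbedding (g x)‖`. -/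
noncomputable def infPlace (g : Γℚ) : InfinitePlace F :=
  (AlgEquiv.restrictNormalHom F g)⁻¹ • w0 F

/-- **Equivariance of `infPlace`**: `infPlace (g γ⁻¹) = (γ|F) • infPlace g`. -/
theorem infPlace_mul_inv (g γ : Γℚ) :
    infPlace F (g * γ⁻¹) = (AlgEquiv.restrictNormalHom F γ) • infPlace F g := by
  unfold infPlace
  rw [map_mul, map_inv, mul_inv_rev, inv_inv, mul_smul]

theorem infPlace_eq_iff (g g' : Γℚ) :
    infPlace F g = infPlace F g' ↔
      g' * g⁻¹ ∈ F.fixingSubgroup ⊔ Subgroup.zpowers complexConjugation := by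
  unfold infPlace
  rw [← restrict_smul_w0_eq_iff_mem_sup, map_mul, map_inv, mul_smul, eq_comm,
    inv_smul_eq_iff]
  exact eq_comm

theorem infPlace_surjective : Function.Surjective (infPlace F) := by
  intro w
  have : Normal ℚ Qbar := normal_qbar
  obtain ⟨σ, hσ⟩ := exists_smul_eq F (w0 F) w
  obtain ⟨γ, rfl⟩ := AlgEquiv.restrictNormalHom_surjective (F := ℚ) (K₁ := F) Qbar σ
  refine ⟨γ⁻¹, ?_⟩
  unfold infPlace
  rw [map_inv, inv_inv, hσ]

end Inf

end Fermat.Agent.S56x.Euler.PlacesBridge
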