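import Fermat.Agent.S56x.Euler.ShaInduced

/-!
# P-S56 block (B), (EC) line: input (A4) in generic `(V, W, M0)` form (helper71)

`shaLevel_P_eq_bot_of_noSplitChar_generic` : for subgroups `V ≤ W` of the absolute Galois group of
`ℚ` with `V` a normal level of `levelsS S`, index of `V` in `W` prime to `p`, and a finite
representation `M0` over `ZMod p` on which `V` acts trivially, `NoSplitChar p S V` gives
`(arithDatum S).shaLevel (DevissageRep.P W M0) 1 = ⊥`.  No quotient group appears in the
statement; it is derived from `shaLevel_P_eq_bot_of_noSplitChar'` with `π = QuotientGroup.mk' V`,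
`C = W.map π` and the descent `descRep V M0` of `M0` to the quotient by `V`.
-/

set_option autoImplicit false

namespace Fermat.Agent.S56x.Euler.ShaInduced

open CategoryTheory
open Fermat.Agent.Lib.CFT.Profinite Fermat.Agent.Lib.CFT.Profinite.Bridge
open Fermat.Agent.Lib.CFT.Duality

local notation "Γℚ" => (AlgebraicClosure ℚ ≃ₐ[ℚ] AlgebraicClosure ℚ)

section Descent

variable {k G : Type} [CommRing k] [Group G] (V : Subgroup G) [V.Normal]

/-- The descent to `G ⧸ V` of a representation of `G` on which `V` acts trivially. -/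
noncomputable def descRep (M0 : Rep.{0} k G) (hM0 : ∀ v ∈ V, M0.ρ v = 1) : Rep.{0} k (G ⧸ V) :=
  Rep.of (QuotientGroup.lift V M0.ρ fun v hv => (MonoidHom.mem_ker).2 (hM0 v hv))

/-- Inflating the descent gives back the representation. -/
noncomputable def resDescIso (M0 : Rep.{0} k G) (hM0 : ∀ v ∈ V, M0.ρ v = 1) :
    Rep.res (QuotientGroup.mk' V) (descRep V M0 hM0) ≅ M0 :=
  Rep.mkIso <| Representation.Equiv.mk (LinearEquiv.refl k M0.V) (fun g => by
    ext x
    rfl)

/-- `P W` applied to an isomorphism. -/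
noncomputable def PIso (W : Subgroup G) {A B : Rep.{0} k G} (e : A ≅ B) :
    DevissageRep.P W A ≅ DevissageRep.P W B :=
  (Rep.coindFunctor k W.subtype).mapIso ((Rep.resFunctor W.subtype).mapIso e)

theorem card_map_mk' (W : Subgroup G) (hVW : V ≤ W) [V.FiniteIndex] :
    Nat.card (W.map (QuotientGroup.mk' V)) = (V.subgroupOf W).index := by
  have hsurj : Function.Surjective (QuotientGroup.mk' V) := QuotientGroup.mk'_surjective V
  have hcomap : (W.map (QuotientGroup.mk' V)).comap (QuotientGroup.mk' V) = W := by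
    rw [Subgroup.comap_map_eq, QuotientGroup.ker_mk']
    exact sup_eq_left.2 hVW
  have h1 : Nat.card (W.map (QuotientGroup.mk' V)) * (W.map (QuotientGroup.mk' V)).index
      = Nat.card (G ⧸ V) := Subgroup.card_mul_index _
  have h2 : (W.map (QuotientGroup.mk' V)).index = W.index := by
    rw [← Subgroup.index_comap_of_surjective _ hsurj, hcomap]
  have h3 : V.relIndex W * W.index = V.index := Subgroup.relIndex_mul_index hVW
  have h4 : W.index ≠ 0 := (Subgroup.finiteIndex_of_le hVW).index_ne_zero
  rw [h2, ← Subgroup.index_eq_card, ← h3] at h1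
  exact Nat.eq_of_mul_eq_mul_right (Nat.pos_of_ne_zero h4) h1

end Descent

section Arith

variable {p : ℕ} [Fact p.Prime] (S : Finset Nat.Primes)

/-- **(A4), generic `(V, W, M0)` form.** -/
theorem shaLevel_P_eq_bot_of_noSplitChar_generic (V W : Subgroup Γℚ) [V.Normal] (hVW : V ≤ W)
    (hidx : ¬ p ∣ (V.subgroupOf W).index) (hV : V ∈ (levelsS S).levels)
    (M0 : Rep.{0} (ZMod p) Γℚ) [Finite M0] (hM0 : ∀ v ∈ V, M0.ρ v = 1)
    (h : NoSplitChar p S V) :
    (arithDatum S).shaLevel (DevissageRep.P W M0) 1 = ⊥ := by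
  haveI : V.FiniteIndex := (levelsS S).finiteIndex V hV
  haveI : Finite (Γℚ ⧸ V) := inferInstance
  have hsurj : Function.Surjective (QuotientGroup.mk' V) := QuotientGroup.mk'_surjective V
  have hcomap : (W.map (QuotientGroup.mk' V)).comap (QuotientGroup.mk' V) = W := by
    rw [Subgroup.comap_map_eq, QuotientGroup.ker_mk']
    exact sup_eq_left.2 hVW
  haveI : Finite (descRep V M0 hM0) := (inferInstance : Finite M0)
  haveI : Module.Finite (ZMod p) (descRep V M0 hM0).V := Module.Finite.of_finite
  have hC : (Nat.card (W.map (QuotientGroup.mk' V)) : ZMod p) ≠ 0 := by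
    rw [card_map_mk' V W hVW, Ne, ZMod.natCast_eq_zero_iff]
    exact hidx
  have key := shaLevel_P_eq_bot_of_noSplitChar' S (QuotientGroup.mk' V) hsurj V
    (QuotientGroup.ker_mk' V) (LES.isOpenSubgroup_of_mem hV) h (W.map (QuotientGroup.mk' V)) hC
    (descRep V M0 hM0)
  rw [hcomap] at key
  exact shaLevel_eq_bot_of_iso (arithDatum S) (PIso W (resDescIso V M0 hM0)) key

end Arith

end Fermat.Agent.S56x.Euler.ShaInduced
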