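import Fermat.Agent.S56x.Euler.ShaInduced
import Fermat.Agent.S56x.Euler.HindSetting

/-!
# P-S56 block (B), (EC) line: input (A4) in the setting of `Euler/HindSetting.lean` (helper71)

`shaLevel_indMod_eq_bot` : in the setting of the cyclic step (`K` finite Galois over `ℚ` with
`V = K.fixingSubgroup` a level of `levelsS S`, `C ≤ Gal(K/ℚ)` of order prime to `p`, `M` a finite
representation of `Gal(K/ℚ)`), the hypothesis `NoSplitChar p S V` gives
`(arithDatum S).shaLevel (indMod K C M) 1 = ⊥`, i.e. hypothesis `hA4` of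
`Hind.tateEulerC_indMod_of_inputs`.
-/

set_option autoImplicit false

namespace Fermat.Agent.S56x.Euler.ShaInduced

open Fermat.Agent.Lib.CFT.Profinite Fermat.Agent.Lib.CFT.Profinite.Bridge
open Fermat.Agent.Lib.CFT.Duality Fermat.Agent.S56x.Euler.Hind

local notation "Qbar" => AlgebraicClosure ℚ
local notation "Γℚ" => (AlgebraicClosure ℚ ≃ₐ[ℚ] AlgebraicClosure ℚ)

variable {p : ℕ} [Fact p.Prime] (K : IntermediateField ℚ Qbar) [Normal ℚ K]

theorem proj_surjective : Function.Surjective (proj K) :=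
  haveI : IsAlgClosure ℚ Qbar := ⟨inferInstance, AlgebraicClosure.isAlgebraic ℚ⟩
  haveI : Normal ℚ Qbar := IsAlgClosure.normal ℚ Qbar
  AlgEquiv.restrictNormalHom_surjective Qbar

theorem ker_proj : (proj K).ker = K.fixingSubgroup := by
  ext σ
  rw [MonoidHom.mem_ker]
  exact proj_eq_one_iff K σ

/-- **(A4) in the setting of `HindSetting`.** -/
theorem shaLevel_indMod_eq_bot [FiniteDimensional ℚ K] (S : Finset Nat.Primes)
    (hKS : K.fixingSubgroup ∈ (levelsS S).levels) (h : NoSplitChar p S K.fixingSubgroup)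
    (C : Subgroup (K ≃ₐ[ℚ] K)) (hC : (Nat.card C).Coprime p)
    (M : Rep (ZMod p) (K ≃ₐ[ℚ] K)) [Finite M] :
    (arithDatum S).shaLevel (indMod K C M) 1 = ⊥ := by
  haveI : Finite (K ≃ₐ[ℚ] K) := inferInstance
  haveI : Finite C := inferInstance
  haveI : Module.Finite (ZMod p) M.V := Module.Finite.of_finite
  have hC' : (Nat.card C : ZMod p) ≠ 0 := by
    intro h0
    rw [ZMod.natCast_eq_zero_iff] at h0
    have hp : p.Prime := Fact.out
    exact hp.one_lt.ne' (Nat.eq_one_of_dvd_coprimes hC.symm (dvd_refl p) h0)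
  exact shaLevel_P_eq_bot_of_noSplitChar' S (proj K) (proj_surjective K) K.fixingSubgroup
    (ker_proj K) (LES.isOpenSubgroup_of_mem hKS) h C hC' M

end Fermat.Agent.S56x.Euler.ShaInduced
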