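import Mathlib
import Fermat.Agent.S56x.Euler.ShaTrivial
import Fermat.Agent.Lib.CFT.Global.Places.LocAlgGalois

/-!
# P-S56, block (B), E8 (helper39): the field statement with both hypotheses on primes of `𝓞 L`

`S56x/Euler/ShaTrivial` states "totally split above `T`" through the maximal ideals of
`LocAlg L q = ℚ_q ⊗ L`.  Here the same statements with the hypothesis in terms of the
decomposition groups `MulAction.stabilizer (L ≃ₐ[K] L) v.asIdeal` of the primes `v` of `𝓞 L`
(pointwise action on ideals), i.e. in the same shape as the unramifiedness hypothesis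
(`Ideal.inertia (L ≃ₐ[K] L) v.asIdeal = ⊥`).
-/

set_option autoImplicit false
set_option linter.unusedSectionVars false

open scoped TensorProduct NumberField Pointwise

noncomputable section

namespace Fermat.Agent.S56x.Euler.ShaTrivialPrimes

open Fermat.Agent.Lib.CFT Fermat.Agent.Lib.CFT.Global Fermat.Agent.Lib.CFT.Global.Places
  Fermat.Agent.Lib.CFT.Global.EtaleAlg IsDedekindDomain Fermat.Agent.S56x.Euler

variable (K L : Type) [Field K] [NumberField K] [Field L] [NumberField L] [Algebra K L]
  [IsGalois K L]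

/-- If all primes of `𝓞 L` above `q` have trivial decomposition group in `Gal(L/K)`, then all
maximal ideals of `ℚ_q ⊗ L` have trivial stabiliser. -/
theorem stabilizer_maximalSpectrum_eq_bot (q : Nat.Primes)
    (h : ∀ v : HeightOneSpectrum (𝓞 L), ((q : ℕ) : 𝓞 L) ∈ v.asIdeal →
      MulAction.stabilizer (L ≃ₐ[K] L) v.asIdeal = ⊥)
    (m : MaximalSpectrum (LocAlg L q)) : MulAction.stabilizer (L ≃ₐ[K] L) m = ⊥ := by
  obtain ⟨v, rfl⟩ := (primesEquivMaximalSpectrum L q).surjective m
  rw [stabilizer_primesEquivMaximalSpectrum, stabilizer_prime_eq]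
  exact h v.1 v.2

/-- **The field statement (E8), prime-ideal form.**  `T` a finite set of rational primes such that
the primes of `K` above `T` generate the class group; a Galois extension `L / K` of odd prime
degree in which every prime of `𝓞 L` not above `T` has trivial inertia group and every prime of
`𝓞 L` above `T` has trivial decomposition group does not exist. -/
theorem false_of_isClassGenerating (hp : (Module.finrank K L).Prime)
    (hp2 : Module.finrank K L ≠ 2) (T : Finset Nat.Primes)
    (hcl : SUnits.IsClassGenerating (FirstIneq.primesAbove K T))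
    (hunr : ∀ q : Nat.Primes, q ∉ T → ∀ v : HeightOneSpectrum (𝓞 L),
      ((q : ℕ) : 𝓞 L) ∈ v.asIdeal → Ideal.inertia (L ≃ₐ[K] L) v.asIdeal = ⊥)
    (hsplit : ∀ q : Nat.Primes, q ∈ T → ∀ v : HeightOneSpectrum (𝓞 L),
      ((q : ℕ) : 𝓞 L) ∈ v.asIdeal → MulAction.stabilizer (L ≃ₐ[K] L) v.asIdeal = ⊥) : False :=
  ShaTrivial.false_of_split_unramified_of_isClassGenerating K L hp hp2 T hcl hunr
    (fun q hq m => stabilizer_maximalSpectrum_eq_bot K L q (hsplit q hq) m)

/-- The same with the idelic class group hypothesis `J_K = Kˣ · J_{K,T}`. -/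
theorem false_of_killsClassGroup (hp : (Module.finrank K L).Prime)
    (hp2 : Module.finrank K L ≠ 2) (T : Finset Nat.Primes)
    (hcov : (principal K).range ⊔ SVersion.sIdeleGroup T K = ⊤)
    (hunr : ∀ q : Nat.Primes, q ∉ T → ∀ v : HeightOneSpectrum (𝓞 L),
      ((q : ℕ) : 𝓞 L) ∈ v.asIdeal → Ideal.inertia (L ≃ₐ[K] L) v.asIdeal = ⊥)
    (hsplit : ∀ q : Nat.Primes, q ∈ T → ∀ v : HeightOneSpectrum (𝓞 L),
      ((q : ℕ) : 𝓞 L) ∈ v.asIdeal → MulAction.stabilizer (L ≃ₐ[K] L) v.asIdeal = ⊥) : False :=
  ShaTrivial.false_of_split_unramified_of_killsClassGroup K L hp hp2 T hcov hunr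
    (fun q hq m => stabilizer_maximalSpectrum_eq_bot K L q (hsplit q hq) m)

/-- Contrapositive form: under the hypotheses, `L = K`, for an arbitrary finite Galois extension
whose degree is `1` or an odd prime. -/
theorem finrank_eq_one_of_isClassGenerating
    (hdeg : Module.finrank K L = 1 ∨ ((Module.finrank K L).Prime ∧ Module.finrank K L ≠ 2))
    (T : Finset Nat.Primes) (hcl : SUnits.IsClassGenerating (FirstIneq.primesAbove K T))
    (hunr : ∀ q : Nat.Primes, q ∉ T → ∀ v : HeightOneSpectrum (𝓞 L),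
      ((q : ℕ) : 𝓞 L) ∈ v.asIdeal → Ideal.inertia (L ≃ₐ[K] L) v.asIdeal = ⊥)
    (hsplit : ∀ q : Nat.Primes, q ∈ T → ∀ v : HeightOneSpectrum (𝓞 L),
      ((q : ℕ) : 𝓞 L) ∈ v.asIdeal → MulAction.stabilizer (L ≃ₐ[K] L) v.asIdeal = ⊥) :
    Module.finrank K L = 1 := by
  rcases hdeg with h | ⟨hp, hp2⟩
  · exact h
  · exact (false_of_isClassGenerating K L hp hp2 T hcl hunr hsplit).elim

end Fermat.Agent.S56x.Euler.ShaTrivialPrimes
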