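import Fermat.Agent.S56x.GW.LevelGW

/-!
# P-S56 block (B), (EC) line, input (A1): the global form of Tate's formula `TateEulerC`

(helper11.)  For a finite discrete module `X` over `G_S` (`D = arithDatum S`, `p ∈ S`) and an input
`I : GlobalInput p S` of the duality layer, the compactly supported form of Tate's global Euler
characteristic formula `GW.TateEulerC S X` (`S56x/GW/LevelGW.lean`) is equivalent to the identity

`h¹(G_S, X') + h⁰(G_S, X) = ∑_{q ∈ S} h⁰(G_q, X) + dim Ш¹(X) + h⁰(G_S, X') + dim X^{c = 1}`

(`X' = X.dualTwist (cycloChar p)`): one uses `dim H²_c(X) = h¹(X')`, `dim H³_c(X) = h⁰(X')`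
(global duality `β⁰`, `β¹`) and the beginning
`0 → H⁰_c → H⁰ → P⁰ → H¹_c → Ш¹ → 0` of the long exact sequence of the cone.
-/

set_option autoImplicit false

open CategoryTheory groupCohomology Module

namespace Fermat.Agent.S56x.Euler

open Fermat.Agent.Lib.CFT.Profinite Fermat.Agent.Lib.CFT.Profinite.LevelFamily ExtCitation
open Fermat.Agent.Lib.CFT.Profinite.Bridge
open Fermat.Agent.Lib.CFT.Duality Fermat.Agent.Lib.CFT.Duality.LocalTate
open Fermat.Agent.Lib.CFT.Duality.GlobalDuality Fermat.Agent.Lib.CFT.Duality.PoitouTate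
open Fermat.Agent.S56x.GW

local notation "Γℚ" => (AlgebraicClosure ℚ ≃ₐ[ℚ] AlgebraicClosure ℚ)

variable {p : ℕ} [Fact p.Prime] {S : Finset Nat.Primes}

/-- The fixed space of complex conjugation, `X^{c = 1}`, in the shape used by `GW.TateEulerC`. -/
noncomputable abbrev fixc (X : Rep (ZMod p) Γℚ) : Submodule (ZMod p) X :=
  LinearMap.ker (X.ρ complexConjugation - LinearMap.id)

section

variable (I : GlobalInput p S) (hpS : pPrime p ∈ S) (X : Rep (ZMod p) Γℚ) [Finite X]
  (hX : (arithDatum S).𝒰.IsDiscrete X)

include I hpS hX in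
/-- The compactly supported Euler characteristic in terms of `H¹(X')`, `H⁰(X')`, `H⁰(X)`, `P⁰(X)`
and `Ш¹(X)`. -/
theorem eulerCharC_eq_global :
    eulerCharC S X =
      (finrank (ZMod p) ((arithDatum S).𝒰.levelCohomology X 0) : ℤ)
        - finrank (ZMod p) ((arithDatum S).locH X 0)
        - finrank (ZMod p) ((arithDatum S).shaLevel X 1)
        + finrank (ZMod p) ((arithDatum S).𝒰.levelCohomology (X.dualTwist (cycloChar p)) 1)
        - finrank (ZMod p) ((arithDatum S).𝒰.levelCohomology (X.dualTwist (cycloChar p)) 0) := by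
  have i0 := finite_H0 (S := S) X
  have j0 := finite_P0 (S := S) X
  have c0 := finite_Hc0 (S := S) X
  have c1 := finite_Hc1 X hX I
  have i1 : Module.Finite (ZMod p) ((arithDatum S).𝒰.levelCohomology X 1) := I.fin X hX
  have f1 : finrank (ZMod p) ((arithDatum S).𝒰.levelCohomology X 0) =
      finrank (ZMod p) (LinearMap.range ((arithDatum S).HcToGlobal X 0)) +
        finrank (ZMod p) (LinearMap.range ((arithDatum S).locMapH X 0)) :=
    finrank_mid _ _ ((arithDatum S).exact_toGlobal_loc X 0)
  have f2 : finrank (ZMod p) ((arithDatum S).locH X 0) =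
      finrank (ZMod p) (LinearMap.range ((arithDatum S).locMapH X 0)) +
        finrank (ZMod p) (LinearMap.range ((arithDatum S).HcOfLocal X 0)) :=
    finrank_mid _ _ ((arithDatum S).exact_loc_ofLocal X 0)
  have f3 : finrank (ZMod p) ((arithDatum S).Hc X 1) =
      finrank (ZMod p) (LinearMap.range ((arithDatum S).HcOfLocal X 0)) +
        finrank (ZMod p) (LinearMap.range ((arithDatum S).HcToGlobal X 1)) :=
    finrank_mid _ _ ((arithDatum S).exact_ofLocal_toGlobal X 0)
  have f0 : finrank (ZMod p) (LinearMap.range ((arithDatum S).HcToGlobal X 0)) =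
      finrank (ZMod p) ((arithDatum S).Hc X 0) :=
    LinearMap.finrank_range_of_inj ((arithDatum S).HcToGlobal_zero_injective X)
  have f4 : finrank (ZMod p) ((arithDatum S).shaLevel X 1) =
      finrank (ZMod p) (LinearMap.range ((arithDatum S).HcToGlobal X 1)) := by
    rw [(arithDatum S).shaLevel_eq_range X 1]
  have f5 := finrank_Hc2 I hpS X hX
  have f6 : finrank (ZMod p) ((arithDatum S).Hc X 3) =
      finrank (ZMod p) ((arithDatum S).𝒰.levelCohomology (X.dualTwist (cycloChar p)) 0) :=
    finrank_Hc3 I hpS X hX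
  unfold eulerCharC
  omega

include I hpS hX in
/-- **(A1)** Tate's formula `TateEulerC S X` in global form. -/
theorem tateEulerC_iff_global :
    TateEulerC S X ↔
      finrank (ZMod p) ((arithDatum S).𝒰.levelCohomology (X.dualTwist (cycloChar p)) 1)
          + finrank (ZMod p) ((arithDatum S).𝒰.levelCohomology X 0) =
        finrank (ZMod p) ((arithDatum S).locH X 0)
          + finrank (ZMod p) ((arithDatum S).shaLevel X 1)
          + finrank (ZMod p) ((arithDatum S).𝒰.levelCohomology (X.dualTwist (cycloChar p)) 0)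
          + finrank (ZMod p) (fixc X) := by
  unfold TateEulerC
  rw [eulerCharC_eq_global I hpS X hX]
  constructor
  · intro h
    have h' : (finrank (ZMod p) (LinearMap.ker (X.ρ complexConjugation - LinearMap.id)) : ℤ) =
        finrank (ZMod p) (fixc X) := rfl
    omega
  · intro h
    have h' : (finrank (ZMod p) (LinearMap.ker (X.ρ complexConjugation - LinearMap.id)) : ℤ) =
        finrank (ZMod p) (fixc X) := rfl
    omega

end

end Fermat.Agent.S56x.Euler
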